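import Mathlib
import Fermat.Prelude.Def_GaloisRep_Flat

/-!
# S28: basic facts about `R₀ = GaloisRep.ratLocalizedAt ℓ = ℤ_(ℓ)`

* `resMap ℓ : R₀ →+* ZMod ℓ`, the residue map, with kernel `ℓ R₀` (`resMap_eq_zero_iff`), surjective;
* `R₀` is integrally closed with fraction field `ℚ`;
* every ring hom from `R₀` to a field of characteristic `ℓ` factors through `resMap`
  (`ringHom_eq_comp_resMap`, `algebraMap_eq_comp_resMap`).
-/

set_option autoImplicit false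

noncomputable section

namespace Fermat.Agent.S28

open GaloisRep

variable (ℓ : ℕ) [Fact ℓ.Prime]

theorem mem_ratLocalizedAt_iff {x : ℚ} : x ∈ ratLocalizedAt ℓ ↔ ¬ ℓ ∣ x.den := by
  show x.den.Coprime ℓ ↔ _
  rw [Nat.coprime_comm]
  exact (Fact.out : ℓ.Prime).coprime_iff_not_dvd

theorem ratLoc_den_ne_zero (x : ratLocalizedAt ℓ) : (((x : ℚ).den : ℕ) : ZMod ℓ) ≠ 0 := by
  rw [Ne, ZMod.natCast_eq_zero_iff]
  exact (mem_ratLocalizedAt_iff ℓ).mp x.2

/-- The residue map `ℤ_(ℓ) → 𝔽_ℓ`. -/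
def resMap : ratLocalizedAt ℓ →+* ZMod ℓ where
  toFun x := (((x : ℚ) : ℚ) : ZMod ℓ)
  map_zero' := by simp
  map_one' := by simp
  map_add' x y := Rat.cast_add_of_ne_zero (ratLoc_den_ne_zero ℓ x) (ratLoc_den_ne_zero ℓ y)
  map_mul' x y := Rat.cast_mul_of_ne_zero (ratLoc_den_ne_zero ℓ x) (ratLoc_den_ne_zero ℓ y)

theorem resMap_apply (x : ratLocalizedAt ℓ) : resMap ℓ x = (((x : ℚ) : ℚ) : ZMod ℓ) := rfl

theorem intCast_mem_ratLocalizedAt (n : ℤ) : (n : ℚ) ∈ ratLocalizedAt ℓ := by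
  rw [mem_ratLocalizedAt_iff]
  simpa using (Fact.out : ℓ.Prime).one_lt.ne'

theorem natCast_mem_ratLocalizedAt (n : ℕ) : (n : ℚ) ∈ ratLocalizedAt ℓ := by
  exact_mod_cast intCast_mem_ratLocalizedAt ℓ (n : ℤ)

theorem resMap_surjective : Function.Surjective (resMap ℓ) := by
  intro a
  obtain ⟨n, rfl⟩ := ZMod.intCast_surjective a
  exact ⟨(n : ratLocalizedAt ℓ), by simp⟩

theorem resMap_natCast_self : resMap ℓ (ℓ : ratLocalizedAt ℓ) = 0 := by
  simp

theorem resMap_eq_zero_iff (x : ratLocalizedAt ℓ) :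
    resMap ℓ x = 0 ↔ ∃ y : ratLocalizedAt ℓ, x = (ℓ : ratLocalizedAt ℓ) * y := by
  constructor
  · intro h
    have hden := ratLoc_den_ne_zero ℓ x
    rw [resMap_apply, Rat.cast_def, div_eq_zero_iff] at h
    have hnum : ((x : ℚ).num : ZMod ℓ) = 0 := h.resolve_right hden
    rw [ZMod.intCast_zmod_eq_zero_iff_dvd] at hnum
    obtain ⟨m, hm⟩ := hnum
    have hy : ((m : ℚ) / ((x : ℚ).den : ℚ)) ∈ ratLocalizedAt ℓ := by
      rw [mem_ratLocalizedAt_iff]
      intro hdvd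
      have h1 : ((m : ℚ) / ((x : ℚ).den : ℚ)).den ∣ (x : ℚ).den := by
        have := Rat.den_dvd m ((x : ℚ).den : ℤ)
        rw [Rat.divInt_eq_div] at this
        exact_mod_cast this
      exact (mem_ratLocalizedAt_iff ℓ).mp x.2 (hdvd.trans h1)
    refine ⟨⟨_, hy⟩, Subtype.ext ?_⟩
    have hd0 : (((x : ℚ).den : ℕ) : ℚ) ≠ 0 := by exact_mod_cast (x : ℚ).den_nz
    have hx : (x : ℚ) = (((ℓ : ℤ) * m : ℤ) : ℚ) / ((x : ℚ).den : ℚ) := by
      rw [← hm]; exact (Rat.num_div_den _).symm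
    show (x : ℚ) = ((ℓ : ratLocalizedAt ℓ) : ℚ) * ((m : ℚ) / ((x : ℚ).den : ℚ))
    have hℓ : ((ℓ : ratLocalizedAt ℓ) : ℚ) = (ℓ : ℚ) := by push_cast; rfl
    rw [hℓ]
    conv_lhs => rw [hx]
    push_cast
    ring
  · rintro ⟨y, rfl⟩
    rw [map_mul, resMap_natCast_self, zero_mul]

/-- `ℤ_(ℓ)` is the valuation ring of the `ℓ`-adic valuation on `ℚ`. -/
theorem ratLoc_integers : (Rat.padicValuation ℓ).Integers (ratLocalizedAt ℓ) where
  hom_inj := Subtype.coe_injective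
  map_le_one x := Rat.padicValuation_le_one_iff.mpr ((mem_ratLocalizedAt_iff ℓ).mp x.2)
  exists_of_le_one r hr :=
    ⟨⟨r, (mem_ratLocalizedAt_iff ℓ).mpr (Rat.padicValuation_le_one_iff.mp hr)⟩, rfl⟩

instance ratLoc_isIntegrallyClosed : IsIntegrallyClosed (ratLocalizedAt ℓ) :=
  (ratLoc_integers ℓ).isIntegrallyClosed

instance ratLoc_isFractionRing : IsFractionRing (ratLocalizedAt ℓ) ℚ :=
  (ratLoc_integers ℓ).isFractionRing

/-- Any ring hom from `ℤ_(ℓ)` to a field of characteristic `ℓ` factors through the residue map. -/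
theorem ringHom_eq_comp_resMap (K : Type*) [Field K] [CharP K ℓ] (f : ratLocalizedAt ℓ →+* K) :
    f = (ZMod.castHom (dvd_refl ℓ) K).comp (resMap ℓ) := by
  ext x
  have hden : (((x : ℚ).den : ℕ) : ratLocalizedAt ℓ) * x = (((x : ℚ).num : ℤ) : ratLocalizedAt ℓ) := by
    apply Subtype.ext
    push_cast
    exact Rat.den_mul_eq_num _
  have hdK : (((x : ℚ).den : ℕ) : K) ≠ 0 := by
    rw [Ne, CharP.cast_eq_zero_iff K ℓ]
    exact (mem_ratLocalizedAt_iff ℓ).mp x.2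
  have h1 := congrArg f hden
  have h2 := congrArg ((ZMod.castHom (dvd_refl ℓ) K).comp (resMap ℓ)) hden
  rw [map_mul, map_natCast, map_intCast] at h1 h2
  exact mul_left_cancel₀ hdK (h1.trans h2.symm)

theorem algebraMap_eq_comp_resMap (K : Type*) [Field K] [CharP K ℓ]
    [Algebra (ratLocalizedAt ℓ) K] :
    algebraMap (ratLocalizedAt ℓ) K = (ZMod.castHom (dvd_refl ℓ) K).comp (resMap ℓ) :=
  ringHom_eq_comp_resMap ℓ K _

end Fermat.Agent.S28

end
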