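import Mathlib
import Fermat.Prelude.Def_ModularCurve_LaurentCoeff
import Fermat.Agent.S28.RatLoc

/-!
# S28, Part R1a: the local ring of `ℤ_(ℓ)((q))` at `(ℓ)` inside `ℚ((q))` and its residue map

`Λ = LaurentSeries ℤ_(ℓ)`, `lamIncl : Λ →+* ℚ((q))` (injective), `lamRed : Λ →+* 𝔽_ℓ((q))`.
`locInt ℓ` is the subring of `ℚ((q))` of all `x` with `b x = T` for some `T, b ∈ Λ`, `b ≢ 0 mod ℓ`;
`redLoc ℓ : locInt ℓ →+* 𝔽_ℓ((q))` sends such an `x` to `red T / red b` (`redLoc_eq`).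
-/

set_option autoImplicit false

noncomputable section

namespace Fermat.Agent.S28

open ModularCurve

variable (ℓ : ℕ) [Fact ℓ.Prime]

/-- The inclusion `ℤ_(ℓ)((q)) → ℚ((q))`. -/
def lamIncl : LaurentSeries ↥(GaloisRep.ratLocalizedAt ℓ) →+* LaurentSeries ℚ :=
  coeffMap (algebraMap ↥(GaloisRep.ratLocalizedAt ℓ) ℚ)

/-- The reduction `ℤ_(ℓ)((q)) → 𝔽_ℓ((q))`. -/
def lamRed : LaurentSeries ↥(GaloisRep.ratLocalizedAt ℓ) →+* LaurentSeries (ZMod ℓ) :=
  coeffMap (resMap ℓ)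

@[simp] theorem lamIncl_coeff (x : LaurentSeries ↥(GaloisRep.ratLocalizedAt ℓ)) (n : ℤ) :
    (lamIncl ℓ x).coeff n = ((x.coeff n : ↥(GaloisRep.ratLocalizedAt ℓ)) : ℚ) := rfl

@[simp] theorem lamRed_coeff (x : LaurentSeries ↥(GaloisRep.ratLocalizedAt ℓ)) (n : ℤ) :
    (lamRed ℓ x).coeff n = resMap ℓ (x.coeff n) := rfl

theorem lamIncl_injective : Function.Injective (lamIncl ℓ) := by
  intro x y h
  ext n
  have h1 := congrArg (fun z : LaurentSeries ℚ => z.coeff n) h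
  simp only [lamIncl_coeff] at h1
  exact_mod_cast h1

/-- `x ∈ ℚ((q))` is integral at `ℓ` up to a denominator that is nonzero mod `ℓ`. -/
def IsLocInt (x : LaurentSeries ℚ) : Prop :=
  ∃ T b : LaurentSeries ↥(GaloisRep.ratLocalizedAt ℓ),
    lamRed ℓ b ≠ 0 ∧ lamIncl ℓ b * x = lamIncl ℓ T

/-- The localisation of `ℤ_(ℓ)((q))` at the prime `(ℓ)`, as a subring of `ℚ((q))`. -/
def locInt : Subring (LaurentSeries ℚ) where
  carrier := {x | IsLocInt ℓ x}
  zero_mem' := ⟨0, 1, by simp, by simp⟩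
  one_mem' := ⟨1, 1, by simp, by simp⟩
  add_mem' := by
    rintro x y ⟨T, b, hb, h⟩ ⟨T', b', hb', h'⟩
    refine ⟨T * b' + T' * b, b * b', ?_, ?_⟩
    · rw [map_mul]; exact mul_ne_zero hb hb'
    · rw [map_mul, map_add, map_mul, map_mul, ← h, ← h']; ring
  neg_mem' := by
    rintro x ⟨T, b, hb, h⟩
    exact ⟨-T, b, hb, by rw [map_neg, ← h]; ring⟩
  mul_mem' := by
    rintro x y ⟨T, b, hb, h⟩ ⟨T', b', hb', h'⟩
    refine ⟨T * T', b * b', ?_, ?_⟩
    · rw [map_mul]; exact mul_ne_zero hb hb'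
    · rw [map_mul, map_mul, ← h, ← h']; ring

theorem mem_locInt_iff {x : LaurentSeries ℚ} : x ∈ locInt ℓ ↔ IsLocInt ℓ x := Iff.rfl

theorem lamIncl_mem_locInt (T : LaurentSeries ↥(GaloisRep.ratLocalizedAt ℓ)) :
    lamIncl ℓ T ∈ locInt ℓ :=
  ⟨T, 1, by simp, by simp⟩

/-- The residue map of `locInt`, as a function (choice of a representation). -/
def redLocFun (x : locInt ℓ) : LaurentSeries (ZMod ℓ) :=
  lamRed ℓ (Classical.choose x.2) / lamRed ℓ (Classical.choose (Classical.choose_spec x.2))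

theorem redLocFun_eq (x : locInt ℓ) (T b : LaurentSeries ↥(GaloisRep.ratLocalizedAt ℓ))
    (hb : lamRed ℓ b ≠ 0) (h : lamIncl ℓ b * (x : LaurentSeries ℚ) = lamIncl ℓ T) :
    redLocFun ℓ x = lamRed ℓ T / lamRed ℓ b := by
  obtain ⟨hb₁, h₁⟩ := Classical.choose_spec (Classical.choose_spec x.2)
  set T₁ := Classical.choose x.2
  set b₁ := Classical.choose (Classical.choose_spec x.2)
  have key : b₁ * T = b * T₁ := by
    apply lamIncl_injective ℓ
    rw [map_mul, map_mul, ← h, ← h₁]; ring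
  have key' := congrArg (lamRed ℓ) key
  rw [map_mul, map_mul] at key'
  show lamRed ℓ T₁ / lamRed ℓ b₁ = lamRed ℓ T / lamRed ℓ b
  rw [div_eq_div_iff hb₁ hb]
  rw [mul_comm, ← key', mul_comm]

/-- The residue map `locInt ℓ → 𝔽_ℓ((q))`. -/
def redLoc : locInt ℓ →+* LaurentSeries (ZMod ℓ) where
  toFun := redLocFun ℓ
  map_zero' := by
    rw [redLocFun_eq ℓ 0 0 1 (by simp) (by simp)]; simp
  map_one' := by
    rw [redLocFun_eq ℓ 1 1 1 (by simp) (by simp)]; simp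
  map_add' := by
    intro x y
    obtain ⟨T, b, hb, h⟩ := x.2
    obtain ⟨T', b', hb', h'⟩ := y.2
    show redLocFun ℓ (x + y) = redLocFun ℓ x + redLocFun ℓ y
    rw [redLocFun_eq ℓ x T b hb h, redLocFun_eq ℓ y T' b' hb' h',
      redLocFun_eq ℓ (x + y) (T * b' + T' * b) (b * b')
        (by rw [map_mul]; exact mul_ne_zero hb hb')
        (by
          rw [Subring.coe_add, map_mul, map_add, map_mul, map_mul, ← h, ← h']; ring)]
    rw [map_add, map_mul, map_mul, map_mul]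
    field_simp
  map_mul' := by
    intro x y
    obtain ⟨T, b, hb, h⟩ := x.2
    obtain ⟨T', b', hb', h'⟩ := y.2
    show redLocFun ℓ (x * y) = redLocFun ℓ x * redLocFun ℓ y
    rw [redLocFun_eq ℓ x T b hb h, redLocFun_eq ℓ y T' b' hb' h',
      redLocFun_eq ℓ (x * y) (T * T') (b * b')
        (by rw [map_mul]; exact mul_ne_zero hb hb')
        (by
          rw [Subring.coe_mul, map_mul, map_mul, ← h, ← h']; ring)]
    rw [map_mul, map_mul]
    field_simp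

theorem redLoc_eq (x : locInt ℓ) (T b : LaurentSeries ↥(GaloisRep.ratLocalizedAt ℓ))
    (hb : lamRed ℓ b ≠ 0) (h : lamIncl ℓ b * (x : LaurentSeries ℚ) = lamIncl ℓ T) :
    redLoc ℓ x = lamRed ℓ T / lamRed ℓ b :=
  redLocFun_eq ℓ x T b hb h

theorem redLoc_lamIncl (T : LaurentSeries ↥(GaloisRep.ratLocalizedAt ℓ)) :
    redLoc ℓ ⟨lamIncl ℓ T, lamIncl_mem_locInt ℓ T⟩ = lamRed ℓ T := by
  rw [redLoc_eq ℓ _ T 1 (by simp) (by simp)]; simp

theorem redLoc_eq_zero_iff (x : locInt ℓ) (T b : LaurentSeries ↥(GaloisRep.ratLocalizedAt ℓ))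
    (hb : lamRed ℓ b ≠ 0) (h : lamIncl ℓ b * (x : LaurentSeries ℚ) = lamIncl ℓ T) :
    redLoc ℓ x = 0 ↔ lamRed ℓ T = 0 := by
  rw [redLoc_eq ℓ x T b hb h, div_eq_zero_iff]
  exact ⟨fun h => h.resolve_right hb, Or.inl⟩

end Fermat.Agent.S28

end
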