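import Mathlib
import Fermat.Prelude.Def_ModularCurve_IgusaScheme
import Fermat.Agent.S28.LocInt

/-!
# S28: the interface `IsKeyData` between Part Q (degrees) and Part R (reduction of the chart algebras)

`IsKeyData N ℓ t₀ x` for a coordinate `t₀ ∈ Λ = ℤ_(ℓ)((q))` (`t₀ = j` or `j⁻¹`) and a finite family
`x : Fin n → Λ`: the `x i` lie in the function field `F_N`, are integral over `ℤ_(ℓ)[t]`, span `F_N` over
`ℚ(t)`, and their reductions mod `ℓ` are linearly independent over `𝔽_ℓ(t̄)`; `t̄` is transcendental.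
-/

set_option autoImplicit false

noncomputable section

namespace Fermat.Agent.S28

open ModularCurve ModularCurve.IgusaScheme

/-- Key data (KD) for the chart with coordinate `t = lamIncl ℓ t₀`. -/
structure IsKeyData (N : ℕ) [NeZero N] (ℓ : ℕ) [Fact ℓ.Prime]
    (t₀ : LaurentSeries ↥(GaloisRep.ratLocalizedAt ℓ)) {n : ℕ}
    (x : Fin n → LaurentSeries ↥(GaloisRep.ratLocalizedAt ℓ)) : Prop where
  /-- the coordinate lies in the function field -/
  t_mem : lamIncl ℓ t₀ ∈ modularFunctionFieldFull N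
  /-- the family lies in the function field -/
  mem : ∀ i, lamIncl ℓ (x i) ∈ modularFunctionFieldFull N
  /-- the family is integral over `ℤ_(ℓ)[t]` (membership in the prelude's chart algebra) -/
  integral : ∀ i, (⟨lamIncl ℓ (x i), mem i⟩ : ↥(modularFunctionFieldFull N)) ∈
    chartAlg N ℓ {(⟨lamIncl ℓ t₀, t_mem⟩ : ↥(modularFunctionFieldFull N))}
  /-- the family spans the function field over `ℚ(t)` -/
  span : ∀ f ∈ modularFunctionFieldFull N, ∃ c : Fin n → LaurentSeries ℚ,
    (∀ i, c i ∈ IntermediateField.adjoin ℚ {lamIncl ℓ t₀}) ∧ f = ∑ i, c i * lamIncl ℓ (x i)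
  /-- the reductions are linearly independent over `𝔽_ℓ(t̄)` -/
  indep : ∀ c : Fin n → LaurentSeries (ZMod ℓ),
    (∀ i, c i ∈ IntermediateField.adjoin (ZMod ℓ) {lamRed ℓ t₀}) →
      ∑ i, c i * lamRed ℓ (x i) = 0 → ∀ i, c i = 0
  /-- the reduced coordinate is transcendental -/
  transc : Transcendental (ZMod ℓ) (lamRed ℓ t₀)

end Fermat.Agent.S28

end
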