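import Fermat.Agent.S28.ScaleForm
import Fermat.Agent.S23.QRing
import Fermat.Agent.S24.QExpJ
import Fermat.Prelude.Def_ModularCurve_JqCoeff
import Fermat.Prelude.Def_ModularCurve_LaurentCoeff

/-!
# S28 — the bridge: analytic functions on `ℍ` ⇒ formal Laurent series in `q`

* `IsMerInf f` : `f · Δ ^ m` is holomorphic, `1`-periodic and bounded at `i∞` for some `m`
  ("holomorphic on `ℍ`, periodic, meromorphic at `i∞`"); `merInf` is the `ℂ`-subalgebra of these.
* `laurentOf f : LaurentSeries ℂ` : the Laurent expansion at `i∞`;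
  `laurentExp : merInf →ₐ[ℂ] LaurentSeries ℂ` is an injective algebra homomorphism.
* `laurentOf_Jfun : laurentOf Jfun = jqModC ℂ`, `laurentOf_discriminant : laurentOf Δ = deltaL`,
  `laurentOf_comp_scaleN : laurentOf (f (N ·)) = qExpand ℂ N (laurentOf f)`.
* `laurentOf_eval₂` : a polynomial relation `Φ(f, g) = 0` between functions gives the same relation
  between their Laurent expansions.
-/

set_option autoImplicit false

noncomputable section

namespace Fermat.Agent.S28

open UpperHalfPlane ModularForm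
open Fermat.Agent.S23 Fermat.Agent.S24
open scoped MatrixGroups ModularForm Manifold

local notation "Δ" => ModularForm.discriminant

/-! ### The Laurent expansion of holomorphic periodic bounded functions -/

/-- The Laurent series (in fact a power series) of a function in `HPB`. -/
def bridge_L : HPB →+* LaurentSeries ℂ :=
  (HahnSeries.ofPowerSeries ℤ ℂ).comp (qExpHom : HPB →+* PowerSeries ℂ)

theorem bridge_L_apply (f : HPB) :
    bridge_L f = HahnSeries.ofPowerSeries ℤ ℂ (qExpansion 1 (f : ℍ → ℂ)) := rfl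

theorem bridge_L_algebraMap (c : ℂ) :
    bridge_L (algebraMap ℂ HPB c) = HahnSeries.C c := by
  rw [bridge_L_apply]
  have h : qExpansion 1 ((algebraMap ℂ HPB c : HPB) : ℍ → ℂ) = algebraMap ℂ (PowerSeries ℂ) c :=
    qExpHom.commutes c
  rw [h]
  simp

theorem bridge_L_injective : Function.Injective bridge_L := by
  intro f g h
  apply qExpHom_injective
  exact HahnSeries.ofPowerSeries_injective h

/-- `ofPowerSeries` turns the substitution `X ↦ X ^ N` into `qExpand`. -/
theorem bridge_ofPowerSeries_subst (N : ℕ) [NeZero N] (F : PowerSeries ℂ) :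
    HahnSeries.ofPowerSeries ℤ ℂ (thetaAlg_subst N F) =
      ModularCurve.qExpand ℂ N (HahnSeries.ofPowerSeries ℤ ℂ F) := by
  have hNpos : (0 : ℤ) < N := Nat.cast_pos.mpr (Nat.pos_of_ne_zero (NeZero.ne N))
  ext k
  by_cases hk : (N : ℤ) ∣ k
  · obtain ⟨m, rfl⟩ := hk
    rw [ModularCurve.qExpand_coeff_mul]
    rcases le_or_gt 0 m with hm | hm
    · lift m to ℕ using hm
      rw [show (N : ℤ) * (m : ℤ) = ((N * m : ℕ) : ℤ) by push_cast; ring,
        HahnSeries.ofPowerSeries_apply_coeff, HahnSeries.ofPowerSeries_apply_coeff,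
        thetaAlg_subst_coeff, if_pos (dvd_mul_right N m),
        Nat.mul_div_cancel_left _ (Nat.pos_of_ne_zero (NeZero.ne N))]
    · rw [ModularCurve.ofPowerSeries_coeff_of_neg _ hm,
        ModularCurve.ofPowerSeries_coeff_of_neg _ (mul_neg_of_pos_of_neg hNpos hm)]
  · rw [ModularCurve.qExpand_coeff_of_not_dvd N _ hk]
    rcases le_or_gt 0 k with hk0 | hk0
    · lift k to ℕ using hk0
      rw [HahnSeries.ofPowerSeries_apply_coeff, thetaAlg_subst_coeff, if_neg]
      intro h
      exact hk (Int.natCast_dvd_natCast.mpr h)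
    · exact ModularCurve.ofPowerSeries_coeff_of_neg _ hk0

/-- `τ ↦ f (N τ)` is in `HPB` if `f` is. -/
theorem bridge_isHPB_comp_scaleN (N : ℕ) [NeZero N] {f : ℍ → ℂ} (hf : IsHPB f) :
    IsHPB (fun τ => f (scaleN N τ)) := by
  have hN : (0 : ℝ) < (N : ℝ) := Nat.cast_pos.mpr (Nat.pos_of_ne_zero (NeZero.ne N))
  have hmaps : Set.MapsTo (fun w : ℂ => (N : ℂ) * w) {z | 0 < z.im} {z | 0 < z.im} := by
    intro w hw
    simp only [Set.mem_ofPred_eq, Complex.mul_im, Complex.natCast_re, Complex.natCast_im,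
      zero_mul, add_zero] at hw ⊢
    exact mul_pos hN hw
  refine ⟨mdiff_comp_scaleN N hf.1, ?_, ?_⟩
  · intro w
    simp only [Function.comp_apply]
    by_cases hw : 0 < w.im
    · have hw1 : 0 < (w + 1).im := by simpa using hw
      rw [ofComplex_apply_of_im_pos hw, ofComplex_apply_of_im_pos hw1]
      have hper := (hf.2.1.nat_mul N) ((N : ℂ) * w)
      simp only [Function.comp_apply] at hper
      have hw' : 0 < ((N : ℂ) * w).im := hmaps hw
      have hw1' : 0 < ((N : ℂ) * w + (N : ℂ) * 1).im := by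
        have : ((N : ℂ) * w + (N : ℂ) * 1) = (N : ℂ) * (w + 1) := by ring
        rw [this]
        exact hmaps hw1
      rw [ofComplex_apply_of_im_pos hw1', ofComplex_apply_of_im_pos hw'] at hper
      have e1 : scaleN N ⟨w + 1, hw1⟩ = ⟨(N : ℂ) * w + (N : ℂ) * 1, hw1'⟩ := by
        apply UpperHalfPlane.ext
        simp only [coe_scaleN]
        ring
      have e2 : scaleN N ⟨w, hw⟩ = ⟨(N : ℂ) * w, hw'⟩ := by
        apply UpperHalfPlane.ext
        simp only [coe_scaleN]
      rw [e1, e2]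
      exact hper
    · have hw1 : ¬ 0 < (w + 1).im := by simpa using hw
      rw [ofComplex_apply_of_im_nonpos (not_lt.mp hw), ofComplex_apply_of_im_nonpos (not_lt.mp hw1)]
  · exact hf.2.2.comp_tendsto (P7_tendsto_scaleN_atImInfty N)

/-- q-expansion of `τ ↦ f (N τ)`. -/
theorem bridge_qExpansion_comp_scaleN (N : ℕ) [NeZero N] {f : ℍ → ℂ} (hf : IsHPB f) :
    qExpansion 1 (fun τ => f (scaleN N τ)) = thetaAlg_subst N (qExpansion 1 f) := by
  have hN : N ≠ 0 := NeZero.ne N
  have hg := bridge_isHPB_comp_scaleN N hf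
  ext n
  rw [thetaAlg_subst_coeff]
  set c : ℕ → ℂ := fun n => if N ∣ n then (qExpansion 1 f).coeff (n / N) else 0
    with hc
  have hcont : Continuous (fun τ => f (scaleN N τ)) := hg.1.continuous
  refine (UpperHalfPlane.qExpansion_coeff_unique (c := c)
    (ContinuousMap.mk (fun τ => f (scaleN N τ)) hcont)
    one_pos hg.analyticAt ?_ n).symm
  intro τ
  have h1 := hasSum_qExpansion (h := 1) one_pos hf.2.1 hf.1 hf.2.2 (scaleN N τ)
  rw [P7_qParam_scaleN] at h1
  have hinj : Function.Injective (fun m : ℕ => N * m) := fun a b hab =>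
    Nat.eq_of_mul_eq_mul_left (Nat.pos_of_ne_zero hN) hab
  change HasSum (fun m ↦ c m • Function.Periodic.qParam 1 τ ^ m) (f (scaleN N τ))
  rw [← hinj.hasSum_iff]
  · convert h1 using 2 with m
    simp only [Function.comp_apply, hc, dvd_mul_right, if_true, Nat.mul_div_cancel_left _
      (Nat.pos_of_ne_zero hN), pow_mul]
  · intro x hx
    have : ¬ N ∣ x := fun ⟨k, hk⟩ => hx ⟨k, hk.symm⟩
    simp [hc, this]

/-- The Laurent series of `τ ↦ f (N τ)`. -/
theorem bridge_ofPowerSeries_comp_scaleN (N : ℕ) [NeZero N] {f : ℍ → ℂ} (hf : IsHPB f) :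
    HahnSeries.ofPowerSeries ℤ ℂ (qExpansion 1 (fun τ => f (scaleN N τ))) =
      ModularCurve.qExpand ℂ N (HahnSeries.ofPowerSeries ℤ ℂ (qExpansion 1 f)) := by
  rw [bridge_qExpansion_comp_scaleN N hf, bridge_ofPowerSeries_subst]

/-! ### The formal discriminant -/

/-- The formal `Δ = q ∏ (1 - qⁿ)²⁴` as a Laurent series over `ℂ`. -/
def deltaL : LaurentSeries ℂ :=
  HahnSeries.single (1 : ℤ) (1 : ℂ) *
    HahnSeries.ofPowerSeries ℤ ℂ (ModularCurve.dedekindEtaUnit.map (Int.castRingHom ℂ))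

theorem bridge_isHPB_discriminant : IsHPB (Δ : ℍ → ℂ) :=
  (isMF_discriminant 1).isHPB

theorem bridge_ofPowerSeries_discriminant :
    HahnSeries.ofPowerSeries ℤ ℂ (qExpansion 1 (Δ : ℍ → ℂ)) = deltaL := by
  rw [qExpansion_discriminant_eq, map_mul, HahnSeries.ofPowerSeries_X, deltaL]

theorem deltaL_ne_zero : deltaL ≠ 0 := by
  rw [← bridge_ofPowerSeries_discriminant]
  intro h
  have h0 : qExpansion 1 (Δ : ℍ → ℂ) = 0 :=
    HahnSeries.ofPowerSeries_injective (by rw [h, map_zero])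
  have h1 := (qExpansion_eq_zero_iff one_pos bridge_isHPB_discriminant.2.1
    bridge_isHPB_discriminant.1 bridge_isHPB_discriminant.2.2).mp h0
  exact discriminant_ne_zero UpperHalfPlane.I (congrFun h1 UpperHalfPlane.I)

/-! ### Functions meromorphic at `i∞` -/

/-- `f` is holomorphic on `ℍ`, `1`-periodic and meromorphic at `i∞`:
`f · Δ ^ m` is holomorphic, periodic and bounded at `i∞` for some `m`. -/
def IsMerInf (f : ℍ → ℂ) : Prop := ∃ m : ℕ, IsHPB (fun z => f z * Δ z ^ m)

theorem bridge_isHPB_pow {f : ℍ → ℂ} (hf : IsHPB f) (n : ℕ) : IsHPB (fun z => f z ^ n) := by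
  induction n with
  | zero => simpa using qring_isHPB_const 1
  | succ n ih =>
    have := ih.mul hf
    convert this using 1
    funext z
    simp only [Pi.mul_apply, pow_succ]

theorem bridge_isHPB_raise {f : ℍ → ℂ} {m : ℕ} (h : IsHPB (fun z => f z * Δ z ^ m)) (k : ℕ) :
    IsHPB (fun z => f z * Δ z ^ (m + k)) := by
  have := h.mul (bridge_isHPB_pow bridge_isHPB_discriminant k)
  convert this using 1
  funext z
  simp only [Pi.mul_apply, pow_add]
  ring

theorem IsHPB.isMerInf {f : ℍ → ℂ} (hf : IsHPB f) : IsMerInf f :=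
  ⟨0, by simpa using hf⟩

theorem IsModFun.isMerInf {N : ℕ} [NeZero N] {f : ℍ → ℂ} (hf : IsModFun N f) : IsMerInf f := by
  obtain ⟨m, hm⟩ := hf
  exact ⟨m, hm.isHPB⟩

theorem isMerInf_const (c : ℂ) : IsMerInf (fun _ => c) :=
  IsHPB.isMerInf (qring_isHPB_const c)

theorem IsMerInf.add {f g : ℍ → ℂ} (hf : IsMerInf f) (hg : IsMerInf g) : IsMerInf (f + g) := by
  obtain ⟨m, hm⟩ := hf
  obtain ⟨n, hn⟩ := hg
  refine ⟨m + n, ?_⟩
  have h1 := bridge_isHPB_raise hm n
  have h2 := bridge_isHPB_raise hn m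
  have := h1.add h2
  convert this using 1
  funext z
  simp only [Pi.add_apply, add_comm n m]
  ring

theorem IsMerInf.mul {f g : ℍ → ℂ} (hf : IsMerInf f) (hg : IsMerInf g) : IsMerInf (f * g) := by
  obtain ⟨m, hm⟩ := hf
  obtain ⟨n, hn⟩ := hg
  refine ⟨m + n, ?_⟩
  have := hm.mul hn
  convert this using 1
  funext z
  simp only [Pi.mul_apply, pow_add]
  ring

/-- The subalgebra of functions holomorphic on `ℍ`, periodic and meromorphic at `i∞`. -/
def merInf : Subalgebra ℂ (ℍ → ℂ) where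
  carrier := {f | IsMerInf f}
  mul_mem' := fun hf hg => IsMerInf.mul hf hg
  add_mem' := fun hf hg => IsMerInf.add hf hg
  algebraMap_mem' := fun c => isMerInf_const c

theorem mem_merInf {f : ℍ → ℂ} : f ∈ merInf ↔ IsMerInf f := Iff.rfl

/-! ### The Laurent expansion -/

open Classical in
/-- The Laurent expansion at `i∞` of a function meromorphic at `i∞` (and `0` for other
functions). -/
def laurentOf (f : ℍ → ℂ) : LaurentSeries ℂ :=
  if h : IsMerInf f then
    HahnSeries.ofPowerSeries ℤ ℂ (qExpansion 1 (fun z => f z * Δ z ^ h.choose)) *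
      (deltaL ^ h.choose)⁻¹
  else 0

theorem bridge_ofPowerSeries_mul {f g : ℍ → ℂ} (hf : IsHPB f) (hg : IsHPB g) :
    HahnSeries.ofPowerSeries ℤ ℂ (qExpansion 1 (fun z => f z * g z)) =
      HahnSeries.ofPowerSeries ℤ ℂ (qExpansion 1 f) * HahnSeries.ofPowerSeries ℤ ℂ (qExpansion 1 g) := by
  rw [← map_mul]
  congr 1
  exact qExpansion_mul hf.analyticAt hg.analyticAt

theorem bridge_ofPowerSeries_add {f g : ℍ → ℂ} (hf : IsHPB f) (hg : IsHPB g) :
    HahnSeries.ofPowerSeries ℤ ℂ (qExpansion 1 (fun z => f z + g z)) =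
      HahnSeries.ofPowerSeries ℤ ℂ (qExpansion 1 f) + HahnSeries.ofPowerSeries ℤ ℂ (qExpansion 1 g) := by
  rw [← map_add]
  congr 1
  exact qExpansion_add hf.analyticAt hg.analyticAt

theorem bridge_ofPowerSeries_pow {f : ℍ → ℂ} (hf : IsHPB f) (n : ℕ) :
    HahnSeries.ofPowerSeries ℤ ℂ (qExpansion 1 (fun z => f z ^ n)) =
      HahnSeries.ofPowerSeries ℤ ℂ (qExpansion 1 f) ^ n := by
  induction n with
  | zero =>
    simp only [pow_zero]
    have : qExpansion 1 (fun _ : ℍ => (1 : ℂ)) = 1 := qExpansion_one 1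
    rw [this, map_one]
  | succ n ih =>
    have h := bridge_ofPowerSeries_mul (bridge_isHPB_pow hf n) hf
    simp only [pow_succ]
    rw [h, ih]

theorem bridge_ofPowerSeries_raise {f : ℍ → ℂ} {m : ℕ} (h : IsHPB (fun z => f z * Δ z ^ m))
    (k : ℕ) :
    HahnSeries.ofPowerSeries ℤ ℂ (qExpansion 1 (fun z => f z * Δ z ^ (m + k))) =
      HahnSeries.ofPowerSeries ℤ ℂ (qExpansion 1 (fun z => f z * Δ z ^ m)) * deltaL ^ k := by
  have h1 := bridge_ofPowerSeries_mul h (bridge_isHPB_pow bridge_isHPB_discriminant k)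
  rw [bridge_ofPowerSeries_pow bridge_isHPB_discriminant, bridge_ofPowerSeries_discriminant] at h1
  rw [← h1]
  congr 2
  funext z
  rw [pow_add]
  ring

/-- The Laurent expansion can be computed with any admissible exponent `m`. -/
theorem laurentOf_eq {f : ℍ → ℂ} {m : ℕ} (h : IsHPB (fun z => f z * Δ z ^ m)) :
    laurentOf f =
      HahnSeries.ofPowerSeries ℤ ℂ (qExpansion 1 (fun z => f z * Δ z ^ m)) * (deltaL ^ m)⁻¹ := by
  have hf : IsMerInf f := ⟨m, h⟩
  rw [laurentOf, dif_pos hf]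
  have h0 := hf.choose_spec
  set m₀ := hf.choose
  have e1 := bridge_ofPowerSeries_raise h0 m
  have e2 := bridge_ofPowerSeries_raise h m₀
  rw [add_comm m m₀, e1] at e2
  have hD : ∀ k : ℕ, deltaL ^ k ≠ 0 := fun k => pow_ne_zero k deltaL_ne_zero
  rw [eq_mul_inv_iff_mul_eq₀ (hD m), mul_assoc, mul_comm _ (deltaL ^ m), ← mul_assoc, e2,
    mul_assoc, mul_inv_cancel₀ (hD m₀), mul_one]

theorem laurentOf_of_isHPB {f : ℍ → ℂ} (hf : IsHPB f) :
    laurentOf f = HahnSeries.ofPowerSeries ℤ ℂ (qExpansion 1 f) := by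
  have h : IsHPB (fun z => f z * Δ z ^ 0) := by simpa using hf
  rw [laurentOf_eq h]
  simp

theorem laurentOf_mul_deltaL_pow {f : ℍ → ℂ} {m : ℕ} (h : IsHPB (fun z => f z * Δ z ^ m)) :
    laurentOf f * deltaL ^ m =
      HahnSeries.ofPowerSeries ℤ ℂ (qExpansion 1 (fun z => f z * Δ z ^ m)) := by
  rw [laurentOf_eq h, mul_assoc, inv_mul_cancel₀ (pow_ne_zero m deltaL_ne_zero), mul_one]

theorem laurentOf_const (c : ℂ) : laurentOf (fun _ => c) = HahnSeries.C c := by
  rw [laurentOf_of_isHPB (qring_isHPB_const c)]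
  have := bridge_L_algebraMap c
  rw [bridge_L_apply] at this
  convert this using 3
  funext z
  simp [Algebra.algebraMap_eq_smul_one]

theorem laurentOf_add {f g : ℍ → ℂ} (hf : IsMerInf f) (hg : IsMerInf g) :
    laurentOf (f + g) = laurentOf f + laurentOf g := by
  obtain ⟨m, hm⟩ := hf
  obtain ⟨n, hn⟩ := hg
  have h1 := bridge_isHPB_raise hm n
  have h2 := bridge_isHPB_raise hn m
  have h3 : IsHPB (fun z => (f + g) z * Δ z ^ (m + n)) := by
    have := h1.add h2
    convert this using 1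
    funext z
    simp only [Pi.add_apply, add_comm n m]
    ring
  have hD : deltaL ^ (m + n) ≠ 0 := pow_ne_zero _ deltaL_ne_zero
  apply mul_right_cancel₀ hD
  rw [laurentOf_mul_deltaL_pow h3, add_mul]
  have e1 : laurentOf f * deltaL ^ (m + n) =
      HahnSeries.ofPowerSeries ℤ ℂ (qExpansion 1 (fun z => f z * Δ z ^ (m + n))) :=
    laurentOf_mul_deltaL_pow h1
  have e2 : laurentOf g * deltaL ^ (m + n) =
      HahnSeries.ofPowerSeries ℤ ℂ (qExpansion 1 (fun z => g z * Δ z ^ (n + m))) := by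
    rw [add_comm m n]
    exact laurentOf_mul_deltaL_pow h2
  rw [e1, e2, ← bridge_ofPowerSeries_add h1 h2]
  congr 2
  funext z
  simp only [Pi.add_apply, add_comm n m]
  ring

theorem laurentOf_mul {f g : ℍ → ℂ} (hf : IsMerInf f) (hg : IsMerInf g) :
    laurentOf (f * g) = laurentOf f * laurentOf g := by
  obtain ⟨m, hm⟩ := hf
  obtain ⟨n, hn⟩ := hg
  have h3 : IsHPB (fun z => (f * g) z * Δ z ^ (m + n)) := by
    have := hm.mul hn
    convert this using 1
    funext z
    simp only [Pi.mul_apply, pow_add]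
    ring
  have hD : deltaL ^ (m + n) ≠ 0 := pow_ne_zero _ deltaL_ne_zero
  apply mul_right_cancel₀ hD
  rw [laurentOf_mul_deltaL_pow h3, pow_add,
    show laurentOf f * laurentOf g * (deltaL ^ m * deltaL ^ n) =
      (laurentOf f * deltaL ^ m) * (laurentOf g * deltaL ^ n) by ring,
    laurentOf_mul_deltaL_pow hm, laurentOf_mul_deltaL_pow hn, ← bridge_ofPowerSeries_mul hm hn]
  congr 2
  funext z
  simp only [Pi.mul_apply, pow_add]
  ring

theorem laurentOf_one : laurentOf (1 : ℍ → ℂ) = 1 := by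
  have h := laurentOf_const 1
  rw [map_one] at h
  exact h

theorem laurentOf_zero : laurentOf (0 : ℍ → ℂ) = 0 := by
  have h := laurentOf_const 0
  rw [map_zero] at h
  exact h

/-- The Laurent expansion at `i∞`, as an algebra homomorphism. -/
def laurentExp : merInf →ₐ[ℂ] LaurentSeries ℂ where
  toFun f := laurentOf (f : ℍ → ℂ)
  map_one' := laurentOf_one
  map_mul' f g := laurentOf_mul f.2 g.2
  map_zero' := laurentOf_zero
  map_add' f g := laurentOf_add f.2 g.2
  commutes' c := by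
    have h := laurentOf_const c
    rw [ModularCurve.algebraMap_laurentSeries_eq_single, ← HahnSeries.C_apply]
    convert h using 2
    funext z
    simp [Algebra.algebraMap_eq_smul_one]

@[simp] theorem laurentExp_apply (f : merInf) : laurentExp f = laurentOf (f : ℍ → ℂ) := rfl

theorem laurentOf_eq_zero_iff {f : ℍ → ℂ} (hf : IsMerInf f) : laurentOf f = 0 ↔ f = 0 := by
  constructor
  · intro h
    obtain ⟨m, hm⟩ := hf
    have h1 := laurentOf_mul_deltaL_pow hm
    rw [h, zero_mul] at h1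
    have h0 : qExpansion 1 (fun z => f z * Δ z ^ m) = 0 :=
      HahnSeries.ofPowerSeries_injective (by rw [← h1, map_zero])
    have h2 := (qExpansion_eq_zero_iff one_pos hm.2.1 hm.1 hm.2.2).mp h0
    funext z
    have h3 := congrFun h2 z
    simp only [Pi.zero_apply] at h3
    rcases mul_eq_zero.mp h3 with h4 | h4
    · exact h4
    · exact absurd h4 (pow_ne_zero m (discriminant_ne_zero z))
  · rintro rfl
    exact laurentOf_zero

theorem laurentExp_injective : Function.Injective laurentExp := by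
  rw [injective_iff_map_eq_zero]
  intro f hf
  exact Subtype.ext ((laurentOf_eq_zero_iff f.2).mp hf)

/-- Transfer of identities: equal functions have equal expansions (trivial), and conversely. -/
theorem laurentOf_injective {f g : ℍ → ℂ} (hf : IsMerInf f) (hg : IsMerInf g)
    (h : laurentOf f = laurentOf g) : f = g := by
  have := @laurentExp_injective ⟨f, hf⟩ ⟨g, hg⟩ h
  exact congrArg Subtype.val this

/-! ### Special values -/

theorem isMerInf_discriminant : IsMerInf (Δ : ℍ → ℂ) := IsHPB.isMerInf bridge_isHPB_discriminant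

theorem laurentOf_discriminant : laurentOf (Δ : ℍ → ℂ) = deltaL := by
  rw [laurentOf_of_isHPB bridge_isHPB_discriminant, bridge_ofPowerSeries_discriminant]

theorem bridge_isHPB_E4 : IsHPB (E₄ : ℍ → ℂ) := by
  have h : IsMF (G0 1) 4 (E₄ : ℍ → ℂ) := IsMF.of_levelOne ⟨E₄, rfl⟩
  exact h.isHPB

theorem laurentOf_E4 : laurentOf (E₄ : ℍ → ℂ) =
    HahnSeries.ofPowerSeries ℤ ℂ (ModularCurve.eisenstein4.map (Int.castRingHom ℂ)) := by
  rw [laurentOf_of_isHPB bridge_isHPB_E4, qExpansion_E₄_eq]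

theorem bridge_Jfun_mul (z : ℍ) : Jfun z * Δ z ^ 1 = E₄ z ^ 3 := by
  rw [pow_one, Jfun_def, div_mul_cancel₀ _ (discriminant_ne_zero z)]

theorem isMerInf_Jfun : IsMerInf Jfun := by
  refine ⟨1, ?_⟩
  have h := bridge_isHPB_pow bridge_isHPB_E4 3
  convert h using 1
  funext z
  exact bridge_Jfun_mul z

/-- the formal `j`-invariant times the formal discriminant is `E₄³`. -/
theorem bridge_jq_mul_deltaL :
    ModularCurve.jqModC ℂ * deltaL =
      HahnSeries.ofPowerSeries ℤ ℂ (ModularCurve.eisenstein4.map (Int.castRingHom ℂ)) ^ 3 := by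
  rw [ModularCurve.jqModC, deltaL]
  have h1 : (HahnSeries.single (-1 : ℤ) (1 : ℂ)) * HahnSeries.single (1 : ℤ) (1 : ℂ) = 1 := by
    rw [HahnSeries.single_mul_single]
    simp
  have h2 : ModularCurve.jNum * ModularCurve.dedekindEtaUnit = ModularCurve.eisenstein4 ^ 3 := by
    rw [ModularCurve.jNum, mul_assoc, mul_comm ModularCurve.dedekindEtaUnitInv,
      ModularCurve.dedekindEtaUnit_mul_inv, mul_one]
  calc HahnSeries.single (-1 : ℤ) (1 : ℂ) *
        HahnSeries.ofPowerSeries ℤ ℂ (ModularCurve.jNum.map (Int.castRingHom ℂ)) *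
      (HahnSeries.single (1 : ℤ) (1 : ℂ) *
        HahnSeries.ofPowerSeries ℤ ℂ (ModularCurve.dedekindEtaUnit.map (Int.castRingHom ℂ)))
      = (HahnSeries.single (-1 : ℤ) (1 : ℂ) * HahnSeries.single (1 : ℤ) (1 : ℂ)) *
        (HahnSeries.ofPowerSeries ℤ ℂ (ModularCurve.jNum.map (Int.castRingHom ℂ)) *
          HahnSeries.ofPowerSeries ℤ ℂ (ModularCurve.dedekindEtaUnit.map (Int.castRingHom ℂ))) := by
        ring
    _ = HahnSeries.ofPowerSeries ℤ ℂ (ModularCurve.eisenstein4.map (Int.castRingHom ℂ)) ^ 3 := by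
        rw [h1, one_mul, ← map_mul, ← map_mul, h2, map_pow, map_pow]

theorem laurentOf_Jfun : laurentOf Jfun = ModularCurve.jqModC ℂ := by
  have hJ : IsHPB (fun z => Jfun z * Δ z ^ 1) := by
    have h := bridge_isHPB_pow bridge_isHPB_E4 3
    convert h using 1
    funext z
    exact bridge_Jfun_mul z
  have h1 := laurentOf_mul_deltaL_pow hJ
  have h2 : (fun z => Jfun z * Δ z ^ 1) = fun z => (E₄ : ℍ → ℂ) z ^ 3 := by
    funext z
    exact bridge_Jfun_mul z
  rw [h2, bridge_ofPowerSeries_pow bridge_isHPB_E4, qExpansion_E₄_eq, pow_one,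
    ← bridge_jq_mul_deltaL] at h1
  exact mul_right_cancel₀ deltaL_ne_zero h1

/-! ### Compatibility with `τ ↦ N τ` -/

theorem bridge_isHPB_thetaFun (N : ℕ) [NeZero N] : IsHPB (thetaFun N) := (isMF_thetaFun N).isHPB

theorem bridge_comp_scaleN_mul (N : ℕ) [NeZero N] (f : ℍ → ℂ) (m : ℕ) (z : ℍ) :
    f (scaleN N z) * Δ z ^ (N * m) =
      (f (scaleN N z) * Δ (scaleN N z) ^ m) * thetaFun N z ^ m := by
  have h : Δ (scaleN N z) ≠ 0 := discriminant_ne_zero _
  simp only [thetaFun]
  rw [div_pow, pow_mul]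
  field_simp

theorem bridge_isHPB_comp_scaleN_mul (N : ℕ) [NeZero N] {f : ℍ → ℂ} {m : ℕ}
    (hm : IsHPB (fun z => f z * Δ z ^ m)) :
    IsHPB (fun z => f (scaleN N z) * Δ z ^ (N * m)) := by
  have h1 := bridge_isHPB_comp_scaleN N hm
  have h2 := bridge_isHPB_pow (bridge_isHPB_thetaFun N) m
  have := h1.mul h2
  convert this using 1
  funext z
  exact bridge_comp_scaleN_mul N f m z

theorem isMerInf_comp_scaleN (N : ℕ) [NeZero N] {f : ℍ → ℂ} (hf : IsMerInf f) :
    IsMerInf (fun z => f (scaleN N z)) := by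
  obtain ⟨m, hm⟩ := hf
  exact ⟨N * m, bridge_isHPB_comp_scaleN_mul N hm⟩

/-- `Θ_N · Δ(N ·) = Δ ^ N` on Laurent series. -/
theorem bridge_thetaL_mul (N : ℕ) [NeZero N] :
    HahnSeries.ofPowerSeries ℤ ℂ (qExpansion 1 (thetaFun N)) * ModularCurve.qExpand ℂ N deltaL =
      deltaL ^ N := by
  have h1 := bridge_ofPowerSeries_mul (bridge_isHPB_thetaFun N)
    (bridge_isHPB_comp_scaleN N bridge_isHPB_discriminant)
  rw [bridge_ofPowerSeries_comp_scaleN N bridge_isHPB_discriminant,
    bridge_ofPowerSeries_discriminant] at h1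
  rw [← h1, ← bridge_ofPowerSeries_discriminant,
    ← bridge_ofPowerSeries_pow bridge_isHPB_discriminant]
  congr 2
  funext z
  simp only [thetaFun]
  exact div_mul_cancel₀ _ (discriminant_ne_zero _)

/-- The Laurent expansion of `τ ↦ f (N τ)` is `qExpand N` of the Laurent expansion of `f`. -/
theorem laurentOf_comp_scaleN (N : ℕ) [NeZero N] {f : ℍ → ℂ} (hf : IsMerInf f) :
    laurentOf (fun z => f (scaleN N z)) = ModularCurve.qExpand ℂ N (laurentOf f) := by
  obtain ⟨m, hm⟩ := hf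
  have hD : deltaL ^ (N * m) ≠ 0 := pow_ne_zero _ deltaL_ne_zero
  apply mul_right_cancel₀ hD
  rw [laurentOf_mul_deltaL_pow (bridge_isHPB_comp_scaleN_mul N hm)]
  have e1 : (fun z => f (scaleN N z) * Δ z ^ (N * m)) =
      fun z => (fun w => f w * Δ w ^ m) (scaleN N z) * (fun w => thetaFun N w ^ m) z := by
    funext z
    exact bridge_comp_scaleN_mul N f m z
  rw [e1, bridge_ofPowerSeries_mul (bridge_isHPB_comp_scaleN N hm)
    (bridge_isHPB_pow (bridge_isHPB_thetaFun N) m),
    bridge_ofPowerSeries_comp_scaleN N hm, bridge_ofPowerSeries_pow (bridge_isHPB_thetaFun N),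
    ← laurentOf_mul_deltaL_pow hm, map_mul, map_pow, mul_assoc, ← mul_pow,
    mul_comm (ModularCurve.qExpand ℂ N deltaL), bridge_thetaL_mul, ← pow_mul]

theorem laurentOf_Jfun_scaleN (N : ℕ) [NeZero N] :
    laurentOf (fun z => Jfun (scaleN N z)) = ModularCurve.jqNModC ℂ N := by
  rw [laurentOf_comp_scaleN N isMerInf_Jfun, laurentOf_Jfun]
  rfl

theorem laurentOf_discriminant_scaleN (N : ℕ) [NeZero N] :
    laurentOf (fun z => Δ (scaleN N z)) = ModularCurve.qExpand ℂ N deltaL := by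
  rw [laurentOf_comp_scaleN N isMerInf_discriminant, laurentOf_discriminant]

theorem qExpand_deltaL_ne_zero (N : ℕ) [NeZero N] : ModularCurve.qExpand ℂ N deltaL ≠ 0 := by
  intro h
  apply deltaL_ne_zero
  apply ModularCurve.qExpand_injective (R := ℂ) N
  rw [h, map_zero]

/-- The Laurent expansion of the modular unit `Δ(Nτ)/Δ(τ)`. -/
theorem laurentOf_unit (N : ℕ) [NeZero N] :
    laurentOf (fun z => Δ (scaleN N z) / Δ z) = ModularCurve.qExpand ℂ N deltaL * deltaL⁻¹ := by
  have h1 : IsMerInf (fun z => Δ (scaleN N z) / Δ z) := (isModFun_unit N).isMerInf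
  have h2 := laurentOf_mul h1 isMerInf_discriminant
  have e : ((fun z => Δ (scaleN N z) / Δ z) * (Δ : ℍ → ℂ)) = fun z => Δ (scaleN N z) := by
    funext z
    simp only [Pi.mul_apply]
    exact div_mul_cancel₀ _ (discriminant_ne_zero z)
  rw [e, laurentOf_discriminant_scaleN, laurentOf_discriminant] at h2
  rw [eq_mul_inv_iff_mul_eq₀ deltaL_ne_zero]
  exact h2.symm

/-- The Laurent expansion of the inverse modular unit `Δ(τ)/Δ(Nτ)`. -/
theorem laurentOf_unit_inv (N : ℕ) [NeZero N] :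
    laurentOf (fun z => Δ z / Δ (scaleN N z)) = deltaL * (ModularCurve.qExpand ℂ N deltaL)⁻¹ := by
  have h1 : IsMerInf (fun z => Δ z / Δ (scaleN N z)) := (isModFun_unit_inv N).isMerInf
  have h2 := laurentOf_mul h1 (isMerInf_comp_scaleN N isMerInf_discriminant)
  have e : ((fun z => Δ z / Δ (scaleN N z)) * (fun z => Δ (scaleN N z))) = (Δ : ℍ → ℂ) := by
    funext z
    simp only [Pi.mul_apply]
    exact div_mul_cancel₀ _ (discriminant_ne_zero _)
  rw [e, laurentOf_discriminant_scaleN, laurentOf_discriminant] at h2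
  rw [eq_mul_inv_iff_mul_eq₀ (qExpand_deltaL_ne_zero N)]
  exact h2.symm

/-! ### Transfer of polynomial relations -/

theorem laurentOf_smul (c : ℂ) {f : ℍ → ℂ} (hf : IsMerInf f) :
    laurentOf (c • f) = HahnSeries.C c * laurentOf f := by
  have h := laurentOf_mul (isMerInf_const c) hf
  rw [laurentOf_const] at h
  rw [← h]
  congr 1

theorem laurentOf_pow {f : ℍ → ℂ} (hf : IsMerInf f) (n : ℕ) :
    laurentOf (f ^ n) = laurentOf f ^ n :=
  map_pow laurentExp (⟨f, hf⟩ : merInf) n

open Polynomial in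
/-- A polynomial relation `Φ(f, g) = 0` between functions (`Φ ∈ ℂ[Y][X]`, `X ↦ f`, `Y ↦ g`)
gives the same relation between the Laurent expansions. -/
theorem laurentExp_eval₂ (Φ : (ℂ[X])[X]) (f g : merInf)
    (h : ∀ τ, Φ.eval₂ (Polynomial.evalRingHom ((g : ℍ → ℂ) τ)) ((f : ℍ → ℂ) τ) = 0) :
    Φ.eval₂ (Polynomial.aeval (laurentExp g)).toRingHom (laurentExp f) = 0 := by
  have hF : Φ.eval₂ (Polynomial.aeval (R := ℂ) g).toRingHom f = 0 := by
    apply Subtype.ext
    funext τ
    let ev : merInf →+* ℂ := (Pi.evalRingHom (fun _ : ℍ => ℂ) τ).comp merInf.val.toRingHom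
    have h1 : ev (Φ.eval₂ (Polynomial.aeval (R := ℂ) g).toRingHom f) =
        Φ.eval₂ (ev.comp (Polynomial.aeval (R := ℂ) g).toRingHom) (ev f) :=
      Polynomial.hom_eval₂ _ _ _ _
    have h2 : ev.comp (Polynomial.aeval (R := ℂ) g).toRingHom =
        Polynomial.evalRingHom ((g : ℍ → ℂ) τ) := by
      apply Polynomial.ringHom_ext
      · intro a
        simp [ev, Algebra.algebraMap_eq_smul_one]
      · simp [ev]
    rw [h2] at h1
    exact h1.trans (h τ)
  have h3 := congrArg laurentExp hF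
  rw [map_zero] at h3
  have h4 : laurentExp.toRingHom (Φ.eval₂ (Polynomial.aeval (R := ℂ) g).toRingHom f) =
      Φ.eval₂ (laurentExp.toRingHom.comp (Polynomial.aeval (R := ℂ) g).toRingHom)
        (laurentExp.toRingHom f) := Polynomial.hom_eval₂ _ _ _ _
  have h5 : laurentExp.toRingHom.comp (Polynomial.aeval (R := ℂ) g).toRingHom =
      (Polynomial.aeval (R := ℂ) (laurentExp g)).toRingHom := by
    apply Polynomial.ringHom_ext
    · intro a
      simp
    · simp
  rw [h5] at h4
  exact h4.symm.trans h3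

open Polynomial in
/-- Function form of `laurentExp_eval₂`. -/
theorem laurentOf_eval₂ (Φ : (ℂ[X])[X]) {f g : ℍ → ℂ} (hf : IsMerInf f) (hg : IsMerInf g)
    (h : ∀ τ, Φ.eval₂ (Polynomial.evalRingHom (g τ)) (f τ) = 0) :
    Φ.eval₂ (Polynomial.aeval (laurentOf g)).toRingHom (laurentOf f) = 0 :=
  laurentExp_eval₂ Φ ⟨f, hf⟩ ⟨g, hg⟩ h

end Fermat.Agent.S28
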