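import Mathlib
import Fermat.Prelude.Def_ModularCurve_X0
import Fermat.Prelude.Def_ModularCurve_LaurentCoeff
import Fermat.Prelude.Def_ModularCurve_JqCoeff
import Fermat.Prelude.Thm_ModularCurve_coeffMap_qExpand

/-!
# S28, prime level: the derivative trick  `J_p ∉ k(j)`

`θ = q d/dq` on Laurent series (`thetaFun`), Leibniz rule, chain rule `θ (σ_p x) = p • σ_p (θ x)`,
and the abstract statement `qExpand_not_mem_adjoin_of_theta`:

if `(θ j)^6 = G(j) · Δ`, `a · σ_p Δ = u · Δ` (`a ≠ 0`), `u` is a root of a monic polynomial over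
`k[j]` with constant term a unit of `k`, `u` is not a constant and `p ≠ 0` in `k`,
then `σ_p j ∉ k(j)`.
-/

set_option autoImplicit false

namespace Fermat.Agent.S28.Deriv

open HahnSeries ModularCurve Polynomial

open scoped nonZeroDivisors

section Theta

variable {R : Type*} [CommRing R]

/-- `θ = q d/dq` on Laurent series: `(θ x)_n = n * x_n`. -/
noncomputable def thetaFun (x : LaurentSeries R) : LaurentSeries R where
  coeff n := (n : R) * x.coeff n
  isPWO_support' := x.isPWO_support.mono (fun n hn => by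
    simp only [Function.mem_support, ne_eq] at hn ⊢
    intro h
    exact hn (by rw [h, mul_zero]))

@[simp]
theorem thetaFun_coeff (x : LaurentSeries R) (n : ℤ) :
    (thetaFun x).coeff n = (n : R) * x.coeff n := rfl

theorem thetaFun_support_subset (x : LaurentSeries R) : (thetaFun x).support ⊆ x.support := by
  intro n hn
  simp only [HahnSeries.mem_support, thetaFun_coeff, ne_eq] at hn ⊢
  intro h
  exact hn (by rw [h, mul_zero])

@[simp]
theorem thetaFun_zero : thetaFun (0 : LaurentSeries R) = 0 := by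
  ext n
  simp

theorem thetaFun_add (x y : LaurentSeries R) : thetaFun (x + y) = thetaFun x + thetaFun y := by
  ext n
  simp [mul_add]

theorem thetaFun_neg (x : LaurentSeries R) : thetaFun (-x) = -thetaFun x := by
  ext n
  simp

theorem thetaFun_sub (x y : LaurentSeries R) : thetaFun (x - y) = thetaFun x - thetaFun y := by
  ext n
  simp [mul_sub]

/-- Leibniz rule. -/
theorem thetaFun_mul (x y : LaurentSeries R) :
    thetaFun (x * y) = x * thetaFun y + y * thetaFun x := by
  ext n
  rw [thetaFun_coeff, HahnSeries.coeff_add, HahnSeries.coeff_mul,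
    HahnSeries.coeff_mul_right' y.isPWO_support (thetaFun_support_subset y), mul_comm y,
    HahnSeries.coeff_mul_left' x.isPWO_support (thetaFun_support_subset x),
    Finset.mul_sum, ← Finset.sum_add_distrib]
  refine Finset.sum_congr rfl fun ij hij => ?_
  obtain ⟨-, -, h⟩ := Finset.mem_antidiagonal.mp hij
  rw [thetaFun_coeff, thetaFun_coeff, ← h]
  push_cast
  ring

theorem thetaFun_single_zero (r : R) : thetaFun (HahnSeries.single (0 : ℤ) r) = 0 := by
  ext n
  rw [thetaFun_coeff, HahnSeries.coeff_single, HahnSeries.coeff_zero]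
  split_ifs with h
  · simp [h]
  · simp

theorem thetaFun_C (r : R) : thetaFun (HahnSeries.C r : LaurentSeries R) = 0 :=
  thetaFun_single_zero r

@[simp]
theorem thetaFun_one : thetaFun (1 : LaurentSeries R) = 0 :=
  thetaFun_single_zero 1

theorem thetaFun_pow (x : LaurentSeries R) (n : ℕ) :
    thetaFun (x ^ n) = (n : LaurentSeries R) * x ^ (n - 1) * thetaFun x := by
  induction n with
  | zero => simp
  | succ n ih =>
    rw [pow_succ, thetaFun_mul, ih]
    rcases Nat.eq_zero_or_pos n with rfl | hn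
    · simp
    · have h1 : x ^ (n + 1 - 1) = x ^ (n - 1) * x := by
        rw [Nat.add_sub_cancel, ← pow_succ, Nat.sub_add_cancel hn]
      have h2 : x ^ n = x ^ (n - 1) * x := by
        rw [← pow_succ, Nat.sub_add_cancel hn]
      rw [h1]
      push_cast
      rw [h2]
      ring

/-- chain rule for `q ↦ q ^ p`. -/
theorem thetaFun_qExpand (p : ℕ) [NeZero p] (x : LaurentSeries R) :
    thetaFun (qExpand R p x) = HahnSeries.C (p : R) * qExpand R p (thetaFun x) := by
  ext n
  rw [thetaFun_coeff, HahnSeries.C_mul_eq_smul, HahnSeries.coeff_smul, smul_eq_mul]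
  by_cases hn : (p : ℤ) ∣ n
  · obtain ⟨m, rfl⟩ := hn
    rw [qExpand_coeff_mul, qExpand_coeff_mul, thetaFun_coeff]
    push_cast
    ring
  · rw [qExpand_coeff_of_not_dvd p _ hn, qExpand_coeff_of_not_dvd p _ hn]
    simp

theorem thetaFun_coeffMap {S : Type*} [CommRing S] (f : R →+* S) (x : LaurentSeries R) :
    thetaFun (coeffMap f x) = coeffMap f (thetaFun x) := by
  ext n
  simp

end Theta

section Field

variable {k : Type*} [Field k]

theorem algebraMap_eq_C (a : k) :
    algebraMap k (LaurentSeries k) a = (HahnSeries.C a : LaurentSeries k) := by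
  rw [algebraMap_laurentSeries_eq_single]
  rfl

theorem thetaFun_algebraMap (a : k) : thetaFun (algebraMap k (LaurentSeries k) a) = 0 := by
  rw [algebraMap_eq_C]
  exact thetaFun_C a

theorem thetaFun_aeval (j : LaurentSeries k) (A : k[X]) :
    thetaFun (aeval j A) = aeval j (derivative A) * thetaFun j := by
  induction A using Polynomial.induction_on' with
  | add P Q hP hQ => rw [map_add, thetaFun_add, hP, hQ, derivative_add, map_add, add_mul]
  | monomial n a =>
    rw [aeval_monomial, thetaFun_mul, thetaFun_algebraMap, mul_zero, add_zero, thetaFun_pow,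
      derivative_monomial, aeval_monomial, map_mul, map_natCast]
    ring

theorem qExpand_aeval (p : ℕ) [NeZero p] (j : LaurentSeries k) (A : k[X]) :
    qExpand k p (aeval j A) = aeval (qExpand k p j) A := by
  rw [aeval_def, aeval_def, hom_eval₂]
  congr 1
  ext a
  simp only [RingHom.comp_apply, algebraMap_eq_C, qExpand_C]

theorem aeval_mem_of_mem (E : IntermediateField k (LaurentSeries k)) {x : LaurentSeries k}
    (hx : x ∈ E) (P : k[X]) : aeval x P ∈ E := by
  induction P using Polynomial.induction_on' with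
  | add P Q hP hQ => rw [map_add]; exact add_mem hP hQ
  | monomial n a =>
    rw [aeval_monomial]
    exact mul_mem (E.algebraMap_mem a) (pow_mem hx n)

/-- For `x ∈ k(j)`: `θ x = r · θ j` with `r ∈ k(j)`. -/
theorem exists_thetaFun_eq_mul_of_mem_adjoin (j : LaurentSeries k) {x : LaurentSeries k}
    (hx : x ∈ IntermediateField.adjoin k {j}) :
    ∃ r ∈ IntermediateField.adjoin k {j}, thetaFun x = r * thetaFun j := by
  obtain ⟨A, B, rfl⟩ := (IntermediateField.mem_adjoin_simple_iff k x).mp hx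
  have hmemA : ∀ P : k[X], aeval j P ∈ IntermediateField.adjoin k {j} := fun P =>
    (IntermediateField.mem_adjoin_simple_iff k _).mpr ⟨P, 1, by simp⟩
  by_cases hB : aeval j B = 0
  · refine ⟨0, zero_mem _, ?_⟩
    rw [hB, div_zero, thetaFun_zero, zero_mul]
  · refine ⟨(aeval j (derivative A) - aeval j A / aeval j B * aeval j (derivative B)) / aeval j B,
      div_mem (sub_mem (hmemA _) (mul_mem (div_mem (hmemA _) (hmemA _)) (hmemA _))) (hmemA _), ?_⟩
    have h1 : aeval j A / aeval j B * aeval j B = aeval j A := div_mul_cancel₀ _ hB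
    have h2 := congrArg thetaFun h1
    rw [thetaFun_mul, thetaFun_aeval, thetaFun_aeval] at h2
    apply mul_left_cancel₀ hB
    have h3 : aeval j B * ((aeval j (derivative A) - aeval j A / aeval j B * aeval j (derivative B))
        / aeval j B * thetaFun j)
        = (aeval j (derivative A) - aeval j A / aeval j B * aeval j (derivative B))
          * thetaFun j := by
      rw [← mul_assoc, mul_div_cancel₀ _ hB]
    rw [h3]
    linear_combination h2

/-- Integral closedness of `k[j]` in `k(j)`, in Laurent form: an element of `k(j)` that is a root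
of a monic polynomial over `k[j]` is a polynomial in `j`. -/
theorem exists_aeval_eq_of_mem_adjoin_of_monic {j : LaurentSeries k} (hjt : Transcendental k j)
    {u : LaurentSeries k} (humem : u ∈ IntermediateField.adjoin k {j})
    {U : (k[X])[X]} (hUm : U.Monic)
    (hU : U.eval₂ (aeval j : k[X] →ₐ[k] LaurentSeries k).toRingHom u = 0) :
    ∃ a₁ : k[X], u = aeval j a₁ ∧ U.eval a₁ = 0 := by
  have hinj : Function.Injective (aeval j : k[X] →ₐ[k] LaurentSeries k) :=
    transcendental_iff_injective.mp hjt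
  obtain ⟨A, B, hAB⟩ := (IntermediateField.mem_adjoin_simple_iff k u).mp humem
  have hφ' : k[X]⁰ ≤ (LaurentSeries k)⁰.comap (aeval j : k[X] →ₐ[k] LaurentSeries k) :=
    nonZeroDivisors_le_comap_nonZeroDivisors_of_injective _ hinj
  set φ : RatFunc k →ₐ[k] LaurentSeries k := RatFunc.liftAlgHom (aeval j) hφ' with hφdef
  have hφinj : Function.Injective φ := RatFunc.liftAlgHom_injective _ hinj hφ'
  have hφalg : ∀ P : k[X], φ (algebraMap k[X] (RatFunc k) P) = aeval j P := by
    intro P
    have := RatFunc.liftAlgHom_apply_div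
      (φ := (aeval j : k[X] →ₐ[k] LaurentSeries k)) (hφ := hφ') P 1
    simpa using this
  set ρ : RatFunc k := algebraMap k[X] (RatFunc k) A / algebraMap k[X] (RatFunc k) B with hρ
  have hφρ : φ ρ = u := by
    rw [hρ, hφdef, RatFunc.liftAlgHom_apply_div, hAB]
  have hint : IsIntegral k[X] ρ := by
    refine ⟨U, hUm, ?_⟩
    apply hφinj
    rw [map_zero, ← hU, ← AlgHom.coe_toRingHom, Polynomial.hom_eval₂, AlgHom.coe_toRingHom, hφρ]
    congr 1
    exact RingHom.ext hφalg
  obtain ⟨a₁, ha₁⟩ := IsIntegrallyClosed.isIntegral_iff.mp hint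
  have hu1 : u = aeval j a₁ := by rw [← hφρ, ← ha₁, hφalg]
  refine ⟨a₁, hu1, ?_⟩
  apply hinj
  rw [map_zero, ← hU, hu1, Polynomial.eval, ← AlgHom.coe_toRingHom, Polynomial.hom_eval₂]
  simp

/-- **The derivative trick**, first half: if `σ_p j ∈ k(j)` then `u = a·σ_p Δ / Δ ∈ k(j)`. -/
theorem mem_adjoin_of_theta (p : ℕ) [NeZero p] (hp : (p : k) ≠ 0)
    (j Δ u : LaurentSeries k) (hjt : Transcendental k j) (hΔ : Δ ≠ 0)
    (a : k) (hu : HahnSeries.C a * qExpand k p Δ = u * Δ)
    (G : k[X]) (hG0 : G ≠ 0) (hG : thetaFun j ^ 6 = aeval j G * Δ)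
    (hmem : qExpand k p j ∈ IntermediateField.adjoin k {j}) :
    u ∈ IntermediateField.adjoin k {j} := by
  have hmemA : ∀ P : k[X], aeval j P ∈ IntermediateField.adjoin k {j} := fun P =>
    (IntermediateField.mem_adjoin_simple_iff k _).mpr ⟨P, 1, by simp⟩
  have hinj : Function.Injective (aeval j : k[X] →ₐ[k] LaurentSeries k) :=
    transcendental_iff_injective.mp hjt
  obtain ⟨r, hr, hθ⟩ := exists_thetaFun_eq_mul_of_mem_adjoin j hmem
  rw [thetaFun_qExpand] at hθ
  have hGj : aeval j G ≠ 0 := fun h => hG0 (hinj (by rw [h, map_zero]))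
  have hGσ : aeval (qExpand k p j) G ≠ 0 := by
    rw [← qExpand_aeval]
    exact fun h => hGj (qExpand_injective p (by rw [h, map_zero]))
  have hCp : (HahnSeries.C (p : k) : LaurentSeries k) ≠ 0 := HahnSeries.C_ne_zero hp
  have h6 : (HahnSeries.C (p : k)) ^ 6 * (aeval (qExpand k p j) G * qExpand k p Δ)
      = r ^ 6 * (aeval j G * Δ) := by
    rw [← qExpand_aeval, ← map_mul, ← hG, map_pow, ← mul_pow, hθ, mul_pow]
  have h7 : (HahnSeries.C (p : k)) ^ 6 * aeval (qExpand k p j) G * u
      = HahnSeries.C a * r ^ 6 * aeval j G := by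
    apply mul_right_cancel₀ hΔ
    linear_combination (HahnSeries.C (p : k)) ^ 6 * aeval (qExpand k p j) G * (-hu)
      + HahnSeries.C a * h6
  have hmemC : ∀ b : k, (HahnSeries.C b : LaurentSeries k) ∈ IntermediateField.adjoin k {j} := by
    intro b
    rw [← algebraMap_eq_C]
    exact IntermediateField.algebraMap_mem _ b
  have : u = HahnSeries.C a * r ^ 6 * aeval j G /
      ((HahnSeries.C (p : k)) ^ 6 * aeval (qExpand k p j) G) := by
    rw [eq_div_iff (mul_ne_zero (pow_ne_zero _ hCp) hGσ)]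
    linear_combination h7
  rw [this]
  exact div_mem (mul_mem (mul_mem (hmemC a) (pow_mem hr 6)) (hmemA G))
    (mul_mem (pow_mem (hmemC _) 6) (aeval_mem_of_mem _ hmem G))

/-- **The derivative trick**, version with a unit constant term:
if `(θ j)^6 = G(j)·Δ`, `a·σ_p Δ = u·Δ`, `u` is a root of a monic polynomial over `k[j]` whose
constant term is a unit of `k`, and `u` is not constant, then `σ_p j ∉ k(j)`. -/
theorem qExpand_not_mem_adjoin_of_theta (p : ℕ) [NeZero p] (hp : (p : k) ≠ 0)
    (j Δ u : LaurentSeries k) (hjt : Transcendental k j) (hΔ : Δ ≠ 0)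
    (a : k) (hu : HahnSeries.C a * qExpand k p Δ = u * Δ)
    (hun : ∃ n : ℤ, n ≠ 0 ∧ u.coeff n ≠ 0)
    (G : k[X]) (hG0 : G ≠ 0) (hG : thetaFun j ^ 6 = aeval j G * Δ)
    (U : (k[X])[X]) (hUm : U.Monic) (c : k) (hc : c ≠ 0) (hU0 : U.coeff 0 = C c)
    (hU : U.eval₂ (aeval j : k[X] →ₐ[k] LaurentSeries k).toRingHom u = 0) :
    qExpand k p j ∉ IntermediateField.adjoin k {j} := by
  intro hmem
  have humem := mem_adjoin_of_theta p hp j Δ u hjt hΔ a hu G hG0 hG hmem
  obtain ⟨a₁, hu1, hUa⟩ := exists_aeval_eq_of_mem_adjoin_of_monic hjt humem hUm hU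
  have hdvd : a₁ ∣ C c := by
    have h := Polynomial.divX_mul_X_add U
    have := congrArg (Polynomial.eval a₁) h
    rw [eval_add, eval_mul, eval_X, eval_C, hUa, hU0] at this
    exact ⟨-(U.divX.eval a₁), by linear_combination this⟩
  have hunit : IsUnit a₁ := isUnit_of_dvd_unit hdvd (Polynomial.isUnit_C.mpr (Ne.isUnit hc))
  obtain ⟨b, hb, rfl⟩ := Polynomial.isUnit_iff.mp hunit
  obtain ⟨n, hn0, hn⟩ := hun
  apply hn
  rw [hu1, aeval_C, algebraMap_eq_C, HahnSeries.C_apply, HahnSeries.coeff_single_of_ne hn0]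

/-- **The derivative trick**, version with the two relations of the unit (shape of `(P1)`, `(P2)`):
`Φ(σ_p j, j) = 0`, `W(u, j) = 0`, `W'(u', σ_p j) = 0` with `Φ, W, W'` monic, `u·u' = c₀ ≠ 0`. -/
theorem qExpand_not_mem_adjoin_of_theta' (p : ℕ) [NeZero p] (hp : (p : k) ≠ 0)
    (j Δ u u' : LaurentSeries k) (hjt : Transcendental k j) (hΔ : Δ ≠ 0)
    (a : k) (hu : HahnSeries.C a * qExpand k p Δ = u * Δ)
    (hun : ∃ n : ℤ, n ≠ 0 ∧ u.coeff n ≠ 0)
    (c₀ : k) (hc₀ : c₀ ≠ 0) (huu' : u * u' = HahnSeries.C c₀)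
    (G : k[X]) (hG0 : G ≠ 0) (hG : thetaFun j ^ 6 = aeval j G * Δ)
    (Φ : (k[X])[X]) (hΦm : Φ.Monic)
    (hΦ : Φ.eval₂ (aeval j : k[X] →ₐ[k] LaurentSeries k).toRingHom (qExpand k p j) = 0)
    (W : (k[X])[X]) (hWm : W.Monic)
    (hW : W.eval₂ (aeval j : k[X] →ₐ[k] LaurentSeries k).toRingHom u = 0)
    (W' : (k[X])[X]) (hWm' : W'.Monic)
    (hW' : W'.eval₂ (aeval (qExpand k p j) : k[X] →ₐ[k] LaurentSeries k).toRingHom u' = 0) :
    qExpand k p j ∉ IntermediateField.adjoin k {j} := by
  intro hmem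
  have hinj : Function.Injective (aeval j : k[X] →ₐ[k] LaurentSeries k) :=
    transcendental_iff_injective.mp hjt
  have humem := mem_adjoin_of_theta p hp j Δ u hjt hΔ a hu G hG0 hG hmem
  obtain ⟨a₁, hu1, -⟩ := exists_aeval_eq_of_mem_adjoin_of_monic hjt humem hWm hW
  obtain ⟨R, hR, -⟩ := exists_aeval_eq_of_mem_adjoin_of_monic hjt hmem hΦm hΦ
  -- `u' ∈ k(j)` and integral over `k[j]`
  have hu0 : u ≠ 0 := by
    obtain ⟨n, -, hn⟩ := hun
    intro h
    simp [h] at hn
  have hu'eq : u' = HahnSeries.C c₀ / u := by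
    rw [eq_div_iff hu0, mul_comm, huu']
  have hu'mem : u' ∈ IntermediateField.adjoin k {j} := by
    rw [hu'eq]
    refine div_mem ?_ humem
    rw [← algebraMap_eq_C]
    exact IntermediateField.algebraMap_mem _ c₀
  -- transport `W'` along `X ↦ R`
  have hcomp : (aeval (qExpand k p j) : k[X] →ₐ[k] LaurentSeries k).toRingHom
      = (aeval j : k[X] →ₐ[k] LaurentSeries k).toRingHom.comp (Polynomial.compRingHom R) := by
    refine Polynomial.ringHom_ext (fun b => ?_) ?_
    · simp
    · simp [hR]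
  have hW'' : (W'.map (Polynomial.compRingHom R)).eval₂
      (aeval j : k[X] →ₐ[k] LaurentSeries k).toRingHom u' = 0 := by
    rw [Polynomial.eval₂_map, ← hcomp]
    exact hW'
  obtain ⟨b₁, hb1, -⟩ := exists_aeval_eq_of_mem_adjoin_of_monic hjt hu'mem
    (hWm'.map (Polynomial.compRingHom R)) hW''
  have hab : a₁ * b₁ = C c₀ := by
    apply hinj
    rw [map_mul, ← hu1, ← hb1, huu', aeval_C, algebraMap_eq_C]
  have hunit : IsUnit a₁ :=
    isUnit_of_dvd_unit ⟨b₁, hab.symm⟩ (Polynomial.isUnit_C.mpr (Ne.isUnit hc₀))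
  obtain ⟨b, hb, rfl⟩ := Polynomial.isUnit_iff.mp hunit
  obtain ⟨n, hn0, hn⟩ := hun
  apply hn
  rw [hu1, aeval_C, algebraMap_eq_C, HahnSeries.C_apply, HahnSeries.coeff_single_of_ne hn0]

end Field

end Fermat.Agent.S28.Deriv
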