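import Fermat.Agent.S23.QRing
import Fermat.Agent.S24.EtaExp

/-!
# S28 — the `q`-expansion of the derivative: `qExp (D f) = θ (qExp f)`

`D = (2πi)⁻¹ d/dτ` (`Derivative.normalizedDerivOfComplex`), `θ = q d/dq`.

* `D_ofDisc` : `D (g ∘ q) = (q ↦ q · g'(q)) ∘ q` for `g` holomorphic on the unit disc.
* `isHPB_D` : `D` preserves holomorphic, `1`-periodic functions bounded at `i∞`.
* `qExpansion_D_coeff` : `(qExpansion 1 (D f)).coeff n = n * (qExpansion 1 f).coeff n`.
-/

set_option autoImplicit false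

noncomputable section

namespace Fermat.Agent.S28

open UpperHalfPlane ModularForm Filter Function Derivative
open Fermat.Agent.S23 Fermat.Agent.S24
open scoped Manifold Topology

local notation "𝕢" => Function.Periodic.qParam

/-- derivative of `q = exp(2πiz)`. -/
theorem hasDerivAt_qParam_one (z : ℂ) :
    HasDerivAt (𝕢 1) (2 * Real.pi * Complex.I * 𝕢 1 z) z := by
  have h1 : HasDerivAt (fun w : ℂ => 2 * Real.pi * Complex.I * w / ((1 : ℝ) : ℂ))
      (2 * Real.pi * Complex.I) z := by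
    have := (hasDerivAt_id z).const_mul (2 * Real.pi * Complex.I)
    simpa using this
  have h2 := h1.cexp
  have e : (𝕢 1) = fun w : ℂ => Complex.exp (2 * Real.pi * Complex.I * w / ((1 : ℝ) : ℂ)) := by
    funext w
    rfl
  rw [e]
  refine h2.congr_deriv ?_
  simp only []
  ring

/-- The cusp function of a holomorphic periodic bounded function is holomorphic on the disc. -/
theorem isHPB_differentiableOn_cuspFunction {f : ℍ → ℂ} (hf : IsHPB f) :
    DifferentiableOn ℂ (cuspFunction 1 f) (Metric.ball 0 1) := by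
  intro q hq
  have hq' : ‖q‖ < 1 := by simpa using hq
  exact (differentiableAt_cuspFunction one_pos hf.2.1 hf.1 hf.2.2 hq').differentiableWithinAt

theorem isHPB_eq_ofDisc {f : ℍ → ℂ} (hf : IsHPB f) : f = ofDisc (cuspFunction 1 f) :=
  eq_ofDisc_cuspFunction hf.2.1

theorem isHPB_ofDisc {g : ℂ → ℂ} (hg : DifferentiableOn ℂ g (Metric.ball 0 1)) :
    IsHPB (ofDisc g) :=
  ⟨ofDisc_mdifferentiable hg, ofDisc_periodic g,
    ofDisc_isBoundedAtImInfty (continuousAt_zero_of_differentiableOn hg)⟩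

/-- `D (g ∘ q) = (q · g') ∘ q`. -/
theorem D_ofDisc {g : ℂ → ℂ} (hg : DifferentiableOn ℂ g (Metric.ball 0 1)) :
    D (ofDisc g) = ofDisc (fun q => q * deriv g q) := by
  funext τ
  have hτ : 0 < (τ : ℂ).im := τ.im_pos
  have hopen : IsOpen {z : ℂ | 0 < z.im} := isOpen_lt continuous_const Complex.continuous_im
  have hev : (ofDisc g ∘ ofComplex) =ᶠ[𝓝 (τ : ℂ)] (g ∘ 𝕢 1) := by
    filter_upwards [hopen.mem_nhds hτ] with w hw
    have hw' : 0 < w.im := hw
    simp only [Function.comp_apply, ofComplex_apply_of_im_pos hw', ofDisc_apply]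
  have hq : 𝕢 1 (τ : ℂ) ∈ Metric.ball (0 : ℂ) 1 := qParam_mem_ball τ
  have hgd : HasDerivAt g (deriv g (𝕢 1 (τ : ℂ))) (𝕢 1 (τ : ℂ)) :=
    (hg.differentiableAt (Metric.isOpen_ball.mem_nhds hq)).hasDerivAt
  have hcomp : HasDerivAt (g ∘ 𝕢 1)
      (deriv g (𝕢 1 (τ : ℂ)) * (2 * Real.pi * Complex.I * 𝕢 1 (τ : ℂ))) (τ : ℂ) :=
    hgd.comp (τ : ℂ) (hasDerivAt_qParam_one (τ : ℂ))
  have hderiv : deriv (ofDisc g ∘ ofComplex) (τ : ℂ) =
      deriv g (𝕢 1 (τ : ℂ)) * (2 * Real.pi * Complex.I * 𝕢 1 (τ : ℂ)) := by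
    rw [hev.deriv_eq]
    exact hcomp.deriv
  have hpi : (2 * (Real.pi : ℂ) * Complex.I) ≠ 0 := by
    simp [Real.pi_ne_zero, Complex.I_ne_zero]
  simp only [normalizedDerivOfComplex, ofDisc_apply]
  rw [hderiv]
  field_simp

theorem differentiableOn_mul_deriv {g : ℂ → ℂ} (hg : DifferentiableOn ℂ g (Metric.ball 0 1)) :
    DifferentiableOn ℂ (fun q => q * deriv g q) (Metric.ball 0 1) :=
  differentiableOn_id.mul (hg.deriv Metric.isOpen_ball)

/-- `D` preserves holomorphic `1`-periodic functions bounded at `i∞`. -/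
theorem isHPB_D {f : ℍ → ℂ} (hf : IsHPB f) : IsHPB (D f) := by
  have hg := isHPB_differentiableOn_cuspFunction hf
  have e : D f = ofDisc (fun q => q * deriv (cuspFunction 1 f) q) := by
    conv_lhs => rw [isHPB_eq_ofDisc hf]
    exact D_ofDisc hg
  rw [e]
  exact isHPB_ofDisc (differentiableOn_mul_deriv hg)

/-- Taylor coefficients of `q · g'(q)`. -/
theorem iteratedDeriv_mul_deriv {g : ℂ → ℂ} (hg : DifferentiableOn ℂ g (Metric.ball 0 1))
    (m : ℕ) :
    iteratedDeriv m (fun q => q * deriv g q) 0 = m * iteratedDeriv m g 0 := by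
  have hball : Metric.ball (0 : ℂ) 1 ∈ 𝓝 (0 : ℂ) := Metric.ball_mem_nhds 0 one_pos
  have hga : AnalyticAt ℂ g 0 := analyticAt_of_differentiableOn_ball hg
  have hda : AnalyticAt ℂ (deriv g) 0 := hga.deriv
  have h1 : ContDiffAt ℂ m (fun q : ℂ => q) 0 := contDiffAt_id
  have h2 : ContDiffAt ℂ m (deriv g) 0 := hda.contDiffAt
  have e : (fun q => q * deriv g q) = (fun q : ℂ => q) * deriv g := rfl
  rw [e, iteratedDeriv_mul h1 h2]
  rcases m with _ | m
  · simp [iteratedDeriv_fun_id_zero]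
  · rw [Finset.sum_eq_single 1]
    · rw [iteratedDeriv_fun_id_zero, if_pos rfl, Nat.choose_one_right, mul_one,
        Nat.add_sub_cancel, ← iteratedDeriv_succ']
    · intro i _ hi
      rw [iteratedDeriv_fun_id_zero, if_neg hi, mul_zero, zero_mul]
    · intro h
      exact absurd (Finset.mem_range.mpr (by omega)) h

/-- **`q`-expansion of the derivative.** -/
theorem qExpansion_D_coeff {f : ℍ → ℂ} (hf : IsHPB f) (n : ℕ) :
    (qExpansion (1 : ℝ) (D f)).coeff n = n * (qExpansion (1 : ℝ) f).coeff n := by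
  have hg := isHPB_differentiableOn_cuspFunction hf
  have e : D f = ofDisc (fun q => q * deriv (cuspFunction 1 f) q) := by
    conv_lhs => rw [isHPB_eq_ofDisc hf]
    exact D_ofDisc hg
  have e2 : (qExpansion (1 : ℝ) f).coeff n =
      (↑n.factorial)⁻¹ * iteratedDeriv n (cuspFunction 1 f) 0 := by
    conv_lhs => rw [isHPB_eq_ofDisc hf]
    exact qExpansion_ofDisc_coeff hg n
  rw [e, qExpansion_ofDisc_coeff (differentiableOn_mul_deriv hg), iteratedDeriv_mul_deriv hg, e2]
  ring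

end Fermat.Agent.S28
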