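import Mathlib
import Fermat.Prelude.Def_ModularCurve_X0
import Fermat.Prelude.Def_ModularCurve_LaurentCoeff

/-!
# S28, formal prime-level block: `R((q))` over `R((q^p))`

`σ = ModularCurve.qExpand R p : R((q)) → R((q))`, `q ↦ q ^ p`.

## General commutative ring `R`
* `comp p r z` : the series `∑ₙ z_{pn+r} qⁿ`; `sum_single_mul_qExpand_comp`:
  `z = ∑_{r<p} q^r · σ (comp p r z)` (so `1, q, …, q^(p-1)` generate `R((q))` over `σ(R((q)))`).
* `mulMatrix p y` : matrix of multiplication by `y` in that basis (entries pulled back along `σ`).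
* `charpolyσ p y` : its characteristic polynomial: monic of degree `p`, `eval₂ σ y = 0`,
  compatible with coefficient maps (`charpolyσ_map`).

## Field `k`
If `y ≠ 0` and `y.order` is coprime to `p`:
* `eq_zero_of_sum_qExpand_mul_pow_eq_zero` : `1, y, …, y^(p-1)` are linearly independent over `σ(k((q)))`;
* `le_natDegree_of_eval₂_eq_zero`, `charpolyσ_dvd_of_eval₂_eq_zero`, `irreducible_charpolyσ`,
  `eq_charpolyσ_of_monic`.
-/

set_option autoImplicit false

namespace Fermat.Agent.S28

open HahnSeries ModularCurve Polynomial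

section Ring

variable {R : Type*} [CommRing R] (p : ℕ) [NeZero p]

theorem natCast_pos_of_neZero : (0 : ℤ) < (p : ℤ) := by
  exact_mod_cast Nat.pos_of_ne_zero (NeZero.ne p)

theorem bddBelow_support_comp (r : ℤ) (z : LaurentSeries R) :
    BddBelow (Function.support fun n : ℤ => z.coeff ((p : ℤ) * n + r)) := by
  have hp := natCast_pos_of_neZero p
  rcases eq_or_ne z 0 with rfl | hz
  · simp
  refine ⟨(z.order - r) / p, ?_⟩
  intro n hn
  rw [Function.mem_support] at hn
  have h1 : z.order ≤ (p : ℤ) * n + r := HahnSeries.order_le_of_coeff_ne_zero hn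
  have h2 : z.order - r ≤ n * (p : ℤ) := by linarith
  exact Int.ediv_le_of_le_mul hp h2

/-- The series `∑ₙ z_{pn+r} qⁿ`. -/
noncomputable def comp (r : ℤ) (z : LaurentSeries R) : LaurentSeries R :=
  HahnSeries.ofSuppBddBelow (fun n => z.coeff ((p : ℤ) * n + r)) (bddBelow_support_comp p r z)

@[simp]
theorem comp_coeff (r : ℤ) (z : LaurentSeries R) (n : ℤ) :
    (comp p r z).coeff n = z.coeff ((p : ℤ) * n + r) := rfl

theorem coeff_single_mul_qExpand (r : ℤ) (x : LaurentSeries R) (m : ℤ) :
    (HahnSeries.single r (1 : R) * qExpand R p x).coeff m =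
      if (p : ℤ) ∣ m - r then x.coeff ((m - r) / p) else 0 := by
  have hp := natCast_pos_of_neZero p
  rw [HahnSeries.coeff_single_mul, one_mul]
  split_ifs with h
  · obtain ⟨c, hc⟩ := h
    rw [hc, qExpand_coeff_mul, Int.mul_ediv_cancel_left _ hp.ne']
  · exact qExpand_coeff_of_not_dvd p x h

/-- `1, q, …, q^(p-1)` generate `R((q))` over `σ(R((q)))`. -/
theorem sum_single_mul_qExpand_comp (z : LaurentSeries R) :
    z = ∑ r ∈ Finset.range p, HahnSeries.single (r : ℤ) (1 : R) * qExpand R p (comp p r z) := by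
  have hp := natCast_pos_of_neZero p
  ext m
  rw [HahnSeries.coeff_sum]
  simp only [coeff_single_mul_qExpand, comp_coeff]
  have hr0 : 0 ≤ m % (p : ℤ) := Int.emod_nonneg m hp.ne'
  have hrp : m % (p : ℤ) < p := Int.emod_lt_of_pos m hp
  rw [Finset.sum_eq_single (m % (p : ℤ)).toNat]
  · have h1 : (((m % (p : ℤ)).toNat : ℕ) : ℤ) = m % (p : ℤ) := Int.toNat_of_nonneg hr0
    have hdvd : (p : ℤ) ∣ m - m % (p : ℤ) :=
      ⟨m / (p : ℤ), by have := Int.emod_add_mul_ediv m (p : ℤ); linarith⟩
    rw [h1, if_pos hdvd]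
    congr 1
    have := Int.mul_ediv_cancel' hdvd
    linarith
  · intro r hr hne
    rw [if_neg]
    intro hdvd
    apply hne
    have hrlt : (r : ℤ) < p := by exact_mod_cast Finset.mem_range.mp hr
    have h2 : m % (p : ℤ) = (r : ℤ) := by
      have := Int.emod_emod_of_dvd m (dvd_refl (p : ℤ))
      obtain ⟨c, hc⟩ := hdvd
      have hm : m = (r : ℤ) + (p : ℤ) * c := by linarith
      rw [hm, Int.add_mul_emod_self_left, Int.emod_eq_of_lt (by positivity) hrlt]
    rw [h2]
    simp
  · intro h
    exfalso
    apply h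
    rw [Finset.mem_range]
    have : (((m % (p : ℤ)).toNat : ℕ) : ℤ) < p := by
      rw [Int.toNat_of_nonneg hr0]; exact hrp
    exact_mod_cast this

/-- Matrix of multiplication by `y` on `R((q))` in the basis `1, q, …, q^(p-1)` over
`σ(R((q)))`, with entries pulled back along `σ`: `y q^s = ∑_r q^r σ(M r s)`. -/
noncomputable def mulMatrix (y : LaurentSeries R) : Matrix (Fin p) (Fin p) (LaurentSeries R) :=
  fun r s => comp p ((r : ℕ) - (s : ℕ) : ℤ) y

theorem mul_single_eq_sum (y : LaurentSeries R) (s : Fin p) :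
    y * HahnSeries.single ((s : ℕ) : ℤ) (1 : R) =
      ∑ r : Fin p, HahnSeries.single ((r : ℕ) : ℤ) (1 : R) * qExpand R p (mulMatrix p y r s) := by
  have hp := natCast_pos_of_neZero p
  have key : ∀ r : ℕ, comp p (r : ℤ) (y * HahnSeries.single ((s : ℕ) : ℤ) (1 : R)) =
      comp p ((r : ℤ) - ((s : ℕ) : ℤ)) y := by
    intro r
    ext n
    simp only [comp_coeff]
    rw [HahnSeries.coeff_mul_single, mul_one]
    congr 1
    ring
  conv_lhs => rw [sum_single_mul_qExpand_comp p (y * HahnSeries.single ((s : ℕ) : ℤ) (1 : R))]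
  rw [Finset.sum_range]
  refine Finset.sum_congr rfl fun r _ => ?_
  rw [key]
  rfl

/-- The characteristic polynomial of multiplication by `y` on `R((q))` over `R((q^p))`
(coefficients pulled back along `σ`). -/
noncomputable def charpolyσ (y : LaurentSeries R) : Polynomial (LaurentSeries R) :=
  (mulMatrix p y).charpoly

theorem charpolyσ_monic (y : LaurentSeries R) : (charpolyσ p y).Monic :=
  Matrix.charpoly_monic _

theorem charpolyσ_natDegree [Nontrivial R] (y : LaurentSeries R) :
    (charpolyσ p y).natDegree = p := by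
  rw [charpolyσ, Matrix.charpoly_natDegree_eq_dim, Fintype.card_fin]

/-- Cayley–Hamilton: `y` is a root of its characteristic polynomial over `R((q^p))`. -/
theorem eval₂_charpolyσ (y : LaurentSeries R) :
    (charpolyσ p y).eval₂ (qExpand R p) y = 0 := by
  classical
  rw [Polynomial.eval₂_eq_eval_map, charpolyσ, ← Matrix.charpoly_map,
    ← Matrix.charpoly_transpose, Matrix.eval_charpoly]
  set A : Matrix (Fin p) (Fin p) (LaurentSeries R) :=
    Matrix.scalar (Fin p) y - ((mulMatrix p y).map (qExpand R p)).transpose with hA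
  set v : Fin p → LaurentSeries R := fun s => HahnSeries.single ((s : ℕ) : ℤ) (1 : R) with hv
  have hAv : A.mulVec v = 0 := by
    funext s
    simp only [hA, Matrix.sub_mulVec, Pi.sub_apply, Pi.zero_apply]
    rw [sub_eq_zero]
    have h1 : (Matrix.scalar (Fin p) y).mulVec v s = y * v s := by
      simp [Matrix.mulVec, dotProduct, Matrix.scalar_apply, Matrix.diagonal_apply]
    rw [h1, hv]
    simp only
    rw [mul_single_eq_sum p y s]
    simp only [Matrix.mulVec, dotProduct, Matrix.transpose_apply, Matrix.map_apply]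
    refine Finset.sum_congr rfl fun r _ => ?_
    rw [mul_comm]
  have h2 : A.det • v = 0 := by
    have := congrArg (fun B : Matrix (Fin p) (Fin p) (LaurentSeries R) => B.mulVec v)
      (Matrix.adjugate_mul A)
    simp only [← Matrix.mulVec_mulVec, hAv, Matrix.mulVec_zero, Matrix.smul_mulVec,
      Matrix.one_mulVec] at this
    exact this.symm
  have h3 := congrFun h2 ⟨0, Nat.pos_of_ne_zero (NeZero.ne p)⟩
  simpa [hv] using h3

variable {p}

theorem comp_coeffMap {S : Type*} [CommRing S] (f : R →+* S) (r : ℤ) (z : LaurentSeries R) :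
    comp p r (coeffMap f z) = coeffMap f (comp p r z) := by
  ext n
  simp

theorem mulMatrix_coeffMap {S : Type*} [CommRing S] (f : R →+* S) (y : LaurentSeries R) :
    mulMatrix p (coeffMap f y) = (mulMatrix p y).map (coeffMap f) := by
  ext r s : 1
  simp only [mulMatrix, Matrix.map_apply]
  exact comp_coeffMap f _ y

/-- Reduction of coefficients commutes with the characteristic polynomial. -/
theorem charpolyσ_map {S : Type*} [CommRing S] (f : R →+* S) (y : LaurentSeries R) :
    (charpolyσ p y).map (coeffMap f) = charpolyσ p (coeffMap f y) := by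
  rw [charpolyσ, charpolyσ, mulMatrix_coeffMap, Matrix.charpoly_map]

end Ring

section Field

variable {k : Type*} [Field k] {p : ℕ} [NeZero p]

theorem qExpand_ne_zero {x : LaurentSeries k} (hx : x ≠ 0) : qExpand k p x ≠ 0 := by
  intro h
  exact hx (qExpand_injective p (by rw [h, map_zero]))

theorem order_qExpand (x : LaurentSeries k) :
    (qExpand k p x).order = (p : ℤ) * x.order := by
  rcases eq_or_ne x 0 with rfl | hx
  · simp
  have hpos : (0 : ℤ) < p := natCast_pos_of_neZero p
  have hσ : qExpand k p x ≠ 0 := qExpand_ne_zero hx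
  apply le_antisymm
  · apply HahnSeries.order_le_of_coeff_ne_zero
    rw [qExpand_coeff_mul]
    exact HahnSeries.coeff_order_eq_zero.not.mpr hx
  · have h1 : (qExpand k p x).coeff (qExpand k p x).order ≠ 0 :=
      HahnSeries.coeff_order_eq_zero.not.mpr hσ
    have hdvd : (p : ℤ) ∣ (qExpand k p x).order := by
      by_contra hnd
      exact h1 (qExpand_coeff_of_not_dvd p x hnd)
    obtain ⟨m, hm⟩ := hdvd
    rw [hm, qExpand_coeff_mul] at h1
    rw [hm]
    exact mul_le_mul_of_nonneg_left (HahnSeries.order_le_of_coeff_ne_zero h1) hpos.le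

/-- A finite sum of nonzero Laurent series with pairwise distinct orders is nonzero. -/
theorem sum_ne_zero_of_injOn_order {ι : Type*} (s : Finset ι) (hs : s.Nonempty)
    (f : ι → LaurentSeries k) (hf : ∀ i ∈ s, f i ≠ 0)
    (hinj : Set.InjOn (fun i => (f i).order) (s : Set ι)) : ∑ i ∈ s, f i ≠ 0 := by
  obtain ⟨i0, hi0, hmin⟩ := s.exists_min_image (fun i => (f i).order) hs
  intro h
  have hc := congrArg (fun z : LaurentSeries k => z.coeff (f i0).order) h
  simp only [HahnSeries.coeff_sum, HahnSeries.coeff_zero] at hc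
  rw [Finset.sum_eq_single i0] at hc
  · exact (HahnSeries.coeff_order_eq_zero.not.mpr (hf i0 hi0)) hc
  · intro i hi hne
    apply HahnSeries.coeff_eq_zero_of_lt_order
    exact lt_of_le_of_ne (hmin i hi) (fun heq => hne (hinj hi hi0 heq.symm))
  · intro h'
    exact absurd hi0 h'

theorem order_qExpand_mul_pow {y : LaurentSeries k} (hy : y ≠ 0) {a : LaurentSeries k}
    (ha : a ≠ 0) (i : ℕ) :
    (qExpand k p a * y ^ i).order = (p : ℤ) * a.order + (i : ℤ) * y.order := by
  rw [HahnSeries.order_mul (qExpand_ne_zero ha) (pow_ne_zero _ hy), order_qExpand,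
    HahnSeries.order_pow, nsmul_eq_mul]

/-- Arithmetic core: if `p ∣ (i - j) * n` with `n` coprime to `p` and `|i - j| < p`
then `i = j`. -/
theorem eq_of_mul_order_eq {n : ℤ} (hcop : IsCoprime n (p : ℤ)) {i j : ℕ} {u v : ℤ}
    (hij : (i : ℤ) - j < p) (hji : (j : ℤ) - i < p)
    (h : (p : ℤ) * u + (i : ℤ) * n = (p : ℤ) * v + (j : ℤ) * n) : i = j := by
  have h1 : (p : ℤ) ∣ ((i : ℤ) - j) * n := ⟨v - u, by linarith⟩
  have h2 : (p : ℤ) ∣ (i : ℤ) - j := (hcop.symm.dvd_of_dvd_mul_right h1)
  obtain ⟨c, hc⟩ := h2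
  have hp := natCast_pos_of_neZero p
  have hc0 : c = 0 := by
    by_contra hne
    rcases lt_or_gt_of_ne hne with hneg | hpos
    · have : (p : ℤ) * c ≤ (p : ℤ) * (-1) := mul_le_mul_of_nonneg_left (by omega) hp.le
      linarith
    · have : (p : ℤ) * 1 ≤ (p : ℤ) * c := mul_le_mul_of_nonneg_left (by omega) hp.le
      linarith
  rw [hc0, mul_zero] at hc
  have : (i : ℤ) = j := by linarith
  exact_mod_cast this

/-- `1, y, …, y^(p-1)` are linearly independent over `σ(k((q)))` when `ord y` is coprime
to `p`. -/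
theorem eq_zero_of_sum_qExpand_mul_pow_eq_zero {y : LaurentSeries k} (hy : y ≠ 0)
    (hcop : IsCoprime y.order (p : ℤ)) (a : ℕ → LaurentSeries k)
    (h : ∑ i ∈ Finset.range p, qExpand k p (a i) * y ^ i = 0) : ∀ i < p, a i = 0 := by
  classical
  by_contra hne
  push Not at hne
  obtain ⟨i1, hi1, hai1⟩ := hne
  set s := (Finset.range p).filter (fun i => a i ≠ 0) with hs
  have hsne : s.Nonempty := ⟨i1, by simp [hs, hi1, hai1]⟩
  have hsum : ∑ i ∈ s, qExpand k p (a i) * y ^ i = 0 := by
    rw [← h, hs, Finset.sum_filter]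
    refine Finset.sum_congr rfl fun i _ => ?_
    split_ifs with hi
    · rfl
    · push Not at hi
      rw [hi, map_zero, zero_mul]
  refine sum_ne_zero_of_injOn_order s hsne _ ?_ ?_ hsum
  · intro i hi
    have : a i ≠ 0 := (Finset.mem_filter.mp hi).2
    exact mul_ne_zero (qExpand_ne_zero this) (pow_ne_zero _ hy)
  · intro i hi j hj hij
    have hi' := Finset.mem_filter.mp hi
    have hj' := Finset.mem_filter.mp hj
    simp only at hij
    rw [order_qExpand_mul_pow hy hi'.2, order_qExpand_mul_pow hy hj'.2] at hij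
    have hip : i < p := Finset.mem_range.mp hi'.1
    have hjp : j < p := Finset.mem_range.mp hj'.1
    exact eq_of_mul_order_eq hcop (by omega) (by omega) hij

/-- A nonzero polynomial over `k((q^p))` vanishing at `y` has degree at least `p`. -/
theorem le_natDegree_of_eval₂_eq_zero {y : LaurentSeries k} (hy : y ≠ 0)
    (hcop : IsCoprime y.order (p : ℤ)) {Q : Polynomial (LaurentSeries k)} (hQ : Q ≠ 0)
    (h : Q.eval₂ (qExpand k p) y = 0) : p ≤ Q.natDegree := by
  by_contra hlt
  push Not at hlt
  have hsum : ∑ i ∈ Finset.range p, qExpand k p (Q.coeff i) * y ^ i = 0 := by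
    rw [← h, Polynomial.eval₂_eq_sum_range' _ hlt]
  have hz := eq_zero_of_sum_qExpand_mul_pow_eq_zero hy hcop (fun i => Q.coeff i) hsum
  apply hQ
  refine Polynomial.ext fun i => ?_
  rw [Polynomial.coeff_zero]
  by_cases hi : i < p
  · exact hz i hi
  · exact Polynomial.coeff_eq_zero_of_natDegree_lt (by omega)

/-- `charpolyσ p y` divides every polynomial over `k((q^p))` vanishing at `y`. -/
theorem charpolyσ_dvd_of_eval₂_eq_zero {y : LaurentSeries k} (hy : y ≠ 0)
    (hcop : IsCoprime y.order (p : ℤ)) {Q : Polynomial (LaurentSeries k)}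
    (h : Q.eval₂ (qExpand k p) y = 0) : charpolyσ p y ∣ Q := by
  have hP := charpolyσ_monic p y
  have hPd := charpolyσ_natDegree p y
  rw [← Polynomial.modByMonic_eq_zero_iff_dvd hP]
  by_contra hne
  have hmod : (Q %ₘ charpolyσ p y).eval₂ (qExpand k p) y = 0 := by
    have h1 := Polynomial.modByMonic_add_div Q (charpolyσ p y)
    have h2 := congrArg (Polynomial.eval₂ (qExpand k p) y) h1
    rw [Polynomial.eval₂_add, Polynomial.eval₂_mul, eval₂_charpolyσ, zero_mul, add_zero, h] at h2
    exact h2
  have h3 := le_natDegree_of_eval₂_eq_zero hy hcop hne hmod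
  have hp1 : charpolyσ p y ≠ 1 := by
    intro h1
    have := hPd
    rw [h1, Polynomial.natDegree_one] at this
    exact NeZero.ne p this.symm
  have h4 := Polynomial.natDegree_modByMonic_lt Q hP hp1
  omega

/-- Uniqueness of the monic degree-`p` relation. -/
theorem eq_charpolyσ_of_monic {y : LaurentSeries k} (hy : y ≠ 0)
    (hcop : IsCoprime y.order (p : ℤ)) {Q : Polynomial (LaurentSeries k)} (hQ : Q.Monic)
    (hdeg : Q.natDegree = p) (h : Q.eval₂ (qExpand k p) y = 0) : Q = charpolyσ p y := by
  apply Polynomial.eq_of_monic_of_dvd_of_natDegree_le (charpolyσ_monic p y) hQ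
    (charpolyσ_dvd_of_eval₂_eq_zero hy hcop h)
  rw [hdeg, charpolyσ_natDegree]

/-- The minimal polynomial of `y` over `k((q^p))` is irreducible of degree `p`. -/
theorem irreducible_charpolyσ {y : LaurentSeries k} (hy : y ≠ 0)
    (hcop : IsCoprime y.order (p : ℤ)) : Irreducible (charpolyσ p y) := by
  have hP := charpolyσ_monic p y
  have hPd := charpolyσ_natDegree p y
  have hp0 : p ≠ 0 := NeZero.ne p
  refine ⟨?_, ?_⟩
  · intro hu
    have := Polynomial.natDegree_eq_zero_of_isUnit hu
    omega
  · intro A B hAB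
    have hA0 : A ≠ 0 := by
      rintro rfl
      rw [zero_mul] at hAB
      exact hP.ne_zero hAB
    have hB0 : B ≠ 0 := by
      rintro rfl
      rw [mul_zero] at hAB
      exact hP.ne_zero hAB
    have hdeg : A.natDegree + B.natDegree = p := by
      rw [← Polynomial.natDegree_mul hA0 hB0, ← hAB, hPd]
    have hev : A.eval₂ (qExpand k p) y * B.eval₂ (qExpand k p) y = 0 := by
      rw [← Polynomial.eval₂_mul, ← hAB, eval₂_charpolyσ]
    rcases mul_eq_zero.mp hev with hA | hB
    · right
      have := le_natDegree_of_eval₂_eq_zero hy hcop hA0 hA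
      have hB' : B.natDegree = 0 := by omega
      obtain ⟨c, hc⟩ := Polynomial.natDegree_eq_zero.mp hB'
      rw [← hc]
      refine Polynomial.isUnit_C.mpr (isUnit_iff_ne_zero.mpr ?_)
      rintro rfl
      exact hB0 (by rw [← hc, map_zero])
    · left
      have := le_natDegree_of_eval₂_eq_zero hy hcop hB0 hB
      have hA' : A.natDegree = 0 := by omega
      obtain ⟨c, hc⟩ := Polynomial.natDegree_eq_zero.mp hA'
      rw [← hc]
      refine Polynomial.isUnit_C.mpr (isUnit_iff_ne_zero.mpr ?_)
      rintro rfl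
      exact hA0 (by rw [← hc, map_zero])

/-- For `p ≥ 2`, `charpolyσ p y` has no root (it is irreducible of degree `p ≥ 2`). -/
theorem charpolyσ_eval_ne_zero {y : LaurentSeries k} (hy : y ≠ 0)
    (hcop : IsCoprime y.order (p : ℤ)) (hp2 : 2 ≤ p) (c : LaurentSeries k) :
    (charpolyσ p y).eval c ≠ 0 := by
  intro h
  have hirr := irreducible_charpolyσ hy hcop
  have hdvd : (Polynomial.X - Polynomial.C c) ∣ charpolyσ p y :=
    Polynomial.dvd_iff_isRoot.mpr h
  obtain ⟨B, hB⟩ := hdvd
  have hPd := charpolyσ_natDegree p y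
  rcases hirr.isUnit_or_isUnit hB with hu | hu
  · have := Polynomial.natDegree_eq_zero_of_isUnit hu
    rw [Polynomial.natDegree_X_sub_C] at this
    omega
  · have hB0 := Polynomial.natDegree_eq_zero_of_isUnit hu
    have hne : B ≠ 0 := hu.ne_zero
    have : (charpolyσ p y).natDegree = 1 + 0 := by
      rw [hB, Polynomial.natDegree_mul (Polynomial.X_sub_C_ne_zero c) hne,
        Polynomial.natDegree_X_sub_C, hB0]
    omega

/-- Newton polygon: the constant coefficient of a monic degree-`p` polynomial over `k((q^p))`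
vanishing at `y` is nonzero and has the same order as `y` (so the norm of `y` has order
`p * ord y` in `q`). -/
theorem order_coeff_zero_of_monic {y : LaurentSeries k} (hy : y ≠ 0)
    (hcop : IsCoprime y.order (p : ℤ)) {Q : Polynomial (LaurentSeries k)} (hQ : Q.Monic)
    (hdeg : Q.natDegree = p) (h : Q.eval₂ (qExpand k p) y = 0) :
    Q.coeff 0 ≠ 0 ∧ (Q.coeff 0).order = y.order := by
  classical
  by_contra hcon
  have hp := natCast_pos_of_neZero p
  have hp0 : p ≠ 0 := NeZero.ne p
  have hlead : Q.coeff p = 1 := by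
    have := hQ.coeff_natDegree
    rwa [hdeg] at this
  set s := (Finset.range (p + 1)).filter (fun i => Q.coeff i ≠ 0) with hs
  have hps : p ∈ s := by
    simp [hs, hlead]
  have hsum : ∑ i ∈ s, qExpand k p (Q.coeff i) * y ^ i = 0 := by
    rw [← h, Polynomial.eval₂_eq_sum_range' (qExpand k p) (n := p + 1) (by omega), hs,
      Finset.sum_filter]
    refine Finset.sum_congr rfl fun i _ => ?_
    split_ifs with hi
    · rfl
    · push Not at hi
      rw [hi, map_zero, zero_mul]
  refine sum_ne_zero_of_injOn_order s ⟨p, hps⟩ _ ?_ ?_ hsum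
  · intro i hi
    have : Q.coeff i ≠ 0 := (Finset.mem_filter.mp hi).2
    exact mul_ne_zero (qExpand_ne_zero this) (pow_ne_zero _ hy)
  · -- injectivity of orders, using the negation of the conclusion
    have key : ∀ i ∈ s, ∀ j ∈ s, i ≤ j →
        (qExpand k p (Q.coeff i) * y ^ i).order = (qExpand k p (Q.coeff j) * y ^ j).order →
        i = j := by
      intro i hi j hj hle hij
      have hi' := Finset.mem_filter.mp hi
      have hj' := Finset.mem_filter.mp hj
      rw [order_qExpand_mul_pow hy hi'.2, order_qExpand_mul_pow hy hj'.2] at hij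
      have hip : i < p + 1 := Finset.mem_range.mp hi'.1
      have hjp : j < p + 1 := Finset.mem_range.mp hj'.1
      by_cases hcase : i = 0 ∧ j = p
      · exfalso
        obtain ⟨rfl, rfl⟩ := hcase
        apply hcon
        refine ⟨hi'.2, ?_⟩
        rw [hlead] at hij
        have h1 : (1 : LaurentSeries k).order = 0 := HahnSeries.order_one
        rw [h1] at hij
        simp only [Nat.cast_zero, zero_mul, add_zero, mul_zero, zero_add] at hij
        exact mul_left_cancel₀ hp.ne' hij
      · exact eq_of_mul_order_eq hcop (by omega) (by omega) hij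
    intro i hi j hj hij
    rcases le_total i j with hle | hle
    · exact key i hi j hj hle hij
    · exact (key j hj i hi hle hij.symm).symm

theorem order_coeff_zero_charpolyσ {y : LaurentSeries k} (hy : y ≠ 0)
    (hcop : IsCoprime y.order (p : ℤ)) :
    (charpolyσ p y).coeff 0 ≠ 0 ∧ ((charpolyσ p y).coeff 0).order = y.order :=
  order_coeff_zero_of_monic hy hcop (charpolyσ_monic p y) (charpolyσ_natDegree p y)
    (eval₂_charpolyσ p y)

end Field

end Fermat.Agent.S28
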