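import Mathlib
import Fermat.Agent.S28.LaurentRank

/-!
# S28 — prime level: formal consequences of the two modular relations

Setting: `k` a field, `L = k((q))`, `σ = qExpand k p` (`q ↦ q^p`).  Everything here is pure algebra on
Laurent series; the modular relations enter as hypotheses.

* `eq_X_sub_C_mul_charpolyσ` : a monic `Q ∈ L[X]` of degree `p + 1` with a root `c` and with
  `σ(Q)(y) = 0` (`ord y` prime to `p`, `p ≥ 2`) is `(X - c) * charpolyσ p y`.
* `aeval_ne_zero_of_order_neg`, `order_aeval_of_order_neg` : for `ord j < 0`, `f ↦ f(j)` is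
  injective on `k[Y]` and `ord f(j) = deg f * ord j`.
* `natDegree_minpoly_of_map_eq` : abstract dichotomy.  If `Q₀ ∈ E[X]` is monic and becomes
  `(X - u) * P` over `L ⊇ E` with `P` irreducible over `L`, then `u ∈ E` or `minpoly E u = Q₀`.
* `le_natDegree_of_eval₂_aeval_eq_zero` : the Igusa step at prime level.
-/

set_option autoImplicit false

namespace Fermat.Agent.S28

open ModularCurve Polynomial

section Factor

variable {k : Type*} [Field k] {p : ℕ} [NeZero p]

/-- (A) Factorisation.  A monic polynomial `Q` of degree `p + 1` over `k((q))` which has a root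
`c` and whose `σ`-twist vanishes at `y` (with `ord y` prime to `p`, `p ≥ 2`) is
`(X - c) * charpolyσ p y`. -/
theorem eq_X_sub_C_mul_charpolyσ {y : LaurentSeries k} (hy : y ≠ 0)
    (hcop : IsCoprime y.order (p : ℤ)) (hp2 : 2 ≤ p)
    {Q : Polynomial (LaurentSeries k)} (hQ : Q.Monic) (hdeg : Q.natDegree = p + 1)
    (h : Q.eval₂ (qExpand k p) y = 0) {c : LaurentSeries k} (hc : Q.eval c = 0) :
    Q = (X - C c) * charpolyσ p y := by
  obtain ⟨B, hB⟩ := charpolyσ_dvd_of_eval₂_eq_zero hy hcop h
  have hP := charpolyσ_monic p y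
  have hPd := charpolyσ_natDegree p y
  have hBm : B.Monic := hP.of_mul_monic_left (hB ▸ hQ)
  have hBd : B.natDegree = 1 := by
    have := congrArg Polynomial.natDegree hB
    rw [hP.natDegree_mul hBm, hdeg, hPd] at this
    omega
  have hBX : B = X + C (B.coeff 0) := hBm.eq_X_add_C hBd
  have hev : (charpolyσ p y).eval c * B.eval c = 0 := by
    rw [← Polynomial.eval_mul, ← hB, hc]
  have hBc : B.eval c = 0 := by
    rcases mul_eq_zero.mp hev with h1 | h1
    · exact absurd h1 (charpolyσ_eval_ne_zero hy hcop hp2 c)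
    · exact h1
  have hb : B.coeff 0 = -c := by
    rw [hBX] at hBc
    simp only [eval_add, eval_X, eval_C] at hBc
    exact eq_neg_of_add_eq_zero_right hBc
  rw [hB, mul_comm, hBX, hb, map_neg, sub_eq_add_neg]

end Factor

section OrderAeval

variable {k : Type*} [Field k]

theorem algebraMap_eq_hahnC (c : k) :
    algebraMap k (LaurentSeries k) c = (HahnSeries.C c : LaurentSeries k) := by
  rw [ModularCurve.algebraMap_laurentSeries_eq_single, HahnSeries.C_apply]

/-- For `ord j < 0` and `f ≠ 0`: `f(j) ≠ 0`, `ord f(j) = deg f * ord j` and the leading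
coefficient of `f(j)` is `lc(f) * lc(j) ^ deg f`. -/
theorem aeval_ne_zero_and_order {j : LaurentSeries k} (hj : j.order < 0) :
    ∀ (n : ℕ) (f : Polynomial k), f.natDegree = n → f ≠ 0 →
      Polynomial.aeval j f ≠ 0 ∧ (Polynomial.aeval j f).order = (n : ℤ) * j.order ∧
      (Polynomial.aeval j f).leadingCoeff = f.leadingCoeff * j.leadingCoeff ^ n := by
  have hj0 : j ≠ 0 := by
    rintro rfl
    simp at hj
  intro n
  induction n with
  | zero =>
    intro f hf hf0
    obtain ⟨c, rfl⟩ := Polynomial.natDegree_eq_zero.mp hf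
    have hc : c ≠ 0 := by
      rintro rfl
      exact hf0 (map_zero _)
    rw [Polynomial.aeval_C, algebraMap_eq_hahnC]
    refine ⟨HahnSeries.C_ne_zero hc, by rw [HahnSeries.order_C]; simp, ?_⟩
    rw [HahnSeries.C_apply, HahnSeries.leadingCoeff_of_single, Polynomial.leadingCoeff_C,
      pow_zero, mul_one]
  | succ n ih =>
    intro f hf hf0
    have hdiv : f.divX.natDegree = n := by
      rw [Polynomial.natDegree_divX_eq_natDegree_tsub_one, hf]
      rfl
    have hdiv0 : f.divX ≠ 0 := by
      intro h0
      have := Polynomial.divX_mul_X_add f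
      rw [h0, zero_mul, zero_add] at this
      rw [← this, Polynomial.natDegree_C] at hf
      omega
    obtain ⟨h1, h2, h2'⟩ := ih f.divX hdiv hdiv0
    have hsplit : Polynomial.aeval j f =
        Polynomial.aeval j f.divX * j + HahnSeries.C (f.coeff 0) := by
      conv_lhs => rw [← Polynomial.divX_mul_X_add f]
      rw [map_add, map_mul, Polynomial.aeval_X, Polynomial.aeval_C, algebraMap_eq_hahnC]
    have hA : Polynomial.aeval j f.divX * j ≠ 0 := mul_ne_zero h1 hj0
    have hAo : (Polynomial.aeval j f.divX * j).order = ((n + 1 : ℕ) : ℤ) * j.order := by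
      rw [HahnSeries.order_mul h1 hj0, h2]
      push_cast
      ring
    have hAneg : (Polynomial.aeval j f.divX * j).order < 0 := by
      rw [hAo]
      have : (0 : ℤ) < ((n + 1 : ℕ) : ℤ) := by positivity
      exact mul_neg_of_pos_of_neg this hj
    have hlt : (Polynomial.aeval j f.divX * j).orderTop <
        (HahnSeries.C (f.coeff 0) : LaurentSeries k).orderTop := by
      by_cases hc : f.coeff 0 = 0
      · rw [hc, map_zero, HahnSeries.orderTop_zero]
        exact WithTop.lt_top_iff_ne_top.mpr (HahnSeries.orderTop_ne_top.mpr hA)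
      · rw [HahnSeries.orderTop_of_ne_zero hA,
          HahnSeries.orderTop_of_ne_zero (HahnSeries.C_ne_zero hc), WithTop.coe_lt_coe,
          ← HahnSeries.order_of_ne hA, ← HahnSeries.order_of_ne (HahnSeries.C_ne_zero hc),
          HahnSeries.order_C]
        exact hAneg
    have htop := HahnSeries.orderTop_add_eq_left hlt
    have hne : Polynomial.aeval j f ≠ 0 := by
      rw [hsplit]
      intro h0
      rw [h0, HahnSeries.orderTop_zero] at htop
      exact HahnSeries.orderTop_ne_top.mpr hA htop.symm
    refine ⟨hne, ?_, ?_⟩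
    · rw [← hAo]
      have h3 : ((Polynomial.aeval j f).order : WithTop ℤ) =
          ((Polynomial.aeval j f.divX * j).order : WithTop ℤ) := by
        rw [HahnSeries.order_eq_orderTop_of_ne_zero hne,
          HahnSeries.order_eq_orderTop_of_ne_zero hA, hsplit]
        exact htop
      exact_mod_cast h3
    · have hlc : f.divX.leadingCoeff = f.leadingCoeff := by
        rw [Polynomial.leadingCoeff, Polynomial.leadingCoeff, hdiv, hf, Polynomial.coeff_divX]
      rw [hsplit, HahnSeries.leadingCoeff_add_eq_left hlt, HahnSeries.leadingCoeff_mul, h2', hlc,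
        pow_succ, mul_assoc]

theorem aeval_ne_zero_of_order_neg {j : LaurentSeries k} (hj : j.order < 0)
    {f : Polynomial k} (hf : f ≠ 0) : Polynomial.aeval j f ≠ 0 :=
  (aeval_ne_zero_and_order hj f.natDegree f rfl hf).1

theorem order_aeval_of_order_neg {j : LaurentSeries k} (hj : j.order < 0)
    {f : Polynomial k} (hf : f ≠ 0) :
    (Polynomial.aeval j f).order = (f.natDegree : ℤ) * j.order :=
  (aeval_ne_zero_and_order hj f.natDegree f rfl hf).2.1

theorem leadingCoeff_aeval_of_order_neg {j : LaurentSeries k} (hj : j.order < 0)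
    {f : Polynomial k} (hf : f ≠ 0) :
    (Polynomial.aeval j f).leadingCoeff = f.leadingCoeff * j.leadingCoeff ^ f.natDegree :=
  (aeval_ne_zero_and_order hj f.natDegree f rfl hf).2.2

theorem aeval_injective_of_order_neg {j : LaurentSeries k} (hj : j.order < 0) :
    Function.Injective (Polynomial.aeval (R := k) j) := by
  rw [injective_iff_map_eq_zero]
  intro f hf
  by_contra h
  exact aeval_ne_zero_of_order_neg hj h hf

/-- A polynomial in `j` (`ord j < 0`) has order `≤ 0`. -/
theorem order_aeval_nonpos {j : LaurentSeries k} (hj : j.order < 0) (f : Polynomial k) :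
    (Polynomial.aeval j f).order ≤ 0 := by
  rcases eq_or_ne f 0 with rfl | hf
  · simp
  rw [order_aeval_of_order_neg hj hf]
  exact mul_nonpos_of_nonneg_of_nonpos (by positivity) hj.le

end OrderAeval

section Dichotomy

variable {E L : Type*} [Field E] [Field L] [Algebra E L]

/-- Abstract dichotomy.  If the monic `Q₀ ∈ E[X]` becomes `(X - u) * P` over `L ⊇ E` with `P`
irreducible over `L`, then `u ∈ E` or `Q₀` is the minimal polynomial of `u` over `E`. -/
theorem mem_range_or_minpoly_eq {Q₀ : Polynomial E} (hQ₀ : Q₀.Monic) {u : L}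
    {P : Polynomial L} (hP : Irreducible P)
    (hfac : Q₀.map (algebraMap E L) = (X - Polynomial.C u) * P) :
    u ∈ Set.range (algebraMap E L) ∨ minpoly E u = Q₀ := by
  have hu : Polynomial.aeval u Q₀ = 0 := by
    rw [Polynomial.aeval_def, Polynomial.eval₂_eq_eval_map, hfac]
    simp
  have hint : IsIntegral E u := ⟨Q₀, hQ₀, hu⟩
  have hdvd : minpoly E u ∣ Q₀ := minpoly.dvd E u hu
  have hm := minpoly.monic hint
  have hroot : ((minpoly E u).map (algebraMap E L)).IsRoot u := by
    rw [Polynomial.IsRoot, Polynomial.eval_map, ← Polynomial.aeval_def]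
    exact minpoly.aeval E u
  obtain ⟨B, hB⟩ := Polynomial.dvd_iff_isRoot.mpr hroot
  have hdvd' : (minpoly E u).map (algebraMap E L) ∣ (X - Polynomial.C u) * P :=
    hfac ▸ Polynomial.map_dvd _ hdvd
  rw [hB] at hdvd'
  have hBP : B ∣ P := (mul_dvd_mul_iff_left (Polynomial.X_sub_C_ne_zero u)).mp hdvd'
  have hBm : B.Monic :=
    (Polynomial.monic_X_sub_C u).of_mul_monic_left (hB ▸ hm.map (algebraMap E L))
  have hdegm : (minpoly E u).natDegree = 1 + B.natDegree := by
    have := congrArg Polynomial.natDegree hB
    rwa [Polynomial.natDegree_map, (Polynomial.monic_X_sub_C u).natDegree_mul hBm,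
      Polynomial.natDegree_X_sub_C] at this
  rcases hP.dvd_iff.mp hBP with hunit | hassoc
  · left
    have hB1 : B = 1 := hBm.eq_one_of_isUnit hunit
    have hd1 : (minpoly E u).natDegree = 1 := by
      rw [hdegm, hB1, Polynomial.natDegree_one]
    have hd1' : (minpoly E u).degree = 1 := by
      rw [Polynomial.degree_eq_natDegree hm.ne_zero, hd1]
      rfl
    exact minpoly.mem_range_of_degree_eq_one E u hd1'
  · right
    have hPB : P.natDegree = B.natDegree := Polynomial.natDegree_eq_of_degree_eq
      (Polynomial.degree_eq_degree_of_associated hassoc)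
    have hQd : Q₀.natDegree = 1 + P.natDegree := by
      have := congrArg Polynomial.natDegree hfac
      rwa [Polynomial.natDegree_map, Polynomial.natDegree_mul (Polynomial.X_sub_C_ne_zero u)
        hP.ne_zero, Polynomial.natDegree_X_sub_C] at this
    exact (Polynomial.eq_of_monic_of_dvd_of_natDegree_le hm hQ₀ hdvd (by omega)).symm

end Dichotomy

section Igusa

variable {k : Type*} [Field k] {p : ℕ} [NeZero p]

theorem qExpand_algebraMap (c : k) :
    qExpand k p (algebraMap k (LaurentSeries k) c) = algebraMap k (LaurentSeries k) c := by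
  rw [algebraMap_eq_hahnC, qExpand_C]

/-- `f(σ j) = σ(f(j))`. -/
theorem aeval_qExpand (j : LaurentSeries k) (f : Polynomial k) :
    Polynomial.aeval (qExpand k p j) f = qExpand k p (Polynomial.aeval j f) := by
  rw [Polynomial.aeval_def, Polynomial.aeval_def, Polynomial.hom_eval₂]
  congr 1
  ext c
  exact congrArg (fun z : LaurentSeries k => z.coeff _) (qExpand_algebraMap c).symm

theorem aeval_qExpand_ringHom (j : LaurentSeries k) :
    (Polynomial.aeval (R := k) (qExpand k p j)).toRingHom =
      (qExpand k p).comp (Polynomial.aeval (R := k) j).toRingHom := by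
  ext f
  · simp only [AlgHom.toRingHom_eq_coe, RingHom.coe_comp, RingHom.coe_coe, Function.comp_apply,
      Polynomial.aeval_C]
    rw [qExpand_algebraMap]
  · simp only [AlgHom.toRingHom_eq_coe, RingHom.coe_comp, RingHom.coe_coe, Function.comp_apply,
      Polynomial.aeval_X]

/-- General form over an arbitrary subfield `E` of `k((q))` (any field `E` with an algebra
structure on `k((q))`): if the monic `Q₀ ∈ E[X]` of degree `p + 1` has the root `c ∉ E` and its
`σ`-twist vanishes at `y` (`ord y` prime to `p`), then `Q₀` is the minimal polynomial of `c`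
over `E`. -/
theorem minpoly_eq_of_not_mem_range {E : Type*} [Field E] [Algebra E (LaurentSeries k)]
    {y c : LaurentSeries k} (hy : y ≠ 0) (hcop : IsCoprime y.order (p : ℤ)) (hp2 : 2 ≤ p)
    {Q₀ : Polynomial E} (hQ₀ : Q₀.Monic) (hdeg : Q₀.natDegree = p + 1)
    (hc : Polynomial.aeval c Q₀ = 0)
    (hyσ : (Q₀.map (algebraMap E (LaurentSeries k))).eval₂ (qExpand k p) y = 0)
    (hnot : c ∉ Set.range (algebraMap E (LaurentSeries k))) :
    minpoly E c = Q₀ := by
  have hfac := eq_X_sub_C_mul_charpolyσ hy hcop hp2 (hQ₀.map (algebraMap E (LaurentSeries k)))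
    (by rw [Polynomial.natDegree_map, hdeg]) hyσ (c := c)
    (by rw [Polynomial.eval_map, ← Polynomial.aeval_def]; exact hc)
  rcases mem_range_or_minpoly_eq hQ₀ (irreducible_charpolyσ hy hcop) hfac with h | h
  · exact absurd h hnot
  · exact h

/-- **Igusa step at prime level.**  Let `ord j < 0`, `ord u > 0`, `ord u'` prime to `p ≥ 2`,
and let `W ∈ k[Y][X]` be monic of `X`-degree `p + 1` with `W(u, j) = 0` and `W(u', σ j) = 0`.
Then every nonzero `G ∈ k[Y][X]` with `G(u, j) = 0` has `X`-degree at least `p + 1`, i.e.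
`[k(j, u) : k(j)] = p + 1`. -/
theorem le_natDegree_of_eval₂_aeval_eq_zero {j u u' : LaurentSeries k} (hj : j.order < 0)
    (hu : 0 < u.order) (hu' : u' ≠ 0) (hcop : IsCoprime u'.order (p : ℤ)) (hp2 : 2 ≤ p)
    {W : Polynomial (Polynomial k)} (hW : W.Monic) (hWd : W.natDegree = p + 1)
    (h1 : W.eval₂ (Polynomial.aeval (R := k) j).toRingHom u = 0)
    (h2 : W.eval₂ (Polynomial.aeval (R := k) (qExpand k p j)).toRingHom u' = 0)
    {G : Polynomial (Polynomial k)} (hG : G ≠ 0)
    (hGu : G.eval₂ (Polynomial.aeval (R := k) j).toRingHom u = 0) :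
    p + 1 ≤ G.natDegree := by
  classical
  set g : Polynomial k →+* LaurentSeries k := (Polynomial.aeval (R := k) j).toRingHom with hg
  have hginj : Function.Injective g := aeval_injective_of_order_neg hj
  let φ : RatFunc k →+* LaurentSeries k := IsFractionRing.lift (K := RatFunc k) hginj
  have hφ : ∀ f : Polynomial k, φ (algebraMap (Polynomial k) (RatFunc k) f) = g f :=
    fun f => IsFractionRing.lift_algebraMap hginj f
  have hφc : φ.comp (algebraMap (Polynomial k) (RatFunc k)) = g := RingHom.ext hφ
  let _ : Algebra (RatFunc k) (LaurentSeries k) := φ.toAlgebra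
  have halg : algebraMap (RatFunc k) (LaurentSeries k) = φ := rfl
  set Q₀ : Polynomial (RatFunc k) := W.map (algebraMap (Polynomial k) (RatFunc k)) with hQ₀
  have hQ₀m : Q₀.Monic := hW.map _
  have hQ₀d : Q₀.natDegree = p + 1 := by
    rw [hQ₀, hW.natDegree_map, hWd]
  have hmap : Q₀.map (algebraMap (RatFunc k) (LaurentSeries k)) = W.map g := by
    rw [hQ₀, Polynomial.map_map, halg, hφc]
  have hc : Polynomial.aeval u Q₀ = 0 := by
    rw [Polynomial.aeval_def, Polynomial.eval₂_eq_eval_map, hmap, Polynomial.eval_map]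
    exact h1
  have hyσ : (Q₀.map (algebraMap (RatFunc k) (LaurentSeries k))).eval₂ (qExpand k p) u' = 0 := by
    rw [hmap, Polynomial.eval₂_map, hg, ← aeval_qExpand_ringHom]
    exact h2
  have hnot : u ∉ Set.range (algebraMap (RatFunc k) (LaurentSeries k)) := by
    rintro ⟨r, hr⟩
    have hrint : IsIntegral (Polynomial k) r := by
      refine ⟨W, hW, ?_⟩
      have hinj : Function.Injective φ := φ.injective
      apply hinj
      rw [map_zero, Polynomial.hom_eval₂, hφc, ← halg, hr]
      exact h1
    obtain ⟨f, hf⟩ := IsIntegrallyClosed.isIntegral_iff.mp hrint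
    have huf : u = Polynomial.aeval j f := by
      rw [← hr, ← hf, halg, hφ]
      rfl
    have := order_aeval_nonpos hj f
    rw [← huf] at this
    omega
  have hmin := minpoly_eq_of_not_mem_range hu' hcop hp2 hQ₀m hQ₀d hc hyσ hnot
  have hG0 : G.map (algebraMap (Polynomial k) (RatFunc k)) ≠ 0 := by
    rw [Ne, Polynomial.map_eq_zero_iff (IsFractionRing.injective (Polynomial k) (RatFunc k))]
    exact hG
  have hGroot : Polynomial.aeval u (G.map (algebraMap (Polynomial k) (RatFunc k))) = 0 := by
    rw [Polynomial.aeval_def, Polynomial.eval₂_map, halg, hφc]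
    exact hGu
  have hdvd := minpoly.dvd (RatFunc k) u hGroot
  rw [hmin] at hdvd
  have := Polynomial.natDegree_le_of_dvd hdvd hG0
  rw [hQ₀d] at this
  exact this.trans Polynomial.natDegree_map_le

end Igusa

end Fermat.Agent.S28
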