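import Mathlib
import Fermat.Prelude.Thm_ModularCurve_coeffMap_qExpand
import Fermat.Agent.S28.PrimeLevel

/-!
# S28 — descent of the modular relations to a subring and transfer to any coefficient ring

`ι : R →+* k₀` injective (`R ⊂ ℂ`), `j, u, u' ∈ R((q))`, the lowest coefficient of `j` a unit of `R`
in negative degree.  A monic `W ∈ k₀[Y][X]` of `X`-degree `p + 1` with `W(u, j) = 0` and
`W(u', σ j) = 0` over `k₀((q))` has coefficients in `R[Y]`, and the same relations hold over
`R((q))`, hence over `S((q))` for every ring hom `R →+* S`.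
-/

set_option autoImplicit false

namespace Fermat.Agent.S28

open ModularCurve Polynomial

section CoeffMapAeval

variable {R S : Type*} [CommRing R] [CommRing S]

theorem algebraMap_eq_hahnC' (c : R) :
    algebraMap R (LaurentSeries R) c = (HahnSeries.C c : LaurentSeries R) := by
  rw [HahnSeries.algebraMap_apply']
  simp

theorem coeffMap_hahnC (g : R →+* S) (c : R) :
    coeffMap g (HahnSeries.C c : LaurentSeries R) = (HahnSeries.C (g c) : LaurentSeries S) := by
  rw [HahnSeries.C_apply, HahnSeries.C_apply, coeffMap_single]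

theorem coeffMap_comp_algebraMap (g : R →+* S) :
    (coeffMap g).comp (algebraMap R (LaurentSeries R)) =
      (algebraMap S (LaurentSeries S)).comp g := by
  ext c : 1
  simp only [RingHom.coe_comp, Function.comp_apply]
  rw [algebraMap_eq_hahnC', algebraMap_eq_hahnC', coeffMap_hahnC]

theorem coeffMap_aeval (g : R →+* S) (j : LaurentSeries R) (f : Polynomial R) :
    coeffMap g (Polynomial.aeval j f) = Polynomial.aeval (coeffMap g j) (f.map g) := by
  rw [Polynomial.aeval_def, Polynomial.aeval_def, Polynomial.hom_eval₂, Polynomial.eval₂_map,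
    coeffMap_comp_algebraMap]

theorem coeffMap_comp_aeval (g : R →+* S) (j : LaurentSeries R) :
    (coeffMap g).comp (Polynomial.aeval (R := R) j).toRingHom =
      (Polynomial.aeval (R := S) (coeffMap g j)).toRingHom.comp (Polynomial.mapRingHom g) := by
  refine RingHom.ext fun f => ?_
  simp only [RingHom.coe_comp, Function.comp_apply, AlgHom.toRingHom_eq_coe, RingHom.coe_coe,
    Polynomial.coe_mapRingHom]
  exact coeffMap_aeval g j f

/-- Transfer of a two-variable relation along a coefficient map. -/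
theorem coeffMap_eval₂_aeval (g : R →+* S) (j u : LaurentSeries R)
    (W : Polynomial (Polynomial R)) :
    coeffMap g (W.eval₂ (Polynomial.aeval (R := R) j).toRingHom u) =
      (W.map (Polynomial.mapRingHom g)).eval₂
        (Polynomial.aeval (R := S) (coeffMap g j)).toRingHom (coeffMap g u) := by
  rw [Polynomial.hom_eval₂, Polynomial.eval₂_map, coeffMap_comp_aeval]

theorem coeffMap_injective {g : R →+* S} (hg : Function.Injective g) :
    Function.Injective (coeffMap g) := by
  intro x y h
  ext n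
  apply hg
  have := congrArg (fun z : LaurentSeries S => z.coeff n) h
  simpa using this

end CoeffMapAeval

section Descent

variable {R k : Type*} [CommRing R] [Field k]

/-- Order and leading coefficient of the image of `j` when its lowest coefficient is a unit. -/
theorem order_coeffMap_of_isUnit (ι : R →+* k) {j : LaurentSeries R} {m : ℤ}
    (hlow : ∀ i < m, j.coeff i = 0) (hunit : IsUnit (j.coeff m)) :
    coeffMap ι j ≠ 0 ∧ (coeffMap ι j).order = m ∧ (coeffMap ι j).leadingCoeff = ι (j.coeff m) := by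
  have hne : ι (j.coeff m) ≠ 0 := (hunit.map ι).ne_zero
  have hc : (coeffMap ι j).coeff m ≠ 0 := by
    rw [coeffMap_coeff]
    exact hne
  have h0 : coeffMap ι j ≠ 0 := by
    intro h
    rw [h] at hc
    exact hc rfl
  have hord : (coeffMap ι j).order = m := by
    apply le_antisymm (HahnSeries.order_le_of_coeff_ne_zero hc)
    by_contra hlt
    push Not at hlt
    have := HahnSeries.coeff_order_eq_zero.not.mpr h0
    apply this
    rw [coeffMap_coeff, hlow _ hlt, map_zero]
  refine ⟨h0, hord, ?_⟩
  rw [HahnSeries.leadingCoeff_eq, hord, coeffMap_coeff]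

/-- Descent for polynomials in `j`: if `f ∈ k[Y]` and `f(ι j) ∈ ι(R((q)))` then `f ∈ ι(R[Y])`. -/
theorem exists_map_eq_of_aeval_mem_range_aux (ι : R →+* k) {j : LaurentSeries R} {m : ℤ}
    (hm : m < 0) (hlow : ∀ i < m, j.coeff i = 0) (hunit : IsUnit (j.coeff m)) :
    ∀ (n : ℕ) (f : Polynomial k), f.natDegree < n →
      (∃ z : LaurentSeries R, coeffMap ι z = Polynomial.aeval (coeffMap ι j) f) →
      ∃ f' : Polynomial R, f'.map ι = f := by
  obtain ⟨hj0, hjo, hjl⟩ := order_coeffMap_of_isUnit ι hlow hunit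
  have hjneg : (coeffMap ι j).order < 0 := by rw [hjo]; exact hm
  obtain ⟨v, hv⟩ := hunit.exists_left_inv
  intro n
  induction n with
  | zero => intro f hf; omega
  | succ n ih =>
    intro f hf ⟨z, hz⟩
    rcases eq_or_ne f 0 with rfl | hf0
    · exact ⟨0, Polynomial.map_zero _⟩
    set d := f.natDegree with hd
    set a' : R := z.coeff ((d : ℤ) * m) * v ^ d with ha'
    have hlead : ι a' = f.leadingCoeff := by
      have h1 := leadingCoeff_aeval_of_order_neg hjneg hf0
      have h2 := order_aeval_of_order_neg hjneg hf0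
      rw [HahnSeries.leadingCoeff_eq, h2, ← hz, coeffMap_coeff, hjl, hjo, ← hd] at h1
      rw [ha', map_mul, map_pow, h1, mul_assoc, ← mul_pow, ← map_mul, mul_comm (j.coeff m), hv,
        map_one, one_pow, mul_one]
    have herase : ∃ f₁' : Polynomial R, f₁'.map ι = f.eraseLead := by
      rcases Polynomial.eraseLead_natDegree_lt_or_eraseLead_eq_zero f with hlt | h0
      · apply ih f.eraseLead (by omega)
        refine ⟨z - HahnSeries.C a' * j ^ d, ?_⟩
        rw [map_sub, map_mul, map_pow, coeffMap_hahnC, hz, hlead]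
        have h3 := Polynomial.eraseLead_add_monomial_natDegree_leadingCoeff f
        have h4 := congrArg (Polynomial.aeval (coeffMap ι j)) h3
        rw [map_add, Polynomial.aeval_monomial, algebraMap_eq_hahnC, ← hd] at h4
        rw [← h4]
        ring
      · exact ⟨0, by rw [h0, Polynomial.map_zero]⟩
    obtain ⟨f₁', hf₁'⟩ := herase
    refine ⟨f₁' + Polynomial.monomial d a', ?_⟩
    rw [Polynomial.map_add, Polynomial.map_monomial, hf₁', hlead]
    exact Polynomial.eraseLead_add_monomial_natDegree_leadingCoeff f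

theorem exists_map_eq_of_aeval_mem_range (ι : R →+* k) {j : LaurentSeries R} {m : ℤ}
    (hm : m < 0) (hlow : ∀ i < m, j.coeff i = 0) (hunit : IsUnit (j.coeff m))
    (f : Polynomial k) (z : LaurentSeries R)
    (hz : coeffMap ι z = Polynomial.aeval (coeffMap ι j) f) :
    ∃ f' : Polynomial R, f'.map ι = f :=
  exists_map_eq_of_aeval_mem_range_aux ι hm hlow hunit (f.natDegree + 1) f (Nat.lt_succ_self _)
    ⟨z, hz⟩

/-- Descent for two-variable polynomials: if `W(X, ι j) ∈ k((q))[X]` has all coefficients in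
`ι(R((q)))` then `W ∈ ι(R[Y][X])`. -/
theorem exists_map_eq_of_map_aeval_eq (ι : R →+* k) {j : LaurentSeries R} {m : ℤ}
    (hm : m < 0) (hlow : ∀ i < m, j.coeff i = 0) (hunit : IsUnit (j.coeff m))
    (W : Polynomial (Polynomial k)) (Z : Polynomial (LaurentSeries R))
    (h : W.map (Polynomial.aeval (R := k) (coeffMap ι j)).toRingHom = Z.map (coeffMap ι)) :
    W ∈ Polynomial.lifts (Polynomial.mapRingHom ι) := by
  rw [Polynomial.lifts_iff_coeff_lifts]
  intro i
  have hi := congrArg (fun P : Polynomial (LaurentSeries k) => P.coeff i) h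
  simp only [Polynomial.coeff_map] at hi
  obtain ⟨f', hf'⟩ := exists_map_eq_of_aeval_mem_range ι hm hlow hunit (W.coeff i) (Z.coeff i)
    hi.symm
  exact ⟨f', hf'⟩

end Descent

section Transfer

variable {R k₀ : Type*} [CommRing R] [Field k₀] {p : ℕ} [NeZero p]

/-- **Descent of the prime-level relation.**  `ι : R →+* k₀` injective, `j, u, u' ∈ R((q))`, the
lowest coefficient of `j` a unit in degree `m < 0`, `ord (ι u')` prime to `p ≥ 2`.  A monic
`W ∈ k₀[Y][X]` of degree `p + 1` with `W(ι u, ι j) = 0` and `W(ι u', σ (ι j)) = 0` comes from a monic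
`W' ∈ R[Y][X]` of degree `p + 1` with `W'(u, j) = 0` and `W'(u', σ j) = 0` in `R((q))`. -/
theorem exists_descent (ι : R →+* k₀) (hι : Function.Injective ι) (hp2 : 2 ≤ p)
    {j u u' : LaurentSeries R} {m : ℤ} (hm : m < 0) (hlow : ∀ i < m, j.coeff i = 0)
    (hunit : IsUnit (j.coeff m))
    (hu' : coeffMap ι u' ≠ 0) (hcop : IsCoprime (coeffMap ι u').order (p : ℤ))
    {W : Polynomial (Polynomial k₀)} (hW : W.Monic) (hWd : W.natDegree = p + 1)
    (h1 : W.eval₂ (Polynomial.aeval (R := k₀) (coeffMap ι j)).toRingHom (coeffMap ι u) = 0)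
    (h2 : W.eval₂ (Polynomial.aeval (R := k₀) (qExpand k₀ p (coeffMap ι j))).toRingHom
      (coeffMap ι u') = 0) :
    ∃ W' : Polynomial (Polynomial R), W'.Monic ∧ W'.natDegree = p + 1 ∧
      W'.map (Polynomial.mapRingHom ι) = W ∧
      W'.eval₂ (Polynomial.aeval (R := R) j).toRingHom u = 0 ∧
      W'.eval₂ (Polynomial.aeval (R := R) (qExpand R p j)).toRingHom u' = 0 := by
  set g : Polynomial k₀ →+* LaurentSeries k₀ :=
    (Polynomial.aeval (R := k₀) (coeffMap ι j)).toRingHom with hg
  have hfac := eq_X_sub_C_mul_charpolyσ hu' hcop hp2 (Q := W.map g) (hW.map g)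
    (by rw [hW.natDegree_map, hWd])
    (by rw [Polynomial.eval₂_map, hg, ← aeval_qExpand_ringHom]; exact h2)
    (c := coeffMap ι u) (by rw [Polynomial.eval_map]; exact h1)
  have hZ : W.map g = ((X - Polynomial.C u) * charpolyσ p u').map (coeffMap ι) := by
    rw [hfac, Polynomial.map_mul, Polynomial.map_sub, Polynomial.map_X, Polynomial.map_C,
      charpolyσ_map]
  have hlift := exists_map_eq_of_map_aeval_eq ι hm hlow hunit W _ hZ
  obtain ⟨W', hW'map, hW'deg, hW'm⟩ := Polynomial.lifts_and_natDegree_eq_and_monic hlift hW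
  refine ⟨W', hW'm, by rw [hW'deg, hWd], hW'map, ?_, ?_⟩
  · apply coeffMap_injective hι
    rw [coeffMap_eval₂_aeval, map_zero]
    rw [show Polynomial.map (Polynomial.mapRingHom ι) W' = W from hW'map]
    exact h1
  · apply coeffMap_injective hι
    rw [coeffMap_eval₂_aeval, map_zero, coeffMap_qExpand]
    rw [show Polynomial.map (Polynomial.mapRingHom ι) W' = W from hW'map]
    exact h2

/-- **Prime-level Igusa, packaged.**  From the relation `W` over a field `k₀ ⊇ R` (e.g. `ℂ`) to the
degree statement over any field `k` with a ring hom `g : R →+* k` (e.g. `ℤ_(ℓ) → 𝔽_ℓ`):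
every nonzero `G ∈ k[Y][X]` with `G(ū, j̄) = 0` has `X`-degree `≥ p + 1`. -/
theorem le_natDegree_of_descent {k : Type*} [Field k] (ι : R →+* k₀)
    (hι : Function.Injective ι) (g : R →+* k) (hp2 : 2 ≤ p)
    {j u u' : LaurentSeries R} {m : ℤ} (hm : m < 0) (hlow : ∀ i < m, j.coeff i = 0)
    (hunit : IsUnit (j.coeff m))
    (hu'₀ : coeffMap ι u' ≠ 0) (hcop₀ : IsCoprime (coeffMap ι u').order (p : ℤ))
    {W : Polynomial (Polynomial k₀)} (hW : W.Monic) (hWd : W.natDegree = p + 1)
    (h1 : W.eval₂ (Polynomial.aeval (R := k₀) (coeffMap ι j)).toRingHom (coeffMap ι u) = 0)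
    (h2 : W.eval₂ (Polynomial.aeval (R := k₀) (qExpand k₀ p (coeffMap ι j))).toRingHom
      (coeffMap ι u') = 0)
    (hu : 0 < (coeffMap g u).order) (hu' : coeffMap g u' ≠ 0)
    (hcop : IsCoprime (coeffMap g u').order (p : ℤ))
    {G : Polynomial (Polynomial k)} (hG : G ≠ 0)
    (hGu : G.eval₂ (Polynomial.aeval (R := k) (coeffMap g j)).toRingHom (coeffMap g u) = 0) :
    p + 1 ≤ G.natDegree := by
  obtain ⟨W', hW'm, hW'd, -, hr1, hr2⟩ :=
    exists_descent ι hι hp2 hm hlow hunit hu'₀ hcop₀ hW hWd h1 h2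
  obtain ⟨-, hjo, -⟩ := order_coeffMap_of_isUnit g hlow hunit
  have hjneg : (coeffMap g j).order < 0 := by rw [hjo]; exact hm
  have hWk : (W'.map (Polynomial.mapRingHom g)).Monic := hW'm.map _
  have hWkd : (W'.map (Polynomial.mapRingHom g)).natDegree = p + 1 := by
    rw [hW'm.natDegree_map, hW'd]
  have e1 := coeffMap_eval₂_aeval g j u W'
  rw [hr1, map_zero] at e1
  have e2 := coeffMap_eval₂_aeval g (qExpand R p j) u' W'
  rw [hr2, map_zero, coeffMap_qExpand] at e2
  exact le_natDegree_of_eval₂_aeval_eq_zero hjneg hu hu' hcop hp2 hWk hWkd e1.symm e2.symm hG hGu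

end Transfer

end Fermat.Agent.S28
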