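import Mathlib
import Fermat.Prelude.Def_ModularCurve_IgusaScheme
import Fermat.Prelude.Def_ModularCurve_X0ModL

/-!
# S28 (Igusa) — shared definitions and interfaces (helper90)

Everything is phrased with formal Laurent series `LaurentSeries R` (`R = ℤ, ℚ, ℂ, ℤ_(ℓ)`, or a field).
* `jqModC R` (prelude) is the formal `j`, `qExpand R d` (prelude) is `q ↦ q^d`, `coeffMap f` (prelude) changes
  coefficients.
* `deltaS R` is the formal `Δ = q ∏ (1 - q^n)^24`, `uS R p = Δ(q^p)/Δ(q)`.
-/

set_option autoImplicit false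

noncomputable section

open HahnSeries ModularCurve

namespace Fermat.Agent.S28

/-- The formal discriminant `Δ = q ∏ (1 - q^n)^24` with integer coefficients. -/
def deltaZ : LaurentSeries ℤ :=
  HahnSeries.single (1 : ℤ) (1 : ℤ) * HahnSeries.ofPowerSeries ℤ ℤ dedekindEtaUnit

/-- The formal `Δ⁻¹ = q⁻¹ ∏ (1 - q^n)^(-24)` with integer coefficients. -/
def deltaInvZ : LaurentSeries ℤ :=
  HahnSeries.single (-1 : ℤ) (1 : ℤ) * HahnSeries.ofPowerSeries ℤ ℤ dedekindEtaUnitInv

/-- The formal modular unit `u_p = Δ(q^p)/Δ(q)` with integer coefficients. -/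
def uZ (p : ℕ) [NeZero p] : LaurentSeries ℤ := qExpand ℤ p deltaZ * deltaInvZ

/-- The formal discriminant over a commutative ring `R`. -/
def deltaS (R : Type*) [CommRing R] : LaurentSeries R := coeffMap (Int.castRingHom R) deltaZ

/-- The formal `Δ⁻¹` over a commutative ring `R`. -/
def deltaInvS (R : Type*) [CommRing R] : LaurentSeries R := coeffMap (Int.castRingHom R) deltaInvZ

/-- The formal modular unit `u_p = Δ(q^p)/Δ(q)` over a commutative ring `R`. -/
def uS (R : Type*) [CommRing R] (p : ℕ) [NeZero p] : LaurentSeries R :=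
  coeffMap (Int.castRingHom R) (uZ p)

/-- `P(x, y)` for `P ∈ R[Y][X]` (outer variable `X ↦ x`, inner variable `Y ↦ y`), in a commutative `R`-algebra. -/
def eval2 {R A : Type*} [CommRing R] [CommRing A] [Algebra R A] (P : Polynomial (Polynomial R)) (x y : A) : A :=
  P.eval₂ (Polynomial.aeval y : Polynomial R →ₐ[R] A).toRingHom x

end Fermat.Agent.S28
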