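import Fermat.Agent.S28.ScaleForm

/-!
# S28 — the Fricke substitution `τ ↦ -1/(Nτ)` and the analytic modular equation

* `fricke N τ = S • (N τ) = -1/(Nτ)`; `scaleN_fricke : N · fricke N τ = S • τ`; `fricke_fricke`.
* `Jfun_fricke : J(fricke N τ) = J(Nτ)`, `Jfun_scaleN_fricke : J(N · fricke N τ) = J(τ)`.
* `unit_fricke : Δ(N·w)/Δ(w) = N^(-12) · Δ(τ)/Δ(Nτ)` for `w = fricke N τ`.
* `fricke_transfer` : a polynomial relation `Φ(f(τ), J(τ)) = 0` gives `Φ(f(w τ), J(Nτ)) = 0`.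
* `modEq_analytic` : the modular equation `Φ(J(pτ), J(τ)) = 0 = Φ(J(τ), J(pτ))`, `Φ` monic of
  degree `p + 1` over `ℂ[Y]`.
* `Jfun_scaleN_not_poly` : `J(Nτ)` is not a polynomial in `J(τ)` (`N ≥ 2`).
-/

set_option autoImplicit false

noncomputable section

namespace Fermat.Agent.S28

open UpperHalfPlane ModularForm SlashInvariantForm Polynomial Filter
open Fermat.Agent.S23 Fermat.Agent.S24
open scoped MatrixGroups ModularForm Manifold Topology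

local notation "Δ" => ModularForm.discriminant
local notation "𝕢" => Function.Periodic.qParam

/-- The Fricke substitution `τ ↦ -1/(Nτ)`. -/
def fricke (N : ℕ) [NeZero N] (τ : ℍ) : ℍ := ModularGroup.S • scaleN N τ

theorem coe_S_smul (z : ℍ) : ((ModularGroup.S • z : ℍ) : ℂ) = (-(z : ℂ))⁻¹ := by
  rw [UpperHalfPlane.modular_S_smul]

theorem coe_fricke (N : ℕ) [NeZero N] (τ : ℍ) :
    ((fricke N τ : ℍ) : ℂ) = (-((N : ℂ) * (τ : ℂ)))⁻¹ := by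
  rw [fricke, coe_S_smul, coe_scaleN]

theorem scaleN_fricke (N : ℕ) [NeZero N] (τ : ℍ) :
    scaleN N (fricke N τ) = ModularGroup.S • τ := by
  apply UpperHalfPlane.ext
  have hN : (N : ℂ) ≠ 0 := by exact_mod_cast NeZero.ne N
  have hτ : (τ : ℂ) ≠ 0 := UpperHalfPlane.ne_zero τ
  rw [coe_scaleN, coe_fricke, coe_S_smul]
  field_simp

theorem fricke_fricke (N : ℕ) [NeZero N] (τ : ℍ) : fricke N (fricke N τ) = τ := by
  apply UpperHalfPlane.ext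
  have hN : (N : ℂ) ≠ 0 := by exact_mod_cast NeZero.ne N
  have hτ : (τ : ℂ) ≠ 0 := UpperHalfPlane.ne_zero τ
  rw [coe_fricke, coe_fricke]
  field_simp

theorem S_smul_S_smul (τ : ℍ) : ModularGroup.S • (ModularGroup.S • τ) = τ := by
  apply UpperHalfPlane.ext
  have hτ : (τ : ℂ) ≠ 0 := UpperHalfPlane.ne_zero τ
  rw [coe_S_smul, coe_S_smul]
  field_simp

theorem S_smul_fricke (N : ℕ) [NeZero N] (τ : ℍ) :
    ModularGroup.S • fricke N τ = scaleN N τ := by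
  rw [fricke, S_smul_S_smul]

theorem Jfun_fricke (N : ℕ) [NeZero N] (τ : ℍ) : Jfun (fricke N τ) = Jfun (scaleN N τ) := by
  rw [fricke, Jfun_smul]

theorem Jfun_scaleN_fricke (N : ℕ) [NeZero N] (τ : ℍ) :
    Jfun (scaleN N (fricke N τ)) = Jfun τ := by
  rw [scaleN_fricke, Jfun_smul]

/-- `Δ(-1/z) = z^12 Δ(z)`. -/
theorem discriminant_S_smul (z : ℍ) : Δ (ModularGroup.S • z) = (z : ℂ) ^ 12 * Δ z := by
  have h := P8_discriminant_smul ModularGroup.S z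
  rw [h]
  simp [ModularGroup.S]

/-- The modular unit `Δ(Nτ)/Δ(τ)` is inverted (up to `N^(-12)`) by the Fricke substitution. -/
theorem unit_fricke (N : ℕ) [NeZero N] (τ : ℍ) :
    Δ (scaleN N (fricke N τ)) / Δ (fricke N τ) =
      ((N : ℂ) ^ 12)⁻¹ * (Δ τ / Δ (scaleN N τ)) := by
  have hN : (N : ℂ) ≠ 0 := by exact_mod_cast NeZero.ne N
  have hτ : (τ : ℂ) ≠ 0 := UpperHalfPlane.ne_zero τ
  have h1 : Δ τ ≠ 0 := discriminant_ne_zero τ
  have h2 : Δ (scaleN N τ) ≠ 0 := discriminant_ne_zero _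
  rw [scaleN_fricke, fricke, discriminant_S_smul, discriminant_S_smul, coe_scaleN]
  field_simp

/-- **Fricke transfer**: a relation `Φ(f(τ), J(τ)) = 0` on `ℍ` gives
`Φ(f(-1/(Nτ)), J(Nτ)) = 0` on `ℍ`. -/
theorem fricke_transfer (N : ℕ) [NeZero N] (f : ℍ → ℂ) (Φ : (ℂ[X])[X])
    (h : ∀ τ : ℍ, Φ.eval₂ (evalRingHom (Jfun τ)) (f τ) = 0) (τ : ℍ) :
    Φ.eval₂ (evalRingHom (Jfun (scaleN N τ))) (f (fricke N τ)) = 0 := by
  have := h (fricke N τ)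
  rwa [Jfun_fricke] at this

/-- **The modular equation (analytic form)**: there is `Φ ∈ ℂ[Y][X]`, monic of degree `p + 1`
in `X`, with `Φ(J(pτ), J(τ)) = 0` and `Φ(J(τ), J(pτ)) = 0`. -/
theorem modEq_analytic (p : ℕ) [NeZero p] (hp : p.Prime) :
    ∃ Φ : (ℂ[X])[X], Φ.Monic ∧ Φ.natDegree = p + 1 ∧
      (∀ τ : ℍ, Φ.eval₂ (evalRingHom (Jfun τ)) (Jfun (scaleN p τ)) = 0) ∧
      (∀ τ : ℍ, Φ.eval₂ (evalRingHom (Jfun (scaleN p τ))) (Jfun τ) = 0) := by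
  obtain ⟨Φ, hmonic, hdeg, hΦ⟩ := (isModFun_Jfun_scaleN p).exists_normPoly
  refine ⟨Φ, hmonic, by rw [hdeg, cosetCard_prime hp], hΦ, fun τ => ?_⟩
  have := fricke_transfer p (fun z => Jfun (scaleN p z)) Φ hΦ τ
  rwa [Jfun_scaleN_fricke] at this

theorem qParam_scaleN (N : ℕ) [NeZero N] (z : ℍ) :
    𝕢 1 (scaleN N z : ℂ) = 𝕢 1 (z : ℂ) ^ N := P7_qParam_scaleN N z

/-- `J(Mτ) = J(τ)` for all `τ` is impossible for `M ≥ 2`. -/
theorem Jfun_scaleN_ne (M : ℕ) [NeZero M] (hM : 2 ≤ M) :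
    ¬ ∀ τ : ℍ, Jfun (scaleN M τ) = Jfun τ := by
  intro h
  have h1 : Tendsto (fun τ : ℍ => 𝕢 1 τ * Jfun τ) atImInfty (𝓝 1) := tendsto_qParam_mul_Jfun
  have h2 : Tendsto (fun τ : ℍ => 𝕢 1 (scaleN M τ) * Jfun (scaleN M τ)) atImInfty (𝓝 1) :=
    h1.comp (P7_tendsto_scaleN_atImInfty M)
  have hq : Tendsto (fun τ : ℍ => 𝕢 1 (τ : ℂ)) atImInfty (𝓝 0) :=
    UpperHalfPlane.qParam_tendsto_atImInfty one_pos
  have hq' : Tendsto (fun τ : ℍ => 𝕢 1 (τ : ℂ) ^ (M - 1)) atImInfty (𝓝 0) := by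
    have := hq.pow (M - 1)
    rwa [zero_pow (by omega)] at this
  have h3 : Tendsto (fun τ : ℍ => 𝕢 1 (τ : ℂ) ^ (M - 1) * (𝕢 1 τ * Jfun τ)) atImInfty
      (𝓝 (0 * 1)) := hq'.mul h1
  have e : (fun τ : ℍ => 𝕢 1 (scaleN M τ) * Jfun (scaleN M τ)) =
      fun τ : ℍ => 𝕢 1 (τ : ℂ) ^ (M - 1) * (𝕢 1 τ * Jfun τ) := by
    funext τ
    rw [qParam_scaleN, h τ, ← mul_assoc, ← pow_succ, Nat.sub_add_cancel (by omega)]
  rw [e] at h2
  rw [zero_mul] at h3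
  exact zero_ne_one (tendsto_nhds_unique h3 h2)

/-- **(P3), analytic form**: `J(Nτ)` is not a polynomial in `J(τ)` (`N ≥ 2`). -/
theorem Jfun_scaleN_not_poly (N : ℕ) [NeZero N] (hN : 2 ≤ N) (P : ℂ[X]) :
    ¬ ∀ τ : ℍ, Jfun (scaleN N τ) = P.eval (Jfun τ) := by
  intro h
  have : NeZero (N * N) := ⟨Nat.mul_ne_zero (NeZero.ne N) (NeZero.ne N)⟩
  refine Jfun_scaleN_ne (N * N) (by nlinarith) fun σ => ?_
  -- `J(N·(S•τ)) = J(Nτ)` for all `τ`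
  have hS : ∀ τ : ℍ, Jfun (scaleN N (ModularGroup.S • τ)) = Jfun (scaleN N τ) := by
    intro τ
    rw [h, h, Jfun_smul]
  have h1 := hS (fricke N σ)
  rw [S_smul_fricke, Jfun_scaleN_fricke] at h1
  have e : scaleN (N * N) σ = scaleN N (scaleN N σ) := by
    apply UpperHalfPlane.ext
    simp only [coe_scaleN]
    push_cast
    ring
  rw [e, h1]

end Fermat.Agent.S28
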