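import Fermat.Agent.S28.Bridge
import Fermat.Agent.S28.Fricke
import Fermat.Agent.S28.Defs
import Fermat.Prelude.Thm_ModularCurve_coeffMap_qExpand

/-!
# S28 (P2): the modular unit `u_p = Δ(q^p)/Δ(q)`

For a prime `p` there is a monic `U ∈ ℂ[Y][X]` of `X`-degree `p + 1` with `U(u_p, j) = 0` and
`U(p⁻¹² / u_p, j(q^p)) = 0`:

* `modUnit_analytic` : the two relations for the functions `Δ(pτ)/Δ(τ)`, `J(τ)`, `J(pτ)` on `ℍ`;
* `modUnit_laurent`, `modUnit_exists` : the same relations for formal Laurent series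
  (`jqModC ℂ`, `uS ℂ p` of `S28/Defs.lean`).
-/

set_option autoImplicit false

noncomputable section

namespace Fermat.Agent.S28

open UpperHalfPlane ModularForm Polynomial ModularCurve
open Fermat.Agent.S23 Fermat.Agent.S24
open scoped MatrixGroups ModularForm Manifold

local notation "Δ" => ModularForm.discriminant

/-- **(P2), analytic form.** -/
theorem modUnit_analytic (p : ℕ) [NeZero p] (hp : p.Prime) :
    ∃ U : (ℂ[X])[X], U.Monic ∧ U.natDegree = p + 1 ∧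
      (∀ τ : ℍ, U.eval₂ (evalRingHom (Jfun τ)) (Δ (scaleN p τ) / Δ τ) = 0) ∧
      (∀ τ : ℍ, U.eval₂ (evalRingHom (Jfun (scaleN p τ)))
        (((p : ℂ) ^ 12)⁻¹ * (Δ τ / Δ (scaleN p τ))) = 0) := by
  obtain ⟨U, hmonic, hdeg, hU⟩ := (isModFun_unit p).exists_normPoly
  refine ⟨U, hmonic, by rw [hdeg, cosetCard_prime hp], hU, fun τ => ?_⟩
  have := fricke_transfer p (fun z => Δ (scaleN p z) / Δ z) U hU τ
  rwa [unit_fricke] at this

/-- **(P2), Laurent form** (with the formal discriminant `deltaL` of `Bridge.lean`). -/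
theorem modUnit_laurent (p : ℕ) [NeZero p] (hp : p.Prime) :
    ∃ U : (ℂ[X])[X], U.Monic ∧ U.natDegree = p + 1 ∧
      U.eval₂ (aeval (R := ℂ) (jqModC ℂ)).toRingHom (qExpand ℂ p deltaL * deltaL⁻¹) = 0 ∧
      U.eval₂ (aeval (R := ℂ) (qExpand ℂ p (jqModC ℂ))).toRingHom
        (HahnSeries.C (((p : ℂ) ^ 12)⁻¹) * (deltaL * (qExpand ℂ p deltaL)⁻¹)) = 0 := by
  obtain ⟨U, hmonic, hdeg, h1, h2⟩ := modUnit_analytic p hp
  refine ⟨U, hmonic, hdeg, ?_, ?_⟩
  · have := laurentOf_eval₂ U (isModFun_unit p).isMerInf isMerInf_Jfun h1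
    rwa [laurentOf_Jfun, laurentOf_unit] at this
  · have hinv : IsMerInf (fun z => Δ z / Δ (scaleN p z)) := (isModFun_unit_inv p).isMerInf
    have hc : IsMerInf ((((p : ℂ) ^ 12)⁻¹) • fun z => Δ z / Δ (scaleN p z)) :=
      (isMerInf_const _).mul hinv
    have := laurentOf_eval₂ U hc (isMerInf_comp_scaleN p isMerInf_Jfun) h2
    rwa [laurentOf_Jfun_scaleN, laurentOf_smul _ hinv, laurentOf_unit_inv] at this

/-! ### Identification with the formal series of `Defs.lean` -/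

theorem modUnit_deltaInvZ_mul_deltaZ : deltaInvZ * deltaZ = 1 := by
  rw [deltaInvZ, deltaZ]
  have h1 : (HahnSeries.single (-1 : ℤ) (1 : ℤ)) * HahnSeries.single (1 : ℤ) (1 : ℤ) = 1 := by
    rw [HahnSeries.single_mul_single]
    simp
  calc HahnSeries.single (-1 : ℤ) (1 : ℤ) * HahnSeries.ofPowerSeries ℤ ℤ dedekindEtaUnitInv *
        (HahnSeries.single (1 : ℤ) (1 : ℤ) * HahnSeries.ofPowerSeries ℤ ℤ dedekindEtaUnit)
      = (HahnSeries.single (-1 : ℤ) (1 : ℤ) * HahnSeries.single (1 : ℤ) (1 : ℤ)) *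
        (HahnSeries.ofPowerSeries ℤ ℤ dedekindEtaUnit *
          HahnSeries.ofPowerSeries ℤ ℤ dedekindEtaUnitInv) := by ring
    _ = 1 := by rw [h1, one_mul, ← map_mul, dedekindEtaUnit_mul_inv, map_one]

theorem deltaInvS_mul_deltaS (R : Type*) [CommRing R] : deltaInvS R * deltaS R = 1 := by
  rw [deltaInvS, deltaS, ← map_mul, modUnit_deltaInvZ_mul_deltaZ, map_one]

theorem uS_eq (R : Type*) [CommRing R] (p : ℕ) [NeZero p] :
    uS R p = qExpand R p (deltaS R) * deltaInvS R := by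
  rw [uS, uZ, map_mul, coeffMap_qExpand]
  rfl

theorem deltaS_complex : deltaS ℂ = deltaL := by
  rw [deltaS, deltaZ, map_mul, coeffMap_single, map_one, coeffMap_ofPowerSeries, deltaL]

theorem deltaInvS_complex : deltaInvS ℂ = deltaL⁻¹ := by
  have h := deltaInvS_mul_deltaS ℂ
  rw [deltaS_complex] at h
  exact eq_inv_of_mul_eq_one_left h

theorem uS_complex (p : ℕ) [NeZero p] : uS ℂ p = qExpand ℂ p deltaL * deltaL⁻¹ := by
  rw [uS_eq, deltaS_complex, deltaInvS_complex]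

theorem uS_complex_ne_zero (p : ℕ) [NeZero p] : uS ℂ p ≠ 0 := by
  rw [uS_complex]
  exact mul_ne_zero (qExpand_deltaL_ne_zero p) (inv_ne_zero deltaL_ne_zero)

theorem uS_complex_inv (p : ℕ) [NeZero p] : (uS ℂ p)⁻¹ = deltaL * (qExpand ℂ p deltaL)⁻¹ := by
  rw [uS_complex, mul_inv, inv_inv, mul_comm]

/-- The Laurent expansion of `Δ(pτ)/Δ(τ)` is the formal unit `uS ℂ p`. -/
theorem laurentOf_unit_eq_uS (p : ℕ) [NeZero p] :
    laurentOf (fun z => Δ (scaleN p z) / Δ z) = uS ℂ p := by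
  rw [laurentOf_unit, uS_complex]

/-- The Laurent expansion of `Δ` is the formal `deltaS ℂ`. -/
theorem laurentOf_discriminant_eq_deltaS : laurentOf (Δ : ℍ → ℂ) = deltaS ℂ := by
  rw [laurentOf_discriminant, deltaS_complex]

/-- **(P2), Laurent form** with the formal unit `uS ℂ p` of `Defs.lean`:
`U(u, j) = 0` and `U(p⁻¹² · u⁻¹, j(q^p)) = 0`. -/
theorem modUnit_exists (p : ℕ) [NeZero p] (hp : p.Prime) :
    ∃ U : (ℂ[X])[X], U.Monic ∧ U.natDegree = p + 1 ∧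
      U.eval₂ (aeval (R := ℂ) (jqModC ℂ)).toRingHom (uS ℂ p) = 0 ∧
      U.eval₂ (aeval (R := ℂ) (qExpand ℂ p (jqModC ℂ))).toRingHom
        (HahnSeries.C (((p : ℂ) ^ 12)⁻¹) * (uS ℂ p)⁻¹) = 0 := by
  obtain ⟨U, hmonic, hdeg, h1, h2⟩ := modUnit_laurent p hp
  refine ⟨U, hmonic, hdeg, ?_, ?_⟩
  · rwa [uS_complex]
  · rwa [uS_complex_inv]

/-- `modUnit_exists` in terms of `eval2` of `Defs.lean`. -/
theorem modUnit_exists_eval2 (p : ℕ) [NeZero p] (hp : p.Prime) :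
    ∃ U : (ℂ[X])[X], U.Monic ∧ U.natDegree = p + 1 ∧
      eval2 U (uS ℂ p) (jqModC ℂ) = 0 ∧
      eval2 U (HahnSeries.C (((p : ℂ) ^ 12)⁻¹) * (uS ℂ p)⁻¹) (qExpand ℂ p (jqModC ℂ)) = 0 :=
  modUnit_exists p hp

end Fermat.Agent.S28
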