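import Fermat.Agent.S28.CPrime
import Fermat.Agent.S28.Bridge
import Fermat.Agent.S28.Deriv
import Fermat.Agent.S28.DerivBridge
import Fermat.Agent.S28.ModUnit
import Fermat.Agent.S28.Descent

/-!
# S28 (c'), Laurent form: `(θ j)^6 = A(j) · Δ` in `ℂ((q))`
-/

set_option autoImplicit false

noncomputable section

namespace Fermat.Agent.S28.CPrime

open UpperHalfPlane ModularForm Derivative Polynomial EisensteinSeries
open Fermat.Agent.S23 Fermat.Agent.S24 Fermat.Agent.S20 Fermat.Agent.S28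
open scoped MatrixGroups ModularForm Manifold

local notation "Δ" => ModularForm.discriminant

/-- The derivative bridge (statement): `q`-expansion of `D g` is `θ` of the `q`-expansion of `g`. -/
def DerivBridgeStmt : Prop :=
  ∀ g : ℍ → ℂ, IsHPB g →
    IsHPB (D g) ∧ ∀ n : ℕ, (qExpansion 1 (D g)).coeff n = (n : ℂ) * (qExpansion 1 g).coeff n

theorem thetaFun_ofPowerSeries (P : PowerSeries ℂ) (Q : PowerSeries ℂ)
    (h : ∀ n : ℕ, Q.coeff n = (n : ℂ) * P.coeff n) :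
    Deriv.thetaFun (HahnSeries.ofPowerSeries ℤ ℂ P) = HahnSeries.ofPowerSeries ℤ ℂ Q := by
  ext n
  rw [Deriv.thetaFun_coeff]
  rcases le_or_gt 0 n with hn | hn
  · lift n to ℕ using hn
    rw [HahnSeries.ofPowerSeries_apply_coeff, HahnSeries.ofPowerSeries_apply_coeff, h]
    simp
  · rw [ModularCurve.ofPowerSeries_coeff_of_neg _ hn, ModularCurve.ofPowerSeries_coeff_of_neg _ hn,
      mul_zero]

theorem laurentOf_D (hDB : DerivBridgeStmt) {g : ℍ → ℂ} (hg : IsHPB g) :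
    laurentOf (D g) = Deriv.thetaFun (laurentOf g) := by
  obtain ⟨h1, h2⟩ := hDB g hg
  rw [laurentOf_of_isHPB h1, laurentOf_of_isHPB hg]
  exact (thetaFun_ofPowerSeries _ _ h2).symm

theorem isHPB_E4_cube : IsHPB (fun z : ℍ => E₄ z ^ 3) :=
  (IsMF.of_levelOne (N := 1) isMF_E4_cube).isHPB

theorem isHPB_hTwo : IsHPB hTwo := (IsMF.of_levelOne (N := 1) isMF_hTwo).isHPB

theorem isMerInf_DJ : IsMerInf (D Jfun) := by
  refine ⟨2, ?_⟩
  convert isHPB_hTwo using 1
  ext z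
  simp only [hTwo]
  ring

/-- `Δ² · D J = Δ · D(E₄³) − E₄³ · D Δ`. -/
theorem hTwo_eq' : hTwo = (Δ : ℍ → ℂ) * D (fun z : ℍ => E₄ z ^ 3)
    - (fun z : ℍ => E₄ z ^ 3) * D (Δ : ℍ → ℂ) := by
  rw [hTwo_eq]
  ext z
  simp only [Pi.sub_apply, Pi.mul_apply, serreDerivative_apply]
  ring

theorem laurentOf_E4_cube :
    laurentOf (fun z : ℍ => E₄ z ^ 3) = ModularCurve.jqModC ℂ * deltaL := by
  have hE : (fun z : ℍ => E₄ z ^ 3) = Jfun * (Δ : ℍ → ℂ) := by
    ext z
    simp only [Pi.mul_apply]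
    rw [Jfun_def, div_mul_cancel₀ _ (discriminant_ne_zero z)]
  rw [hE, laurentOf_mul isMerInf_Jfun isMerInf_discriminant, laurentOf_Jfun,
    laurentOf_discriminant]

theorem laurentOf_sub' {f g : ℍ → ℂ} (hf : IsMerInf f) (hg : IsMerInf g) :
    laurentOf (f - g) = laurentOf f - laurentOf g :=
  map_sub laurentExp (⟨f, hf⟩ : merInf) (⟨g, hg⟩ : merInf)

/-- The Laurent expansion of `D J` is `θ j`. -/
theorem laurentOf_DJ (hDB : DerivBridgeStmt) :
    laurentOf (D Jfun) = Deriv.thetaFun (ModularCurve.jqModC ℂ) := by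
  have hΔ : IsHPB (Δ : ℍ → ℂ) := bridge_isHPB_discriminant
  have hE := isHPB_E4_cube
  have hDΔ := (hDB _ hΔ).1
  have hDE := (hDB _ hE).1
  -- expansion of `hTwo` in two ways
  have h1 : laurentOf hTwo = deltaL ^ 2 * laurentOf (D Jfun) := by
    have : hTwo = ((Δ : ℍ → ℂ) ^ 2) * D Jfun := by
      ext z
      simp [hTwo]
    have hΔ2 : IsMerInf ((Δ : ℍ → ℂ) ^ 2) :=
      Subalgebra.pow_mem merInf (x := (Δ : ℍ → ℂ)) isMerInf_discriminant 2
    rw [this, laurentOf_mul hΔ2 isMerInf_DJ,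
      laurentOf_pow isMerInf_discriminant, laurentOf_discriminant]
  have h2 : laurentOf hTwo = deltaL * Deriv.thetaFun (ModularCurve.jqModC ℂ * deltaL)
      - ModularCurve.jqModC ℂ * deltaL * Deriv.thetaFun deltaL := by
    have mΔ := IsHPB.isMerInf hΔ
    have mE := IsHPB.isMerInf hE
    have mDΔ := IsHPB.isMerInf hDΔ
    have mDE := IsHPB.isMerInf hDE
    rw [hTwo_eq', laurentOf_sub' (mΔ.mul mDE) (mE.mul mDΔ),
      laurentOf_mul mΔ mDE, laurentOf_mul mE mDΔ,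
      laurentOf_D hDB hE, laurentOf_D hDB hΔ, laurentOf_E4_cube, laurentOf_discriminant]
  have h3 : deltaL ^ 2 * laurentOf (D Jfun)
      = deltaL ^ 2 * Deriv.thetaFun (ModularCurve.jqModC ℂ) := by
    rw [← h1, h2, Deriv.thetaFun_mul]
    ring
  exact mul_left_cancel₀ (pow_ne_zero 2 deltaL_ne_zero) h3

/-- **(c') in Laurent form over `ℂ`.** -/
theorem exists_poly_theta (hDB : DerivBridgeStmt) :
    ∃ A : ℂ[X], Deriv.thetaFun (ModularCurve.jqModC ℂ) ^ 6
      = aeval (ModularCurve.jqModC ℂ) A * deltaL := by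
  obtain ⟨A, hA⟩ := exists_poly_DJ
  refine ⟨A, ?_⟩
  have hfun : (D Jfun) ^ 6 = (fun τ : ℍ => A.eval (Jfun τ)) * (Δ : ℍ → ℂ) := by
    ext τ
    simpa using hA τ
  have hAJ : IsMerInf (fun τ : ℍ => A.eval (Jfun τ)) := by
    have : (fun τ : ℍ => A.eval (Jfun τ)) = fun τ => D Jfun τ ^ 6 / Δ τ := by
      ext τ
      rw [hA τ, mul_div_assoc, div_self (discriminant_ne_zero τ), mul_one]
    rw [this]
    exact isModFun_DJ.isMerInf
  have h1 := congrArg laurentOf hfun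
  rw [laurentOf_pow isMerInf_DJ, laurentOf_DJ hDB, laurentOf_mul hAJ isMerInf_discriminant,
    laurentOf_discriminant] at h1
  rw [h1]
  congr 1
  -- `laurentOf (A ∘ J) = A(jq)`
  have h2 := laurentOf_eval₂ (X - C A) hAJ isMerInf_Jfun (fun τ => by simp)
  rw [eval₂_sub, eval₂_X, eval₂_C, laurentOf_Jfun] at h2
  exact sub_eq_zero.mp h2

theorem derivBridgeStmt : DerivBridgeStmt := fun _ hg =>
  ⟨isHPB_D hg, fun n => qExpansion_D_coeff hg n⟩

/-- **(c') in Laurent form over `ℂ`**: `(θ j)^6 = A(j) · Δ` in `ℂ((q))`, `θ = q d/dq`. -/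
theorem cprime_complex :
    ∃ A : ℂ[X], Deriv.thetaFun (ModularCurve.jqModC ℂ) ^ 6
      = aeval (ModularCurve.jqModC ℂ) A * deltaS ℂ := by
  rw [deltaS_complex]
  exact exists_poly_theta derivBridgeStmt

end Fermat.Agent.S28.CPrime

namespace Fermat.Agent.S28.CPrime

open HahnSeries ModularCurve Polynomial
open Fermat.Agent.S28

theorem coeffMap_deltaZ (R : Type*) [CommRing R] :
    coeffMap (Int.castRingHom R) deltaZ = deltaS R := rfl

theorem cprime_jq_low : ∀ i < (-1 : ℤ), (jqModC ℤ).coeff i = 0 := fun _ hi =>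
  coeff_jqModC_of_lt ℤ hi

theorem cprime_jq_unit : IsUnit ((jqModC ℤ).coeff (-1)) := by
  rw [coeff_jqModC_neg_one]
  exact isUnit_one

/-- **(c') over `ℤ`**: `(θ j)^6 = G(j) · Δ` in `ℤ((q))` with `G ∈ ℤ[X]`. -/
theorem cprime_int :
    ∃ G : ℤ[X], Deriv.thetaFun (jqModC ℤ) ^ 6 = aeval (jqModC ℤ) G * deltaZ := by
  obtain ⟨A, hA⟩ := cprime_complex
  set ι : ℤ →+* ℂ := Int.castRingHom ℂ with hι
  have hιinj : Function.Injective ι := Int.cast_injective
  have hj : coeffMap ι (jqModC ℤ) = jqModC ℂ := coeffMap_jqModC ι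
  -- `A(j) = ι (θ(j)^6 · Δ⁻¹)`
  have hz : coeffMap ι (Deriv.thetaFun (jqModC ℤ) ^ 6 * deltaInvZ)
      = aeval (coeffMap ι (jqModC ℤ)) A := by
    rw [map_mul, map_pow, ← Deriv.thetaFun_coeffMap, hj, hA]
    have h1 : coeffMap ι deltaInvZ = deltaInvS ℂ := rfl
    rw [h1, mul_assoc, mul_comm (deltaS ℂ), deltaInvS_mul_deltaS, mul_one]
  obtain ⟨G, hG⟩ := exists_map_eq_of_aeval_mem_range ι (by norm_num) cprime_jq_low
    cprime_jq_unit A _ hz
  refine ⟨G, ?_⟩
  apply coeffMap_injective hιinj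
  rw [map_mul, coeffMap_aeval, hG, hj, map_pow, ← Deriv.thetaFun_coeffMap, hj, hA]
  rfl

/-- **(c') over a field `k`**: `(θ j)^6 = G(j) · Δ` in `k((q))` with `0 ≠ G ∈ k[X]`. -/
theorem cprime_field (k : Type*) [Field k] :
    ∃ G : k[X], G ≠ 0 ∧ Deriv.thetaFun (jqModC k) ^ 6 = aeval (jqModC k) G * deltaS k := by
  obtain ⟨G, hG⟩ := cprime_int
  set g : ℤ →+* k := Int.castRingHom k with hg
  have hj : coeffMap g (jqModC ℤ) = jqModC k := coeffMap_jqModC g
  have h := congrArg (coeffMap g) hG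
  rw [map_mul, coeffMap_aeval, hj, map_pow, ← Deriv.thetaFun_coeffMap, hj] at h
  refine ⟨G.map g, ?_, h⟩
  intro h0
  rw [h0, map_zero, zero_mul] at h
  have h1 : Deriv.thetaFun (jqModC k) = 0 := pow_eq_zero_iff (by norm_num) |>.mp h
  have h2 := congrArg (fun x : LaurentSeries k => x.coeff (-1)) h1
  simp only [Deriv.thetaFun_coeff, coeff_jqModC_neg_one, HahnSeries.coeff_zero] at h2
  simp at h2

end Fermat.Agent.S28.CPrime
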