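import Fermat.Agent.S28.Bridge
import Fermat.Agent.S28.Fricke

/-!
# S28 — the modular equation in Laurent form over `ℂ` ((P1) and (P3))

* `modEq_exists` : for `p` prime there is `Φ ∈ ℂ[Y][X]`, monic of degree `p + 1` in `X`, with
  `Φ(j(q^p), j(q)) = 0` and `Φ(j(q), j(q^p)) = 0` in `ℂ((q))`.
* `jp_not_poly` : `j(q^N)` is not a polynomial in `j(q)` over `ℂ` (`N ≥ 2`).
* `jp_not_mem_adjoin` : `j(q^p) ∉ ℂ(j(q))` (`p` prime).
-/

set_option autoImplicit false

noncomputable section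

namespace Fermat.Agent.S28

open UpperHalfPlane ModularForm Polynomial
open Fermat.Agent.S23 Fermat.Agent.S24
open scoped MatrixGroups ModularForm Manifold Topology

/-- **(P1)** the modular equation of prime level `p`, in Laurent form over `ℂ`. -/
theorem modEq_exists (p : ℕ) [NeZero p] (hp : p.Prime) :
    ∃ Φ : Polynomial (Polynomial ℂ), Φ.Monic ∧ Φ.natDegree = p + 1 ∧
      Φ.eval₂ (Polynomial.aeval (ModularCurve.jqModC ℂ)).toRingHom
        (ModularCurve.qExpand ℂ p (ModularCurve.jqModC ℂ)) = 0 ∧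
      Φ.eval₂ (Polynomial.aeval (ModularCurve.qExpand ℂ p (ModularCurve.jqModC ℂ))).toRingHom
        (ModularCurve.jqModC ℂ) = 0 := by
  obtain ⟨Φ, hmonic, hdeg, h1, h2⟩ := modEq_analytic p hp
  have hJ : IsMerInf Jfun := isMerInf_Jfun
  have hJp : IsMerInf (fun z => Jfun (scaleN p z)) := isMerInf_comp_scaleN p hJ
  have e1 : laurentOf Jfun = ModularCurve.jqModC ℂ := laurentOf_Jfun
  have e2 : laurentOf (fun z => Jfun (scaleN p z)) =
      ModularCurve.qExpand ℂ p (ModularCurve.jqModC ℂ) := by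
    rw [laurentOf_comp_scaleN p hJ, laurentOf_Jfun]
  refine ⟨Φ, hmonic, hdeg, ?_, ?_⟩
  · have := laurentOf_eval₂ Φ hJp hJ h1
    rwa [e1, e2] at this
  · have := laurentOf_eval₂ Φ hJ hJp h2
    rwa [e1, e2] at this

/-- **(P3)** `j(q^N)` is not a polynomial in `j(q)` (`N ≥ 2`), in Laurent form over `ℂ`. -/
theorem jp_not_poly (N : ℕ) [NeZero N] (hN : 2 ≤ N) (P : Polynomial ℂ) :
    Polynomial.aeval (ModularCurve.jqModC ℂ) P ≠
      ModularCurve.qExpand ℂ N (ModularCurve.jqModC ℂ) := by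
  intro h
  have hJ : IsMerInf Jfun := isMerInf_Jfun
  have hJp : IsMerInf (fun z => Jfun (scaleN N z)) := isMerInf_comp_scaleN N hJ
  have e1 : laurentOf Jfun = ModularCurve.jqModC ℂ := laurentOf_Jfun
  have e2 : laurentOf (fun z => Jfun (scaleN N z)) =
      ModularCurve.qExpand ℂ N (ModularCurve.jqModC ℂ) := by
    rw [laurentOf_comp_scaleN N hJ, laurentOf_Jfun]
  -- the function `P(J)`
  have hPJ : IsMerInf (fun z => P.eval (Jfun z)) := by
    have : (Polynomial.aeval (⟨Jfun, hJ⟩ : merInf) P : merInf).1 = fun z => P.eval (Jfun z) := by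
      funext z
      let ev : merInf →ₐ[ℂ] ℂ := (Pi.evalAlgHom ℂ (fun _ : ℍ => ℂ) z).comp merInf.val
      have h1 : ev (Polynomial.aeval (⟨Jfun, hJ⟩ : merInf) P) =
          Polynomial.aeval (ev ⟨Jfun, hJ⟩) P := (Polynomial.aeval_algHom_apply ev _ P).symm
      have h2 : ev ⟨Jfun, hJ⟩ = Jfun z := rfl
      rw [h2] at h1
      rw [← Polynomial.coe_aeval_eq_eval]
      exact h1
    rw [← this]
    exact (Polynomial.aeval (⟨Jfun, hJ⟩ : merInf) P).2
  have e3 : laurentOf (fun z => P.eval (Jfun z)) =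
      Polynomial.aeval (ModularCurve.jqModC ℂ) P := by
    have h1 : laurentExp (Polynomial.aeval (⟨Jfun, hJ⟩ : merInf) P) =
        Polynomial.aeval (laurentExp ⟨Jfun, hJ⟩) P := (Polynomial.aeval_algHom_apply laurentExp _ P).symm
    rw [laurentExp_apply, laurentExp_apply] at h1
    have h2 : ((Polynomial.aeval (⟨Jfun, hJ⟩ : merInf) P : merInf) : ℍ → ℂ) =
        fun z => P.eval (Jfun z) := by
      funext z
      let ev : merInf →ₐ[ℂ] ℂ := (Pi.evalAlgHom ℂ (fun _ : ℍ => ℂ) z).comp merInf.val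
      have h1 : ev (Polynomial.aeval (⟨Jfun, hJ⟩ : merInf) P) =
          Polynomial.aeval (ev ⟨Jfun, hJ⟩) P := (Polynomial.aeval_algHom_apply ev _ P).symm
      have h2 : ev ⟨Jfun, hJ⟩ = Jfun z := rfl
      rw [h2] at h1
      rw [← Polynomial.coe_aeval_eq_eval]
      exact h1
    rw [h2] at h1
    rw [h1]
    show Polynomial.aeval (laurentOf Jfun) P = _
    rw [e1]
  have hfun : (fun z => Jfun (scaleN N z)) = fun z => P.eval (Jfun z) :=
    laurentOf_injective hJp hPJ (by rw [e2, e3, h])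
  exact Jfun_scaleN_not_poly N hN P (fun τ => congrFun hfun τ)

end Fermat.Agent.S28
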