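import Mathlib
import Fermat.Prelude.Def_ModularCurve_X0ModL
import Fermat.Agent.S28.LaurentRank

/-!
# S28, Part Q1: the degree of `k(j(q^d) : d ∣ N)` over `k(j)` is at most `ψ(N)`

`k` any field, `L = k((q))`, `σ_d = qExpand k d`, `j = jqModC k`, `j_d = σ_d j`.

Hypothesis at a prime `p` (`UB.ModEq k p`): a monic `Φ ∈ k[Y][X]` of `X`-degree `p + 1` with
`Φ(j_p, j) = 0` and `Φ(j, j_p) = 0`.

Main result: `UB.relrank_full_le`.
-/

set_option autoImplicit false

namespace Fermat.Agent.S28.UB

open HahnSeries ModularCurve Polynomial IntermediateField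

variable (k : Type*) [Field k]

/-- `j(q^d)` as a total function of `d` (junk value `0` at `d = 0`). -/
noncomputable def jd (d : ℕ) : LaurentSeries k :=
  if h : d = 0 then 0 else @qExpand k _ d ⟨h⟩ (jqModC k)

theorem jd_eq (d : ℕ) [hd : NeZero d] : jd k d = qExpand k d (jqModC k) := by
  rw [jd, dif_neg hd.out]

theorem jd_one : jd k 1 = jqModC k := by
  rw [jd_eq, qExpand_one_apply]

theorem qExpand_jd (m d : ℕ) [NeZero m] (hd : d ≠ 0) : qExpand k m (jd k d) = jd k (m * d) := by
  have : NeZero d := ⟨hd⟩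
  have : NeZero (m * d) := ⟨Nat.mul_ne_zero (NeZero.ne m) hd⟩
  rw [jd_eq, jd_eq, qExpand_qExpand]

theorem jqModC_order : (jqModC k).order = -1 := by
  have h1 : (jqModC k).coeff (-1) = 1 := coeff_jqModC_neg_one k
  have hne : jqModC k ≠ 0 := jqModC_ne_zero_of_nontrivial k
  apply le_antisymm
  · exact HahnSeries.order_le_of_coeff_ne_zero (by rw [h1]; exact one_ne_zero)
  · by_contra hlt
    rw [not_le] at hlt
    exact hne (HahnSeries.coeff_order_eq_zero.mp (coeff_jqModC_of_lt k hlt))

theorem jd_ne_zero {d : ℕ} (hd : d ≠ 0) : jd k d ≠ 0 := by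
  have : NeZero d := ⟨hd⟩
  rw [jd_eq]
  exact qExpand_ne_zero (jqModC_ne_zero_of_nontrivial k)

theorem jd_order {d : ℕ} (hd : d ≠ 0) : (jd k d).order = -(d : ℤ) := by
  have : NeZero d := ⟨hd⟩
  rw [jd_eq, order_qExpand, jqModC_order]
  ring

theorem jd_injective {d e : ℕ} (hd : d ≠ 0) (he : e ≠ 0) (h : jd k d = jd k e) : d = e := by
  have := congrArg HahnSeries.order h
  rw [jd_order k hd, jd_order k he] at this
  omega

/-- The modular equation of prime level `p` in Laurent form. -/
def ModEq (p : ℕ) [NeZero p] : Prop :=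
  ∃ Φ : Polynomial (Polynomial k), Φ.Monic ∧ Φ.natDegree = p + 1 ∧
    Φ.eval₂ (Polynomial.aeval (jqModC k)).toRingHom (qExpand k p (jqModC k)) = 0 ∧
    Φ.eval₂ (Polynomial.aeval (qExpand k p (jqModC k))).toRingHom (jqModC k) = 0

theorem qExpand_comp_aeval (m : ℕ) [NeZero m] (x : LaurentSeries k) :
    (qExpand k m).comp (Polynomial.aeval (R := k) x).toRingHom =
      (Polynomial.aeval (R := k) (qExpand k m x)).toRingHom := by
  refine Polynomial.ringHom_ext (fun a => ?_) ?_
  · simp only [RingHom.comp_apply, AlgHom.toRingHom_eq_coe, RingHom.coe_coe, Polynomial.aeval_C]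
    exact (qExpandAlgHomC k m).commutes a
  · simp

/-- The modular equation shifted by `σ_d`. -/
theorem ModEq.shift {p : ℕ} [NeZero p] {Φ : Polynomial (Polynomial k)}
    (h1 : Φ.eval₂ (Polynomial.aeval (jqModC k)).toRingHom (qExpand k p (jqModC k)) = 0)
    (h2 : Φ.eval₂ (Polynomial.aeval (qExpand k p (jqModC k))).toRingHom (jqModC k) = 0)
    {d : ℕ} (hd : d ≠ 0) :
    Φ.eval₂ (Polynomial.aeval (jd k d)).toRingHom (jd k (p * d)) = 0 ∧
    Φ.eval₂ (Polynomial.aeval (jd k (p * d))).toRingHom (jd k d) = 0 := by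
  have : NeZero d := ⟨hd⟩
  have : NeZero (p * d) := ⟨Nat.mul_ne_zero (NeZero.ne p) hd⟩
  have : NeZero (d * p) := ⟨Nat.mul_ne_zero hd (NeZero.ne p)⟩
  have e1 : qExpand k d (qExpand k p (jqModC k)) = jd k (p * d) := by
    rw [qExpand_qExpand, jd_eq]
    exact qExpand_congr (Nat.mul_comm d p) _
  have e2 : qExpand k d (jqModC k) = jd k d := (jd_eq k d).symm
  constructor
  · have := congrArg (qExpand k d) h1
    rw [Polynomial.hom_eval₂, map_zero, qExpand_comp_aeval, e1, e2] at this
    exact this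
  · have := congrArg (qExpand k d) h2
    rw [Polynomial.hom_eval₂, map_zero, qExpand_comp_aeval, e1, e2] at this
    exact this


/-! ### Factorisation of a relation of degree `p + 1` with a root in `k((q))` -/

variable {k}

theorem factor {p : ℕ} [NeZero p] (hp2 : 2 ≤ p) {y c : LaurentSeries k} (hy : y ≠ 0)
    (hcop : IsCoprime y.order (p : ℤ)) {Q : Polynomial (LaurentSeries k)} (hQ : Q.Monic)
    (hdeg : Q.natDegree = p + 1) (h1 : Q.eval₂ (qExpand k p) y = 0) (h2 : Q.eval c = 0) :
    Q = (Polynomial.X - Polynomial.C c) * charpolyσ p y := by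
  obtain ⟨T, hT⟩ := charpolyσ_dvd_of_eval₂_eq_zero hy hcop h1
  have hP := charpolyσ_monic p y
  have hPd := charpolyσ_natDegree p y
  have hTm : T.Monic := hP.of_mul_monic_left (hT ▸ hQ)
  have hTd : T.natDegree = 1 := by
    have := congrArg Polynomial.natDegree hT
    rw [hP.natDegree_mul hTm, hdeg, hPd] at this
    omega
  have hTc : T.eval c = 0 := by
    have := congrArg (Polynomial.eval c) hT
    rw [h2, Polynomial.eval_mul] at this
    rcases mul_eq_zero.mp this.symm with h | h
    · exact absurd h (charpolyσ_eval_ne_zero hy hcop hp2 c)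
    · exact h
  have hTX := hTm.eq_X_add_C hTd
  have hc0 : T.coeff 0 = -c := by
    have h := hTc
    rw [hTX, Polynomial.eval_add, Polynomial.eval_X, Polynomial.eval_C] at h
    exact eq_neg_of_add_eq_zero_right h
  rw [hT, mul_comm]
  congr 1
  rw [hTX, hc0, map_neg, ← sub_eq_add_neg]


/-! ### The two-prime lemma -/

/-- If `c` is a common root of two polynomials with coefficients in an intermediate field `T`
which factor over the big field as `(X - c) * P` and `(X - c) * R` with `P`, `R` coprime,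
then `c ∈ T`. -/
theorem mem_of_common_root {L : Type*} [Field L] [Algebra k L] (T : IntermediateField k L)
    (c : L) (A₀ B₀ : Polynomial T) (hA₀ : A₀.Monic) (P R : Polynomial L)
    (hA : A₀.map (algebraMap T L) = (Polynomial.X - Polynomial.C c) * P)
    (hB : B₀.map (algebraMap T L) = (Polynomial.X - Polynomial.C c) * R)
    (hPR : IsCoprime P R) : c ∈ T := by
  have hAc : Polynomial.aeval c A₀ = 0 := by
    rw [Polynomial.aeval_def, Polynomial.eval₂_eq_eval_map, hA]
    simp
  have hBc : Polynomial.aeval c B₀ = 0 := by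
    rw [Polynomial.aeval_def, Polynomial.eval₂_eq_eval_map, hB]
    simp
  have hint : IsIntegral T c := ⟨A₀, hA₀, hAc⟩
  have hmA : (minpoly T c).map (algebraMap T L) ∣ (Polynomial.X - Polynomial.C c) * P := by
    rw [← hA]
    exact Polynomial.map_dvd _ (minpoly.dvd T c hAc)
  have hmB : (minpoly T c).map (algebraMap T L) ∣ (Polynomial.X - Polynomial.C c) * R := by
    rw [← hB]
    exact Polynomial.map_dvd _ (minpoly.dvd T c hBc)
  obtain ⟨u, v, huv⟩ := hPR
  have hm : (minpoly T c).map (algebraMap T L) ∣ (Polynomial.X - Polynomial.C c) := by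
    have e : (Polynomial.X - Polynomial.C c : Polynomial L) =
        u * ((Polynomial.X - Polynomial.C c) * P) + v * ((Polynomial.X - Polynomial.C c) * R) := by
      linear_combination (-(Polynomial.X - Polynomial.C c)) * huv
    rw [e]
    exact dvd_add (dvd_mul_of_dvd_right hmA _) (dvd_mul_of_dvd_right hmB _)
  have hdeg : (minpoly T c).natDegree ≤ 1 := by
    have := Polynomial.natDegree_le_of_dvd hm (Polynomial.X_sub_C_ne_zero c)
    rwa [Polynomial.natDegree_map, Polynomial.natDegree_X_sub_C] at this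
  have hpos := minpoly.natDegree_pos hint
  have h1 : (minpoly T c).natDegree = 1 := le_antisymm hdeg hpos
  obtain ⟨t, ht⟩ := minpoly.natDegree_eq_one_iff.mp h1
  rw [← ht]
  exact t.2

theorem charpolyσ_coprime {p r : ℕ} [NeZero p] [NeZero r] (hpr : p ≠ r)
    {y z : LaurentSeries k} (hy : y ≠ 0) (hz : z ≠ 0)
    (hcy : IsCoprime y.order (p : ℤ)) (hcz : IsCoprime z.order (r : ℤ)) :
    IsCoprime (charpolyσ p y) (charpolyσ r z) := by
  have h1 := irreducible_charpolyσ hy hcy
  have h2 := irreducible_charpolyσ hz hcz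
  rw [h1.coprime_iff_not_dvd]
  intro hdvd
  have hass := h1.associated_of_dvd h2 hdvd
  have heq := Polynomial.eq_of_monic_of_associated (charpolyσ_monic p y) (charpolyσ_monic r z) hass
  have := congrArg Polynomial.natDegree heq
  rw [charpolyσ_natDegree, charpolyσ_natDegree] at this
  exact hpr this

theorem isCoprime_order_jd {p r : ℕ} (hp : p.Prime) (hr : r.Prime) (hpr : p ≠ r) :
    IsCoprime (jd k r).order (p : ℤ) := by
  rw [jd_order k hr.ne_zero]
  have : Nat.Coprime r p := (Nat.coprime_primes hr hp).mpr (Ne.symm hpr)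
  exact (Nat.isCoprime_iff_coprime.mpr this).neg_left

theorem algebraMap_comp_aeval {L : Type*} [Field L] [Algebra k L] (T : IntermediateField k L)
    (x : T) :
    (algebraMap T L).comp (Polynomial.aeval (R := k) x).toRingHom =
      (Polynomial.aeval (R := k) (x : L)).toRingHom := by
  refine Polynomial.ringHom_ext (fun a => ?_) ?_
  · simp only [RingHom.comp_apply, AlgHom.toRingHom_eq_coe, RingHom.coe_coe, Polynomial.aeval_C]
    rfl
  · simp

/-- Shape of `Φ(X, y)` for `y = j_d` with `d` prime to `p`. -/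
theorem map_aeval_eq_factor {p : ℕ} [NeZero p] (hp : p.Prime) {Φ : Polynomial (Polynomial k)}
    (hΦm : Φ.Monic) (hΦd : Φ.natDegree = p + 1) {y c : LaurentSeries k} (hy : y ≠ 0)
    (hcop : IsCoprime y.order (p : ℤ))
    (h1 : Φ.eval₂ (Polynomial.aeval (R := k) y).toRingHom c = 0)
    (h2 : Φ.eval₂ (Polynomial.aeval (R := k) (qExpand k p y)).toRingHom y = 0) :
    Φ.map (Polynomial.aeval (R := k) y).toRingHom =
      (Polynomial.X - Polynomial.C c) * charpolyσ p y := by
  refine factor hp.two_le hy hcop (hΦm.map _) ?_ ?_ ?_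
  · rw [hΦm.natDegree_map, hΦd]
  · rw [Polynomial.eval₂_map, qExpand_comp_aeval]
    exact h2
  · rw [Polynomial.eval_map]
    exact h1

theorem two_prime {p r : ℕ} (hp : p.Prime) (hr : r.Prime) (hpr : p ≠ r) [NeZero p] [NeZero r]
    (hΦp : ModEq k p) (hΦr : ModEq k r) :
    jd k (p * r) ∈
      IntermediateField.adjoin k ({jd k 1, jd k p, jd k r} : Set (LaurentSeries k)) := by
  set T := IntermediateField.adjoin k ({jd k 1, jd k p, jd k r} : Set (LaurentSeries k)) with hT
  obtain ⟨Φp, hΦpm, hΦpd, hp1, hp2⟩ := hΦp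
  obtain ⟨Φr, hΦrm, hΦrd, hr1, hr2⟩ := hΦr
  obtain ⟨sp1, sp2⟩ := ModEq.shift k hp1 hp2 (d := r) hr.ne_zero
  obtain ⟨sr1, sr2⟩ := ModEq.shift k hr1 hr2 (d := p) hp.ne_zero
  rw [Nat.mul_comm r p] at sr1 sr2
  have hjr : jd k r ∈ T := IntermediateField.subset_adjoin k _ (by simp)
  have hjp : jd k p ∈ T := IntermediateField.subset_adjoin k _ (by simp)
  have eA : qExpand k p (jd k r) = jd k (p * r) := qExpand_jd k p r hr.ne_zero
  have eB : qExpand k r (jd k p) = jd k (p * r) := by
    rw [qExpand_jd k r p hp.ne_zero, Nat.mul_comm]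
  have hA := map_aeval_eq_factor hp hΦpm hΦpd (jd_ne_zero k hr.ne_zero)
    (isCoprime_order_jd hp hr hpr) sp1 (by rw [eA]; exact sp2)
  have hB := map_aeval_eq_factor hr hΦrm hΦrd (jd_ne_zero k hp.ne_zero)
    (isCoprime_order_jd hr hp (Ne.symm hpr)) sr1 (by rw [eB]; exact sr2)
  refine mem_of_common_root T (jd k (p * r))
    (Φp.map (Polynomial.aeval (R := k) (⟨jd k r, hjr⟩ : T)).toRingHom)
    (Φr.map (Polynomial.aeval (R := k) (⟨jd k p, hjp⟩ : T)).toRingHom)
    (hΦpm.map _) _ _ ?_ ?_
    (charpolyσ_coprime hpr (jd_ne_zero k hr.ne_zero) (jd_ne_zero k hp.ne_zero)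
      (isCoprime_order_jd hp hr hpr) (isCoprime_order_jd hr hp (Ne.symm hpr)))
  · rw [Polynomial.map_map, algebraMap_comp_aeval]
    exact hA
  · rw [Polynomial.map_map, algebraMap_comp_aeval]
    exact hB


variable (k)

theorem two_prime_shift {p r : ℕ} (hp : p.Prime) (hr : r.Prime) (hpr : p ≠ r)
    (hΦp : @ModEq k _ p ⟨hp.ne_zero⟩) (hΦr : @ModEq k _ r ⟨hr.ne_zero⟩) {s : ℕ} (hs : s ≠ 0) :
    jd k (s * (p * r)) ∈
      IntermediateField.adjoin k ({jd k s, jd k (s * p), jd k (s * r)} :
        Set (LaurentSeries k)) := by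
  have : NeZero p := ⟨hp.ne_zero⟩
  have : NeZero r := ⟨hr.ne_zero⟩
  have : NeZero s := ⟨hs⟩
  have h := two_prime hp hr hpr hΦp hΦr
  have h2 : qExpandAlgHomC k s (jd k (p * r)) ∈
      (IntermediateField.adjoin k ({jd k 1, jd k p, jd k r} :
        Set (LaurentSeries k))).map (qExpandAlgHomC k s) :=
    (IntermediateField.mem_map _).mpr ⟨_, h, rfl⟩
  rw [IntermediateField.adjoin_map, Set.image_insert_eq, Set.image_insert_eq,
    Set.image_singleton] at h2
  simp only [qExpandAlgHomC_apply] at h2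
  rw [qExpand_jd k s _ (Nat.mul_ne_zero hp.ne_zero hr.ne_zero), qExpand_jd k s _ one_ne_zero,
    qExpand_jd k s _ hp.ne_zero, qExpand_jd k s _ hr.ne_zero, Nat.mul_one] at h2
  exact h2

/-! ### Generalities on `relrank` -/

section Relrank

variable {k}
variable {L : Type*} [Field L] [Algebra k L]

theorem relrank_ne_zero (A B : IntermediateField k L) : A.relrank B ≠ 0 := by
  unfold IntermediateField.relrank Subfield.relrank
  exact (rank_pos).ne'

theorem relrank_mono_right {A B C : IntermediateField k L} (h1 : A ≤ B) (h2 : B ≤ C) :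
    A.relrank B ≤ A.relrank C := by
  rw [← IntermediateField.relrank_mul_relrank h1 h2]
  exact Cardinal.le_mul_right (relrank_ne_zero B C)

theorem relrank_sup_simple_le (A : IntermediateField k L) (x : L) (Q : Polynomial A)
    (hQ : Q.Monic) (hx : Polynomial.aeval x Q = 0) :
    A.relrank (A ⊔ IntermediateField.adjoin k {x}) ≤ (Q.natDegree : Cardinal) := by
  have hint : IsIntegral A x := ⟨Q, hQ, hx⟩
  have hle : A ≤ A ⊔ IntermediateField.adjoin k {x} := le_sup_left
  rw [IntermediateField.relrank_eq_rank_of_le hle]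
  have e : IntermediateField.extendScalars hle = IntermediateField.adjoin A {x} := by
    apply IntermediateField.restrictScalars_injective k
    rw [IntermediateField.extendScalars_restrictScalars,
      IntermediateField.restrictScalars_adjoin_eq_sup]
  rw [e]
  have := IntermediateField.adjoin.finiteDimensional hint
  rw [← Module.finrank_eq_rank, IntermediateField.adjoin.finrank hint]
  exact_mod_cast Polynomial.natDegree_le_natDegree (minpoly.min A x hQ hx)

end Relrank

/-! ### The fields `E N = k(j_d : d ∣ N)` -/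

theorem jd_mem_full {N d : ℕ} (hd : d ∣ N) (hd0 : d ≠ 0) :
    jd k d ∈ modularFunctionFieldFullC k N := by
  have : NeZero d := ⟨hd0⟩
  rw [jd_eq]
  exact jqModCd_mem_full k N hd

theorem full_le_iff {N : ℕ} {F : IntermediateField k (LaurentSeries k)} :
    modularFunctionFieldFullC k N ≤ F ↔ ∀ d, d ∣ N → d ≠ 0 → jd k d ∈ F := by
  rw [modularFunctionFieldFullC, IntermediateField.adjoin_le_iff]
  constructor
  · intro h d hd hd0
    have : NeZero d := ⟨hd0⟩
    exact h ⟨d, ⟨hd0⟩, hd, jd_eq k d⟩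
  · rintro h x ⟨d, hne, hd, rfl⟩
    have := h d hd hne.out
    rwa [jd_eq] at this

theorem full_mono {M N : ℕ} (h : M ∣ N) :
    modularFunctionFieldFullC k M ≤ modularFunctionFieldFullC k N := by
  rw [full_le_iff]
  intro d hd hd0
  exact jd_mem_full k (hd.trans h) hd0

/-- `k(j)`. -/
noncomputable def K0 : IntermediateField k (LaurentSeries k) :=
  IntermediateField.adjoin k {jqModC k}

theorem K0_le_full (N : ℕ) : K0 k ≤ modularFunctionFieldFullC k N := by
  rw [K0, IntermediateField.adjoin_le_iff, Set.singleton_subset_iff]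
  have := jd_mem_full k (one_dvd N) one_ne_zero
  rwa [jd_one] at this

theorem full_one : modularFunctionFieldFullC k 1 = K0 k := by
  apply le_antisymm
  · rw [full_le_iff]
    intro d hd _
    rw [Nat.dvd_one] at hd
    subst hd
    rw [jd_one]
    exact IntermediateField.subset_adjoin k _ rfl
  · exact K0_le_full k 1

/-! ### New generators are generated by one of them -/

theorem new_gen_mem {p : ℕ} (hp : p.Prime) (a M' : ℕ) (hM' : M' ≠ 0) (hpM' : ¬ p ∣ M')
    (hΦ : ∀ r (hr : r.Prime), r ∣ p * M' → @ModEq k _ r ⟨hr.ne_zero⟩) :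
    ∀ d', d' ∣ M' → jd k (p ^ (a + 1) * d') ∈
      modularFunctionFieldFullC k (p ^ a * M') ⊔
        IntermediateField.adjoin k {jd k (p ^ (a + 1))} := by
  intro d'
  induction d' using Nat.strong_induction_on with
  | _ d' ih =>
    intro hd'
    have hd'0 : d' ≠ 0 := fun h => hM' (by rw [h] at hd'; exact Nat.eq_zero_of_zero_dvd hd')
    rcases eq_or_ne d' 1 with rfl | hd'1
    · rw [Nat.mul_one]
      exact (le_sup_right : _ ≤ modularFunctionFieldFullC k (p ^ a * M') ⊔
        IntermediateField.adjoin k {jd k (p ^ (a + 1))})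
        (IntermediateField.subset_adjoin k _ rfl)
    · set r := d'.minFac with hr
      have hrp : r.Prime := Nat.minFac_prime hd'1
      have hrd : r ∣ d' := Nat.minFac_dvd d'
      obtain ⟨d'', hd''⟩ := hrd
      have hd''0 : d'' ≠ 0 := by
        rintro rfl
        exact hd'0 (by rw [hd'', Nat.mul_zero])
      have hd''dvd : d'' ∣ M' := (Dvd.intro_left r hd''.symm).trans hd'
      have hd''lt : d'' < d' := by
        rw [hd'']
        exact lt_mul_of_one_lt_left (Nat.pos_of_ne_zero hd''0) hrp.one_lt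
      have hrM' : r ∣ M' := (Dvd.intro d'' hd''.symm).trans hd'
      have hpr : p ≠ r := by
        rintro rfl
        exact hpM' hrM'
      have hΦp := hΦ p hp (Dvd.intro _ rfl)
      have hΦr := hΦ r hrp (hrM'.mul_left p)
      have hs0 : p ^ a * d'' ≠ 0 := Nat.mul_ne_zero (pow_ne_zero _ hp.ne_zero) hd''0
      have key := two_prime_shift k hp hrp hpr hΦp hΦr hs0
      have e1 : p ^ a * d'' * (p * r) = p ^ (a + 1) * d' := by
        rw [hd'']; ring
      have e2 : p ^ a * d'' * p = p ^ (a + 1) * d'' := by ring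
      have e3 : p ^ a * d'' * r = p ^ a * d' := by
        rw [hd'']; ring
      rw [e1, e2, e3] at key
      refine (IntermediateField.adjoin_le_iff.mpr ?_ : IntermediateField.adjoin k _ ≤
        modularFunctionFieldFullC k (p ^ a * M') ⊔
          IntermediateField.adjoin k {jd k (p ^ (a + 1))}) key
      intro x hx
      rcases hx with rfl | rfl | rfl
      · exact (le_sup_left : modularFunctionFieldFullC k (p ^ a * M') ≤ _)
          (jd_mem_full k (Nat.mul_dvd_mul_left _ hd''dvd) hs0)
      · exact ih d'' hd''lt hd''dvd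
      · exact (le_sup_left : modularFunctionFieldFullC k (p ^ a * M') ≤ _)
          (jd_mem_full k (Nat.mul_dvd_mul_left _ hd')
            (Nat.mul_ne_zero (pow_ne_zero _ hp.ne_zero) hd'0))

theorem full_mul_le {p : ℕ} (hp : p.Prime) (a M' : ℕ) (hM' : M' ≠ 0) (hpM' : ¬ p ∣ M')
    (hΦ : ∀ r (hr : r.Prime), r ∣ p * M' → @ModEq k _ r ⟨hr.ne_zero⟩) :
    modularFunctionFieldFullC k (p ^ (a + 1) * M') ≤
      modularFunctionFieldFullC k (p ^ a * M') ⊔
        IntermediateField.adjoin k {jd k (p ^ (a + 1))} := by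
  rw [full_le_iff]
  intro d hd hd0
  obtain ⟨d₁, d₂, h1, h2, rfl⟩ := (Nat.dvd_mul).mp hd
  obtain ⟨b, hb, rfl⟩ := (Nat.dvd_prime_pow hp).mp h1
  rcases Nat.lt_or_ge b (a + 1) with hlt | hge
  · refine (le_sup_left : modularFunctionFieldFullC k (p ^ a * M') ≤ _)
      (jd_mem_full k (Nat.mul_dvd_mul ?_ h2) hd0)
    exact pow_dvd_pow p (by omega)
  · have hba : b = a + 1 := le_antisymm hb hge
    subst hba
    exact new_gen_mem k hp a M' hM' hpM' hΦ d₂ h2


/-! ### Degree of the new generator -/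

theorem aeval_map_aeval {L : Type*} [Field L] [Algebra k L] (T : IntermediateField k L)
    (Φ : Polynomial (Polynomial k)) (y : T) (x : L) :
    Polynomial.aeval x (Φ.map (Polynomial.aeval (R := k) y).toRingHom) =
      Φ.eval₂ (Polynomial.aeval (R := k) (y : L)).toRingHom x := by
  rw [Polynomial.aeval_def, Polynomial.eval₂_map, algebraMap_comp_aeval]

theorem relrank_step_zero {p : ℕ} (hp : p.Prime) (M : ℕ)
    (hΦp : @ModEq k _ p ⟨hp.ne_zero⟩) :
    (modularFunctionFieldFullC k M).relrank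
      (modularFunctionFieldFullC k M ⊔ IntermediateField.adjoin k {jd k p}) ≤
      ((p + 1 : ℕ) : Cardinal) := by
  have : NeZero p := ⟨hp.ne_zero⟩
  obtain ⟨Φ, hΦm, hΦd, h1, -⟩ := hΦp
  have hj : jd k 1 ∈ modularFunctionFieldFullC k M := jd_mem_full k (one_dvd M) one_ne_zero
  have h := relrank_sup_simple_le (modularFunctionFieldFullC k M) (jd k p)
    (Φ.map (Polynomial.aeval (R := k)
      (⟨jd k 1, hj⟩ : modularFunctionFieldFullC k M)).toRingHom) (hΦm.map _) (by
      rw [aeval_map_aeval]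
      show Φ.eval₂ (Polynomial.aeval (R := k) (jd k 1)).toRingHom (jd k p) = 0
      rw [jd_one, jd_eq]
      exact h1)
  rwa [hΦm.natDegree_map, hΦd] at h

theorem relrank_step_succ {p : ℕ} (hp : p.Prime) (b M' : ℕ)
    (hΦp : @ModEq k _ p ⟨hp.ne_zero⟩) :
    (modularFunctionFieldFullC k (p ^ (b + 1) * M')).relrank
      (modularFunctionFieldFullC k (p ^ (b + 1) * M') ⊔
        IntermediateField.adjoin k {jd k (p ^ (b + 1 + 1))}) ≤ ((p : ℕ) : Cardinal) := by
  have : NeZero p := ⟨hp.ne_zero⟩
  obtain ⟨Φ, hΦm, hΦd, h1, h2⟩ := hΦp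
  set E := modularFunctionFieldFullC k (p ^ (b + 1) * M') with hE
  have hpb : p ^ b ≠ 0 := pow_ne_zero _ hp.ne_zero
  have hpb1 : p ^ (b + 1) ≠ 0 := pow_ne_zero _ hp.ne_zero
  have hy : jd k (p ^ (b + 1)) ∈ E := jd_mem_full k (Dvd.intro _ rfl) hpb1
  have hc : jd k (p ^ b) ∈ E :=
    jd_mem_full k ((pow_dvd_pow p (Nat.le_succ b)).trans (Dvd.intro _ rfl)) hpb
  obtain ⟨-, s2⟩ := ModEq.shift k h1 h2 (d := p ^ b) hpb
  obtain ⟨s1', -⟩ := ModEq.shift k h1 h2 (d := p ^ (b + 1)) hpb1
  have e1 : p * p ^ b = p ^ (b + 1) := by ring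
  have e2 : p * p ^ (b + 1) = p ^ (b + 1 + 1) := by ring
  rw [e1] at s2
  rw [e2] at s1'
  set Q₀ : Polynomial E := Φ.map (Polynomial.aeval (R := k) (⟨jd k (p ^ (b + 1)), hy⟩ : E)).toRingHom
    with hQ₀
  have hQ₀m : Q₀.Monic := hΦm.map _
  have hQ₀d : Q₀.natDegree = p + 1 := by rw [hQ₀, hΦm.natDegree_map, hΦd]
  have hroot : Q₀.IsRoot (⟨jd k (p ^ b), hc⟩ : E) := by
    rw [Polynomial.IsRoot.def]
    apply (algebraMap E (LaurentSeries k)).injective
    rw [map_zero, ← Polynomial.aeval_algebraMap_apply_eq_algebraMap_eval, hQ₀, aeval_map_aeval]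
    exact s2
  have hfac := Polynomial.mul_divByMonic_eq_iff_isRoot.mpr hroot
  set Q := Q₀ /ₘ (Polynomial.X - Polynomial.C (⟨jd k (p ^ b), hc⟩ : E)) with hQ
  have hQm : Q.Monic := (Polynomial.monic_X_sub_C _).of_mul_monic_left (hfac ▸ hQ₀m)
  have hQd : Q.natDegree = p := by
    rw [hQ, Polynomial.natDegree_divByMonic _ (Polynomial.monic_X_sub_C _), hQ₀d,
      Polynomial.natDegree_X_sub_C]
    omega
  have hg : Polynomial.aeval (jd k (p ^ (b + 1 + 1))) Q = 0 := by
    have h0 : Polynomial.aeval (jd k (p ^ (b + 1 + 1))) Q₀ = 0 := by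
      rw [hQ₀, aeval_map_aeval]
      exact s1'
    rw [← hfac, map_mul, map_sub, Polynomial.aeval_X, Polynomial.aeval_C] at h0
    rcases mul_eq_zero.mp h0 with h | h
    · exfalso
      have h' : jd k (p ^ (b + 1 + 1)) = jd k (p ^ b) := sub_eq_zero.mp h
      have := jd_injective k (pow_ne_zero _ hp.ne_zero) hpb h'
      have h3 := Nat.pow_right_injective hp.two_le this
      omega
    · exact h
  have h := relrank_sup_simple_le E (jd k (p ^ (b + 1 + 1))) Q hQm hg
  rwa [hQd] at h

/-! ### The recursion for `ψ` -/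

/-- Indicator of squarefree numbers as an arithmetic function. -/
def sqfInd : ArithmeticFunction ℕ :=
  ⟨fun n => if Squarefree n then 1 else 0, by simp⟩

theorem sqfInd_apply (n : ℕ) : sqfInd n = if Squarefree n then 1 else 0 := rfl

theorem sqfInd_isMultiplicative : sqfInd.IsMultiplicative := by
  refine ⟨by simp [sqfInd_apply], fun {m n} h => ?_⟩
  simp only [sqfInd_apply, Nat.squarefree_mul h]
  by_cases hm : Squarefree m <;> by_cases hn : Squarefree n <;> simp [hm, hn]

theorem psi_eq_mul_apply (n : ℕ) :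
    ModularCurve.dedekindPsi n = (sqfInd * ArithmeticFunction.id) n := by
  rw [ArithmeticFunction.mul_apply,
    Nat.sum_divisorsAntidiagonal (fun d e => sqfInd d * ArithmeticFunction.id e),
    ModularCurve.dedekindPsi, Finset.sum_filter]
  refine Finset.sum_congr rfl fun d _ => ?_
  by_cases hd : Squarefree d <;> simp [sqfInd_apply, hd]

theorem psi_prime {p : ℕ} (hp : p.Prime) : ModularCurve.dedekindPsi p = p + 1 := by
  rw [ModularCurve.dedekindPsi, hp.divisors, Finset.sum_filter,
    Finset.sum_pair hp.one_lt.ne, if_pos squarefree_one, if_pos hp.squarefree, Nat.div_one,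
    Nat.div_self hp.pos]

theorem psi_mul_of_not_dvd {p a : ℕ} (hp : p.Prime) (hpa : ¬ p ∣ a) :
    ModularCurve.dedekindPsi (p * a) = (p + 1) * ModularCurve.dedekindPsi a := by
  have hcop : Nat.gcd p a = 1 := (Nat.Prime.coprime_iff_not_dvd hp).mpr hpa
  rw [psi_eq_mul_apply,
    (sqfInd_isMultiplicative.mul ArithmeticFunction.isMultiplicative_id).map_mul_of_coprime hcop,
    ← psi_eq_mul_apply, ← psi_eq_mul_apply, psi_prime hp]

theorem psi_mul_of_dvd {p a : ℕ} (hp : p.Prime) (hpa : p ∣ a) (ha : a ≠ 0) :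
    ModularCurve.dedekindPsi (p * a) = p * ModularCurve.dedekindPsi a := by
  rw [ModularCurve.dedekindPsi, ModularCurve.dedekindPsi, Finset.mul_sum]
  have hset : (p * a).divisors.filter (fun d => Squarefree d) =
      a.divisors.filter (fun d => Squarefree d) := by
    ext d
    simp only [Finset.mem_filter, Nat.mem_divisors]
    constructor
    · rintro ⟨⟨hd, -⟩, hsq⟩
      refine ⟨⟨?_, ha⟩, hsq⟩
      by_cases hpd : p ∣ d
      · obtain ⟨d', rfl⟩ := hpd
        have hd' : d' ∣ a := (mul_dvd_mul_iff_left hp.ne_zero).mp hd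
        have hcop : Nat.Coprime p d' := by
          rw [Nat.Prime.coprime_iff_not_dvd hp]
          intro h
          obtain ⟨e, rfl⟩ := h
          have := hsq p ⟨e, by ring⟩
          exact hp.one_lt.ne' (Nat.isUnit_iff.mp this)
        exact hcop.mul_dvd_of_dvd_of_dvd hpa hd'
      · have hcop : Nat.Coprime d p := ((Nat.Prime.coprime_iff_not_dvd hp).mpr hpd).symm
        exact hcop.dvd_of_dvd_mul_left hd
    · rintro ⟨⟨hd, -⟩, hsq⟩
      exact ⟨⟨hd.mul_left p, mul_ne_zero hp.ne_zero ha⟩, hsq⟩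
  rw [hset]
  refine Finset.sum_congr rfl fun d hd => ?_
  simp only [Finset.mem_filter, Nat.mem_divisors] at hd
  exact Nat.mul_div_assoc p hd.1.1

/-! ### The induction -/

theorem relrank_step {p : ℕ} (hp : p.Prime) {M : ℕ} (hM : M ≠ 0)
    (hΦ : ∀ r (hr : r.Prime), r ∣ p * M → @ModEq k _ r ⟨hr.ne_zero⟩) :
    ((modularFunctionFieldFullC k M).relrank (modularFunctionFieldFullC k (p * M)) : Cardinal) *
      (ModularCurve.dedekindPsi M : Cardinal) ≤ (ModularCurve.dedekindPsi (p * M) : Cardinal) := by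
  obtain ⟨a, M', hpM', rfl⟩ := Nat.exists_eq_pow_mul_and_not_dvd hM p hp.ne_one
  have hM'0 : M' ≠ 0 := fun h => hM (by rw [h, Nat.mul_zero])
  have hΦ' : ∀ r (hr : r.Prime), r ∣ p * M' → @ModEq k _ r ⟨hr.ne_zero⟩ := by
    intro r hr hdvd
    refine hΦ r hr (hdvd.trans ?_)
    exact Nat.mul_dvd_mul_left p (Dvd.intro_left _ rfl)
  have hΦp := hΦ p hp (Dvd.intro _ rfl)
  have e : p * (p ^ a * M') = p ^ (a + 1) * M' := by ring
  have hle := full_mul_le k hp a M' hM'0 hpM' hΦ'
  have hmono : modularFunctionFieldFullC k (p ^ a * M') ≤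
      modularFunctionFieldFullC k (p ^ (a + 1) * M') :=
    full_mono k (Nat.mul_dvd_mul_right (pow_dvd_pow p (Nat.le_succ a)) M')
  have h1 := relrank_mono_right hmono hle
  rw [e]
  rcases Nat.eq_zero_or_pos a with rfl | ha
  · -- `p ∤ M`
    have h2 := relrank_step_zero k hp (p ^ 0 * M') hΦp
    rw [zero_add, pow_one] at h1 hle ⊢
    have h3 := h1.trans h2
    have hψ : ModularCurve.dedekindPsi (p * M') = (p + 1) * ModularCurve.dedekindPsi M' :=
      psi_mul_of_not_dvd hp hpM'
    rw [pow_zero, one_mul] at h3 ⊢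
    rw [hψ, Nat.cast_mul]
    exact mul_le_mul_left h3 _
  · obtain ⟨b, rfl⟩ := Nat.exists_eq_add_of_le' ha
    have h2 := relrank_step_succ k hp b M' hΦp
    have h3 := h1.trans h2
    have hψ : ModularCurve.dedekindPsi (p ^ (b + 1 + 1) * M') =
        p * ModularCurve.dedekindPsi (p ^ (b + 1) * M') := by
      rw [← psi_mul_of_dvd hp (Dvd.intro _ (by ring : p * (p ^ b * M') = p ^ (b + 1) * M')) hM]
      congr 1
      ring
    rw [hψ, Nat.cast_mul]
    exact mul_le_mul_left h3 _

/-- **Q1.** If the modular equation holds at every prime dividing `N`, then the degree of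
`k(j(q^d) : d ∣ N)` over `k(j)` is at most `ψ(N)` (in particular it is finite). -/
theorem relrank_full_le {N : ℕ} (hN : N ≠ 0)
    (hΦ : ∀ r (hr : r.Prime), r ∣ N → @ModEq k _ r ⟨hr.ne_zero⟩) :
    (K0 k).relrank (modularFunctionFieldFullC k N) ≤ (ModularCurve.dedekindPsi N : Cardinal) := by
  induction N using Nat.strong_induction_on with
  | _ N ih =>
    rcases eq_or_ne N 1 with rfl | hN1
    · rw [full_one, IntermediateField.relrank_self, ModularCurve.dedekindPsi_one]
      simp
    · set p := N.minFac with hp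
      have hpp : p.Prime := Nat.minFac_prime hN1
      obtain ⟨M, hM⟩ : p ∣ N := Nat.minFac_dvd N
      have hM0 : M ≠ 0 := by
        rintro rfl
        exact hN (by rw [hM, Nat.mul_zero])
      have hMlt : M < N := by
        rw [hM]
        exact lt_mul_of_one_lt_left (Nat.pos_of_ne_zero hM0) hpp.one_lt
      have hMdvd : M ∣ N := Dvd.intro_left _ hM.symm
      have ihM := ih M hMlt hM0 (fun r hr hdvd => hΦ r hr (hdvd.trans hMdvd))
      have hstep := relrank_step k hpp hM0 (fun r hr hdvd => hΦ r hr (by rw [hM]; exact hdvd))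
      rw [← hM] at hstep
      rw [← IntermediateField.relrank_mul_relrank (K0_le_full k M) (full_mono k hMdvd)]
      calc (K0 k).relrank (modularFunctionFieldFullC k M) *
            (modularFunctionFieldFullC k M).relrank (modularFunctionFieldFullC k N)
          ≤ (ModularCurve.dedekindPsi M : Cardinal) *
            (modularFunctionFieldFullC k M).relrank (modularFunctionFieldFullC k N) :=
            mul_le_mul_left ihM _
        _ = (modularFunctionFieldFullC k M).relrank (modularFunctionFieldFullC k N) *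
            (ModularCurve.dedekindPsi M : Cardinal) := mul_comm _ _
        _ ≤ _ := hstep


theorem relrank_full_lt_aleph0 {N : ℕ} (hN : N ≠ 0)
    (hΦ : ∀ r (hr : r.Prime), r ∣ N → @ModEq k _ r ⟨hr.ne_zero⟩) :
    (K0 k).relrank (modularFunctionFieldFullC k N) < Cardinal.aleph0 :=
  (relrank_full_le k hN hΦ).trans_lt Cardinal.natCast_lt_aleph0

/-- **Q1**, `relfinrank` form. -/
theorem relfinrank_full_le {N : ℕ} (hN : N ≠ 0)
    (hΦ : ∀ r (hr : r.Prime), r ∣ N → @ModEq k _ r ⟨hr.ne_zero⟩) :
    (K0 k).relfinrank (modularFunctionFieldFullC k N) ≤ ModularCurve.dedekindPsi N := by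
  rw [IntermediateField.relfinrank_eq_toNat_relrank]
  exact (Cardinal.toNat_le_toNat (relrank_full_le k hN hΦ)
    Cardinal.natCast_lt_aleph0).trans_eq (Cardinal.toNat_natCast _)

/-- **Q1**, as a statement about the `k(j)`-vector space `k(j(q^d) : d ∣ N)`:
it is finite-dimensional of dimension at most `ψ(N)`. -/
theorem finrank_full_le {N : ℕ} (hN : N ≠ 0)
    (hΦ : ∀ r (hr : r.Prime), r ∣ N → @ModEq k _ r ⟨hr.ne_zero⟩) :
    FiniteDimensional (K0 k) (IntermediateField.extendScalars (K0_le_full k N)) ∧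
      Module.finrank (K0 k) (IntermediateField.extendScalars (K0_le_full k N)) ≤
        ModularCurve.dedekindPsi N := by
  have h1 := relrank_full_lt_aleph0 k hN hΦ
  have h2 := relfinrank_full_le k hN hΦ
  rw [IntermediateField.relrank_eq_rank_of_le (K0_le_full k N)] at h1
  rw [IntermediateField.relfinrank_eq_finrank_of_le (K0_le_full k N)] at h2
  exact ⟨IsNoetherian.iff_fg.mp (IsNoetherian.iff_rank_lt_aleph0.mpr h1), h2⟩

end Fermat.Agent.S28.UB
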