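import Fermat.Agent.S28.Transfer
import Fermat.Agent.S28.ModEq
import Fermat.Agent.S28.ModUnit
import Fermat.Agent.S28.CPrimeLaurent
import Fermat.Agent.S28.UpperBound

/-!
# S28 — prime level, unconditional

* `primeHyp k p` : for a prime `p` and a field `k` with `(p : k) ≠ 0`: the modular equation holds
  over `k` and `j(q^p) ∉ k(j)`.
* `dedekindPsi_le_relfinrank_full` : **Igusa's lower bound (Q2)**,
  `ψ(N) ≤ [k(j(q^d) : d ∣ N) : k(j)]` for every field `k` with `(N : k) ≠ 0`.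
-/

set_option autoImplicit false

namespace Fermat.Agent.S28

open ModularCurve Polynomial IntermediateField

theorem modEqHyp_complex (p : ℕ) [NeZero p] (hp : p.Prime) : ModEqHyp ℂ p :=
  modEq_exists p hp

theorem unitHyp_complex (p : ℕ) [NeZero p] (hp : p.Prime) : UnitHyp ℂ p := by
  obtain ⟨U, hm, hd, h1, h2⟩ := modUnit_exists p hp
  refine ⟨U, hm, hd, h1, ?_⟩
  rwa [uInvS_eq_inv, inv_pow]

theorem thetaHyp_complex : ThetaHyp ℂ := CPrime.cprime_field ℂ

/-- (P1) over every field. -/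
theorem modEqHyp (k : Type*) [Field k] (p : ℕ) [NeZero p] (hp : p.Prime) : ModEqHyp k p :=
  modEqHyp_of_charZero (k₀ := ℂ) hp.two_le (modEqHyp_complex p hp)

/-- **Prime level (Igusa)**: for a prime `p` and a field `k` in which `p ≠ 0`, the modular
equation holds over `k` and `j(q^p) ∉ k(j)`. -/
theorem primeHyp (k : Type*) [Field k] (p : ℕ) [NeZero p] (hp : p.Prime) (hpk : (p : k) ≠ 0) :
    PrimeHyp k p :=
  primeHyp_of_charZero (k₀ := ℂ) hpk hp.two_le (modEqHyp_complex p hp) (unitHyp_complex p hp)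
    thetaHyp_complex

theorem primeHyp_of_dvd (k : Type*) [Field k] (N : ℕ) (hN : (N : k) ≠ 0) :
    ∀ p : ℕ, p.Prime → p ∣ N → ∀ [NeZero p], PrimeHyp k p := by
  intro p hp hpN _
  refine primeHyp k p hp ?_
  intro h0
  obtain ⟨c, rfl⟩ := hpN
  rw [Nat.cast_mul, h0, zero_mul] at hN
  exact hN rfl

/-- **Igusa's lower bound (Q2)**: `ψ(N) ≤ [k(j(q^d) : d ∣ N) : k(j)]` when `N ≠ 0` in `k`. -/
theorem dedekindPsi_le_relfinrank_full (k : Type*) [Field k] (N : ℕ) [NeZero N]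
    (hN : (N : k) ≠ 0) :
    dedekindPsi N ≤ (adjoin k {jqModC k}).relfinrank (modularFunctionFieldFullC k N) :=
  dedekindPsi_le_relfinrank N (primeHyp_of_dvd k N hN)

theorem relrank_full_lt_aleph0_of_ne_zero (k : Type*) [Field k] (N : ℕ) [NeZero N]
    (hN : (N : k) ≠ 0) :
    (adjoin k {jqModC k}).relrank (modularFunctionFieldFullC k N) < Cardinal.aleph0 :=
  relrank_full_lt_aleph0 N (primeHyp_of_dvd k N hN)

/-- **The integral modular equation**: a monic `Φ ∈ ℤ[Y][X]` of `X`-degree `p + 1` with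
`Φ(j(q^p), j) = 0` and `Φ(j, j(q^p)) = 0` in `ℤ((q))`. -/
theorem modEq_int (p : ℕ) [NeZero p] (hp : p.Prime) :
    ∃ Φ : Polynomial (Polynomial ℤ), Φ.Monic ∧ Φ.natDegree = p + 1 ∧
      Φ.eval₂ (Polynomial.aeval (R := ℤ) (jqModC ℤ)).toRingHom (qExpand ℤ p (jqModC ℤ)) = 0 ∧
      Φ.eval₂ (Polynomial.aeval (R := ℤ) (qExpand ℤ p (jqModC ℤ))).toRingHom (jqModC ℤ) = 0 := by
  obtain ⟨Φ, hm, hd, h1, h2⟩ := modEqHyp_complex p hp
  obtain ⟨hlow, hunit⟩ := jqModC_lowest ℤ
  have hjι : coeffMap (Int.castRingHom ℂ) (jqModC ℤ) = jqModC ℂ := coeffMap_jqModC _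
  have hu' : coeffMap (Int.castRingHom ℂ) (jqModC ℤ) ≠ 0 := by
    rw [hjι]; exact jqModC_ne_zero ℂ
  have hcop : IsCoprime (coeffMap (Int.castRingHom ℂ) (jqModC ℤ)).order (p : ℤ) := by
    rw [hjι, order_jqModC]; exact isCoprime_neg_one_natCast p
  obtain ⟨W', hW'm, hW'd, -, hr1, hr2⟩ :=
    exists_descent (Int.castRingHom ℂ) Int.cast_injective hp.two_le (j := jqModC ℤ)
      (u := qExpand ℤ p (jqModC ℤ)) (u' := jqModC ℤ) (by norm_num) hlow hunit hu' hcop hm hd
      (by rw [coeffMap_qExpand, hjι]; exact h1) (by rw [hjι]; exact h2)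
  exact ⟨W', hW'm, hW'd, hr1, hr2⟩

/-- The modular equation over an arbitrary commutative ring (image of the integral one). -/
theorem modEq_ring (R : Type*) [CommRing R] [Nontrivial R] (p : ℕ) [NeZero p] (hp : p.Prime) :
    ∃ Φ : Polynomial (Polynomial R), Φ.Monic ∧ Φ.natDegree = p + 1 ∧
      Φ.eval₂ (Polynomial.aeval (R := R) (jqModC R)).toRingHom (qExpand R p (jqModC R)) = 0 ∧
      Φ.eval₂ (Polynomial.aeval (R := R) (qExpand R p (jqModC R))).toRingHom (jqModC R) = 0 := by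
  obtain ⟨Φ, hm, hd, h1, h2⟩ := modEq_int p hp
  have hj : coeffMap (Int.castRingHom R) (jqModC ℤ) = jqModC R := coeffMap_jqModC _
  refine ⟨Φ.map (Polynomial.mapRingHom (Int.castRingHom R)), hm.map _,
    by rw [hm.natDegree_map, hd], ?_, ?_⟩
  · have e1 := coeffMap_eval₂_aeval (Int.castRingHom R) (jqModC ℤ) (qExpand ℤ p (jqModC ℤ)) Φ
    rw [h1, map_zero, coeffMap_qExpand, hj] at e1
    exact e1.symm
  · have e2 := coeffMap_eval₂_aeval (Int.castRingHom R) (qExpand ℤ p (jqModC ℤ)) (jqModC ℤ) Φ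
    rw [h2, map_zero, coeffMap_qExpand, hj] at e2
    exact e2.symm

/-- (P1) in the form used by `UpperBound.lean`. -/
theorem ub_modEq (k : Type*) [Field k] (p : ℕ) [NeZero p] (hp : p.Prime) : UB.ModEq k p :=
  modEqHyp k p hp

/-- **Q1, unconditional**: `[k(j(q^d) : d ∣ N) : k(j)] ≤ ψ(N)` over every field. -/
theorem relfinrank_full_le_dedekindPsi (k : Type*) [Field k] (N : ℕ) [NeZero N] :
    (UB.K0 k).relfinrank (modularFunctionFieldFullC k N) ≤ dedekindPsi N :=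
  UB.relfinrank_full_le k (NeZero.ne N) (fun r hr _ => @ub_modEq k _ r ⟨hr.ne_zero⟩ hr)

/-- **Igusa's theorem on degrees**: `[k(j(q^d) : d ∣ N) : k(j)] = ψ(N)` for every field `k`
with `(N : k) ≠ 0`. -/
theorem relfinrank_full_eq_dedekindPsi (k : Type*) [Field k] (N : ℕ) [NeZero N]
    (hN : (N : k) ≠ 0) :
    (adjoin k {jqModC k}).relfinrank (modularFunctionFieldFullC k N) = dedekindPsi N :=
  le_antisymm (relfinrank_full_le_dedekindPsi k N) (dedekindPsi_le_relfinrank_full k N hN)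

end Fermat.Agent.S28
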