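import Fermat.Agent.S28.Induction
import Fermat.Agent.S28.LaurentRank
import Fermat.Agent.S20.Index
import Fermat.Prelude.Def_ModularCurve_X0ModL

/-!
# S28, Part Q2: the Igusa induction for `k((q))`

Instantiation of `Fermat.Agent.S28.Induction` with `L = k((q))`, `σ d = (q ↦ q ^ d)`,
`y = j̄ = jqModC k`:

`dedekindPsi N ≤ [k(j̄(q^d) : d ∣ N) : k(j̄)]`, given for every prime `p ∣ N` the (symmetric)
modular equation `Φ_p` over `k` and `j̄(q^p) ∉ k(j̄)`.
-/

set_option autoImplicit false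

namespace Fermat.Agent.S28

open ModularCurve Polynomial IntermediateField

section Instantiate

variable (k : Type*) [Field k]

/-- `q ↦ q ^ d` as a `k`-algebra endomorphism of `k((q))`, total in `d` (identity for `d = 0`). -/
noncomputable def sig (d : ℕ) : LaurentSeries k →ₐ[k] LaurentSeries k :=
  if h : d = 0 then AlgHom.id k _ else haveI : NeZero d := ⟨h⟩; qExpandAlgHomC k d

theorem sig_eq (d : ℕ) [NeZero d] : sig k d = qExpandAlgHomC k d := by
  rw [sig, dif_neg (NeZero.ne d)]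

theorem sig_apply (d : ℕ) [NeZero d] (x : LaurentSeries k) : sig k d x = qExpand k d x := by
  rw [sig_eq]; rfl

theorem sig_coe (d : ℕ) [NeZero d] :
    ((sig k d : LaurentSeries k →ₐ[k] LaurentSeries k) : LaurentSeries k →+* LaurentSeries k) =
      qExpand k d := by
  ext x : 1
  exact sig_apply k d x

theorem sig_one : sig k 1 = AlgHom.id k _ := by
  ext x : 1
  rw [sig_apply, qExpand_one_apply]
  rfl

theorem sig_mul (m n : ℕ) (hm : m ≠ 0) (hn : n ≠ 0) :
    (sig k m).comp (sig k n) = sig k (m * n) := by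
  have : NeZero m := ⟨hm⟩
  have : NeZero n := ⟨hn⟩
  have : NeZero (m * n) := ⟨Nat.mul_ne_zero hm hn⟩
  ext x : 1
  rw [AlgHom.comp_apply, sig_apply, sig_apply, sig_apply, qExpand_qExpand]

theorem jqModC_ne_zero : jqModC k ≠ 0 := jqModC_ne_zero_of_nontrivial k

theorem order_jqModC : (jqModC k).order = -1 := by
  have h1 : (jqModC k).coeff (-1) ≠ 0 := by
    rw [coeff_jqModC_neg_one]; exact one_ne_zero
  apply le_antisymm (HahnSeries.order_le_of_coeff_ne_zero h1)
  by_contra hlt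
  push Not at hlt
  have h2 : (jqModC k).coeff (jqModC k).order = 0 := coeff_jqModC_of_lt k hlt
  exact (HahnSeries.coeff_order_eq_zero.not.mpr (jqModC_ne_zero k)) h2

theorem lowDeg_sig : LowDeg (sig k) (jqModC k) := by
  intro p d hp hd hpd Q hQ h
  have : NeZero p := ⟨hp.ne_zero⟩
  have : NeZero d := ⟨hd⟩
  rw [sig_coe, sig_apply] at h
  have hy : qExpand k d (jqModC k) ≠ 0 := qExpand_ne_zero (jqModC_ne_zero k)
  have hcop : IsCoprime (qExpand k d (jqModC k)).order (p : ℤ) := by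
    rw [order_qExpand, order_jqModC, mul_neg, mul_one]
    apply IsCoprime.neg_left
    rw [Nat.isCoprime_iff_coprime]
    exact ((Nat.Prime.coprime_iff_not_dvd hp).mpr hpd).symm
  exact le_natDegree_of_eval₂_eq_zero hy hcop hQ h

theorem Fbar_sig_eq (N : ℕ) [NeZero N] :
    Fbar (sig k) (jqModC k) N = modularFunctionFieldFullC k N := by
  rw [Fbar, modularFunctionFieldFullC]
  congr 1
  ext x
  constructor
  · rintro ⟨d, hd, rfl⟩
    have hd0 : d ≠ 0 := fun h => NeZero.ne N (by rw [h] at hd; exact zero_dvd_iff.mp hd)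
    have : NeZero d := ⟨hd0⟩
    exact ⟨d, ⟨hd0⟩, hd, sig_apply k d _⟩
  · rintro ⟨d, hne, hd, rfl⟩
    have := hne
    exact ⟨d, hd, (sig_apply k d _).symm⟩

/-- The hypotheses at a prime `p`: the symmetric modular equation over `k`, and `j̄(q^p) ∉ k(j̄)`. -/
def PrimeHyp (p : ℕ) [NeZero p] : Prop :=
  (∃ Φ : (k[X])[X], Φ.Monic ∧ Φ.natDegree = p + 1 ∧
      Φ.eval₂ (aeval (jqModC k) : k[X] →ₐ[k] LaurentSeries k).toRingHom
        (qExpand k p (jqModC k)) = 0 ∧
      Φ.eval₂ (aeval (qExpand k p (jqModC k)) : k[X] →ₐ[k] LaurentSeries k).toRingHom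
        (jqModC k) = 0) ∧
    qExpand k p (jqModC k) ∉ adjoin k {jqModC k}

theorem primeHyp_iff (p : ℕ) [NeZero p] :
    PrimeHyp k p ↔ (∃ Φ : (k[X])[X], ModEq (sig k) (jqModC k) p Φ) ∧
      sig k p (jqModC k) ∉ adjoin k {jqModC k} := by
  simp only [PrimeHyp, ModEq, sig_apply]

variable {k}

theorem primeData_of_primeHyp (N : ℕ)
    (h : ∀ p : ℕ, p.Prime → p ∣ N → ∀ [NeZero p], PrimeHyp k p) :
    ∀ p, p.Prime → p ∣ N → (∃ Φ : (k[X])[X], ModEq (sig k) (jqModC k) p Φ) ∧
      sig k p (jqModC k) ∉ adjoin k {jqModC k} := by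
  intro p hp hpN
  have : NeZero p := ⟨hp.ne_zero⟩
  exact (primeHyp_iff k p).mp (h p hp hpN)

/-- **Q2, cardinal form.** -/
theorem natCast_dedekindPsi_le_relrank (N : ℕ) [NeZero N]
    (h : ∀ p : ℕ, p.Prime → p ∣ N → ∀ [NeZero p], PrimeHyp k p) :
    (dedekindPsi N : Cardinal) ≤
      (adjoin k {jqModC k}).relrank (modularFunctionFieldFullC k N) := by
  rw [← Fbar_sig_eq]
  exact natCast_le_relrank_Fbar (sig_one k) (sig_mul k) (lowDeg_sig k) dedekindPsi
    dedekindPsi_one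
    (fun p a hp ha hpa => Fermat.Agent.S20.dedekindPsi_mul_of_dvd hp hpa ha)
    (fun p a hp _ hpa => Fermat.Agent.S20.dedekindPsi_mul_of_not_dvd hp hpa)
    N (NeZero.ne N) (primeData_of_primeHyp N h)

/-- Finiteness of `k(j̄(q^d) : d ∣ N)` over `k(j̄)` (needs only the modular equations). -/
theorem relrank_full_lt_aleph0 (N : ℕ) [NeZero N]
    (h : ∀ p : ℕ, p.Prime → p ∣ N → ∀ [NeZero p], PrimeHyp k p) :
    (adjoin k {jqModC k}).relrank (modularFunctionFieldFullC k N) < Cardinal.aleph0 := by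
  rw [← Fbar_sig_eq]
  exact relrank_Fbar_lt_aleph0 (sig_one k) (sig_mul k) N (NeZero.ne N)
    (fun p hp hpN => (primeData_of_primeHyp N h p hp hpN).1)

/-- **Q2** (Igusa, lower bound): `ψ(N) ≤ [k(j̄(q^d) : d ∣ N) : k(j̄)]`. -/
theorem dedekindPsi_le_relfinrank (N : ℕ) [NeZero N]
    (h : ∀ p : ℕ, p.Prime → p ∣ N → ∀ [NeZero p], PrimeHyp k p) :
    dedekindPsi N ≤ (adjoin k {jqModC k}).relfinrank (modularFunctionFieldFullC k N) := by
  rw [← Fbar_sig_eq]
  exact le_relfinrank_Fbar (sig_one k) (sig_mul k) (lowDeg_sig k) dedekindPsi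
    dedekindPsi_one
    (fun p a hp ha hpa => Fermat.Agent.S20.dedekindPsi_mul_of_dvd hp hpa ha)
    (fun p a hp _ hpa => Fermat.Agent.S20.dedekindPsi_mul_of_not_dvd hp hpa)
    N (NeZero.ne N) (primeData_of_primeHyp N h)

end Instantiate

end Fermat.Agent.S28
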