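import Mathlib
import Fermat.Prelude.Def_ModularCurve_X0ModL
import Fermat.Agent.S28.InductionLaurent
import Fermat.Agent.S28.PrimeLevel

/-!
# S28: RED — independent reductions mod `ℓ` give independence over `ℚ(t)`

`x i ∈ ℤ((q))`, `t ∈ ℤ((q))` with `t mod ℓ` transcendental over `𝔽_ℓ`.  If the reductions of the
`x i` are linearly independent over `𝔽_ℓ(t̄)`, the images of the `x i` in `ℚ((q))` are linearly
independent over `ℚ(t)`.

Proof: a relation over `ℚ(t)` is scaled to a relation `∑ P i (t) x i = 0` with `P i ∈ ℤ[X]`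
(it holds in `ℤ((q))`, which embeds into `ℚ((q))`); reducing mod `ℓ` shows that `ℓ` divides every
`P i`; `ℤ((q))` has no `ℓ`-torsion, so the relation can be divided by `ℓ`; descent on the absolute
value of a nonzero coefficient.

* `red_integral_relation` : no nontrivial relation with coefficients in `ℤ[t]`.
* `red_indep` : membership form (the form of `IsKeyData.indep`).
* `red_linearIndependent` : `LinearIndependent` form.
* `red_indep_jq`, `red_linearIndependent_jq` : the case `t = j`.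
-/

set_option autoImplicit false

namespace Fermat.Agent.S28

open ModularCurve Polynomial IntermediateField

section RedAbstract

/-- `coeffMap` commutes with the evaluation of integer polynomials. -/
theorem red_coeffMap_eval₂ {S : Type*} [CommRing S] (f : ℤ →+* S) (t : LaurentSeries ℤ)
    (P : Polynomial ℤ) :
    coeffMap f (eval₂ (Int.castRingHom (LaurentSeries ℤ)) t P) =
      eval₂ (Int.castRingHom (LaurentSeries S)) (coeffMap f t) P := by
  rw [Polynomial.hom_eval₂]
  congr 1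
  exact RingHom.ext_int _ _

/-- Evaluation of the image of an integer polynomial over a field. -/
theorem red_aeval_map {k : Type*} [Field k] (y : LaurentSeries k) (P : Polynomial ℤ) :
    aeval y (P.map (Int.castRingHom k)) = eval₂ (Int.castRingHom (LaurentSeries k)) y P := by
  rw [aeval_def, eval₂_map]
  congr 1
  exact RingHom.ext_int _ _

/-- `ℤ((q)) → ℚ((q))` is injective. -/
theorem red_coeffMap_rat_injective :
    Function.Injective (coeffMap (Int.castRingHom ℚ)) := by
  intro x y h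
  ext n
  have h1 := congrArg (fun z : LaurentSeries ℚ => z.coeff n) h
  simp only [coeffMap_coeff, eq_intCast] at h1
  exact_mod_cast h1

/-- `ℤ((q))` has no `ℓ`-torsion. -/
theorem red_eq_zero_of_intCast_mul {a : ℤ} (ha : a ≠ 0) {y : LaurentSeries ℤ}
    (h : Int.castRingHom (LaurentSeries ℤ) a * y = 0) : y = 0 := by
  ext n
  have h1 := congrArg (fun z : LaurentSeries ℤ => z.coeff n) h
  have h2 : Int.castRingHom (LaurentSeries ℤ) a = HahnSeries.C a := by
    rw [eq_intCast, ← map_intCast (HahnSeries.C : ℤ →+* LaurentSeries ℤ)]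
    simp
  simp only [h2, HahnSeries.coeff_zero] at h1
  rw [HahnSeries.C_mul_eq_smul, HahnSeries.coeff_smul] at h1
  simpa [ha] using h1

end RedAbstract

section RedCore

variable (ℓ : ℕ) [Fact ℓ.Prime] {ι : Type*} [Fintype ι]

/-- One step of the descent: a relation with coefficients in `ℤ[t]` is divisible by `ℓ`. -/
theorem red_step (x : ι → LaurentSeries ℤ) (t : LaurentSeries ℤ)
    (ht : Transcendental (ZMod ℓ) (coeffMap (Int.castRingHom (ZMod ℓ)) t))
    (hind : ∀ c : ι → LaurentSeries (ZMod ℓ),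
      (∀ i, c i ∈ adjoin (ZMod ℓ) {coeffMap (Int.castRingHom (ZMod ℓ)) t}) →
      ∑ i, c i * coeffMap (Int.castRingHom (ZMod ℓ)) (x i) = 0 → ∀ i, c i = 0)
    (P : ι → Polynomial ℤ)
    (hP : ∑ i, eval₂ (Int.castRingHom (LaurentSeries ℤ)) t (P i) * x i = 0) :
    ∃ P' : ι → Polynomial ℤ, (∀ i, P i = C (ℓ : ℤ) * P' i) ∧
      ∑ i, eval₂ (Int.castRingHom (LaurentSeries ℤ)) t (P' i) * x i = 0 := by
  have hℓ : (ℓ : ℤ) ≠ 0 := by
    exact_mod_cast (Fact.out : ℓ.Prime).ne_zero
  -- reduce the relation mod `ℓ`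
  have h1 := congrArg (coeffMap (Int.castRingHom (ZMod ℓ))) hP
  rw [map_sum, map_zero] at h1
  simp_rw [map_mul, red_coeffMap_eval₂, ← red_aeval_map] at h1
  have h2 := hind (fun i => aeval (coeffMap (Int.castRingHom (ZMod ℓ)) t)
      ((P i).map (Int.castRingHom (ZMod ℓ)))) (fun i => ?_) h1
  · have h3 : ∀ i, (P i).map (Int.castRingHom (ZMod ℓ)) = 0 := fun i =>
      transcendental_iff.mp ht _ (h2 i)
    have h4 : ∀ i, C (ℓ : ℤ) ∣ P i := by
      intro i
      rw [Polynomial.C_dvd_iff_dvd_coeff]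
      intro k
      have h5 := congrArg (fun q : Polynomial (ZMod ℓ) => q.coeff k) (h3 i)
      simp only [Polynomial.coeff_map, Polynomial.coeff_zero, eq_intCast] at h5
      exact (ZMod.intCast_zmod_eq_zero_iff_dvd _ ℓ).mp h5
    choose P' hP' using h4
    refine ⟨P', hP', ?_⟩
    apply red_eq_zero_of_intCast_mul hℓ
    rw [← hP, Finset.mul_sum]
    refine Finset.sum_congr rfl fun i _ => ?_
    rw [hP' i, eval₂_mul, eval₂_C, mul_assoc]
  · exact IntermediateField.algebra_adjoin_le_adjoin _ _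
      (Polynomial.aeval_mem_adjoin_singleton _ _)

/-- The descent. -/
theorem red_core (x : ι → LaurentSeries ℤ) (t : LaurentSeries ℤ)
    (ht : Transcendental (ZMod ℓ) (coeffMap (Int.castRingHom (ZMod ℓ)) t))
    (hind : ∀ c : ι → LaurentSeries (ZMod ℓ),
      (∀ i, c i ∈ adjoin (ZMod ℓ) {coeffMap (Int.castRingHom (ZMod ℓ)) t}) →
      ∑ i, c i * coeffMap (Int.castRingHom (ZMod ℓ)) (x i) = 0 → ∀ i, c i = 0) :
    ∀ (m : ℕ) (P : ι → Polynomial ℤ) (i₀ : ι) (k₀ : ℕ),
      ((P i₀).coeff k₀).natAbs = m → m ≠ 0 →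
      ∑ i, eval₂ (Int.castRingHom (LaurentSeries ℤ)) t (P i) * x i = 0 → False := by
  intro m
  induction m using Nat.strong_induction_on with
  | _ m ih =>
    intro P i₀ k₀ hm hm0 hP
    obtain ⟨P', hP', hrel⟩ := red_step ℓ x t ht hind P hP
    have hℓ2 : 2 ≤ ℓ := (Fact.out : ℓ.Prime).two_le
    have h1 : (P i₀).coeff k₀ = (ℓ : ℤ) * (P' i₀).coeff k₀ := by
      rw [hP' i₀, Polynomial.coeff_C_mul]
    have h2 : m = ℓ * ((P' i₀).coeff k₀).natAbs := by
      rw [← hm, h1, Int.natAbs_mul, Int.natAbs_natCast]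
    have h3 : ((P' i₀).coeff k₀).natAbs ≠ 0 := by
      intro h0
      rw [h0, mul_zero] at h2
      exact hm0 h2
    have h4 : ((P' i₀).coeff k₀).natAbs < m := by
      rw [h2]
      nlinarith [Nat.pos_of_ne_zero h3]
    exact ih _ h4 P' i₀ k₀ rfl h3 hrel

/-- **RED, integral form**: if the reductions mod `ℓ` of the `x i` are linearly independent over
`𝔽_ℓ(t̄)` (and `t̄` is transcendental), there is no nontrivial relation `∑ P i (t) x i = 0` with
`P i ∈ ℤ[X]`. -/
theorem red_integral_relation (x : ι → LaurentSeries ℤ) (t : LaurentSeries ℤ)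
    (ht : Transcendental (ZMod ℓ) (coeffMap (Int.castRingHom (ZMod ℓ)) t))
    (hind : ∀ c : ι → LaurentSeries (ZMod ℓ),
      (∀ i, c i ∈ adjoin (ZMod ℓ) {coeffMap (Int.castRingHom (ZMod ℓ)) t}) →
      ∑ i, c i * coeffMap (Int.castRingHom (ZMod ℓ)) (x i) = 0 → ∀ i, c i = 0)
    (P : ι → Polynomial ℤ)
    (hP : ∑ i, eval₂ (Int.castRingHom (LaurentSeries ℤ)) t (P i) * x i = 0) :
    ∀ i, P i = 0 := by
  intro i₀
  by_contra h
  obtain ⟨k₀, hk₀⟩ : ∃ k₀, (P i₀).coeff k₀ ≠ 0 := by
    by_contra hne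
    simp only [not_exists, not_not] at hne
    exact h (Polynomial.ext fun k => by rw [hne k, Polynomial.coeff_zero])
  exact red_core ℓ x t ht hind _ P i₀ k₀ rfl (Int.natAbs_ne_zero.mpr hk₀) hP

end RedCore

section RedFrac

/-- Every element of `ℚ(α)` is a quotient of values at `α` of integer polynomials. -/
theorem red_exists_int_frac (α c : LaurentSeries ℚ) (hc : c ∈ adjoin ℚ {α}) :
    ∃ D P : Polynomial ℤ, eval₂ (Int.castRingHom (LaurentSeries ℚ)) α D ≠ 0 ∧
      c * eval₂ (Int.castRingHom (LaurentSeries ℚ)) α D =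
        eval₂ (Int.castRingHom (LaurentSeries ℚ)) α P := by
  obtain ⟨r, s, rfl⟩ := (mem_adjoin_simple_iff ℚ c).mp hc
  by_cases hs : aeval α s = 0
  · refine ⟨1, 0, ?_, ?_⟩
    · rw [eval₂_one]; exact one_ne_zero
    · rw [hs, div_zero, zero_mul, eval₂_zero]
  · obtain ⟨b₁, hb₁, h₁⟩ := IsLocalization.integerNormalization_spec (nonZeroDivisors ℤ) r
    obtain ⟨b₂, hb₂, h₂⟩ := IsLocalization.integerNormalization_spec (nonZeroDivisors ℤ) s
    set R := IsLocalization.integerNormalization (nonZeroDivisors ℤ) r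
    set S := IsLocalization.integerNormalization (nonZeroDivisors ℤ) s
    have hb₁0 : (b₁ : ℚ) ≠ 0 := by
      exact_mod_cast nonZeroDivisors.ne_zero hb₁
    have hb₂0 : (b₂ : ℚ) ≠ 0 := by
      exact_mod_cast nonZeroDivisors.ne_zero hb₂
    have e₁ : eval₂ (Int.castRingHom (LaurentSeries ℚ)) α R =
        algebraMap ℚ (LaurentSeries ℚ) (b₁ : ℚ) * aeval α r := by
      have h : R.map (Int.castRingHom ℚ) = C (b₁ : ℚ) * r := by
        rw [← algebraMap_int_eq, h₁, zsmul_eq_mul, ← Polynomial.C_eq_intCast]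
      rw [← red_aeval_map, h, map_mul, aeval_C]
    have e₂ : eval₂ (Int.castRingHom (LaurentSeries ℚ)) α S =
        algebraMap ℚ (LaurentSeries ℚ) (b₂ : ℚ) * aeval α s := by
      have h : S.map (Int.castRingHom ℚ) = C (b₂ : ℚ) * s := by
        rw [← algebraMap_int_eq, h₂, zsmul_eq_mul, ← Polynomial.C_eq_intCast]
      rw [← red_aeval_map, h, map_mul, aeval_C]
    have c₁ : Int.castRingHom (LaurentSeries ℚ) b₁ = algebraMap ℚ (LaurentSeries ℚ) (b₁ : ℚ) := by
      simp
    have c₂ : Int.castRingHom (LaurentSeries ℚ) b₂ = algebraMap ℚ (LaurentSeries ℚ) (b₂ : ℚ) := by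
      simp
    have n₁ : algebraMap ℚ (LaurentSeries ℚ) (b₁ : ℚ) ≠ 0 := (_root_.map_ne_zero _).mpr hb₁0
    have n₂ : algebraMap ℚ (LaurentSeries ℚ) (b₂ : ℚ) ≠ 0 := (_root_.map_ne_zero _).mpr hb₂0
    refine ⟨C b₁ * S, C b₂ * R, ?_, ?_⟩
    · rw [eval₂_mul, eval₂_C, e₂, c₁]
      exact mul_ne_zero n₁ (mul_ne_zero n₂ hs)
    · rw [eval₂_mul, eval₂_C, eval₂_mul, eval₂_C, e₁, e₂, c₁, c₂]
      field_simp

/-- Common denominator. -/
theorem red_exists_common_denominator {ι : Type*} (α : LaurentSeries ℚ)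
    (c : ι → LaurentSeries ℚ) (hc : ∀ i, c i ∈ adjoin ℚ {α}) (s : Finset ι) :
    ∃ D : Polynomial ℤ, eval₂ (Int.castRingHom (LaurentSeries ℚ)) α D ≠ 0 ∧
      ∀ i ∈ s, ∃ P : Polynomial ℤ, c i * eval₂ (Int.castRingHom (LaurentSeries ℚ)) α D =
        eval₂ (Int.castRingHom (LaurentSeries ℚ)) α P := by
  classical
  induction s using Finset.induction_on with
  | empty => exact ⟨1, by rw [eval₂_one]; exact one_ne_zero, fun i hi => by simp at hi⟩
  | insert a s _ ih =>
    obtain ⟨D, hD, hDs⟩ := ih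
    obtain ⟨Da, Pa, hDa, hPa⟩ := red_exists_int_frac α (c a) (hc a)
    refine ⟨D * Da, ?_, ?_⟩
    · rw [eval₂_mul]; exact mul_ne_zero hD hDa
    · intro i hi
      rcases Finset.mem_insert.mp hi with rfl | hi
      · refine ⟨D * Pa, ?_⟩
        rw [eval₂_mul, eval₂_mul, ← hPa]; ring
      · obtain ⟨P, hP⟩ := hDs i hi
        refine ⟨P * Da, ?_⟩
        rw [eval₂_mul, eval₂_mul, ← hP]; ring

end RedFrac

section RedMain

variable (ℓ : ℕ) [Fact ℓ.Prime] {ι : Type*} [Fintype ι]

/-- **RED** (membership form, as in `IsKeyData.indep`): if the reductions mod `ℓ` of the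
`x i ∈ ℤ((q))` are linearly independent over `𝔽_ℓ(t̄)` and `t̄` is transcendental over `𝔽_ℓ`, the
images of the `x i` in `ℚ((q))` are linearly independent over `ℚ(t)`. -/
theorem red_indep (x : ι → LaurentSeries ℤ) (t : LaurentSeries ℤ)
    (ht : Transcendental (ZMod ℓ) (coeffMap (Int.castRingHom (ZMod ℓ)) t))
    (hind : ∀ c : ι → LaurentSeries (ZMod ℓ),
      (∀ i, c i ∈ adjoin (ZMod ℓ) {coeffMap (Int.castRingHom (ZMod ℓ)) t}) →
      ∑ i, c i * coeffMap (Int.castRingHom (ZMod ℓ)) (x i) = 0 → ∀ i, c i = 0) :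
    ∀ c : ι → LaurentSeries ℚ,
      (∀ i, c i ∈ adjoin ℚ {coeffMap (Int.castRingHom ℚ) t}) →
      ∑ i, c i * coeffMap (Int.castRingHom ℚ) (x i) = 0 → ∀ i, c i = 0 := by
  intro c hc hrel
  obtain ⟨D, hD, hDP⟩ := red_exists_common_denominator (coeffMap (Int.castRingHom ℚ) t) c hc
    Finset.univ
  choose P hP using fun i => hDP i (Finset.mem_univ i)
  have h1 : ∑ i, eval₂ (Int.castRingHom (LaurentSeries ℤ)) t (P i) * x i = 0 := by
    apply red_coeffMap_rat_injective
    rw [map_sum, map_zero]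
    simp_rw [map_mul, red_coeffMap_eval₂, ← hP]
    have : ∑ i, c i * eval₂ (Int.castRingHom (LaurentSeries ℚ)) (coeffMap (Int.castRingHom ℚ) t) D *
        coeffMap (Int.castRingHom ℚ) (x i) =
        eval₂ (Int.castRingHom (LaurentSeries ℚ)) (coeffMap (Int.castRingHom ℚ) t) D *
          ∑ i, c i * coeffMap (Int.castRingHom ℚ) (x i) := by
      rw [Finset.mul_sum]
      exact Finset.sum_congr rfl fun i _ => by ring
    rw [this, hrel, mul_zero]
  have h2 := red_integral_relation ℓ x t ht hind P h1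
  intro i
  have h3 := hP i
  rw [h2 i, eval₂_zero] at h3
  exact (mul_eq_zero.mp h3).resolve_right hD

/-- **RED**, `LinearIndependent` form. -/
theorem red_linearIndependent (x : ι → LaurentSeries ℤ) (t : LaurentSeries ℤ)
    (ht : Transcendental (ZMod ℓ) (coeffMap (Int.castRingHom (ZMod ℓ)) t))
    (hli : LinearIndependent (adjoin (ZMod ℓ) {coeffMap (Int.castRingHom (ZMod ℓ)) t})
      (fun i => coeffMap (Int.castRingHom (ZMod ℓ)) (x i))) :
    LinearIndependent (adjoin ℚ {coeffMap (Int.castRingHom ℚ) t})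
      (fun i => coeffMap (Int.castRingHom ℚ) (x i)) := by
  rw [Fintype.linearIndependent_iff] at hli ⊢
  intro g hg i
  have h1 := red_indep ℓ x t ht (fun c hc hrel j => ?_) (fun i => (g i : LaurentSeries ℚ))
    (fun i => (g i).2) (by simpa [IntermediateField.smul_def] using hg) i
  · exact Subtype.ext h1
  · have h2 := hli (fun i => ⟨c i, hc i⟩) (by simpa [IntermediateField.smul_def] using hrel) j
    exact congrArg Subtype.val h2

end RedMain

section RedJ

variable (ℓ : ℕ) [Fact ℓ.Prime]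

/-- `j̄` is transcendental over any field. -/
theorem red_transcendental_jqModC (k : Type*) [Field k] : Transcendental k (jqModC k) := by
  rw [transcendental_iff_injective]
  exact aeval_injective_of_order_neg (by rw [order_jqModC]; norm_num)

/-- **RED** for `t = j`, membership form. -/
theorem red_indep_jq {ι : Type*} [Fintype ι] (x : ι → LaurentSeries ℤ)
    (hind : ∀ c : ι → LaurentSeries (ZMod ℓ),
      (∀ i, c i ∈ adjoin (ZMod ℓ) {jqModC (ZMod ℓ)}) →
      ∑ i, c i * coeffMap (Int.castRingHom (ZMod ℓ)) (x i) = 0 → ∀ i, c i = 0) :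
    ∀ c : ι → LaurentSeries ℚ,
      (∀ i, c i ∈ adjoin ℚ {jqModC ℚ}) →
      ∑ i, c i * coeffMap (Int.castRingHom ℚ) (x i) = 0 → ∀ i, c i = 0 := by
  have hL : coeffMap (Int.castRingHom (ZMod ℓ)) (jqModC ℤ) = jqModC (ZMod ℓ) :=
    coeffMap_jqModC _
  have hQ : coeffMap (Int.castRingHom ℚ) (jqModC ℤ) = jqModC ℚ := coeffMap_jqModC _
  have h := red_indep ℓ x (jqModC ℤ) (by rw [hL]; exact red_transcendental_jqModC _)
    (by rw [hL]; exact hind)
  rw [hQ] at h
  exact h

/-- **RED** for `t = j`, `LinearIndependent` form, general finite index type. -/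
theorem red_linearIndependent_jq {ι : Type*} [Fintype ι] (x : ι → LaurentSeries ℤ)
    (h : LinearIndependent ↥(IntermediateField.adjoin (ZMod ℓ) {jqModC (ZMod ℓ)})
      (fun i => coeffMap (Int.castRingHom (ZMod ℓ)) (x i))) :
    LinearIndependent ↥(IntermediateField.adjoin ℚ {jqModC ℚ})
      (fun i => coeffMap (Int.castRingHom ℚ) (x i)) := by
  have hL : coeffMap (Int.castRingHom (ZMod ℓ)) (jqModC ℤ) = jqModC (ZMod ℓ) :=
    coeffMap_jqModC _
  have hQ : coeffMap (Int.castRingHom ℚ) (jqModC ℤ) = jqModC ℚ := coeffMap_jqModC _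
  have h' := red_linearIndependent ℓ x (jqModC ℤ) (by rw [hL]; exact red_transcendental_jqModC _)
    (by rw [hL]; exact h)
  rw [hQ] at h'
  exact h'

/-- **RED** (the statement consumed by `KeyDataJ.lean`): if the reductions mod `ℓ` of
`x i ∈ ℤ((q))` are linearly independent over `𝔽_ℓ(j̄)`, their images in `ℚ((q))` are linearly
independent over `ℚ(j)`. -/
theorem linearIndependent_rat_of_zmod (ℓ : ℕ) [Fact ℓ.Prime] {n : ℕ}
    (x : Fin n → LaurentSeries ℤ)
    (h : LinearIndependent ↥(IntermediateField.adjoin (ZMod ℓ) {jqModC (ZMod ℓ)})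
      (fun i => coeffMap (Int.castRingHom (ZMod ℓ)) (x i))) :
    LinearIndependent ↥(IntermediateField.adjoin ℚ {jqModC ℚ})
      (fun i => coeffMap (Int.castRingHom ℚ) (x i)) :=
  red_linearIndependent_jq ℓ x h

end RedJ

end Fermat.Agent.S28
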