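import Fermat.Agent.S28.KeyMon
import Fermat.Agent.S28.KeyDataDef
import Fermat.Agent.S28.UpperBound
import Fermat.Agent.S28.IntegralJd
import Fermat.Agent.S28.PrimeLevel
import Fermat.Agent.S28.PrimeHypMain
import Fermat.Agent.S28.Red

/-!
# S28: KD(j) — assembly of the key data for the chart with coordinate `j`

`isKeyData_j_of` : from

* (Q2) `PrimeHyp (ZMod ℓ) p` for the primes `p ∣ N`,
* (Q1) `UB.ModEq ℚ p` for the primes `p ∣ N`,
* (INT) `IntModEq p` for the primes `p ∣ N`,
* (RED) independence mod `ℓ` over `𝔽_ℓ(j̄)` ⇒ independence over `ℚ(j)`,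

there are `ψ(N)` elements `x i ∈ ℤ_(ℓ)((q))` with `IsKeyData N ℓ (jqModC ℤ_(ℓ)) x`.

`exists_keyData_j` : the unconditional statement for `ℓ ∤ N` (inputs: `PrimeHypMain.lean`,
`IntegralJd.lean`, `Red.lean`).
-/

set_option autoImplicit false

noncomputable section

namespace Fermat.Agent.S28

open ModularCurve ModularCurve.IgusaScheme Polynomial IntermediateField

section Abstract

variable {k L : Type*} [Field k] [Field L] [Algebra k L]

/-- `n` independent elements of an extension of degree `≤ n` span it. -/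
theorem exists_coeffs_of_linearIndependent (E F : IntermediateField k L) (hEF : E ≤ F) {n : ℕ}
    (hfd : FiniteDimensional E (extendScalars hEF))
    (hfin : Module.finrank E (extendScalars hEF) ≤ n) (m : Fin n → L) (hm : ∀ i, m i ∈ F)
    (hli : LinearIndependent E m) :
    ∀ f ∈ F, ∃ c : Fin n → L, (∀ i, c i ∈ E) ∧ f = ∑ i, c i * m i := by
  intro f hf
  let m' : Fin n → extendScalars hEF := fun i => ⟨m i, hm i⟩
  have hli' : LinearIndependent E m' := by
    refine LinearIndependent.of_comp ((extendScalars hEF).val.toLinearMap) ?_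
    exact hli
  have hcard : Fintype.card (Fin n) = Module.finrank E (extendScalars hEF) := by
    apply le_antisymm
    · exact hli'.fintype_card_le_finrank
    · simpa using hfin
  have hspan := hli'.span_eq_top_of_card_eq_finrank' hcard
  have hmem : (⟨f, hf⟩ : extendScalars hEF) ∈ Submodule.span E (Set.range m') := by
    rw [hspan]; exact Submodule.mem_top
  obtain ⟨c, hc⟩ := (Submodule.mem_span_range_iff_exists_fun E).mp hmem
  refine ⟨fun i => (c i : L), fun i => (c i).2, ?_⟩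
  have h1 := congrArg (fun z : extendScalars hEF => (z : L)) hc
  simp only at h1
  rw [← h1]
  rw [← IntermediateField.coe_val, map_sum]
  refine Finset.sum_congr rfl fun i _ => ?_
  rfl

end Abstract

section Lam

variable (ℓ : ℕ) [Fact ℓ.Prime]

/-- Integer coefficients to `ℤ_(ℓ)`-coefficients. -/
def zToLam : LaurentSeries ℤ →+* LaurentSeries ↥(GaloisRep.ratLocalizedAt ℓ) :=
  coeffMap (Int.castRingHom ↥(GaloisRep.ratLocalizedAt ℓ))

omit [Fact ℓ.Prime] in
theorem lamIncl_zToLam (x : LaurentSeries ℤ) :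
    lamIncl ℓ (zToLam ℓ x) = coeffMap (Int.castRingHom ℚ) x := by
  rw [lamIncl, zToLam, coeffMap_coeffMap]
  exact coeffMap_congr (RingHom.ext_int _ _) x

theorem lamRed_zToLam (x : LaurentSeries ℤ) :
    lamRed ℓ (zToLam ℓ x) = coeffMap (Int.castRingHom (ZMod ℓ)) x := by
  rw [lamRed, zToLam, coeffMap_coeffMap]
  exact coeffMap_congr (RingHom.ext_int _ _) x

omit [Fact ℓ.Prime] in
theorem lamIncl_jqModC : lamIncl ℓ (jqModC ↥(GaloisRep.ratLocalizedAt ℓ)) = jq := by
  rw [lamIncl, coeffMap_jqModC, jqModC_rat]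

theorem lamRed_jqModC :
    lamRed ℓ (jqModC ↥(GaloisRep.ratLocalizedAt ℓ)) = jqModC (ZMod ℓ) := by
  rw [lamRed, coeffMap_jqModC]

theorem kdj_transcendental_jqModC (k : Type*) [Field k] : Transcendental k (jqModC k) := by
  rw [transcendental_iff_injective]
  exact aeval_injective_of_order_neg (by rw [order_jqModC]; norm_num)

end Lam

section Main

variable (N : ℕ) [NeZero N] (ℓ : ℕ) [Fact ℓ.Prime]

omit [NeZero N] in
theorem gensZ_subset_intJdRing : gensZ N ⊆ (intJdRing N : Set (LaurentSeries ℤ)) := by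
  rintro z ⟨d, hne, hd, rfl⟩
  have := intJd_mem_intJdRing N hd
  rwa [intJd_eq] at this

omit [NeZero N] in
theorem closure_gensZ_le_intJdRing :
    Submonoid.closure (gensZ N) ≤ (intJdRing N).toSubmonoid :=
  Submonoid.closure_le.mpr (gensZ_subset_intJdRing N)

/-- **KD(j)** from the inputs (Q2 mod `ℓ`), (Q1 over `ℚ`), (INT), (RED). -/
theorem isKeyData_j_of
    (hQ2 : ∀ p : ℕ, p.Prime → p ∣ N → ∀ [NeZero p], PrimeHyp (ZMod ℓ) p)
    (hQ1 : ∀ r (hr : r.Prime), r ∣ N → @UB.ModEq ℚ _ r ⟨hr.ne_zero⟩)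
    (hINT : ∀ p : ℕ, p.Prime → p ∣ N → IntModEq p)
    (hRED : ∀ x : Fin (dedekindPsi N) → LaurentSeries ℤ,
      LinearIndependent ↥(adjoin (ZMod ℓ) {jqModC (ZMod ℓ)})
        (fun i => coeffMap (Int.castRingHom (ZMod ℓ)) (x i)) →
      LinearIndependent ↥(adjoin ℚ {jqModC ℚ})
        (fun i => coeffMap (Int.castRingHom ℚ) (x i))) :
    ∃ x : Fin (dedekindPsi N) → LaurentSeries ↥(GaloisRep.ratLocalizedAt ℓ),
      IsKeyData N ℓ (jqModC ↥(GaloisRep.ratLocalizedAt ℓ)) x := by
  obtain ⟨x, hx, hli⟩ := exists_monomials_full (k := ZMod ℓ) N hQ2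
  have hliQ := hRED x hli
  have hint : ∀ i, ∃ h : coeffMap (Int.castRingHom ℚ) (x i) ∈ modularFunctionFieldFull N,
      (⟨coeffMap (Int.castRingHom ℚ) (x i), h⟩ : ↥(modularFunctionFieldFull N)) ∈
        chartAlgFin N ℓ :=
    fun i => coeffMap_mem_chartAlgFin N ℓ hINT (closure_gensZ_le_intJdRing N (hx i))
  have htmem : lamIncl ℓ (jqModC ↥(GaloisRep.ratLocalizedAt ℓ)) ∈ modularFunctionFieldFull N := by
    rw [lamIncl_jqModC]
    exact (jFull N).2
  have hmem : ∀ i, lamIncl ℓ (zToLam ℓ (x i)) ∈ modularFunctionFieldFull N := by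
    intro i
    rw [lamIncl_zToLam]
    exact (hint i).1
  have hset : ({(⟨lamIncl ℓ (jqModC ↥(GaloisRep.ratLocalizedAt ℓ)), htmem⟩ :
      ↥(modularFunctionFieldFull N))} : Set ↥(modularFunctionFieldFull N)) = {jFull N} := by
    congr 1
    exact Subtype.ext (lamIncl_jqModC ℓ)
  refine ⟨fun i => zToLam ℓ (x i), ⟨htmem, hmem, ?_, ?_, ?_, ?_⟩⟩
  · -- integral
    intro i
    rw [hset]
    have := (hint i).2
    convert this using 1
    exact Subtype.ext (lamIncl_zToLam ℓ (x i))
  · -- span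
    intro f hf
    have hfin := UB.finrank_full_le ℚ (NeZero.ne N) hQ1
    have hm : ∀ i, coeffMap (Int.castRingHom ℚ) (x i) ∈ modularFunctionFieldFullC ℚ N :=
      fun i => (hint i).1
    obtain ⟨c, hc, hfc⟩ := exists_coeffs_of_linearIndependent (UB.K0 ℚ)
      (modularFunctionFieldFullC ℚ N) (UB.K0_le_full ℚ N) hfin.1 hfin.2
      (fun i => coeffMap (Int.castRingHom ℚ) (x i)) hm hliQ f hf
    refine ⟨c, fun i => ?_, ?_⟩
    · rw [lamIncl_jqModC]
      exact hc i
    · rw [hfc]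
      refine Finset.sum_congr rfl fun i _ => ?_
      rw [lamIncl_zToLam]
  · -- indep
    intro c hc hsum
    rw [lamRed_jqModC] at hc
    have h0 := Fintype.linearIndependent_iff.mp hli (fun i => ⟨c i, hc i⟩) (by
      rw [← hsum]
      refine Finset.sum_congr rfl fun i _ => ?_
      rw [lamRed_zToLam]
      rfl)
    intro i
    have := h0 i
    exact congrArg Subtype.val this
  · -- transc
    rw [lamRed_jqModC]
    exact kdj_transcendental_jqModC (ZMod ℓ)

/-- The integral modular equation in the form of `IntegralJd.lean`. -/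
theorem kdj_intModEq (p : ℕ) (hp : p.Prime) : IntModEq p := by
  have : NeZero p := ⟨hp.ne_zero⟩
  obtain ⟨Φ, hm, -, h1, -⟩ := modEq_int p hp
  exact IntModEq.of_ringHom hm _ (by simp) h1

/-- **KD(j)**: key data for the chart with coordinate `j`, for `ℓ ∤ N`. -/
theorem exists_keyData_j (hℓN : ¬ ℓ ∣ N) :
    ∃ (n : ℕ) (x : Fin n → LaurentSeries ↥(GaloisRep.ratLocalizedAt ℓ)),
      IsKeyData N ℓ (jqModC ↥(GaloisRep.ratLocalizedAt ℓ)) x := by
  have hN : ((N : ℕ) : ZMod ℓ) ≠ 0 := by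
    rw [Ne, ZMod.natCast_eq_zero_iff]; exact hℓN
  obtain ⟨x, hx⟩ := isKeyData_j_of N ℓ (primeHyp_of_dvd (ZMod ℓ) N hN)
    (fun r hr _ => @ub_modEq ℚ _ r ⟨hr.ne_zero⟩ hr) (fun p hp _ => kdj_intModEq p hp)
    (fun x h => linearIndependent_rat_of_zmod ℓ x h)
  exact ⟨_, x, hx⟩

end Main

end Fermat.Agent.S28

end

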