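import Mathlib
import Fermat.Prelude.Def_ModularCurve_X0ModL
import Fermat.Agent.S28.Red

/-!
# S28: RED over a general base — independent reductions mod `π` give independence over `E(t)`

Generalisation of `Red.lean` from `(ℤ, ℓ, ℚ, 𝔽_ℓ)` to `(A, π, E, k)`:
`A` a domain in which divisibility is well founded (e.g. a DVR, or any noetherian domain),
`π ∈ A` nonzero and not a unit, `E = Frac A`, `r : A →+* k` a ring hom to a field with
`ker r ⊆ (π)`.

`x i, t ∈ A((q))` with `t̄ = coeffMap r t` transcendental over `k`.  If the reductions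
`coeffMap r (x i)` are linearly independent over `k(t̄)`, then the images of the `x i` in `E((q))`
are linearly independent over `E(t)`.

* `redDVR_integral_relation` : no nontrivial relation with coefficients in `A[t]`.
* `redDVR_indep` : membership form (as in `IsKeyData.indep`).
* `redDVR_linearIndependent` : `LinearIndependent` form.
* `redDVR_indep_jq_int`, `redDVR_linearIndependent_jq_int` : the case `t = j` and `x i ∈ ℤ((q))`
  (monomials in the `j(q^d)`), the form needed over a number field `E` with a place over `ℓ`.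
-/

set_option autoImplicit false

namespace Fermat.Agent.S28

open ModularCurve Polynomial IntermediateField

section RedDVRAbstract

variable {A S : Type*} [CommRing A] [Field S]

/-- Constants of `A((q))`. -/
theorem redDVR_algebraMap_eq_single {B : Type*} [CommRing B] (c : B) :
    algebraMap B (LaurentSeries B) c = HahnSeries.single 0 c := by
  have h1 : algebraMap B (PowerSeries B) c = PowerSeries.C c := by
    simp
  rw [HahnSeries.algebraMap_apply', h1, HahnSeries.ofPowerSeries_C]
  rfl

/-- `coeffMap` commutes with constants. -/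
theorem redDVR_coeffMap_algebraMap (f : A →+* S) (a : A) :
    coeffMap f (algebraMap A (LaurentSeries A) a) = algebraMap S (LaurentSeries S) (f a) := by
  rw [redDVR_algebraMap_eq_single, redDVR_algebraMap_eq_single, coeffMap_single]

/-- `coeffMap` commutes with the evaluation of polynomials. -/
theorem redDVR_coeffMap_aeval (f : A →+* S) (t : LaurentSeries A) (P : Polynomial A) :
    coeffMap f (aeval t P) = aeval (coeffMap f t) (P.map f) := by
  rw [aeval_def, aeval_def, Polynomial.hom_eval₂, eval₂_map]
  congr 1
  ext a : 1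
  exact redDVR_coeffMap_algebraMap f a

/-- `coeffMap` of an injective map is injective. -/
theorem redDVR_coeffMap_injective {B : Type*} [CommRing B] (f : A →+* B)
    (hf : Function.Injective f) : Function.Injective (coeffMap f) := by
  intro x y h
  ext n
  have h1 := congrArg (fun z : LaurentSeries B => z.coeff n) h
  simp only [coeffMap_coeff] at h1
  exact hf h1

/-- `A((q))` has no `π`-torsion. -/
theorem redDVR_eq_zero_of_mul [IsDomain A] {a : A} (ha : a ≠ 0) {y : LaurentSeries A}
    (h : algebraMap A (LaurentSeries A) a * y = 0) : y = 0 := by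
  ext n
  have h1 := congrArg (fun z : LaurentSeries A => z.coeff n) h
  rw [redDVR_algebraMap_eq_single] at h1
  simp only [HahnSeries.coeff_zero] at h1
  rw [← HahnSeries.C_apply, HahnSeries.C_mul_eq_smul, HahnSeries.coeff_smul] at h1
  simpa [ha] using h1

end RedDVRAbstract

section RedDVRCore

variable {A k : Type*} [CommRing A] [IsDomain A] [Field k]
  (r : A →+* k) (π : A) {ι : Type*} [Fintype ι]

/-- One step of the descent: a relation with coefficients in `A[t]` is divisible by `π`. -/
theorem redDVR_step (hπ0 : π ≠ 0) (hr : ∀ a, r a = 0 → π ∣ a)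
    (x : ι → LaurentSeries A) (t : LaurentSeries A)
    (ht : Transcendental k (coeffMap r t))
    (hind : ∀ c : ι → LaurentSeries k,
      (∀ i, c i ∈ adjoin k {coeffMap r t}) →
      ∑ i, c i * coeffMap r (x i) = 0 → ∀ i, c i = 0)
    (P : ι → Polynomial A) (hP : ∑ i, aeval t (P i) * x i = 0) :
    ∃ P' : ι → Polynomial A, (∀ i, P i = C π * P' i) ∧ ∑ i, aeval t (P' i) * x i = 0 := by
  have h1 := congrArg (coeffMap r) hP
  rw [map_sum, map_zero] at h1
  simp_rw [map_mul, redDVR_coeffMap_aeval] at h1
  have h2 := hind (fun i => aeval (coeffMap r t) ((P i).map r)) (fun i => ?_) h1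
  · have h3 : ∀ i, (P i).map r = 0 := fun i => transcendental_iff.mp ht _ (h2 i)
    have h4 : ∀ i, C π ∣ P i := by
      intro i
      rw [Polynomial.C_dvd_iff_dvd_coeff]
      intro n
      have h5 := congrArg (fun q : Polynomial k => q.coeff n) (h3 i)
      simp only [Polynomial.coeff_map, Polynomial.coeff_zero] at h5
      exact hr _ h5
    choose P' hP' using h4
    refine ⟨P', hP', ?_⟩
    apply redDVR_eq_zero_of_mul hπ0
    rw [← hP, Finset.mul_sum]
    refine Finset.sum_congr rfl fun i _ => ?_
    rw [hP' i, map_mul, aeval_C, mul_assoc]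
  · exact IntermediateField.algebra_adjoin_le_adjoin _ _
      (Polynomial.aeval_mem_adjoin_singleton _ _)

/-- The descent: every coefficient of a relation is divisible by every power of `π`. -/
theorem redDVR_pow_dvd (hπ0 : π ≠ 0) (hr : ∀ a, r a = 0 → π ∣ a)
    (x : ι → LaurentSeries A) (t : LaurentSeries A)
    (ht : Transcendental k (coeffMap r t))
    (hind : ∀ c : ι → LaurentSeries k,
      (∀ i, c i ∈ adjoin k {coeffMap r t}) →
      ∑ i, c i * coeffMap r (x i) = 0 → ∀ i, c i = 0) :
    ∀ (n : ℕ) (P : ι → Polynomial A), ∑ i, aeval t (P i) * x i = 0 →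
      ∀ i m, π ^ n ∣ (P i).coeff m := by
  intro n
  induction n with
  | zero => intro P _ i m; simp
  | succ n ih =>
    intro P hP i m
    obtain ⟨P', hP', hrel⟩ := redDVR_step r π hπ0 hr x t ht hind P hP
    rw [hP' i, Polynomial.coeff_C_mul, pow_succ']
    exact mul_dvd_mul_left π (ih P' hrel i m)

/-- **RED, integral form** over a general base. -/
theorem redDVR_integral_relation [WfDvdMonoid A] (hπ0 : π ≠ 0) (hπ : ¬ IsUnit π)
    (hr : ∀ a, r a = 0 → π ∣ a)
    (x : ι → LaurentSeries A) (t : LaurentSeries A)
    (ht : Transcendental k (coeffMap r t))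
    (hind : ∀ c : ι → LaurentSeries k,
      (∀ i, c i ∈ adjoin k {coeffMap r t}) →
      ∑ i, c i * coeffMap r (x i) = 0 → ∀ i, c i = 0)
    (P : ι → Polynomial A) (hP : ∑ i, aeval t (P i) * x i = 0) :
    ∀ i, P i = 0 := by
  intro i
  ext m
  rw [Polynomial.coeff_zero]
  by_contra h
  obtain ⟨n, hn⟩ := FiniteMultiplicity.of_not_isUnit hπ h
  exact hn (redDVR_pow_dvd r π hπ0 hr x t ht hind (n + 1) P hP i m)

end RedDVRCore

section RedDVRFrac

variable {A E : Type*} [CommRing A] [IsDomain A] [Field E] [Algebra A E] [IsFractionRing A E]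

/-- Every element of `E(α)` is a quotient of values at `α` of polynomials over `A`. -/
theorem redDVR_exists_frac (α c : LaurentSeries E) (hc : c ∈ adjoin E {α}) :
    ∃ D P : Polynomial A, aeval α (D.map (algebraMap A E)) ≠ 0 ∧
      c * aeval α (D.map (algebraMap A E)) = aeval α (P.map (algebraMap A E)) := by
  obtain ⟨p, s, rfl⟩ := (mem_adjoin_simple_iff E c).mp hc
  by_cases hs : aeval α s = 0
  · refine ⟨1, 0, ?_, ?_⟩
    · rw [Polynomial.map_one, map_one]; exact one_ne_zero
    · rw [hs, div_zero, zero_mul, Polynomial.map_zero, map_zero]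
  · obtain ⟨b₁, hb₁, h₁⟩ := IsLocalization.integerNormalization_spec (nonZeroDivisors A) p
    obtain ⟨b₂, hb₂, h₂⟩ := IsLocalization.integerNormalization_spec (nonZeroDivisors A) s
    set R := IsLocalization.integerNormalization (nonZeroDivisors A) p
    set S := IsLocalization.integerNormalization (nonZeroDivisors A) s
    have hb₁0 : algebraMap A E b₁ ≠ 0 :=
      IsFractionRing.to_map_ne_zero_of_mem_nonZeroDivisors hb₁
    have hb₂0 : algebraMap A E b₂ ≠ 0 :=
      IsFractionRing.to_map_ne_zero_of_mem_nonZeroDivisors hb₂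
    have e₁ : aeval α (R.map (algebraMap A E)) =
        algebraMap E (LaurentSeries E) (algebraMap A E b₁) * aeval α p := by
      have h : R.map (algebraMap A E) = C (algebraMap A E b₁) * p := by
        rw [h₁, ← Polynomial.smul_eq_C_mul, algebraMap_smul]
      rw [h, map_mul, aeval_C]
    have e₂ : aeval α (S.map (algebraMap A E)) =
        algebraMap E (LaurentSeries E) (algebraMap A E b₂) * aeval α s := by
      have h : S.map (algebraMap A E) = C (algebraMap A E b₂) * s := by
        rw [h₂, ← Polynomial.smul_eq_C_mul, algebraMap_smul]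
      rw [h, map_mul, aeval_C]
    have n₁ : algebraMap E (LaurentSeries E) (algebraMap A E b₁) ≠ 0 :=
      (_root_.map_ne_zero _).mpr hb₁0
    have n₂ : algebraMap E (LaurentSeries E) (algebraMap A E b₂) ≠ 0 :=
      (_root_.map_ne_zero _).mpr hb₂0
    refine ⟨C b₁ * S, C b₂ * R, ?_, ?_⟩
    · rw [Polynomial.map_mul, Polynomial.map_C, map_mul, aeval_C, e₂]
      exact mul_ne_zero n₁ (mul_ne_zero n₂ hs)
    · rw [Polynomial.map_mul, Polynomial.map_C, map_mul, aeval_C, e₂,
        Polynomial.map_mul, Polynomial.map_C, map_mul, aeval_C, e₁]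
      field_simp

/-- Common denominator. -/
theorem redDVR_exists_common_denominator {ι : Type*} (α : LaurentSeries E)
    (c : ι → LaurentSeries E) (hc : ∀ i, c i ∈ adjoin E {α}) (s : Finset ι) :
    ∃ D : Polynomial A, aeval α (D.map (algebraMap A E)) ≠ 0 ∧
      ∀ i ∈ s, ∃ P : Polynomial A, c i * aeval α (D.map (algebraMap A E)) =
        aeval α (P.map (algebraMap A E)) := by
  classical
  induction s using Finset.induction_on with
  | empty =>
    exact ⟨1, by rw [Polynomial.map_one, map_one]; exact one_ne_zero, fun i hi => by simp at hi⟩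
  | insert a s _ ih =>
    obtain ⟨D, hD, hDs⟩ := ih
    obtain ⟨Da, Pa, hDa, hPa⟩ := redDVR_exists_frac (A := A) α (c a) (hc a)
    refine ⟨D * Da, ?_, ?_⟩
    · rw [Polynomial.map_mul, map_mul]; exact mul_ne_zero hD hDa
    · intro i hi
      rcases Finset.mem_insert.mp hi with rfl | hi
      · refine ⟨D * Pa, ?_⟩
        rw [Polynomial.map_mul, map_mul, Polynomial.map_mul, map_mul, ← hPa]; ring
      · obtain ⟨P, hP⟩ := hDs i hi
        refine ⟨P * Da, ?_⟩
        rw [Polynomial.map_mul, map_mul, Polynomial.map_mul, map_mul, ← hP]; ring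

end RedDVRFrac

section RedDVRMain

variable {A E k : Type*} [CommRing A] [IsDomain A] [WfDvdMonoid A] [Field E] [Algebra A E]
  [IsFractionRing A E] [Field k] (r : A →+* k) (π : A) {ι : Type*} [Fintype ι]

/-- **RED over a general base** (membership form): if the reductions mod `π` of the
`x i ∈ A((q))` are linearly independent over `k(t̄)` and `t̄` is transcendental over `k`, the images
of the `x i` in `E((q))`, `E = Frac A`, are linearly independent over `E(t)`. -/
theorem redDVR_indep (hπ0 : π ≠ 0) (hπ : ¬ IsUnit π) (hr : ∀ a, r a = 0 → π ∣ a)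
    (x : ι → LaurentSeries A) (t : LaurentSeries A)
    (ht : Transcendental k (coeffMap r t))
    (hind : ∀ c : ι → LaurentSeries k,
      (∀ i, c i ∈ adjoin k {coeffMap r t}) →
      ∑ i, c i * coeffMap r (x i) = 0 → ∀ i, c i = 0) :
    ∀ c : ι → LaurentSeries E,
      (∀ i, c i ∈ adjoin E {coeffMap (algebraMap A E) t}) →
      ∑ i, c i * coeffMap (algebraMap A E) (x i) = 0 → ∀ i, c i = 0 := by
  intro c hc hrel
  obtain ⟨D, hD, hDP⟩ := redDVR_exists_common_denominator (A := A)
    (coeffMap (algebraMap A E) t) c hc Finset.univ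
  choose P hP using fun i => hDP i (Finset.mem_univ i)
  have h1 : ∑ i, aeval t (P i) * x i = 0 := by
    apply redDVR_coeffMap_injective (algebraMap A E) (IsFractionRing.injective A E)
    rw [map_sum, map_zero]
    simp_rw [map_mul, redDVR_coeffMap_aeval, ← hP]
    have : ∑ i, c i * aeval (coeffMap (algebraMap A E) t) (D.map (algebraMap A E)) *
        coeffMap (algebraMap A E) (x i) =
        aeval (coeffMap (algebraMap A E) t) (D.map (algebraMap A E)) *
          ∑ i, c i * coeffMap (algebraMap A E) (x i) := by
      rw [Finset.mul_sum]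
      exact Finset.sum_congr rfl fun i _ => by ring
    rw [this, hrel, mul_zero]
  have h2 := redDVR_integral_relation r π hπ0 hπ hr x t ht hind P h1
  intro i
  have h3 := hP i
  rw [h2 i, Polynomial.map_zero, map_zero] at h3
  exact (mul_eq_zero.mp h3).resolve_right hD

/-- **RED over a general base**, `LinearIndependent` form. -/
theorem redDVR_linearIndependent (hπ0 : π ≠ 0) (hπ : ¬ IsUnit π) (hr : ∀ a, r a = 0 → π ∣ a)
    (x : ι → LaurentSeries A) (t : LaurentSeries A)
    (ht : Transcendental k (coeffMap r t))
    (hli : LinearIndependent (adjoin k {coeffMap r t}) (fun i => coeffMap r (x i))) :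
    LinearIndependent (adjoin E {coeffMap (algebraMap A E) t})
      (fun i => coeffMap (algebraMap A E) (x i)) := by
  rw [Fintype.linearIndependent_iff] at hli ⊢
  intro g hg i
  have h1 := redDVR_indep (E := E) r π hπ0 hπ hr x t ht (fun c hc hrel j => ?_)
    (fun i => (g i : LaurentSeries E))
    (fun i => (g i).2) (by simpa [IntermediateField.smul_def] using hg) i
  · exact Subtype.ext h1
  · have h2 := hli (fun i => ⟨c i, hc i⟩) (by simpa [IntermediateField.smul_def] using hrel) j
    exact congrArg Subtype.val h2

/-- **RED over a general base** for `t = j` and `x i ∈ ℤ((q))`, membership form. -/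
theorem redDVR_indep_jq_int (hπ0 : π ≠ 0) (hπ : ¬ IsUnit π) (hr : ∀ a, r a = 0 → π ∣ a)
    (x : ι → LaurentSeries ℤ)
    (hind : ∀ c : ι → LaurentSeries k,
      (∀ i, c i ∈ adjoin k {jqModC k}) →
      ∑ i, c i * coeffMap (Int.castRingHom k) (x i) = 0 → ∀ i, c i = 0) :
    ∀ c : ι → LaurentSeries E,
      (∀ i, c i ∈ adjoin E {jqModC E}) →
      ∑ i, c i * coeffMap (Int.castRingHom E) (x i) = 0 → ∀ i, c i = 0 := by
  have hk : coeffMap r (jqModC A) = jqModC k := coeffMap_jqModC _
  have hE : coeffMap (algebraMap A E) (jqModC A) = jqModC E := coeffMap_jqModC _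
  have hxk : ∀ i, coeffMap r (coeffMap (Int.castRingHom A) (x i)) =
      coeffMap (Int.castRingHom k) (x i) := fun i => by
    rw [coeffMap_coeffMap]
    exact coeffMap_congr (RingHom.ext_int _ _) _
  have hxE : ∀ i, coeffMap (algebraMap A E) (coeffMap (Int.castRingHom A) (x i)) =
      coeffMap (Int.castRingHom E) (x i) := fun i => by
    rw [coeffMap_coeffMap]
    exact coeffMap_congr (RingHom.ext_int _ _) _
  have h := redDVR_indep (E := E) r π hπ0 hπ hr (fun i => coeffMap (Int.castRingHom A) (x i))
    (jqModC A) (by rw [hk]; exact red_transcendental_jqModC k)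
    (by rw [hk]; simp_rw [hxk]; exact hind)
  rw [hE] at h
  simp_rw [hxE] at h
  exact h

/-- **RED over a general base** for `t = j` and `x i ∈ ℤ((q))`, `LinearIndependent` form. -/
theorem redDVR_linearIndependent_jq_int (hπ0 : π ≠ 0) (hπ : ¬ IsUnit π)
    (hr : ∀ a, r a = 0 → π ∣ a) (x : ι → LaurentSeries ℤ)
    (hli : LinearIndependent (adjoin k {jqModC k})
      (fun i => coeffMap (Int.castRingHom k) (x i))) :
    LinearIndependent (adjoin E {jqModC E})
      (fun i => coeffMap (Int.castRingHom E) (x i)) := by
  rw [Fintype.linearIndependent_iff] at hli ⊢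
  intro g hg i
  have h1 := redDVR_indep_jq_int (E := E) r π hπ0 hπ hr x (fun c hc hrel j => ?_)
    (fun i => (g i : LaurentSeries E))
    (fun i => (g i).2) (by simpa [IntermediateField.smul_def] using hg) i
  · exact Subtype.ext h1
  · have h2 := hli (fun i => ⟨c i, hc i⟩) (by simpa [IntermediateField.smul_def] using hrel) j
    exact congrArg Subtype.val h2

end RedDVRMain

section RedDVRLocal

variable {A E : Type*} [CommRing A] [IsDomain A] [IsDiscreteValuationRing A] [Field E]
  [Algebra A E] [IsFractionRing A E] {ι : Type*} [Fintype ι]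

/-- **RED over a DVR** `A` with fraction field `E` and residue field `κ`: monomials
`x i ∈ ℤ((q))` whose images over `κ` are linearly independent over `κ(j̄)` have images over `E`
which are linearly independent over `E(j)`. -/
theorem redDVR_linearIndependent_jq_int_of_dvr (x : ι → LaurentSeries ℤ)
    (hli : LinearIndependent (adjoin (IsLocalRing.ResidueField A)
        {jqModC (IsLocalRing.ResidueField A)})
      (fun i => coeffMap (Int.castRingHom (IsLocalRing.ResidueField A)) (x i))) :
    LinearIndependent (adjoin E {jqModC E})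
      (fun i => coeffMap (Int.castRingHom E) (x i)) := by
  obtain ⟨π, hπ⟩ := IsDiscreteValuationRing.exists_irreducible A
  refine redDVR_linearIndependent_jq_int (E := E) (IsLocalRing.residue A) π hπ.ne_zero
    hπ.not_isUnit (fun a ha => ?_) x hli
  have h1 : a ∈ IsLocalRing.maximalIdeal A := (IsLocalRing.residue_eq_zero_iff a).mp ha
  rw [hπ.maximalIdeal_eq] at h1
  exact Ideal.mem_span_singleton.mp h1

/-- **RED over a DVR**, membership form. -/
theorem redDVR_indep_jq_int_of_dvr (x : ι → LaurentSeries ℤ)
    (hind : ∀ c : ι → LaurentSeries (IsLocalRing.ResidueField A),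
      (∀ i, c i ∈ adjoin (IsLocalRing.ResidueField A) {jqModC (IsLocalRing.ResidueField A)}) →
      ∑ i, c i * coeffMap (Int.castRingHom (IsLocalRing.ResidueField A)) (x i) = 0 →
        ∀ i, c i = 0) :
    ∀ c : ι → LaurentSeries E,
      (∀ i, c i ∈ adjoin E {jqModC E}) →
      ∑ i, c i * coeffMap (Int.castRingHom E) (x i) = 0 → ∀ i, c i = 0 := by
  obtain ⟨π, hπ⟩ := IsDiscreteValuationRing.exists_irreducible A
  refine redDVR_indep_jq_int (E := E) (IsLocalRing.residue A) π hπ.ne_zero
    hπ.not_isUnit (fun a ha => ?_) x hind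
  have h1 : a ∈ IsLocalRing.maximalIdeal A := (IsLocalRing.residue_eq_zero_iff a).mp ha
  rw [hπ.maximalIdeal_eq] at h1
  exact Ideal.mem_span_singleton.mp h1

end RedDVRLocal

end Fermat.Agent.S28
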