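import Mathlib
import Fermat.Agent.S28.Defs
import Fermat.Agent.S28.Descent
import Fermat.Agent.S28.Deriv
import Fermat.Agent.S28.InductionLaurent

/-!
# S28 — transfer: Laurent relations over a field `k₀ ⊇ R` ⟹ `PrimeHyp k p` for fields `k` receiving `R`

`uS R p = Δ(q^p)/Δ(q)`, `uInvS R p = Δ(q)/Δ(q^p)` (formal).  Inputs over `k₀` (think `ℂ`):
* (P1) the symmetric modular equation,
* (P2) `U(u_p, j) = 0`, `U(p⁻¹² u_p⁻¹, σ_p j) = 0`,
* (c') `(θ j)^6 = G(j) Δ`.
Output: `PrimeHyp k p` (modular equation over `k` and `σ_p j ∉ k(j)`) for every field `k` in which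
`p ≠ 0`.
-/

set_option autoImplicit false

namespace Fermat.Agent.S28

open ModularCurve Polynomial

section UnitSeries

theorem deltaZ_mul_deltaInvZ : deltaZ * deltaInvZ = 1 := by
  rw [deltaZ, deltaInvZ, mul_mul_mul_comm, HahnSeries.single_mul_single, ← map_mul,
    dedekindEtaUnit_mul_inv, map_one, mul_one, add_neg_cancel, mul_one]
  rfl

variable (R : Type*) [CommRing R]

theorem deltaS_mul_deltaInvS : deltaS R * deltaInvS R = 1 := by
  rw [deltaS, deltaInvS, ← map_mul, deltaZ_mul_deltaInvZ, map_one]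

/-- The formal inverse unit `Δ(q)/Δ(q^p)`. -/
noncomputable def uInvS (p : ℕ) [NeZero p] : LaurentSeries R :=
  coeffMap (Int.castRingHom R) (deltaZ * qExpand ℤ p deltaInvZ)

variable (p : ℕ) [NeZero p]

theorem uS_eq_qExpand_mul : uS R p = qExpand R p (deltaS R) * deltaInvS R := by
  rw [uS, uZ, map_mul, coeffMap_qExpand]
  rfl

theorem uInvS_eq_mul_qExpand : uInvS R p = deltaS R * qExpand R p (deltaInvS R) := by
  rw [uInvS, map_mul, coeffMap_qExpand]
  rfl

theorem uS_mul_uInvS : uS R p * uInvS R p = 1 := by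
  have h1 : qExpand R p (deltaS R) * qExpand R p (deltaInvS R) = 1 := by
    rw [← map_mul, deltaS_mul_deltaInvS, map_one]
  have h2 := deltaS_mul_deltaInvS R
  rw [uS_eq_qExpand_mul, uInvS_eq_mul_qExpand]
  calc qExpand R p (deltaS R) * deltaInvS R * (deltaS R * qExpand R p (deltaInvS R))
      = (qExpand R p (deltaS R) * qExpand R p (deltaInvS R)) * (deltaS R * deltaInvS R) := by ring
    _ = 1 := by rw [h1, h2, mul_one]

theorem qExpand_deltaS_eq : qExpand R p (deltaS R) = uS R p * deltaS R := by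
  rw [uS_eq_qExpand_mul, mul_assoc, mul_comm (deltaInvS R), deltaS_mul_deltaInvS, mul_one]

variable {R}

theorem coeffMap_deltaS {S : Type*} [CommRing S] (g : R →+* S) :
    coeffMap g (deltaS R) = deltaS S := by
  rw [deltaS, deltaS, coeffMap_coeffMap]
  exact coeffMap_congr (RingHom.ext_int _ _) _

theorem coeffMap_deltaInvS {S : Type*} [CommRing S] (g : R →+* S) :
    coeffMap g (deltaInvS R) = deltaInvS S := by
  rw [deltaInvS, deltaInvS, coeffMap_coeffMap]
  exact coeffMap_congr (RingHom.ext_int _ _) _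

theorem coeffMap_uS {S : Type*} [CommRing S] (g : R →+* S) :
    coeffMap g (uS R p) = uS S p := by
  rw [uS, uS, coeffMap_coeffMap]
  exact coeffMap_congr (RingHom.ext_int _ _) _

theorem coeffMap_uInvS {S : Type*} [CommRing S] (g : R →+* S) :
    coeffMap g (uInvS R p) = uInvS S p := by
  rw [uInvS, uInvS, coeffMap_coeffMap]
  exact coeffMap_congr (RingHom.ext_int _ _) _

theorem deltaS_eq (R : Type*) [CommRing R] :
    deltaS R = HahnSeries.single (1 : ℤ) (1 : R) *
      HahnSeries.ofPowerSeries ℤ R (dedekindEtaUnit.map (Int.castRingHom R)) := by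
  rw [deltaS, deltaZ, map_mul, coeffMap_single, coeffMap_ofPowerSeries, map_one]

theorem deltaInvS_eq (R : Type*) [CommRing R] :
    deltaInvS R = HahnSeries.single (-1 : ℤ) (1 : R) *
      HahnSeries.ofPowerSeries ℤ R (dedekindEtaUnitInv.map (Int.castRingHom R)) := by
  rw [deltaInvS, deltaInvZ, map_mul, coeffMap_single, coeffMap_ofPowerSeries, map_one]

section FieldFacts

variable (k : Type*) [Field k]

theorem deltaS_ne_zero : deltaS k ≠ 0 := by
  intro h
  have := deltaS_mul_deltaInvS k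
  rw [h, zero_mul] at this
  exact zero_ne_one this

theorem deltaInvS_ne_zero : deltaInvS k ≠ 0 := by
  intro h
  have := deltaS_mul_deltaInvS k
  rw [h, mul_zero] at this
  exact zero_ne_one this

theorem deltaInvS_eq_inv : deltaInvS k = (deltaS k)⁻¹ :=
  eq_inv_of_mul_eq_one_right (deltaS_mul_deltaInvS k)

theorem uS_ne_zero : uS k p ≠ 0 := by
  intro h
  have := uS_mul_uInvS k p
  rw [h, zero_mul] at this
  exact zero_ne_one this

theorem uInvS_ne_zero : uInvS k p ≠ 0 := by
  intro h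
  have := uS_mul_uInvS k p
  rw [h, mul_zero] at this
  exact zero_ne_one this

theorem uInvS_eq_inv : uInvS k p = (uS k p)⁻¹ :=
  eq_inv_of_mul_eq_one_right (uS_mul_uInvS k p)

theorem uS_eq_div : uS k p = qExpand k p (deltaS k) * (deltaS k)⁻¹ := by
  rw [uS_eq_qExpand_mul, deltaInvS_eq_inv]

theorem uInvS_eq_div : uInvS k p = deltaS k * (qExpand k p (deltaS k))⁻¹ := by
  rw [uInvS_eq_mul_qExpand, deltaInvS_eq_inv, map_inv₀]

theorem coeff_deltaS_one : (deltaS k).coeff 1 = 1 := by
  rw [deltaS_eq, HahnSeries.coeff_single_mul, one_mul, sub_self]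
  have := HahnSeries.ofPowerSeries_apply_coeff (Γ := ℤ)
    (dedekindEtaUnit.map (Int.castRingHom k)) 0
  simp only [Nat.cast_zero] at this
  rw [this, PowerSeries.coeff_map, PowerSeries.coeff_zero_eq_constantCoeff,
    constantCoeff_dedekindEtaUnit]
  simp

theorem coeff_deltaS_of_lt {n : ℤ} (hn : n < 1) : (deltaS k).coeff n = 0 := by
  rw [deltaS_eq, HahnSeries.coeff_single_mul, one_mul]
  exact ofPowerSeries_coeff_of_neg _ (by omega)

theorem order_deltaS : (deltaS k).order = 1 := by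
  have h1 : (deltaS k).coeff 1 ≠ 0 := by
    rw [coeff_deltaS_one]; exact one_ne_zero
  apply le_antisymm (HahnSeries.order_le_of_coeff_ne_zero h1)
  by_contra hlt
  push Not at hlt
  exact (HahnSeries.coeff_order_eq_zero.not.mpr (deltaS_ne_zero k)) (coeff_deltaS_of_lt k hlt)

theorem order_deltaInvS : (deltaInvS k).order = -1 := by
  have h := congrArg HahnSeries.order (deltaS_mul_deltaInvS k)
  rw [HahnSeries.order_mul (deltaS_ne_zero k) (deltaInvS_ne_zero k), order_deltaS,
    HahnSeries.order_one] at h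
  omega

theorem order_uS : (uS k p).order = (p : ℤ) - 1 := by
  rw [uS_eq_qExpand_mul, HahnSeries.order_mul (qExpand_ne_zero (deltaS_ne_zero k)) (deltaInvS_ne_zero k),
    order_qExpand, order_deltaS, order_deltaInvS]
  ring

theorem order_uInvS : (uInvS k p).order = 1 - (p : ℤ) := by
  rw [uInvS_eq_mul_qExpand, HahnSeries.order_mul (deltaS_ne_zero k) (qExpand_ne_zero (deltaInvS_ne_zero k)),
    order_qExpand, order_deltaS, order_deltaInvS]
  ring

end FieldFacts

end UnitSeries

section Hyps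

/-- (P1) in Laurent form over a field: the symmetric modular equation of level `p`. -/
def ModEqHyp (k : Type*) [Field k] (p : ℕ) [NeZero p] : Prop :=
  ∃ Φ : Polynomial (Polynomial k), Φ.Monic ∧ Φ.natDegree = p + 1 ∧
    Φ.eval₂ (Polynomial.aeval (R := k) (jqModC k)).toRingHom (qExpand k p (jqModC k)) = 0 ∧
    Φ.eval₂ (Polynomial.aeval (R := k) (qExpand k p (jqModC k))).toRingHom (jqModC k) = 0

/-- (P2) in Laurent form over a field: the two relations of the modular unit
`u_p = Δ(q^p)/Δ(q)`. -/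
def UnitHyp (k : Type*) [Field k] (p : ℕ) [NeZero p] : Prop :=
  ∃ U : Polynomial (Polynomial k), U.Monic ∧ U.natDegree = p + 1 ∧
    U.eval₂ (Polynomial.aeval (R := k) (jqModC k)).toRingHom (uS k p) = 0 ∧
    U.eval₂ (Polynomial.aeval (R := k) (qExpand k p (jqModC k))).toRingHom
      (HahnSeries.C (((p : k)⁻¹) ^ 12) * uInvS k p) = 0

/-- (c') in Laurent form over a field: `(θ j)^6 = G(j) Δ`. -/
def ThetaHyp (k : Type*) [Field k] : Prop :=
  ∃ G : Polynomial k, G ≠ 0 ∧
    Deriv.thetaFun (jqModC k) ^ 6 = Polynomial.aeval (jqModC k) G * deltaS k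

end Hyps

section Main

variable {R k₀ k : Type*} [CommRing R] [Field k₀] [Field k] {p : ℕ} [NeZero p]

/-- Transfer of a pair of relations from `k₀` to `k` through `R`. -/
theorem exists_transfer (ι : R →+* k₀) (hι : Function.Injective ι) (g : R →+* k) (hp2 : 2 ≤ p)
    {j u u' : LaurentSeries R} {m : ℤ} (hm : m < 0) (hlow : ∀ i < m, j.coeff i = 0)
    (hunit : IsUnit (j.coeff m))
    (hu' : coeffMap ι u' ≠ 0) (hcop : IsCoprime (coeffMap ι u').order (p : ℤ))
    (h : ∃ W : Polynomial (Polynomial k₀), W.Monic ∧ W.natDegree = p + 1 ∧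
      W.eval₂ (Polynomial.aeval (R := k₀) (coeffMap ι j)).toRingHom (coeffMap ι u) = 0 ∧
      W.eval₂ (Polynomial.aeval (R := k₀) (qExpand k₀ p (coeffMap ι j))).toRingHom
        (coeffMap ι u') = 0) :
    ∃ W : Polynomial (Polynomial k), W.Monic ∧ W.natDegree = p + 1 ∧
      W.eval₂ (Polynomial.aeval (R := k) (coeffMap g j)).toRingHom (coeffMap g u) = 0 ∧
      W.eval₂ (Polynomial.aeval (R := k) (qExpand k p (coeffMap g j))).toRingHom
        (coeffMap g u') = 0 := by
  obtain ⟨W, hW, hWd, h1, h2⟩ := h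
  obtain ⟨W', hW'm, hW'd, -, hr1, hr2⟩ :=
    exists_descent ι hι hp2 hm hlow hunit hu' hcop hW hWd h1 h2
  refine ⟨W'.map (Polynomial.mapRingHom g), hW'm.map _, by rw [hW'm.natDegree_map, hW'd], ?_, ?_⟩
  · have e1 := coeffMap_eval₂_aeval g j u W'
    rw [hr1, map_zero] at e1
    exact e1.symm
  · have e2 := coeffMap_eval₂_aeval g (qExpand R p j) u' W'
    rw [hr2, map_zero, coeffMap_qExpand] at e2
    exact e2.symm

theorem jqModC_lowest (R : Type*) [CommRing R] :
    (∀ i < (-1 : ℤ), (jqModC R).coeff i = 0) ∧ IsUnit ((jqModC R).coeff (-1)) := by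
  refine ⟨fun i hi => coeff_jqModC_of_lt R hi, ?_⟩
  rw [coeff_jqModC_neg_one]
  exact isUnit_one

theorem isCoprime_neg_one_natCast (p : ℕ) : IsCoprime (-1 : ℤ) (p : ℤ) :=
  isCoprime_one_left.neg_left

/-- (P1) transfers from `k₀` to `k` through any `R ⊆ k₀`. -/
theorem modEqHyp_transfer (ι : R →+* k₀) (hι : Function.Injective ι) (g : R →+* k)
    (hp2 : 2 ≤ p) (h : ModEqHyp k₀ p) : ModEqHyp k p := by
  obtain ⟨hlow, hunit⟩ := jqModC_lowest R
  have hjι : coeffMap ι (jqModC R) = jqModC k₀ := coeffMap_jqModC ι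
  have hjg : coeffMap g (jqModC R) = jqModC k := coeffMap_jqModC g
  have hu' : coeffMap ι (jqModC R) ≠ 0 := by rw [hjι]; exact jqModC_ne_zero k₀
  have hcop : IsCoprime (coeffMap ι (jqModC R)).order (p : ℤ) := by
    rw [hjι, order_jqModC]; exact isCoprime_neg_one_natCast p
  have := exists_transfer ι hι g hp2 (j := jqModC R) (u := qExpand R p (jqModC R))
    (u' := jqModC R) (by norm_num) hlow hunit hu' hcop
    (by rw [coeffMap_qExpand, hjι]; exact h)
  rw [coeffMap_qExpand, hjg] at this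
  exact this

omit [NeZero p] in
theorem map_inv_natCast (f : R →+* k) {v : R} (hv : v * (p : R) = 1) : f v = ((p : k))⁻¹ := by
  have h := congrArg f hv
  rw [map_mul, map_natCast, map_one] at h
  exact eq_inv_of_mul_eq_one_left h

omit [NeZero p] in
theorem natCast_ne_zero_of_inv (f : R →+* k) {v : R} (hv : v * (p : R) = 1) : (p : k) ≠ 0 := by
  have h := congrArg f hv
  rw [map_mul, map_natCast, map_one] at h
  intro h0
  rw [h0, mul_zero] at h
  exact zero_ne_one h

theorem isCoprime_one_sub_natCast (p : ℕ) : IsCoprime (1 - (p : ℤ)) (p : ℤ) :=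
  ⟨1, 1, by ring⟩

/-- (P2) transfers from `k₀` to `k` through any `R ⊆ k₀` in which `p` is invertible. -/
theorem unitHyp_transfer (ι : R →+* k₀) (hι : Function.Injective ι) (g : R →+* k)
    (hp2 : 2 ≤ p) {v : R} (hv : v * (p : R) = 1) (h : UnitHyp k₀ p) : UnitHyp k p := by
  obtain ⟨hlow, hunit⟩ := jqModC_lowest R
  have hjι : coeffMap ι (jqModC R) = jqModC k₀ := coeffMap_jqModC ι
  have hjg : coeffMap g (jqModC R) = jqModC k := coeffMap_jqModC g
  have hp0 : (p : k₀) ≠ 0 := natCast_ne_zero_of_inv ι hv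
  have hu'ι : coeffMap ι (HahnSeries.C (v ^ 12) * uInvS R p) =
      HahnSeries.C (((p : k₀)⁻¹) ^ 12) * uInvS k₀ p := by
    rw [map_mul, coeffMap_hahnC, coeffMap_uInvS, map_pow, map_inv_natCast ι hv]
  have hu'g : coeffMap g (HahnSeries.C (v ^ 12) * uInvS R p) =
      HahnSeries.C (((p : k)⁻¹) ^ 12) * uInvS k p := by
    rw [map_mul, coeffMap_hahnC, coeffMap_uInvS, map_pow, map_inv_natCast g hv]
  have hC : (HahnSeries.C (((p : k₀)⁻¹) ^ 12) : LaurentSeries k₀) ≠ 0 :=
    HahnSeries.C_ne_zero (pow_ne_zero _ (inv_ne_zero hp0))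
  have hu' : coeffMap ι (HahnSeries.C (v ^ 12) * uInvS R p) ≠ 0 := by
    rw [hu'ι]
    exact mul_ne_zero hC (uInvS_ne_zero p k₀)
  have hcop : IsCoprime (coeffMap ι (HahnSeries.C (v ^ 12) * uInvS R p)).order (p : ℤ) := by
    rw [hu'ι, HahnSeries.order_mul hC (uInvS_ne_zero p k₀), HahnSeries.order_C, zero_add,
      order_uInvS]
    exact isCoprime_one_sub_natCast p
  have := exists_transfer ι hι g hp2 (j := jqModC R) (u := uS R p)
    (u' := HahnSeries.C (v ^ 12) * uInvS R p) (by norm_num) hlow hunit hu' hcop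
    (by rw [hu'ι, coeffMap_uS, hjι]; exact h)
  rw [hu'g, coeffMap_uS, hjg] at this
  exact this

/-- (c') transfers from `k₀` to `k` through any `R ⊆ k₀`. -/
theorem thetaHyp_transfer (ι : R →+* k₀) (hι : Function.Injective ι) (g : R →+* k)
    (h : ThetaHyp k₀) : ThetaHyp k := by
  obtain ⟨hlow, hunit⟩ := jqModC_lowest R
  have hjι : coeffMap ι (jqModC R) = jqModC k₀ := coeffMap_jqModC ι
  have hjg : coeffMap g (jqModC R) = jqModC k := coeffMap_jqModC g
  obtain ⟨G, -, hG⟩ := h
  -- descent of `G`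
  have hz : coeffMap ι (Deriv.thetaFun (jqModC R) ^ 6 * deltaInvS R) =
      Polynomial.aeval (coeffMap ι (jqModC R)) G := by
    rw [map_mul, map_pow, ← Deriv.thetaFun_coeffMap, hjι, coeffMap_deltaInvS, hG, mul_assoc,
      deltaS_mul_deltaInvS, mul_one]
  obtain ⟨G', hG'⟩ := exists_map_eq_of_aeval_mem_range ι (by norm_num : (-1 : ℤ) < 0) hlow hunit
    G _ hz
  -- the relation over `R`
  have hR : Deriv.thetaFun (jqModC R) ^ 6 = Polynomial.aeval (jqModC R) G' * deltaS R := by
    apply coeffMap_injective hι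
    rw [map_mul, map_pow, ← Deriv.thetaFun_coeffMap, coeffMap_aeval, hjι, hG', coeffMap_deltaS]
    exact hG
  -- the relation over `k`
  have hk : Deriv.thetaFun (jqModC k) ^ 6 =
      Polynomial.aeval (jqModC k) (G'.map g) * deltaS k := by
    have := congrArg (coeffMap g) hR
    rwa [map_mul, map_pow, ← Deriv.thetaFun_coeffMap, coeffMap_aeval, hjg, coeffMap_deltaS]
      at this
  refine ⟨G'.map g, ?_, hk⟩
  intro h0
  rw [h0, map_zero, zero_mul] at hk
  have hθ : Deriv.thetaFun (jqModC k) = 0 := by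
    exact pow_eq_zero_iff (n := 6) (by norm_num) |>.mp hk
  have hc := congrArg (fun z : LaurentSeries k => z.coeff (-1)) hθ
  simp only [Deriv.thetaFun_coeff, HahnSeries.coeff_zero] at hc
  rw [coeff_jqModC_neg_one] at hc
  simp at hc

/-- **Prime level, packaged.**  If (P1), (P2), (c') hold over a field `k₀ ⊇ R` and `p ≥ 2` is
invertible in `R`, then for every field `k` with a ring hom `R →+* k`:
the modular equation holds over `k` and `j(q^p) ∉ k(j)`. -/
theorem primeHyp_of_hyps (ι : R →+* k₀) (hι : Function.Injective ι) (g : R →+* k)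
    (hp2 : 2 ≤ p) {v : R} (hv : v * (p : R) = 1)
    (h1 : ModEqHyp k₀ p) (h2 : UnitHyp k₀ p) (h3 : ThetaHyp k₀) : PrimeHyp k p := by
  have hΦ := modEqHyp_transfer ι hι g hp2 h1
  obtain ⟨U, hUm, -, hU1, hU2⟩ := unitHyp_transfer ι hι g hp2 hv h2
  obtain ⟨G, hG0, hG⟩ := thetaHyp_transfer ι hι g h3
  refine ⟨hΦ, ?_⟩
  obtain ⟨Φ, hΦm, -, hΦ1, -⟩ := hΦ
  have hpk : (p : k) ≠ 0 := natCast_ne_zero_of_inv g hv
  have hjneg : (jqModC k).order < 0 := by rw [order_jqModC]; norm_num
  have hjt : Transcendental k (jqModC k) :=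
    transcendental_iff_injective.mpr (aeval_injective_of_order_neg hjneg)
  have hc₀ : (((p : k)⁻¹) ^ 12) ≠ 0 := pow_ne_zero _ (inv_ne_zero hpk)
  have hun : ∃ n : ℤ, n ≠ 0 ∧ (uS k p).coeff n ≠ 0 := by
    refine ⟨(uS k p).order, ?_, HahnSeries.coeff_order_eq_zero.not.mpr (uS_ne_zero p k)⟩
    rw [order_uS]
    have : (2 : ℤ) ≤ (p : ℤ) := by exact_mod_cast hp2
    omega
  have huu' : uS k p * (HahnSeries.C (((p : k)⁻¹) ^ 12) * uInvS k p) =
      HahnSeries.C (((p : k)⁻¹) ^ 12) := by
    rw [mul_left_comm, uS_mul_uInvS, mul_one]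
  have hu : HahnSeries.C (1 : k) * qExpand k p (deltaS k) = uS k p * deltaS k := by
    rw [map_one, one_mul, qExpand_deltaS_eq]
  exact Deriv.qExpand_not_mem_adjoin_of_theta' p hpk (jqModC k) (deltaS k) (uS k p)
    (HahnSeries.C (((p : k)⁻¹) ^ 12) * uInvS k p) hjt (deltaS_ne_zero k) 1 hu hun
    (((p : k)⁻¹) ^ 12) hc₀ huu' G hG0 hG Φ hΦm hΦ1 U hUm hU1 U hUm hU2

end Main

section AwayInstance

variable {k₀ k : Type*} [Field k₀] [Field k] {p : ℕ} [NeZero p]

omit [NeZero p] in
theorem isUnit_intCast_powers {F : Type*} [Field F] (hp : (p : F) ≠ 0)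
    (y : Submonoid.powers (p : ℤ)) : IsUnit (Int.castRingHom F y) := by
  obtain ⟨n, hn⟩ := y.2
  rw [← hn, map_pow]
  refine (IsUnit.pow n ?_)
  rw [eq_intCast, Int.cast_natCast]
  exact isUnit_iff_ne_zero.mpr hp

/-- **Prime level, final form.**  (P1), (P2), (c') over a field of characteristic zero imply
`PrimeHyp k p` for every field `k` in which the prime `p` is nonzero. -/
theorem primeHyp_of_charZero [CharZero k₀] (hpk : (p : k) ≠ 0) (hp2 : 2 ≤ p)
    (h1 : ModEqHyp k₀ p) (h2 : UnitHyp k₀ p) (h3 : ThetaHyp k₀) : PrimeHyp k p := by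
  have hp0 : (p : k₀) ≠ 0 := Nat.cast_ne_zero.mpr (NeZero.ne p)
  have hpz : (p : ℤ) ≠ 0 := Nat.cast_ne_zero.mpr (NeZero.ne p)
  let ι : Localization.Away (p : ℤ) →+* k₀ :=
    IsLocalization.lift (M := Submonoid.powers (p : ℤ)) (isUnit_intCast_powers hp0)
  let g : Localization.Away (p : ℤ) →+* k :=
    IsLocalization.lift (M := Submonoid.powers (p : ℤ)) (isUnit_intCast_powers hpk)
  have hM : Submonoid.powers (p : ℤ) ≤ nonZeroDivisors ℤ :=
    Submonoid.powers_le.mpr (mem_nonZeroDivisors_of_ne_zero hpz)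
  have hι : Function.Injective ι := by
    rw [IsLocalization.lift_injective_iff]
    intro x y
    rw [(IsLocalization.injective (Localization.Away (p : ℤ)) hM).eq_iff]
    exact (Int.cast_injective (α := k₀)).eq_iff.symm
  have hv : IsLocalization.Away.invSelf (S := Localization.Away (p : ℤ)) (p : ℤ) *
      ((p : ℕ) : Localization.Away (p : ℤ)) = 1 := by
    have := IsLocalization.Away.mul_invSelf (S := Localization.Away (p : ℤ)) (p : ℤ)
    rw [mul_comm] at this
    rw [← this]
    congr 1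
    rw [eq_intCast, Int.cast_natCast]
  exact primeHyp_of_hyps ι hι g hp2 hv h1 h2 h3

/-- (P1) over a field of characteristic zero implies (P1) over every field. -/
theorem modEqHyp_of_charZero [CharZero k₀] (hp2 : 2 ≤ p) (h1 : ModEqHyp k₀ p) : ModEqHyp k p :=
  modEqHyp_transfer (Int.castRingHom k₀) Int.cast_injective (Int.castRingHom k) hp2 h1

end AwayInstance

end Fermat.Agent.S28
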