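import Fermat.Agent.S28.NormPoly
import Fermat.Agent.S23.Theta
import Fermat.Agent.S20.Index

/-!
# S28 — `f(Nτ)` is a modular form for `Γ₀(N)`; `J(pτ)` is a modular function for `Γ₀(p)`

* `cosetCard_eq_dedekindPsi`, `cosetCard_prime` : `[SL(2,ℤ) : Γ₀(N)] = ψ(N)`, `= p + 1` for `N = p`.
* `isMF_comp_scaleN` : for a level-one modular form `f` of weight `k`, `τ ↦ f (N τ)` is a modular
  form of weight `k` for `Γ₀(N)`.
* `isModFun_Jfun_scaleN` : `τ ↦ J(Nτ)` is a modular function for `Γ₀(N)`.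
* `isModFun_unit`, `isModFun_unit_inv` : `Δ(Nτ)/Δ(τ)` and `Δ(τ)/Δ(Nτ)` are modular functions
  for `Γ₀(N)`.
-/

set_option autoImplicit false

noncomputable section

namespace Fermat.Agent.S28

open UpperHalfPlane ModularForm SlashInvariantForm Polynomial Filter
open Fermat.Agent.S23 Fermat.Agent.S24
open scoped MatrixGroups ModularForm Manifold Topology

local notation "Δ" => ModularForm.discriminant

/-- `[SL(2,ℤ) : Γ₀(N)] = ψ(N)`, for the coset space used by `quotientFunc`. -/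
theorem cosetCard_eq_dedekindPsi (N : ℕ) [NeZero N] :
    cosetCard N = ModularCurve.dedekindPsi N := by
  have h1 : cosetCard N = Nat.card (Coset N) := by
    let _ : Fintype (Coset N) := Fintype.ofFinite (Coset N)
    unfold cosetCard cosetFinset
    rw [Finset.card_univ, Nat.card_eq_fintype_card]
  rw [h1]
  have h2 : Nat.card (Coset N) = ((G0 N).subgroupOf 𝒮ℒ).index := rfl
  rw [h2]
  have h3 : ((G0 N).subgroupOf 𝒮ℒ).index = (G0 N).relIndex 𝒮ℒ := rfl
  rw [h3, MonoidHom.range_eq_map,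
    Subgroup.relIndex_map_map_of_injective _ _ Matrix.SpecialLinearGroup.mapGL_injective,
    Subgroup.relIndex_top_right]
  exact Fermat.Agent.S20.index_Gamma0 N (NeZero.ne N)

theorem cosetCard_prime {p : ℕ} [NeZero p] (hp : p.Prime) : cosetCard p = p + 1 := by
  rw [cosetCard_eq_dedekindPsi, Fermat.Agent.S20.dedekindPsi_prime hp]

/-- `τ ↦ f (N τ)` is holomorphic if `f` is. -/
theorem mdiff_comp_scaleN (N : ℕ) [NeZero N] {f : ℍ → ℂ} (hf : MDiff f) :
    MDiff (fun z => f (scaleN N z)) := by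
  rw [UpperHalfPlane.mdifferentiable_iff] at hf ⊢
  have hN : (0 : ℝ) < (N : ℝ) := Nat.cast_pos.mpr (Nat.pos_of_ne_zero (NeZero.ne N))
  have hmaps : Set.MapsTo (fun w : ℂ => (N : ℂ) * w) {z | 0 < z.im} {z | 0 < z.im} := by
    intro w hw
    simp only [Set.mem_ofPred_eq, Complex.mul_im, Complex.natCast_re, Complex.natCast_im,
      zero_mul, add_zero] at hw ⊢
    exact mul_pos hN hw
  have hcomp : DifferentiableOn ℂ ((f ∘ ofComplex) ∘ (fun w : ℂ => (N : ℂ) * w))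
      {z | 0 < z.im} :=
    hf.comp (by fun_prop) hmaps
  refine hcomp.congr ?_
  intro w hw
  have hw' : 0 < ((N : ℂ) * w).im := hmaps hw
  simp only [Function.comp_apply]
  rw [ofComplex_apply_of_im_pos hw, ofComplex_apply_of_im_pos hw']
  rfl

/-- `τ ↦ f (N τ)` is slash-invariant under `Γ₀(N)` if `f` is of level one. -/
theorem comp_scaleN_slash (N : ℕ) [NeZero N] {k : ℤ} (f : ModularForm 𝒮ℒ k) (γ : SL(2, ℤ))
    (h : γ ∈ CongruenceSubgroup.Gamma0 N) :
    ((fun z => f (scaleN N z)) ∣[k] γ) = fun z => f (scaleN N z) := by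
  have hdvd : (N : ℤ) ∣ γ 1 0 := by
    rw [CongruenceSubgroup.Gamma0_mem] at h
    exact (ZMod.intCast_zmod_eq_zero_iff_dvd _ _).mp h
  ext z
  rw [SL_slash_apply]
  have h1 := levelOne_smul f (P7_thetaCompanion N γ hdvd) (scaleN N z)
  have h2 := P7_thetaCompanion_denom N γ hdvd z
  have h3 := P7_thetaCompanion_smul N γ hdvd z
  have hd : denom (γ : GL (Fin 2) ℝ) z ≠ 0 := denom_ne_zero _ _
  rw [h3, h1]
  have h2' : denom ((P7_thetaCompanion N γ hdvd : SL(2, ℤ)) : GL (Fin 2) ℝ) (scaleN N z)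
      = denom (γ : GL (Fin 2) ℝ) z := h2
  rw [h2', zpow_neg]
  field_simp

/-- The translates of `τ ↦ f (N τ)` are bounded at `i∞`. -/
theorem comp_scaleN_slash_isBoundedAtImInfty (N : ℕ) [NeZero N] {k : ℤ} (f : ModularForm 𝒮ℒ k)
    (γ : SL(2, ℤ)) : IsBoundedAtImInfty ((fun z => f (scaleN N z)) ∣[k] γ) := by
  obtain ⟨γ', A, B, D, hA, hD, hAD, h00, h01, h10, h11, -⟩ := P8_exists_hermite N γ
  have hD' : (D : ℂ) ≠ 0 := by exact_mod_cast hD.ne'
  have hform : ((fun z => f (scaleN N z)) ∣[k] γ) =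
      fun z => ((D : ℂ) ^ k)⁻¹ * f (P8_betaPt A B D hA hD z) := by
    ext z
    rw [SL_slash_apply]
    rw [P8_scaleN_smul N γ γ' A B D hA hD h00 h01 h10 h11 z, levelOne_smul f γ' _]
    have hd1 : denom (γ : GL (Fin 2) ℝ) z = (γ 1 0 : ℂ) * z + (γ 1 1 : ℂ) := by
      simp [UpperHalfPlane.denom]
    have hd2 : denom (γ' : GL (Fin 2) ℝ) (P8_betaPt A B D hA hD z) =
        (γ' 1 0 : ℂ) * (P8_betaPt A B D hA hD z : ℍ) + (γ' 1 1 : ℂ) := by
      simp [UpperHalfPlane.denom]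
    rw [hd1, hd2, P8_denom_eq γ γ' A B D hA hD h10 h11 z, div_zpow, zpow_neg]
    have hne : ((γ 1 0 : ℂ) * z + (γ 1 1 : ℂ)) ^ k ≠ 0 := zpow_ne_zero _ (P8_denom_ne_zero γ z)
    field_simp
  rw [hform]
  have hb : IsBoundedAtImInfty (f : ℍ → ℂ) := ModularFormClass.bdd_at_infty f
  have hb2 : IsBoundedAtImInfty (fun z => f (P8_betaPt A B D hA hD z)) :=
    hb.comp_tendsto (P8_tendsto_betaPt A B D hA hD)
  exact (Filter.const_boundedAtFilter _ (((D : ℂ) ^ k)⁻¹)).mul hb2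

/-- **`V_N`**: for a level-one modular form `f`, `τ ↦ f (N τ)` is a modular form for `Γ₀(N)`. -/
theorem isMF_comp_scaleN (N : ℕ) [NeZero N] {k : ℤ} (f : ModularForm 𝒮ℒ k) :
    IsMF (G0 N) k (fun z => f (scaleN N z)) := by
  refine ⟨{ toFun := fun z => f (scaleN N z)
            slash_action_eq' := ?_
            holo' := mdiff_comp_scaleN N f.holo'
            bdd_at_cusps' := ?_ }, rfl⟩
  · rintro γ ⟨γ', hγ', rfl⟩
    exact comp_scaleN_slash N f γ' hγ'
  · intro c hc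
    rw [Subgroup.IsArithmetic.isCusp_iff_isCusp_SL2Z] at hc
    rw [OnePoint.isBoundedAt_iff_forall_SL2Z hc]
    intro γ _
    exact comp_scaleN_slash_isBoundedAtImInfty N f γ

/-- `J(Nτ) · Δ(τ)^N = E₄(Nτ)³ · Θ_N(τ)`. -/
theorem Jfun_scaleN_mul (N : ℕ) [NeZero N] (z : ℍ) :
    Jfun (scaleN N z) * Δ z ^ N = E₄ (scaleN N z) ^ 3 * thetaFun N z := by
  rw [Jfun_def]
  unfold thetaFun
  field_simp

/-- `τ ↦ J(Nτ)` is a modular function for `Γ₀(N)`. -/
theorem isModFun_Jfun_scaleN (N : ℕ) [NeZero N] : IsModFun N (fun z => Jfun (scaleN N z)) := by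
  refine ⟨N, ?_⟩
  have h4 : IsMF (G0 N) 4 (fun z => E₄ (scaleN N z)) := isMF_comp_scaleN N E₄
  have h := ((h4.pow 3).mul (isMF_thetaFun N)).of_weight_eq
    (show ((3 : ℕ) : ℤ) * 4 + thetaWeight N = 12 * (N : ℤ) by unfold thetaWeight; push_cast; ring)
  convert h using 1
  ext z
  simp only [Pi.mul_apply, Pi.pow_apply]
  exact Jfun_scaleN_mul N z

/-- `τ ↦ Δ(Nτ)/Δ(τ)` is a modular function for `Γ₀(N)`. -/
theorem isModFun_unit (N : ℕ) [NeZero N] : IsModFun N (fun z => Δ (scaleN N z) / Δ z) := by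
  refine ⟨1, ?_⟩
  have h : IsMF (G0 N) 12 (fun z => Δ (scaleN N z)) := by
    have := isMF_comp_scaleN N ((CuspForm.discriminant : CuspForm 𝒮ℒ 12) : ModularForm 𝒮ℒ 12)
    convert this using 1
    ext z
    exact (congrFun CuspForm.coe_discriminant (scaleN N z)).symm
  have h2 := h.of_weight_eq (show (12 : ℤ) = 12 * ((1 : ℕ) : ℤ) by norm_num)
  convert h2 using 1
  ext z
  rw [pow_one, div_mul_cancel₀ _ (discriminant_ne_zero z)]

/-- `τ ↦ Δ(τ)/Δ(Nτ)` is a modular function for `Γ₀(N)`. -/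
theorem isModFun_unit_inv (N : ℕ) [NeZero N] : IsModFun N (fun z => Δ z / Δ (scaleN N z)) := by
  have hN : 1 ≤ N := Nat.pos_of_ne_zero (NeZero.ne N)
  refine ⟨N - 1, ?_⟩
  have h := (isMF_thetaFun N).of_weight_eq
    (show thetaWeight N = 12 * ((N - 1 : ℕ) : ℤ) by
      unfold thetaWeight; push_cast [Nat.cast_sub hN]; ring)
  convert h using 1
  ext z
  unfold thetaFun
  have e : Δ z ^ N = Δ z * Δ z ^ (N - 1) := by
    rw [← pow_succ', Nat.sub_add_cancel hN]
  rw [e]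
  field_simp

end Fermat.Agent.S28
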