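import Fermat.Agent.S28.PrimeHypMain
import Fermat.Agent.S28.IntegralJd

/-!
# S28, piece INT, unconditional form

* `intModEq p hp : IntModEq p` for every prime `p`: the modular equation of level `p` has a monic
  solution `Φ ∈ ℤ[Y][X]` in `ℤ((q))` (descent of the complex modular equation).
* `intJd_mem_chartAlgFin_main`, `coeffMap_mem_chartAlgFin_main`: `j(q^d)`, `d ∣ N`, and every element
  of `ℤ[j(q^d) : d ∣ N]` is integral over `ℤ_(ℓ)[j]` (lies in `chartAlgFin N ℓ`).
-/

set_option autoImplicit false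

noncomputable section

namespace Fermat.Agent.S28

open ModularCurve ModularCurve.IgusaScheme Polynomial

/-- The integral modular equation of prime level `p`. -/
theorem intModEq (p : ℕ) (hp : p.Prime) : IntModEq p := by
  have : NeZero p := ⟨hp.ne_zero⟩
  obtain ⟨W, hW, hWd, h1, h2⟩ := modEqHyp_complex p hp
  obtain ⟨hlow, hunit⟩ := jqModC_lowest ℤ
  have hjι : coeffMap (Int.castRingHom ℂ) (jqModC ℤ) = jqModC ℂ := coeffMap_jqModC _
  have hu' : coeffMap (Int.castRingHom ℂ) (jqModC ℤ) ≠ 0 := by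
    rw [hjι]; exact jqModC_ne_zero ℂ
  have hcop : IsCoprime (coeffMap (Int.castRingHom ℂ) (jqModC ℤ)).order (p : ℤ) := by
    rw [hjι, order_jqModC]; exact isCoprime_neg_one_natCast p
  obtain ⟨W', hW'm, -, -, hr1, -⟩ :=
    exists_descent (Int.castRingHom ℂ) Int.cast_injective hp.two_le
      (j := jqModC ℤ) (u := qExpand ℤ p (jqModC ℤ)) (u' := jqModC ℤ) (m := -1)
      (by norm_num) hlow hunit hu' hcop hW hWd
      (by rw [coeffMap_qExpand, hjι]; exact h1)
      (by rw [hjι]; exact h2)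
  exact IntModEq.of_ringHom hW'm _ (by simp) hr1

variable (N : ℕ) [NeZero N] (ℓ : ℕ) [Fact ℓ.Prime]

/-- **INT**: for `d ∣ N`, `j(q^d)` is integral over `ℤ_(ℓ)[j]`. -/
theorem intJd_mem_chartAlgFin_main {d : ℕ} (hd : d ∣ N) : intJdF N hd ∈ chartAlgFin N ℓ :=
  intJd_mem_chartAlgFin N ℓ (fun p hp _ => intModEq p hp) hd

/-- **INT**: every element of `ℤ[j(q^d) : d ∣ N] ⊆ ℤ((q))` lies in `F_N` and is integral over
`ℤ_(ℓ)[j]`. -/
theorem coeffMap_mem_chartAlgFin_main {x : LaurentSeries ℤ} (hx : x ∈ intJdRing N) :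
    ∃ h : coeffMap (Int.castRingHom ℚ) x ∈ modularFunctionFieldFull N,
      (⟨coeffMap (Int.castRingHom ℚ) x, h⟩ : ↥(modularFunctionFieldFull N)) ∈ chartAlgFin N ℓ :=
  coeffMap_mem_chartAlgFin N ℓ (fun p hp _ => intModEq p hp) hx

end Fermat.Agent.S28

end
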