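import Fermat.Agent.S23.NormPoly
import Fermat.Agent.S24.Invariants
import Fermat.Agent.S24.LevelOneA

/-!
# S28 — the generic norm polynomial over `ℂ[J]`

`IsModFun N f` : `f : ℍ → ℂ` is a "modular function" for `Γ₀(N)`, holomorphic on `ℍ` and
meromorphic at the cusps: `f · Δ ^ m` is a modular form of weight `12 m` for `Γ₀(N)` for some `m`.
These functions form a `ℂ`-subalgebra `modFunAlg N` of `ℍ → ℂ`.

Main results:
* `IsModFun.exists_normPoly` : every such `f` is a root of a monic polynomial of degree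
  `cosetCard N = [SL(2,ℤ) : Γ₀(N)]` with coefficients in `ℂ[J]`, `J = Jfun = E₄³/Δ`;
* `IsModFun.exists_normPoly_of_ne_zero` : if moreover `f` has no zero on `ℍ` and `1/f` is again
  such a function, the constant coefficient is a nonzero constant.
-/

set_option autoImplicit false

noncomputable section

namespace Fermat.Agent.S28

open UpperHalfPlane ModularForm SlashInvariantForm Polynomial
open Fermat.Agent.S23 Fermat.Agent.S24
open scoped MatrixGroups ModularForm Manifold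

local notation "Δ" => ModularForm.discriminant

/-- `f` is a holomorphic modular function for `Γ₀(N)`, meromorphic at the cusps. -/
def IsModFun (N : ℕ) (f : ℍ → ℂ) : Prop :=
  ∃ m : ℕ, IsMF (G0 N) (12 * (m : ℤ)) (fun z => f z * Δ z ^ m)

/-- `Δ` as a form of level `Γ₀(N)`. -/
theorem isMF_discriminant (N : ℕ) [NeZero N] : IsMF (G0 N) 12 (Δ : ℍ → ℂ) :=
  IsMF.of_levelOne ⟨(CuspForm.discriminant : CuspForm 𝒮ℒ 12), by
    ext z; simp [CuspForm.coe_discriminant]⟩

theorem IsModFun.succ {N : ℕ} [NeZero N] {f : ℍ → ℂ} {m : ℕ}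
    (h : IsMF (G0 N) (12 * (m : ℤ)) (fun z => f z * Δ z ^ m)) :
    IsMF (G0 N) (12 * ((m + 1 : ℕ) : ℤ)) (fun z => f z * Δ z ^ (m + 1)) := by
  have h1 := (h.mul (isMF_discriminant N)).of_weight_eq
    (show 12 * (m : ℤ) + 12 = 12 * ((m + 1 : ℕ) : ℤ) by push_cast; ring)
  convert h1 using 1
  ext z
  simp only [Pi.mul_apply, pow_succ]
  ring

theorem IsModFun.raise {N : ℕ} [NeZero N] {f : ℍ → ℂ} {m : ℕ}
    (h : IsMF (G0 N) (12 * (m : ℤ)) (fun z => f z * Δ z ^ m)) (k : ℕ) :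
    IsMF (G0 N) (12 * ((m + k : ℕ) : ℤ)) (fun z => f z * Δ z ^ (m + k)) := by
  induction k with
  | zero => simpa using h
  | succ k ih => exact IsModFun.succ ih

theorem IsModFun.raise_le {N : ℕ} [NeZero N] {f : ℍ → ℂ} {m m' : ℕ}
    (h : IsMF (G0 N) (12 * (m : ℤ)) (fun z => f z * Δ z ^ m)) (hm : m ≤ m') :
    IsMF (G0 N) (12 * (m' : ℤ)) (fun z => f z * Δ z ^ m') := by
  obtain ⟨k, rfl⟩ := Nat.exists_eq_add_of_le hm
  exact IsModFun.raise h k

theorem isModFun_const (N : ℕ) (c : ℂ) : IsModFun N (fun _ => c) := by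
  refine ⟨0, ?_⟩
  have h : IsMF (G0 N) 0 (c • (1 : ℍ → ℂ)) := IsMF.const_smul c IsMF.one
  have h2 := h.of_weight_eq (show (0 : ℤ) = 12 * ((0 : ℕ) : ℤ) by simp)
  convert h2 using 1
  ext z
  simp

theorem IsModFun.add {N : ℕ} [NeZero N] {f g : ℍ → ℂ} (hf : IsModFun N f) (hg : IsModFun N g) :
    IsModFun N (f + g) := by
  obtain ⟨m, hm⟩ := hf
  obtain ⟨n, hn⟩ := hg
  refine ⟨max m n, ?_⟩
  have h1 := IsModFun.raise_le hm (le_max_left m n)
  have h2 := IsModFun.raise_le hn (le_max_right m n)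
  convert h1.add h2 using 1
  ext z
  simp only [Pi.add_apply]
  ring

theorem IsModFun.mul {N : ℕ} {f g : ℍ → ℂ} (hf : IsModFun N f) (hg : IsModFun N g) :
    IsModFun N (f * g) := by
  obtain ⟨m, hm⟩ := hf
  obtain ⟨n, hn⟩ := hg
  refine ⟨m + n, ?_⟩
  have h := (hm.mul hn).of_weight_eq
    (show 12 * (m : ℤ) + 12 * (n : ℤ) = 12 * ((m + n : ℕ) : ℤ) by push_cast; ring)
  convert h using 1
  ext z
  simp only [Pi.mul_apply, pow_add]
  ring

/-- The `ℂ`-algebra of holomorphic modular functions for `Γ₀(N)`, meromorphic at the cusps. -/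
def modFunAlg (N : ℕ) [NeZero N] : Subalgebra ℂ (ℍ → ℂ) where
  carrier := {f | IsModFun N f}
  mul_mem' := fun hf hg => IsModFun.mul hf hg
  add_mem' := fun hf hg => IsModFun.add hf hg
  algebraMap_mem' := fun c => isModFun_const N c

theorem mem_modFunAlg {N : ℕ} [NeZero N] {f : ℍ → ℂ} : f ∈ modFunAlg N ↔ IsModFun N f := Iff.rfl

theorem IsModFun.neg {N : ℕ} [NeZero N] {f : ℍ → ℂ} (hf : IsModFun N f) : IsModFun N (-f) :=
  (modFunAlg N).neg_mem hf

theorem IsModFun.sub {N : ℕ} [NeZero N] {f g : ℍ → ℂ} (hf : IsModFun N f) (hg : IsModFun N g) :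
    IsModFun N (f - g) :=
  (modFunAlg N).sub_mem hf hg

theorem IsModFun.pow {N : ℕ} [NeZero N] {f : ℍ → ℂ} (hf : IsModFun N f) (n : ℕ) : IsModFun N (f ^ n) :=
  (modFunAlg N).pow_mem hf n

theorem IsModFun.smul {N : ℕ} [NeZero N] {f : ℍ → ℂ} (c : ℂ) (hf : IsModFun N f) : IsModFun N (c • f) :=
  (modFunAlg N).smul_mem hf c

/-- A quotient `G / Δ ^ m` of a modular form of weight `12 m` is a modular function. -/
theorem isModFun_div {N : ℕ} {G : ℍ → ℂ} {m : ℕ} (hG : IsMF (G0 N) (12 * (m : ℤ)) G) :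
    IsModFun N (fun z => G z / Δ z ^ m) := by
  refine ⟨m, ?_⟩
  convert hG using 1
  ext z
  rw [div_mul_cancel₀ _ (pow_ne_zero m (discriminant_ne_zero z))]

/-- `Jfun` is a modular function (of any level). -/
theorem isModFun_Jfun (N : ℕ) [NeZero N] : IsModFun N Jfun := by
  refine ⟨1, ?_⟩
  have h4 : IsMF (G0 N) 4 (E₄ : ℍ → ℂ) := IsMF.of_levelOne ⟨E₄, rfl⟩
  have h := (h4.pow 3).of_weight_eq (show ((3 : ℕ) : ℤ) * 4 = 12 * ((1 : ℕ) : ℤ) by norm_num)
  convert h using 1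
  ext z
  simp only [Pi.pow_apply, pow_one, Jfun_def]
  rw [div_mul_cancel₀ _ (discriminant_ne_zero z)]

section normPoly

variable {N : ℕ} [NeZero N]

open scoped Classical in
/-- The elementary symmetric functions of the translates of a form of weight `12 m` are
`Δ ^ (m j)` times a polynomial in `Jfun`. -/
theorem normPoly_coeff_exists (m : ℕ) (F : ModularForm (G0 N) (12 * (m : ℤ))) (j : ℕ) :
    ∃ P : ℂ[X], P.natDegree ≤ m * j ∧ ∀ τ : ℍ,
      (∑ S ∈ Finset.powersetCard j (cosetFinset N), ∏ q ∈ S, quotientFunc F q τ) =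
        Δ τ ^ (m * j) * P.eval (Jfun τ) := by
  obtain ⟨E, hE⟩ := isMF_esymm F j
  obtain ⟨P, hPdeg, hP⟩ := exists_poly_of_modularForm (m * j) ((j : ℤ) * (12 * (m : ℤ)))
    (by push_cast; ring) E
  refine ⟨P, hPdeg, fun τ => ?_⟩
  rw [← hP τ]
  exact (congrFun hE τ).symm

/-- Vieta + symmetric functions: the basic relation. -/
theorem normPoly_relation (m : ℕ) (F : ModularForm (G0 N) (12 * (m : ℤ)))
    (P : ℕ → ℂ[X])
    (hP : ∀ j (τ : ℍ), (∑ S ∈ Finset.powersetCard j (cosetFinset N),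
      ∏ q ∈ S, quotientFunc F q τ) = Δ τ ^ (m * j) * (P j).eval (Jfun τ)) (τ : ℍ) :
    ∑ j ∈ Finset.range (cosetCard N + 1),
      (-1 : ℂ) ^ j * (P j).eval (Jfun τ) * (F τ / Δ τ ^ m) ^ (cosetCard N - j) = 0 := by
  have hv := normPoly_vieta (cosetFinset N) (fun q => quotientFunc F q τ) (F τ)
  have h0 : ∏ q ∈ cosetFinset N, (F τ - quotientFunc F q τ) = 0 :=
    Finset.prod_eq_zero (mem_cosetFinset (coset1 N))
      (by rw [normPoly_quotientFunc_coset1]; exact sub_self _)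
  rw [h0] at hv
  have hΔ : Δ τ ≠ 0 := discriminant_ne_zero τ
  have hΔn : Δ τ ^ (m * cosetCard N) ≠ 0 := pow_ne_zero _ hΔ
  have key : Δ τ ^ (m * cosetCard N) * ∑ j ∈ Finset.range (cosetCard N + 1),
      (-1 : ℂ) ^ j * (P j).eval (Jfun τ) * (F τ / Δ τ ^ m) ^ (cosetCard N - j) = 0 := by
    rw [hv, Finset.mul_sum]
    refine Finset.sum_congr rfl fun j hj => ?_
    have hj' : j ≤ cosetCard N := Nat.lt_succ_iff.mp (Finset.mem_range.mp hj)
    have hcard : (cosetFinset N).card = cosetCard N := rfl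
    rw [hcard, hP j τ, div_pow, ← pow_mul]
    have hsplit : m * cosetCard N = m * j + m * (cosetCard N - j) := by
      rw [← Nat.mul_add, Nat.add_sub_cancel' hj']
    rw [hsplit, pow_add]
    field_simp
  exact (mul_eq_zero.mp key).resolve_left hΔn

/-- the zeroth symmetric function is `1`. -/
theorem normPoly_coeff_zero (m : ℕ) (F : ModularForm (G0 N) (12 * (m : ℤ)))
    (P : ℂ[X]) (hdeg : P.natDegree ≤ m * 0)
    (hP : ∀ (τ : ℍ), (∑ S ∈ Finset.powersetCard 0 (cosetFinset N),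
      ∏ q ∈ S, quotientFunc F q τ) = Δ τ ^ (m * 0) * P.eval (Jfun τ)) : P = 1 := by
  have h1 : P.natDegree = 0 := by simpa using hdeg
  obtain ⟨c, rfl⟩ : ∃ c, P = C c := ⟨P.coeff 0, eq_C_of_natDegree_eq_zero h1⟩
  have h2 := hP I
  simp only [Finset.powersetCard_zero, Finset.sum_singleton, Finset.prod_empty, mul_zero,
    pow_zero, one_mul, eval_C] at h2
  rw [← h2, map_one]

/-- **Norm polynomial**: a modular form `F` of weight `12 m` for `Γ₀(N)` gives a monic polynomial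
of degree `[SL(2,ℤ) : Γ₀(N)]` over `ℂ[J]` with root `F / Δ ^ m`. -/
theorem normPoly_of_modularForm (m : ℕ) (F : ModularForm (G0 N) (12 * (m : ℤ))) :
    ∃ Φ : (ℂ[X])[X], Φ.Monic ∧ Φ.natDegree = cosetCard N ∧
      (∀ i, (Φ.coeff i).natDegree ≤ m * (cosetCard N - i)) ∧
      (∀ τ : ℍ, (Φ.coeff 0).eval (Jfun τ) * Δ τ ^ (m * cosetCard N) =
        (-1) ^ cosetCard N * ∏ q ∈ cosetFinset N, quotientFunc F q τ) ∧
      ∀ τ : ℍ, Φ.eval₂ (evalRingHom (Jfun τ)) (F τ / Δ τ ^ m) = 0 := by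
  classical
  choose P hPdeg hP using normPoly_coeff_exists m F
  have hP0 : P 0 = 1 := normPoly_coeff_zero m F (P 0) (hPdeg 0) (hP 0)
  set n := cosetCard N with hn
  have hnpos : 0 < n := normPoly_cosetCard_pos N
  set r : (ℂ[X])[X] := ∑ i : Fin n, C ((-1 : ℂ[X]) ^ (n - (i : ℕ)) * P (n - (i : ℕ))) * X ^ (i : ℕ)
    with hr
  have hrdeg : r.degree < (n : WithBot ℕ) := degree_sum_fin_lt _
  have hcoeff_lt : ∀ i : ℕ, ∀ hi : i < n,
      (X ^ n + r).coeff i = (-1 : ℂ[X]) ^ (n - i) * P (n - i) := by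
    intro i hi
    rw [coeff_add, coeff_X_pow, if_neg (Nat.ne_of_lt hi), zero_add, hr, finsetSum_coeff]
    rw [Finset.sum_eq_single (⟨i, hi⟩ : Fin n)]
    · rw [coeff_C_mul, coeff_X_pow, if_pos rfl, mul_one]
    · intro b _ hb
      rw [coeff_C_mul, coeff_X_pow, if_neg, mul_zero]
      intro h
      exact hb (Fin.ext h.symm)
    · intro h
      exact absurd (Finset.mem_univ _) h
  have hmonic : (X ^ n + r).Monic := monic_X_pow_add hrdeg
  have hnat : (X ^ n + r).natDegree = n := by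
    rw [natDegree_add_eq_left_of_degree_lt (by rwa [degree_X_pow]), natDegree_X_pow]
  refine ⟨X ^ n + r, hmonic, hnat, ?_, ?_, ?_⟩
  · intro i
    rcases lt_trichotomy i n with hi | hi | hi
    · rw [hcoeff_lt i hi]
      have h1 : ((-1 : ℂ[X]) ^ (n - i) * P (n - i)).natDegree ≤ (P (n - i)).natDegree := by
        have : ((-1 : ℂ[X]) ^ (n - i)) = C ((-1 : ℂ) ^ (n - i)) := by simp
        rw [this]
        exact natDegree_C_mul_le _ _
      exact h1.trans (hPdeg (n - i))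
    · have h1 := hmonic.coeff_natDegree
      rw [hnat] at h1
      rw [hi, h1]
      simp
    · rw [coeff_eq_zero_of_natDegree_lt (by rw [hnat]; exact hi)]
      simp
  · intro τ
    rw [hcoeff_lt 0 hnpos, Nat.sub_zero, eval_mul, eval_pow, eval_neg, eval_one]
    have h := hP n τ
    have hcard : Finset.powersetCard n (cosetFinset N) = {cosetFinset N} := by
      rw [hn]; exact Finset.powersetCard_self _
    rw [hcard, Finset.sum_singleton] at h
    rw [h]
    ring
  · intro τ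
    have hrel := normPoly_relation m F P hP τ
    rw [eval₂_add, eval₂_X_pow, hr, eval₂_finsetSum]
    simp only [eval₂_mul, eval₂_C, eval₂_X_pow, coe_evalRingHom, eval_mul, eval_pow, eval_neg,
      eval_one]
    rw [Finset.sum_range_succ'] at hrel
    simp only [pow_zero, one_mul, Nat.sub_zero, hP0, eval_one] at hrel
    rw [← Finset.sum_range_reflect] at hrel
    rw [Fin.sum_univ_eq_sum_range
      (fun i => (-1 : ℂ) ^ (n - i) * eval (Jfun τ) (P (n - i)) * (F τ / Δ τ ^ m) ^ i) n]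
    rw [add_comm]
    convert hrel using 2
    refine Finset.sum_congr rfl fun i hi => ?_
    have hi' : i < n := Finset.mem_range.mp hi
    have e1 : n - 1 - i + 1 = n - i := by omega
    have e2 : n - (n - i) = i := by omega
    rw [e1, e2]

/-- Every modular function for `Γ₀(N)` is a root of a monic polynomial of degree
`[SL(2,ℤ) : Γ₀(N)]` over `ℂ[J]`. -/
theorem IsModFun.exists_normPoly {f : ℍ → ℂ} (hf : IsModFun N f) :
    ∃ Φ : (ℂ[X])[X], Φ.Monic ∧ Φ.natDegree = cosetCard N ∧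
      ∀ τ : ℍ, Φ.eval₂ (evalRingHom (Jfun τ)) (f τ) = 0 := by
  obtain ⟨m, F, hF⟩ := hf
  obtain ⟨Φ, h1, h2, -, -, h5⟩ := normPoly_of_modularForm m F
  refine ⟨Φ, h1, h2, fun τ => ?_⟩
  have h := h5 τ
  have hFτ : F τ = f τ * Δ τ ^ m := congrFun hF τ
  rwa [hFτ, mul_div_assoc, div_self (pow_ne_zero m (discriminant_ne_zero τ)), mul_one] at h

end normPoly

end Fermat.Agent.S28
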