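import Fermat.Agent.S28.Bridge
import Fermat.Agent.S28.Deriv
import Fermat.Agent.S28.DerivBridge

/-!
# S28 — the Laurent expansion of the derivative: `laurentOf (D f) = θ (laurentOf f)`

`D = (2πi)⁻¹ d/dτ`, `θ = q d/dq = Deriv.thetaFun`.

* `IsMerInf.mdiff` : a function of `merInf` is holomorphic on `ℍ`.
* `isMerInf_D` : `D` preserves `IsMerInf`.
* `laurentOf_D` : `laurentOf (D f) = Deriv.thetaFun (laurentOf f)`.
-/

set_option autoImplicit false

noncomputable section

namespace Fermat.Agent.S28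

open UpperHalfPlane ModularForm Filter Function Derivative
open Fermat.Agent.S23 Fermat.Agent.S24
open scoped Manifold Topology

local notation "Δ" => ModularForm.discriminant

/-- HPB level: the Laurent expansion of `D f` is `θ` of the Laurent expansion of `f`. -/
theorem laurentOf_D_of_isHPB {f : ℍ → ℂ} (hf : IsHPB f) :
    laurentOf (D f) = Deriv.thetaFun (laurentOf f) := by
  rw [laurentOf_of_isHPB (isHPB_D hf), laurentOf_of_isHPB hf]
  ext n
  rw [Deriv.thetaFun_coeff]
  rcases lt_or_ge n 0 with hn | hn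
  · rw [ModularCurve.ofPowerSeries_coeff_of_neg _ hn, ModularCurve.ofPowerSeries_coeff_of_neg _ hn,
      mul_zero]
  · lift n to ℕ using hn
    rw [HahnSeries.ofPowerSeries_apply_coeff, HahnSeries.ofPowerSeries_apply_coeff,
      qExpansion_D_coeff hf]
    simp

theorem isHPB_mdiff {f : ℍ → ℂ} (hf : IsHPB f) : MDiff f := hf.1

theorem mdiff_discriminant_pow (m : ℕ) : MDiff (fun z : ℍ => Δ z ^ m) := by
  have h : MDiff (Δ : ℍ → ℂ) := bridge_isHPB_discriminant.1
  have := h.pow m
  exact this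

/-- A function of `merInf` is holomorphic. -/
theorem IsMerInf.mdiff {f : ℍ → ℂ} (hf : IsMerInf f) : MDiff f := by
  obtain ⟨m, hm⟩ := hf
  have h1 : MDiff (fun z : ℍ => f z * Δ z ^ m) := hm.1
  have h2 : MDiff (fun z : ℍ => Δ z ^ m) := mdiff_discriminant_pow m
  rw [UpperHalfPlane.mdifferentiable_iff] at h1 h2 ⊢
  refine (h1.div h2 ?_).congr ?_
  · intro z hz
    simp only [Function.comp_apply]
    exact pow_ne_zero m (discriminant_ne_zero _)
  · intro z hz
    simp only [Function.comp_apply, Pi.div_apply]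
    rw [mul_div_assoc, div_self (pow_ne_zero m (discriminant_ne_zero _)), mul_one]

/-- The key identity `D f · (Δ^m)² = D (f Δ^m) · Δ^m - (f Δ^m) · D (Δ^m)`. -/
theorem D_mul_sq {f : ℍ → ℂ} (hf : MDiff f) (m : ℕ) (z : ℍ) :
    D f z * (Δ z ^ m * Δ z ^ m) =
      D (fun z : ℍ => f z * Δ z ^ m) z * Δ z ^ m -
        (f z * Δ z ^ m) * D (fun z : ℍ => Δ z ^ m) z := by
  have h2 : MDiff (fun z : ℍ => Δ z ^ m) := mdiff_discriminant_pow m
  have h := normalizedDerivOfComplex_mul f (fun z : ℍ => Δ z ^ m) hf h2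
  have hz := congrFun h z
  simp only [Pi.add_apply, Pi.mul_apply] at hz
  have e : (f * fun z : ℍ => Δ z ^ m) = fun z : ℍ => f z * Δ z ^ m := rfl
  rw [e] at hz
  rw [hz]
  ring

/-- `D` preserves `IsMerInf`. -/
theorem isMerInf_D {f : ℍ → ℂ} (hf : IsMerInf f) : IsMerInf (D f) := by
  have hmd := hf.mdiff
  obtain ⟨m, hm⟩ := hf
  have hΔm : IsHPB (fun z : ℍ => Δ z ^ m) := bridge_isHPB_pow bridge_isHPB_discriminant m
  refine ⟨m + m, ?_⟩
  have h1 : IsHPB (D (fun z : ℍ => f z * Δ z ^ m)) := isHPB_D hm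
  have h2 : IsHPB (D (fun z : ℍ => Δ z ^ m)) := isHPB_D hΔm
  have h3 : IsHPB ((D (fun z : ℍ => f z * Δ z ^ m)) * (fun z : ℍ => Δ z ^ m) +
      (-((fun z : ℍ => f z * Δ z ^ m) * D (fun z : ℍ => Δ z ^ m)))) :=
    (h1.mul hΔm).add (HPB.neg_mem (hm.mul h2))
  convert h3 using 1
  funext z
  simp only [Pi.add_apply, Pi.mul_apply, Pi.neg_apply]
  rw [pow_add, D_mul_sq hmd m z]
  ring

/-- **Laurent expansion of the derivative.** -/
theorem laurentOf_D {f : ℍ → ℂ} (hf : IsMerInf f) :
    laurentOf (D f) = Deriv.thetaFun (laurentOf f) := by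
  have hmd := hf.mdiff
  have hDf := isMerInf_D hf
  obtain ⟨m, hm⟩ := id hf
  have hΔm : IsHPB (fun z : ℍ => Δ z ^ m) := bridge_isHPB_pow bridge_isHPB_discriminant m
  -- Laurent expansions of the pieces
  set g : ℍ → ℂ := fun z : ℍ => f z * Δ z ^ m with hg
  set e : ℍ → ℂ := fun z : ℍ => Δ z ^ m with he
  have hgM : IsMerInf g := IsHPB.isMerInf hm
  have heM : IsMerInf e := IsHPB.isMerInf hΔm
  have hfe : g = f * e := rfl
  have Lg : laurentOf g = laurentOf f * laurentOf e := by rw [hfe, laurentOf_mul hf heM]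
  have hfun : D f * (e * e) = D g * e - g * D e := by
    funext z
    simp only [Pi.mul_apply, Pi.sub_apply]
    exact D_mul_sq hmd m z
  have hDg : IsMerInf (D g) := IsHPB.isMerInf (isHPB_D hm)
  have hDe : IsMerInf (D e) := IsHPB.isMerInf (isHPB_D hΔm)
  have hL := congrArg laurentOf hfun
  have hsub : laurentOf (D g * e - g * D e) = laurentOf (D g * e) - laurentOf (g * D e) := by
    have h1 := map_sub laurentExp (⟨D g * e, hDg.mul heM⟩ : merInf) ⟨g * D e, hgM.mul hDe⟩
    exact h1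
  rw [laurentOf_mul hDf (heM.mul heM), laurentOf_mul heM heM, hsub, laurentOf_mul hDg heM,
    laurentOf_mul hgM hDe, laurentOf_D_of_isHPB hm, laurentOf_D_of_isHPB hΔm, Lg,
    Deriv.thetaFun_mul] at hL
  have hne : laurentOf e ≠ 0 := by
    rw [Ne, laurentOf_eq_zero_iff heM]
    intro h0
    have := congrFun h0 UpperHalfPlane.I
    simp only [he, Pi.zero_apply] at this
    exact pow_ne_zero m (discriminant_ne_zero _) this
  have hne2 : laurentOf e * laurentOf e ≠ 0 := mul_ne_zero hne hne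
  have hfin : laurentOf (D f) * (laurentOf e * laurentOf e) =
      Deriv.thetaFun (laurentOf f) * (laurentOf e * laurentOf e) := by
    rw [hL]; ring
  exact mul_right_cancel₀ hne2 hfin

end Fermat.Agent.S28
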