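import Mathlib
import Fermat.Prelude.Def_ModularCurve_IgusaScheme
import Fermat.Agent.S28.LocInt

/-!
# S28, Part R1b: key data ⟹ the chart algebra lies in `locInt` and `ker ρ ⊆ ℓ A`

General lemmas on `Λ = ℤ_(ℓ)((q))`:
* `lamRed_eq_zero_of_integral` (Lemma A): if `x ∈ ℚ((q))` is integral over `Λ`, `b x = Y` with `b, Y ∈ Λ`
  and `b ≡ 0 mod ℓ`, then `Y ≡ 0 mod ℓ`.
* `exists_normalized` (Lemma N): a relation `b(t) f = Σ aᵢ(t) xᵢ` with `b ≠ 0` can be normalised so that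
  not all of `b, aᵢ` vanish mod `ℓ`.
-/

set_option autoImplicit false

noncomputable section

namespace Fermat.Agent.S28

open ModularCurve Polynomial

variable (ℓ : ℕ) [Fact ℓ.Prime]


theorem algebraMap_laurent_eq_C {R : Type*} [CommRing R] (c : R) :
    algebraMap R (LaurentSeries R) c = HahnSeries.C c := by
  have h1 : algebraMap R (PowerSeries R) c = PowerSeries.C c := by simp
  rw [HahnSeries.algebraMap_apply', h1, HahnSeries.ofPowerSeries_C]

theorem natCast_laurent_rat_ne_zero {n : ℕ} (hn : n ≠ 0) : (n : LaurentSeries ℚ) ≠ 0 := by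
  have h : (n : LaurentSeries ℚ) = algebraMap ℚ (LaurentSeries ℚ) (n : ℚ) := (map_natCast _ n).symm
  rw [h]
  exact (_root_.map_ne_zero _).mpr (by exact_mod_cast hn)

/-- **Lemma A.** -/
theorem lamRed_eq_zero_of_integral {x : LaurentSeries ℚ} (hx : (lamIncl ℓ).IsIntegralElem x)
    {b Y : LaurentSeries ↥(GaloisRep.ratLocalizedAt ℓ)} (hb : lamRed ℓ b = 0) (h : lamIncl ℓ b * x = lamIncl ℓ Y) : lamRed ℓ Y = 0 := by
  obtain ⟨P, hP, hPx⟩ := hx
  have h1 : eval₂ (lamIncl ℓ) (lamIncl ℓ b * x) (scaleRoots P b) = 0 := by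
    rw [scaleRoots_eval₂_mul, hPx, mul_zero]
  rw [h, eval₂_hom] at h1
  have h2 : eval Y (scaleRoots P b) = 0 := by
    apply lamIncl_injective ℓ
    rw [h1, map_zero]
  have h3 := congrArg (lamRed ℓ) h2
  rw [map_zero, ← eval₂_hom, eval₂_eq_sum_range, natDegree_scaleRoots, Finset.sum_range_succ] at h3
  have h4 : ∑ i ∈ Finset.range P.natDegree,
      lamRed ℓ ((scaleRoots P b).coeff i) * lamRed ℓ Y ^ i = 0 := by
    apply Finset.sum_eq_zero
    intro i hi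
    have hi' : i < P.natDegree := Finset.mem_range.mp hi
    rw [coeff_scaleRoots, map_mul, map_pow, hb, zero_pow (by omega), mul_zero, zero_mul]
  rw [h4, zero_add, coeff_scaleRoots, Nat.sub_self, pow_zero, mul_one, hP.coeff_natDegree, map_one,
    one_mul] at h3
  exact eq_zero_of_pow_eq_zero h3

/-! ### Polynomials over `ℤ_(ℓ)` modulo `ℓ` -/

theorem map_resMap_eq_zero_iff (p : Polynomial ↥(GaloisRep.ratLocalizedAt ℓ)) :
    p.map (resMap ℓ) = 0 ↔ ∃ p' : Polynomial ↥(GaloisRep.ratLocalizedAt ℓ),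
      p = C (ℓ : ↥(GaloisRep.ratLocalizedAt ℓ)) * p' := by
  rw [show (∃ p' : Polynomial ↥(GaloisRep.ratLocalizedAt ℓ),
      p = C (ℓ : ↥(GaloisRep.ratLocalizedAt ℓ)) * p') ↔
      C (ℓ : ↥(GaloisRep.ratLocalizedAt ℓ)) ∣ p from Iff.rfl, C_dvd_iff_dvd_coeff, Polynomial.ext_iff]
  refine forall_congr' fun i => ?_
  rw [coeff_map, coeff_zero, resMap_eq_zero_iff]
  rfl

/-- The `ℓ`-adic valuation on `ℤ_(ℓ)`, as a natural number. -/
def ratLocVal (r : ↥(GaloisRep.ratLocalizedAt ℓ)) : ℕ := (padicValRat ℓ (r : ℚ)).toNat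

theorem padicValRat_nonneg_of_mem (r : ↥(GaloisRep.ratLocalizedAt ℓ)) :
    0 ≤ padicValRat ℓ (r : ℚ) := by
  have h : padicValNat ℓ (r : ℚ).den = 0 :=
    padicValNat.eq_zero_of_not_dvd ((mem_ratLocalizedAt_iff ℓ).mp r.2)
  rw [padicValRat, h]
  simp

theorem ratLocVal_mul_self {c : ↥(GaloisRep.ratLocalizedAt ℓ)} (hc : c ≠ 0) :
    ratLocVal ℓ ((ℓ : ↥(GaloisRep.ratLocalizedAt ℓ)) * c) = ratLocVal ℓ c + 1 := by
  have hc' : (c : ℚ) ≠ 0 := fun h => hc (Subtype.ext h)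
  have hℓ : ((ℓ : ℕ) : ℚ) ≠ 0 := by exact_mod_cast (Fact.out : ℓ.Prime).ne_zero
  have h1 : (((ℓ : ↥(GaloisRep.ratLocalizedAt ℓ)) * c : ↥(GaloisRep.ratLocalizedAt ℓ)) : ℚ) =
      (ℓ : ℚ) * (c : ℚ) := by push_cast; rfl
  rw [ratLocVal, ratLocVal, h1, padicValRat.mul hℓ hc', padicValRat.self (Fact.out : ℓ.Prime).one_lt]
  have := padicValRat_nonneg_of_mem ℓ c
  omega

/-- **Lemma N** (normalisation), inductive form. -/
theorem exists_normalized_aux {n : ℕ} (t₀ : LaurentSeries ↥(GaloisRep.ratLocalizedAt ℓ))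
    (x : Fin n → LaurentSeries ↥(GaloisRep.ratLocalizedAt ℓ)) (f : LaurentSeries ℚ) :
    ∀ (m : ℕ) (a : Fin n → Polynomial ↥(GaloisRep.ratLocalizedAt ℓ))
      (b : Polynomial ↥(GaloisRep.ratLocalizedAt ℓ)) (k : ℕ),
      b.coeff k ≠ 0 → ratLocVal ℓ (b.coeff k) = m →
      lamIncl ℓ (aeval t₀ b) * f = lamIncl ℓ (∑ i, aeval t₀ (a i) * x i) →
      ∃ (a' : Fin n → Polynomial ↥(GaloisRep.ratLocalizedAt ℓ))
        (b' : Polynomial ↥(GaloisRep.ratLocalizedAt ℓ)), b' ≠ 0 ∧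
        lamIncl ℓ (aeval t₀ b') * f = lamIncl ℓ (∑ i, aeval t₀ (a' i) * x i) ∧
        ¬ (b'.map (resMap ℓ) = 0 ∧ ∀ i, (a' i).map (resMap ℓ) = 0) := by
  intro m
  induction m with
  | zero =>
    intro a b k hk hv hrel
    by_cases hall : b.map (resMap ℓ) = 0 ∧ ∀ i, (a i).map (resMap ℓ) = 0
    · exfalso
      obtain ⟨b₁, hb₁⟩ := (map_resMap_eq_zero_iff ℓ b).mp hall.1
      have hc : b.coeff k = (ℓ : ↥(GaloisRep.ratLocalizedAt ℓ)) * b₁.coeff k := by
        rw [hb₁, coeff_C_mul]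
      have hb₁k : b₁.coeff k ≠ 0 := by
        intro h0; rw [hc, h0, mul_zero] at hk; exact hk rfl
      rw [hc, ratLocVal_mul_self ℓ hb₁k] at hv
      omega
    · exact ⟨a, b, fun h0 => hk (by rw [h0, coeff_zero]), hrel, hall⟩
  | succ m ih =>
    intro a b k hk hv hrel
    by_cases hall : b.map (resMap ℓ) = 0 ∧ ∀ i, (a i).map (resMap ℓ) = 0
    · obtain ⟨b₁, hb₁⟩ := (map_resMap_eq_zero_iff ℓ b).mp hall.1
      have ha := fun i => (map_resMap_eq_zero_iff ℓ (a i)).mp (hall.2 i)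
      choose a₁ ha₁ using ha
      have hc : b.coeff k = (ℓ : ↥(GaloisRep.ratLocalizedAt ℓ)) * b₁.coeff k := by
        rw [hb₁, coeff_C_mul]
      have hb₁k : b₁.coeff k ≠ 0 := by
        intro h0; rw [hc, h0, mul_zero] at hk; exact hk rfl
      rw [hc, ratLocVal_mul_self ℓ hb₁k] at hv
      refine ih a₁ b₁ k hb₁k (by omega) ?_
      have hℓ0 : lamIncl ℓ (algebraMap ↥(GaloisRep.ratLocalizedAt ℓ)
          (LaurentSeries ↥(GaloisRep.ratLocalizedAt ℓ)) (ℓ : ↥(GaloisRep.ratLocalizedAt ℓ))) ≠ 0 := by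
        rw [map_natCast, map_natCast]
        exact natCast_laurent_rat_ne_zero (Fact.out : ℓ.Prime).ne_zero
      apply mul_left_cancel₀ hℓ0
      have e1 : aeval t₀ b = algebraMap ↥(GaloisRep.ratLocalizedAt ℓ)
          (LaurentSeries ↥(GaloisRep.ratLocalizedAt ℓ)) (ℓ : ↥(GaloisRep.ratLocalizedAt ℓ)) *
            aeval t₀ b₁ := by
        rw [hb₁, map_mul, aeval_C]
      have e2 : ∑ i, aeval t₀ (a i) * x i = algebraMap ↥(GaloisRep.ratLocalizedAt ℓ)
          (LaurentSeries ↥(GaloisRep.ratLocalizedAt ℓ)) (ℓ : ↥(GaloisRep.ratLocalizedAt ℓ)) *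
            ∑ i, aeval t₀ (a₁ i) * x i := by
        rw [Finset.mul_sum]
        refine Finset.sum_congr rfl fun i _ => ?_
        rw [ha₁ i, map_mul, aeval_C, mul_assoc]
      rw [e1, e2, map_mul, map_mul] at hrel
      rw [← mul_assoc, hrel]
    · exact ⟨a, b, fun h0 => hk (by rw [h0, coeff_zero]), hrel, hall⟩

/-- **Lemma N** (normalisation). -/
theorem exists_normalized {n : ℕ} (t₀ : LaurentSeries ↥(GaloisRep.ratLocalizedAt ℓ))
    (x : Fin n → LaurentSeries ↥(GaloisRep.ratLocalizedAt ℓ)) (f : LaurentSeries ℚ)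
    (a : Fin n → Polynomial ↥(GaloisRep.ratLocalizedAt ℓ))
    (b : Polynomial ↥(GaloisRep.ratLocalizedAt ℓ)) (hb : b ≠ 0)
    (hrel : lamIncl ℓ (aeval t₀ b) * f = lamIncl ℓ (∑ i, aeval t₀ (a i) * x i)) :
    ∃ (a' : Fin n → Polynomial ↥(GaloisRep.ratLocalizedAt ℓ))
      (b' : Polynomial ↥(GaloisRep.ratLocalizedAt ℓ)), b' ≠ 0 ∧
      lamIncl ℓ (aeval t₀ b') * f = lamIncl ℓ (∑ i, aeval t₀ (a' i) * x i) ∧
      ¬ (b'.map (resMap ℓ) = 0 ∧ ∀ i, (a' i).map (resMap ℓ) = 0) := by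
  obtain ⟨k, hk⟩ : ∃ k, b.coeff k ≠ 0 := by
    by_contra h
    push Not at h
    exact hb (Polynomial.ext fun k => by rw [h k, coeff_zero])
  exact exists_normalized_aux ℓ t₀ x f _ a b k hk rfl hrel

/-- Reduction commutes with evaluation of polynomials. -/
theorem lamRed_aeval (t₀ : LaurentSeries ↥(GaloisRep.ratLocalizedAt ℓ))
    (b : Polynomial ↥(GaloisRep.ratLocalizedAt ℓ)) :
    lamRed ℓ (aeval t₀ b) = aeval (lamRed ℓ t₀) (b.map (resMap ℓ)) := by
  induction b using Polynomial.induction_on' with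
  | add p q hp hq => rw [map_add, map_add, Polynomial.map_add, map_add, hp, hq]
  | monomial n r =>
    rw [aeval_monomial, map_mul, map_pow, Polynomial.map_monomial, aeval_monomial]
    congr 1
    ext k
    rw [lamRed_coeff, algebraMap_laurent_eq_C, algebraMap_laurent_eq_C, HahnSeries.C_apply,
      HahnSeries.C_apply, HahnSeries.coeff_single, HahnSeries.coeff_single]
    split_ifs <;> simp

end Fermat.Agent.S28

end
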