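import Mathlib
import Fermat.Prelude.Def_ModularCurve_IgusaScheme
import Fermat.Agent.S28.KeyDataDef
import Fermat.Agent.S28.Reduction

/-!
# S28, Part R1c: from key data to the reduction homomorphism of a chart algebra
-/

set_option autoImplicit false

noncomputable section

namespace Fermat.Agent.S28

open ModularCurve ModularCurve.IgusaScheme Polynomial

variable (N : ℕ) [NeZero N] (ℓ : ℕ) [Fact ℓ.Prime]

/-- The structure map `ℤ_(ℓ) → F_N` followed by the inclusion into `ℚ((q))`. -/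
theorem coe_algebraMap_ratLoc (r : ↥(GaloisRep.ratLocalizedAt ℓ)) :
    ((algebraMap ↥(GaloisRep.ratLocalizedAt ℓ) ↥(modularFunctionFieldFull N) r :
      ↥(modularFunctionFieldFull N)) : LaurentSeries ℚ) =
      lamIncl ℓ (algebraMap ↥(GaloisRep.ratLocalizedAt ℓ)
        (LaurentSeries ↥(GaloisRep.ratLocalizedAt ℓ)) r) := by
  rw [algebraMap_laurent_eq_C,
    IsScalarTower.algebraMap_apply ↥(GaloisRep.ratLocalizedAt ℓ) ℚ ↥(modularFunctionFieldFull N)]
  have h1 : ((algebraMap ℚ ↥(modularFunctionFieldFull N) (algebraMap ↥(GaloisRep.ratLocalizedAt ℓ) ℚ r) :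
      ↥(modularFunctionFieldFull N)) : LaurentSeries ℚ) =
      algebraMap ℚ (LaurentSeries ℚ) (r : ℚ) :=
    congrFun (congrArg DFunLike.coe (RingHom.ext_rat
      (((modularFunctionFieldFull N).val : ↥(modularFunctionFieldFull N) →+* LaurentSeries ℚ).comp
        (algebraMap ℚ ↥(modularFunctionFieldFull N))) (algebraMap ℚ (LaurentSeries ℚ)))) (r : ℚ)
  rw [h1, algebraMap_laurent_eq_C]
  ext k
  rw [lamIncl_coeff, HahnSeries.C_apply, HahnSeries.C_apply, HahnSeries.coeff_single,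
    HahnSeries.coeff_single]
  split_ifs <;> simp

/-- Evaluation of integral polynomials at `t` in `F_N` and at `t₀` in `Λ` agree. -/
theorem coe_aeval_eq (t₀ : LaurentSeries ↥(GaloisRep.ratLocalizedAt ℓ))
    (t : ↥(modularFunctionFieldFull N)) (ht : (t : LaurentSeries ℚ) = lamIncl ℓ t₀)
    (b : Polynomial ↥(GaloisRep.ratLocalizedAt ℓ)) :
    ((aeval t b : ↥(modularFunctionFieldFull N)) : LaurentSeries ℚ) = lamIncl ℓ (aeval t₀ b) := by
  induction b using Polynomial.induction_on' with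
  | add p q hp hq =>
    rw [map_add, map_add, map_add, ← hp, ← hq]; rfl
  | monomial n r =>
    rw [aeval_monomial, aeval_monomial, map_mul, map_pow, ← ht, ← coe_algebraMap_ratLoc N ℓ]
    rfl

/-- Elements of `ℤ_(ℓ)[t]` are integral Laurent series. -/
theorem exists_lam_of_mem_adjoin (t₀ : LaurentSeries ↥(GaloisRep.ratLocalizedAt ℓ))
    (t : ↥(modularFunctionFieldFull N)) (ht : (t : LaurentSeries ℚ) = lamIncl ℓ t₀)
    {c : ↥(modularFunctionFieldFull N)}
    (hc : c ∈ Algebra.adjoin ↥(GaloisRep.ratLocalizedAt ℓ) {t}) :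
    ∃ b : Polynomial ↥(GaloisRep.ratLocalizedAt ℓ), c = aeval t b ∧
      (c : LaurentSeries ℚ) = lamIncl ℓ (aeval t₀ b) := by
  rw [Algebra.adjoin_singleton_eq_range_aeval] at hc
  obtain ⟨b, rfl⟩ := hc
  exact ⟨b, rfl, coe_aeval_eq N ℓ t₀ t ht b⟩

/-- Elements of the chart algebra are integral over `Λ = ℤ_(ℓ)((q))`. -/
theorem isIntegralElem_of_mem_chartAlg (t₀ : LaurentSeries ↥(GaloisRep.ratLocalizedAt ℓ))
    (t : ↥(modularFunctionFieldFull N)) (ht : (t : LaurentSeries ℚ) = lamIncl ℓ t₀)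
    {x : ↥(modularFunctionFieldFull N)} (hx : x ∈ chartAlg N ℓ {t}) :
    (lamIncl ℓ).IsIntegralElem (x : LaurentSeries ℚ) := by
  obtain ⟨P, hP, hPx⟩ := (mem_chartAlg_iff N ℓ).mp hx
  set φ : ↥(Algebra.adjoin ↥(GaloisRep.ratLocalizedAt ℓ) {t}) →+* LaurentSeries ℚ :=
    ((modularFunctionFieldFull N).val : ↥(modularFunctionFieldFull N) →+* LaurentSeries ℚ).comp
      (algebraMap ↥(Algebra.adjoin ↥(GaloisRep.ratLocalizedAt ℓ) {t})
        ↥(modularFunctionFieldFull N)) with hφ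
  have hlift : P.map φ ∈ Polynomial.lifts (lamIncl ℓ) := by
    rw [Polynomial.lifts_iff_coeff_lifts]
    intro i
    rw [coeff_map]
    obtain ⟨b, -, hb⟩ := exists_lam_of_mem_adjoin N ℓ t₀ t ht (P.coeff i).2
    exact ⟨aeval t₀ b, hb.symm⟩
  obtain ⟨Q, hQ, -, hQm⟩ := Polynomial.lifts_and_natDegree_eq_and_monic hlift (hP.map φ)
  refine ⟨Q, hQm, ?_⟩
  rw [← eval_map, hQ, eval_map]
  have h := congrArg ((modularFunctionFieldFull N).val :
    ↥(modularFunctionFieldFull N) →+* LaurentSeries ℚ) hPx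
  rw [map_zero, Polynomial.hom_eval₂] at h
  exact h

/-- Inclusion commutes with evaluation of polynomials. -/
theorem lamIncl_aeval (t₀ : LaurentSeries ↥(GaloisRep.ratLocalizedAt ℓ))
    (b : Polynomial ↥(GaloisRep.ratLocalizedAt ℓ)) :
    lamIncl ℓ (aeval t₀ b) =
      aeval (lamIncl ℓ t₀) (b.map (algebraMap ↥(GaloisRep.ratLocalizedAt ℓ) ℚ)) := by
  induction b using Polynomial.induction_on' with
  | add p q hp hq => rw [map_add, map_add, Polynomial.map_add, map_add, hp, hq]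
  | monomial n r =>
    rw [aeval_monomial, map_mul, map_pow, Polynomial.map_monomial, aeval_monomial]
    congr 1
    ext k
    rw [lamIncl_coeff, algebraMap_laurent_eq_C, algebraMap_laurent_eq_C, HahnSeries.C_apply,
      HahnSeries.C_apply, HahnSeries.coeff_single, HahnSeries.coeff_single]
    split_ifs <;> first | rfl | simp

/-- Elements of `ℚ(t)` are quotients of integral polynomials in `t`. -/
theorem exists_poly_of_mem_adjoin (t₀ : LaurentSeries ↥(GaloisRep.ratLocalizedAt ℓ))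
    {c : LaurentSeries ℚ} (hc : c ∈ IntermediateField.adjoin ℚ {lamIncl ℓ t₀}) :
    ∃ r s : Polynomial ↥(GaloisRep.ratLocalizedAt ℓ), s ≠ 0 ∧
      lamIncl ℓ (aeval t₀ s) * c = lamIncl ℓ (aeval t₀ r) := by
  obtain ⟨r', s', rfl⟩ := (IntermediateField.mem_adjoin_simple_iff ℚ c).mp hc
  by_cases hs : aeval (lamIncl ℓ t₀) s' = 0
  · refine ⟨0, 1, one_ne_zero, ?_⟩
    rw [hs, div_zero, mul_zero, map_zero, map_zero]
  · obtain ⟨br, hbr⟩ := IsLocalization.integerNormalization_map_to_map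
      (nonZeroDivisors ↥(GaloisRep.ratLocalizedAt ℓ)) r'
    obtain ⟨bs, hbs⟩ := IsLocalization.integerNormalization_map_to_map
      (nonZeroDivisors ↥(GaloisRep.ratLocalizedAt ℓ)) s'
    set r₀ := IsLocalization.integerNormalization (nonZeroDivisors ↥(GaloisRep.ratLocalizedAt ℓ)) r'
    set s₀ := IsLocalization.integerNormalization (nonZeroDivisors ↥(GaloisRep.ratLocalizedAt ℓ)) s'
    have hbr0 : ((br : ↥(GaloisRep.ratLocalizedAt ℓ)) : ℚ) ≠ 0 := by
      have := nonZeroDivisors.coe_ne_zero br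
      exact fun h => this (Subtype.ext h)
    have hbs0 : ((bs : ↥(GaloisRep.ratLocalizedAt ℓ)) : ℚ) ≠ 0 := by
      have := nonZeroDivisors.coe_ne_zero bs
      exact fun h => this (Subtype.ext h)
    have hsm : ∀ (b : ↥(GaloisRep.ratLocalizedAt ℓ)) (p : Polynomial ℚ),
        b • p = C (b : ℚ) * p := by
      intro b p
      ext i
      rw [coeff_smul, coeff_C_mul]
      rfl
    have er : lamIncl ℓ (aeval t₀ r₀) =
        algebraMap ℚ (LaurentSeries ℚ) ((br : ↥(GaloisRep.ratLocalizedAt ℓ)) : ℚ) *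
          aeval (lamIncl ℓ t₀) r' := by
      rw [lamIncl_aeval, hbr, hsm, map_mul, aeval_C]
    have es : lamIncl ℓ (aeval t₀ s₀) =
        algebraMap ℚ (LaurentSeries ℚ) ((bs : ↥(GaloisRep.ratLocalizedAt ℓ)) : ℚ) *
          aeval (lamIncl ℓ t₀) s' := by
      rw [lamIncl_aeval, hbs, hsm, map_mul, aeval_C]
    have hC : ∀ b : ↥(GaloisRep.ratLocalizedAt ℓ), ∀ p : Polynomial ↥(GaloisRep.ratLocalizedAt ℓ),
        lamIncl ℓ (aeval t₀ (C b * p)) =
          algebraMap ℚ (LaurentSeries ℚ) (b : ℚ) * lamIncl ℓ (aeval t₀ p) := by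
      intro b p
      rw [map_mul, aeval_C, map_mul]
      congr 1
      rw [algebraMap_laurent_eq_C, algebraMap_laurent_eq_C]
      ext k
      rw [lamIncl_coeff, HahnSeries.C_apply, HahnSeries.C_apply, HahnSeries.coeff_single,
        HahnSeries.coeff_single]
      split_ifs <;> first | rfl | simp
    have hbrL : algebraMap ℚ (LaurentSeries ℚ) ((br : ↥(GaloisRep.ratLocalizedAt ℓ)) : ℚ) ≠ 0 :=
      (_root_.map_ne_zero _).mpr hbr0
    have hbsL : algebraMap ℚ (LaurentSeries ℚ) ((bs : ↥(GaloisRep.ratLocalizedAt ℓ)) : ℚ) ≠ 0 :=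
      (_root_.map_ne_zero _).mpr hbs0
    refine ⟨C (bs : ↥(GaloisRep.ratLocalizedAt ℓ)) * r₀, C (br : ↥(GaloisRep.ratLocalizedAt ℓ)) * s₀,
      ?_, ?_⟩
    · intro h0
      have h1 := congrArg (fun p => lamIncl ℓ (aeval t₀ p)) h0
      simp only [hC, es, map_zero] at h1
      exact mul_ne_zero hbrL (mul_ne_zero hbsL hs) h1
    · rw [hC, hC, es, er]
      field_simp

variable {N ℓ}

namespace IsKeyData

variable {t₀ : LaurentSeries ↥(GaloisRep.ratLocalizedAt ℓ)} {n : ℕ}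
  {x : Fin n → LaurentSeries ↥(GaloisRep.ratLocalizedAt ℓ)}

/-- The coordinate `t` as an element of the function field. -/
def coord (kd : IsKeyData N ℓ t₀ x) : ↥(modularFunctionFieldFull N) := ⟨lamIncl ℓ t₀, kd.t_mem⟩

theorem coe_coord (kd : IsKeyData N ℓ t₀ x) : (kd.coord : LaurentSeries ℚ) = lamIncl ℓ t₀ := rfl

/-- Spanning, in polynomial form. -/
theorem exists_rel (kd : IsKeyData N ℓ t₀ x) {f : LaurentSeries ℚ}
    (hf : f ∈ modularFunctionFieldFull N) :
    ∃ (a : Fin n → Polynomial ↥(GaloisRep.ratLocalizedAt ℓ))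
      (b : Polynomial ↥(GaloisRep.ratLocalizedAt ℓ)), b ≠ 0 ∧
      lamIncl ℓ (aeval t₀ b) * f = lamIncl ℓ (∑ i, aeval t₀ (a i) * x i) := by
  classical
  obtain ⟨c, hc, rfl⟩ := kd.span f hf
  choose r s hs hrs using fun i => exists_poly_of_mem_adjoin ℓ t₀ (hc i)
  refine ⟨fun i => r i * ∏ j ∈ Finset.univ.erase i, s j, ∏ i, s i,
    Finset.prod_ne_zero_iff.mpr fun i _ => hs i, ?_⟩
  rw [Finset.mul_sum, map_sum]
  refine Finset.sum_congr rfl fun i _ => ?_
  rw [← Finset.mul_prod_erase Finset.univ s (Finset.mem_univ i), map_mul, map_mul, map_mul, map_mul,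
    map_mul, ← hrs i]
  ring

/-- Independence of the reductions, in polynomial form. -/
theorem indep_poly (kd : IsKeyData N ℓ t₀ x) (a : Fin n → Polynomial (ZMod ℓ))
    (h : ∑ i, aeval (lamRed ℓ t₀) (a i) * lamRed ℓ (x i) = 0) : ∀ i, a i = 0 := by
  intro i
  have h1 := kd.indep (fun i => aeval (lamRed ℓ t₀) (a i))
    (fun i => IntermediateField.algebra_adjoin_le_adjoin (ZMod ℓ) _
      (Polynomial.aeval_mem_adjoin_singleton (ZMod ℓ) (lamRed ℓ t₀))) h i
  exact transcendental_iff.mp kd.transc (a i) h1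

theorem lamRed_aeval_ne_zero (kd : IsKeyData N ℓ t₀ x)
    {b : Polynomial ↥(GaloisRep.ratLocalizedAt ℓ)} (hb : b.map (resMap ℓ) ≠ 0) :
    lamRed ℓ (aeval t₀ b) ≠ 0 := by
  rw [lamRed_aeval]
  exact fun h => hb (transcendental_iff.mp kd.transc _ h)

/-- **Representation of chart elements**: `b(t) x' = Σ aᵢ(t) xᵢ` with `b ≢ 0 mod ℓ`. -/
theorem exists_rep (kd : IsKeyData N ℓ t₀ x) {x' : ↥(modularFunctionFieldFull N)}
    (hx : x' ∈ chartAlg N ℓ {kd.coord}) :
    ∃ (a : Fin n → Polynomial ↥(GaloisRep.ratLocalizedAt ℓ))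
      (b : Polynomial ↥(GaloisRep.ratLocalizedAt ℓ)), b.map (resMap ℓ) ≠ 0 ∧
      lamIncl ℓ (aeval t₀ b) * (x' : LaurentSeries ℚ) = lamIncl ℓ (∑ i, aeval t₀ (a i) * x i) := by
  obtain ⟨a, b, hb, hrel⟩ := kd.exists_rel x'.2
  obtain ⟨a', b', -, hrel', hnorm⟩ := exists_normalized ℓ t₀ x _ a b hb hrel
  refine ⟨a', b', fun hb0 => hnorm ⟨hb0, ?_⟩, hrel'⟩
  have hint := isIntegralElem_of_mem_chartAlg N ℓ t₀ kd.coord rfl hx
  have hred0 : lamRed ℓ (aeval t₀ b') = 0 := by rw [lamRed_aeval, hb0, map_zero]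
  have h1 := lamRed_eq_zero_of_integral ℓ hint hred0 hrel'
  rw [map_sum] at h1
  simp only [map_mul, lamRed_aeval] at h1
  exact kd.indep_poly _ h1

/-- The chart algebra lies in the local ring `locInt ℓ`. -/
theorem mem_locInt (kd : IsKeyData N ℓ t₀ x) {x' : ↥(modularFunctionFieldFull N)}
    (hx : x' ∈ chartAlg N ℓ {kd.coord}) : (x' : LaurentSeries ℚ) ∈ locInt ℓ := by
  obtain ⟨a, b, hb, hrel⟩ := kd.exists_rep hx
  exact ⟨_, _, kd.lamRed_aeval_ne_zero hb, hrel⟩

/-- The chart algebra as a subring of the local ring `locInt ℓ`. -/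
def toLocInt (kd : IsKeyData N ℓ t₀ x) : ↥(chartAlg N ℓ {kd.coord}) →+* ↥(locInt ℓ) :=
  RingHom.codRestrict
    (((modularFunctionFieldFull N).val : ↥(modularFunctionFieldFull N) →+* LaurentSeries ℚ).comp
      ((chartAlg N ℓ {kd.coord}).val : ↥(chartAlg N ℓ {kd.coord}) →+*
        ↥(modularFunctionFieldFull N)))
    (locInt ℓ) (fun z => kd.mem_locInt z.2)

/-- The reduction homomorphism `ρ : A → 𝔽_ℓ((q))` of the chart algebra. -/
def chartRed (kd : IsKeyData N ℓ t₀ x) : ↥(chartAlg N ℓ {kd.coord}) →+* LaurentSeries (ZMod ℓ) :=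
  (redLoc ℓ).comp kd.toLocInt

theorem chartRed_eq (kd : IsKeyData N ℓ t₀ x) (z : ↥(chartAlg N ℓ {kd.coord}))
    (T b : LaurentSeries ↥(GaloisRep.ratLocalizedAt ℓ)) (hb : lamRed ℓ b ≠ 0)
    (h : lamIncl ℓ b * ((z : ↥(modularFunctionFieldFull N)) : LaurentSeries ℚ) = lamIncl ℓ T) :
    kd.chartRed z = lamRed ℓ T / lamRed ℓ b :=
  redLoc_eq ℓ (kd.toLocInt z) T b hb h

/-- **Kernel of the reduction**: `ker ρ ⊆ ℓ A`, given the integrality criterion `hB`
(integrally closedness of `ℤ_(ℓ)[t]`). -/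
theorem ker_chartRed (kd : IsKeyData N ℓ t₀ x)
    (hB : ∀ b : Polynomial ↥(GaloisRep.ratLocalizedAt ℓ), b.map (resMap ℓ) ≠ 0 →
      ∀ y : ↥(modularFunctionFieldFull N), (ℓ : ↥(modularFunctionFieldFull N)) * y ∈
        chartAlg N ℓ {kd.coord} → aeval kd.coord b * y ∈ chartAlg N ℓ {kd.coord} →
        y ∈ chartAlg N ℓ {kd.coord})
    (z : ↥(chartAlg N ℓ {kd.coord})) (hz : kd.chartRed z = 0) :
    ∃ w : ↥(chartAlg N ℓ {kd.coord}), z = (ℓ : ↥(chartAlg N ℓ {kd.coord})) * w := by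
  obtain ⟨a, b, hb, hrel⟩ := kd.exists_rep z.2
  have hb' := kd.lamRed_aeval_ne_zero hb
  rw [kd.chartRed_eq z _ _ hb' hrel, div_eq_zero_iff] at hz
  have h1 := hz.resolve_right hb'
  rw [map_sum] at h1
  simp only [map_mul, lamRed_aeval] at h1
  have h2 := kd.indep_poly _ h1
  have ha := fun i => (map_resMap_eq_zero_iff ℓ (a i)).mp (h2 i)
  choose a₁ ha₁ using ha
  have hℓF : (ℓ : ↥(modularFunctionFieldFull N)) ≠ 0 := by
    exact_mod_cast (Fact.out : ℓ.Prime).ne_zero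
  set y : ↥(modularFunctionFieldFull N) := (z : ↥(modularFunctionFieldFull N)) / ℓ with hy
  have hℓy : (ℓ : ↥(modularFunctionFieldFull N)) * y = z := by
    rw [hy]; field_simp
  -- the element `Σ a₁ᵢ(t) Xᵢ` of the chart algebra
  set w₀ : ↥(modularFunctionFieldFull N) :=
    ∑ i, aeval kd.coord (a₁ i) * (⟨lamIncl ℓ (x i), kd.mem i⟩ : ↥(modularFunctionFieldFull N))
    with hw₀
  have hw₀mem : w₀ ∈ chartAlg N ℓ {kd.coord} := by
    refine Subalgebra.sum_mem _ fun i _ => Subalgebra.mul_mem _ ?_ (kd.integral i)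
    exact adjoin_le_chartAlg N ℓ _
      (Algebra.adjoin_singleton_eq_range_aeval ↥(GaloisRep.ratLocalizedAt ℓ) kd.coord ▸ ⟨a₁ i, rfl⟩)
  have hby : aeval kd.coord b * y = w₀ := by
    apply Subtype.ext
    have hℓL : (ℓ : LaurentSeries ℚ) ≠ 0 := natCast_laurent_rat_ne_zero (Fact.out : ℓ.Prime).ne_zero
    apply mul_left_cancel₀ hℓL
    have e1 : ((aeval kd.coord b * y : ↥(modularFunctionFieldFull N)) : LaurentSeries ℚ) =
        lamIncl ℓ (aeval t₀ b) * (y : LaurentSeries ℚ) := by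
      rw [← coe_aeval_eq N ℓ t₀ kd.coord rfl b]; rfl
    have e2 : (ℓ : LaurentSeries ℚ) * (y : LaurentSeries ℚ) =
        ((z : ↥(modularFunctionFieldFull N)) : LaurentSeries ℚ) := by
      rw [← hℓy]; rfl
    have e3 : (w₀ : LaurentSeries ℚ) = lamIncl ℓ (∑ i, aeval t₀ (a₁ i) * x i) := by
      rw [hw₀, map_sum]
      have : ((∑ i, aeval kd.coord (a₁ i) *
          (⟨lamIncl ℓ (x i), kd.mem i⟩ : ↥(modularFunctionFieldFull N)) :
          ↥(modularFunctionFieldFull N)) : LaurentSeries ℚ) =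
          ∑ i, ((aeval kd.coord (a₁ i) : ↥(modularFunctionFieldFull N)) : LaurentSeries ℚ) *
            lamIncl ℓ (x i) := by
        rw [← IntermediateField.coe_val, map_sum]
        rfl
      rw [this]
      refine Finset.sum_congr rfl fun i _ => ?_
      rw [coe_aeval_eq N ℓ t₀ kd.coord rfl, map_mul]
    have e4 : lamIncl ℓ (∑ i, aeval t₀ (a i) * x i) =
        (ℓ : LaurentSeries ℚ) * lamIncl ℓ (∑ i, aeval t₀ (a₁ i) * x i) := by
      rw [← map_natCast (lamIncl ℓ) ℓ, ← map_mul, Finset.mul_sum]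
      congr 1
      refine Finset.sum_congr rfl fun i _ => ?_
      rw [ha₁ i, map_mul, aeval_C, mul_assoc, map_natCast]
    rw [e1, e3, ← e4, ← hrel, ← e2]
    ring
  have hymem : y ∈ chartAlg N ℓ {kd.coord} := by
    refine hB b hb y ?_ ?_
    · rw [hℓy]; exact z.2
    · rw [hby]; exact hw₀mem
  refine ⟨⟨y, hymem⟩, Subtype.ext ?_⟩
  rw [Subalgebra.coe_mul, ← hℓy]
  rfl

end IsKeyData

end Fermat.Agent.S28

end
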