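import Mathlib
import Fermat.Agent.S28.RatLoc

/-!
# S28, Part R1 sub-pieces (B) and (P): integrality from coprime multipliers, and `ℤ_(ℓ)[t]`

* `isIntegral_of_isIntegral_mul` **(B)**: `D` integrally closed domain, `p` prime, `p ∤ b`,
  `p * y` and `b * y` integral over `D` ⟹ `y` integral over `D`.
* `adjoinEquivPoly` : `ℤ_(ℓ)[X] ≃ₐ ℤ_(ℓ)[t]` for transcendental `t`;
* `isIntegrallyClosed_adjoin` **(P1)**, `not_dvd_aeval_of_map_ne_zero` **(P2)**,
  `prime_algebraMap_adjoin` **(P3)**.
-/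

set_option autoImplicit false

open Polynomial

namespace Fermat.Agent.S28

/-- Minimal polynomial of a scaled element over a field. -/
theorem minpoly_smul_of_field {K E : Type*} [Field K] [Field E] [Algebra K E] {c : K} (hc : c ≠ 0)
    {y : E} (hy : IsIntegral K y) :
    minpoly K (c • y) = (minpoly K y).scaleRoots c := by
  have hcy : IsIntegral K (c • y) := hy.smul c
  refine eq_of_monic_of_associated (minpoly.monic hcy)
    ((monic_scaleRoots_iff c).mpr (minpoly.monic hy))
    (associated_of_dvd_dvd (minpoly.dvd _ _ ?_) ?_)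
  · have := scaleRoots_aeval_eq_zero (r := c) (minpoly.aeval K y)
    rwa [← Algebra.smul_def] at this
  · rw [← Polynomial.scaleRoots_dvd_iff _ _ (r := c⁻¹) (IsUnit.mk0 _ (inv_ne_zero hc)),
      ← scaleRoots_mul, mul_inv_cancel₀ hc, scaleRoots_one]
    refine minpoly.dvd _ _ ?_
    have := scaleRoots_aeval_eq_zero (r := c⁻¹) (minpoly.aeval K (c • y))
    rwa [← Algebra.smul_def, smul_smul, inv_mul_cancel₀ hc, one_smul] at this

/-- **(B)** Integrality from two coprime multipliers: if `D` is an integrally closed domain,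
`p` is a prime element not dividing `b`, and both `p * y` and `b * y` are integral over `D`,
then `y` is integral over `D`. -/
theorem isIntegral_of_isIntegral_mul
    {D E : Type*} [CommRing D] [IsDomain D] [IsIntegrallyClosed D] [Field E] [Algebra D E]
    (hinj : Function.Injective (algebraMap D E))
    {p b : D} (hp : Prime p) (hb : ¬ p ∣ b) {y : E}
    (h1 : IsIntegral D (algebraMap D E p * y)) (h2 : IsIntegral D (algebraMap D E b * y)) :
    IsIntegral D y := by
  classical
  have : FaithfulSMul D E := (faithfulSMul_iff_algebraMap_injective D E).mpr hinj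
  let K := FractionRing D
  let _ : Algebra K E := FractionRing.liftAlgebra D E
  have : IsScalarTower D K E := FractionRing.isScalarTower_liftAlgebra D E
  have hp0 : p ≠ 0 := hp.ne_zero
  have hb0 : b ≠ 0 := fun h => hb (h ▸ dvd_zero p)
  have hpK : algebraMap D K p ≠ 0 := by
    simpa using hp0
  have hbK : algebraMap D K b ≠ 0 := by
    simpa using hb0
  -- rewrite the hypotheses with scalar multiplication by elements of `K`
  have e1 : algebraMap D E p * y = (algebraMap D K p) • y := by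
    rw [Algebra.smul_def, ← IsScalarTower.algebraMap_apply]
  have e2 : algebraMap D E b * y = (algebraMap D K b) • y := by
    rw [Algebra.smul_def, ← IsScalarTower.algebraMap_apply]
  -- `y` is integral over `K`
  have hyK : IsIntegral K y := by
    have h : IsIntegral K ((algebraMap D K p) • y) := by
      rw [← e1]; exact h1.tower_top
    have := h.smul (algebraMap D K p)⁻¹
    rwa [smul_smul, inv_mul_cancel₀ hpK, one_smul] at this
  set g := minpoly K y with hg
  set m := g.natDegree with hm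
  -- coefficients of the two scaled minimal polynomials lie in `D`
  have c1 : ∀ i, ∃ u : D, algebraMap D K u = g.coeff i * (algebraMap D K p) ^ (m - i) := by
    intro i
    have h : minpoly K ((algebraMap D K p) • y) =
        (minpoly D (algebraMap D E p * y)).map (algebraMap D K) := by
      rw [← e1]; exact minpoly.isIntegrallyClosed_eq_field_fractions' K h1
    rw [minpoly_smul_of_field hpK hyK] at h
    refine ⟨(minpoly D (algebraMap D E p * y)).coeff i, ?_⟩
    rw [← coeff_map, ← h, coeff_scaleRoots]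
  have c2 : ∀ i, ∃ w : D, algebraMap D K w = g.coeff i * (algebraMap D K b) ^ (m - i) := by
    intro i
    have h : minpoly K ((algebraMap D K b) • y) =
        (minpoly D (algebraMap D E b * y)).map (algebraMap D K) := by
      rw [← e2]; exact minpoly.isIntegrallyClosed_eq_field_fractions' K h2
    rw [minpoly_smul_of_field hbK hyK] at h
    refine ⟨(minpoly D (algebraMap D E b * y)).coeff i, ?_⟩
    rw [← coeff_map, ← h, coeff_scaleRoots]
  -- hence the coefficients of `g` lie in `D`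
  have c3 : ∀ i, ∃ v : D, algebraMap D K v = g.coeff i := by
    intro i
    obtain ⟨u, hu⟩ := c1 i
    obtain ⟨w, hw⟩ := c2 i
    have hinjK : Function.Injective (algebraMap D K) := IsFractionRing.injective D K
    have huw : b ^ (m - i) * u = p ^ (m - i) * w := by
      apply hinjK
      rw [map_mul, map_mul, map_pow, map_pow, hu, hw]
      ring
    have hdvd : p ^ (m - i) ∣ u := by
      have h' : p ^ (m - i) ∣ b ^ (m - i) * u := ⟨w, huw⟩
      exact hp.pow_dvd_of_dvd_mul_left (m - i) (fun h => hb (hp.dvd_of_dvd_pow h)) h'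
    obtain ⟨v, hv⟩ := hdvd
    refine ⟨v, ?_⟩
    have hpk : (algebraMap D K p) ^ (m - i) ≠ 0 := pow_ne_zero _ hpK
    apply mul_right_cancel₀ hpk
    rw [← hu, hv, map_mul, map_pow, mul_comm]
  have hlifts : g ∈ Polynomial.lifts (algebraMap D K) :=
    (Polynomial.lifts_iff_coeff_lifts g).mpr fun i => by
      obtain ⟨v, hv⟩ := c3 i
      exact ⟨v, hv⟩
  obtain ⟨g', hg'g, -, hg'monic⟩ :=
    Polynomial.lifts_and_natDegree_eq_and_monic hlifts (minpoly.monic hyK)
  refine ⟨g', hg'monic, ?_⟩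
  have : aeval y (g'.map (algebraMap D K)) = 0 := by rw [hg'g]; exact minpoly.aeval K y
  rwa [aeval_map_algebraMap] at this

open GaloisRep

section PolyBase

variable (ℓ : ℕ) [Fact ℓ.Prime]

/-- `ℓ` is a prime element of `ℤ_(ℓ)`. -/
theorem prime_natCast_ratLoc : Prime ((ℓ : ℕ) : ratLocalizedAt ℓ) := by
  have hne : ((ℓ : ℕ) : ratLocalizedAt ℓ) ≠ 0 := by
    intro h
    have := congrArg (Subtype.val : ratLocalizedAt ℓ → ℚ) h
    have hℓ : (ℓ : ℚ) ≠ 0 := by exact_mod_cast (Fact.out : ℓ.Prime).ne_zero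
    exact hℓ (by simpa using this)
  rw [← Ideal.span_singleton_prime hne]
  have hker : RingHom.ker (resMap ℓ) = Ideal.span {((ℓ : ℕ) : ratLocalizedAt ℓ)} := by
    ext x
    rw [RingHom.mem_ker, resMap_eq_zero_iff, Ideal.mem_span_singleton']
    constructor
    · rintro ⟨y, rfl⟩; exact ⟨y, mul_comm _ _⟩
    · rintro ⟨y, rfl⟩; exact ⟨y, mul_comm _ _⟩
  rw [← hker]
  exact RingHom.ker_isPrime _

/-- In `ℤ_(ℓ)[X]`, divisibility by `ℓ` is detected by reduction of the coefficients. -/
theorem C_natCast_dvd_iff_map_resMap_eq_zero (b : (ratLocalizedAt ℓ)[X]) :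
    C ((ℓ : ℕ) : ratLocalizedAt ℓ) ∣ b ↔ b.map (resMap ℓ) = 0 := by
  rw [Polynomial.C_dvd_iff_dvd_coeff, Polynomial.ext_iff]
  refine forall_congr' fun i => ?_
  rw [coeff_map, coeff_zero, resMap_eq_zero_iff]
  exact Iff.rfl

variable {E : Type*} [Field E] [Algebra (ratLocalizedAt ℓ) E]

/-- For transcendental `t`, the subalgebra `ℤ_(ℓ)[t]` is a polynomial ring. -/
noncomputable def adjoinEquivPoly {t : E} (ht : Transcendental (ratLocalizedAt ℓ) t) :
    (ratLocalizedAt ℓ)[X] ≃ₐ[ratLocalizedAt ℓ] ↥(Algebra.adjoin (ratLocalizedAt ℓ) {t}) :=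
  (AlgEquiv.ofInjective (aeval t) (transcendental_iff_injective.mp ht)).trans
    (Subalgebra.equivOfEq _ _ (Algebra.adjoin_singleton_eq_range_aeval (ratLocalizedAt ℓ) t).symm)

omit [Fact ℓ.Prime] in
theorem coe_adjoinEquivPoly {t : E} (ht : Transcendental (ratLocalizedAt ℓ) t)
    (b : (ratLocalizedAt ℓ)[X]) :
    ((adjoinEquivPoly ℓ ht b : ↥(Algebra.adjoin (ratLocalizedAt ℓ) {t})) : E) = aeval t b := rfl

/-- **(P1)** `ℤ_(ℓ)[t]` is integrally closed for transcendental `t`. -/
theorem isIntegrallyClosed_adjoin {t : E} (ht : Transcendental (ratLocalizedAt ℓ) t) :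
    IsIntegrallyClosed ↥(Algebra.adjoin (ratLocalizedAt ℓ) {t}) :=
  IsIntegrallyClosed.of_equiv (adjoinEquivPoly ℓ ht).toRingEquiv

/-- **(P3)** `ℓ` is a prime element of `ℤ_(ℓ)[t]` for transcendental `t`. -/
theorem prime_algebraMap_adjoin {t : E} (ht : Transcendental (ratLocalizedAt ℓ) t) :
    Prime (algebraMap (ratLocalizedAt ℓ) ↥(Algebra.adjoin (ratLocalizedAt ℓ) {t})
      ((ℓ : ℕ) : ratLocalizedAt ℓ)) := by
  have h : Prime (C ((ℓ : ℕ) : ratLocalizedAt ℓ)) :=
    Polynomial.prime_C_iff.mpr (prime_natCast_ratLoc ℓ)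
  have e : adjoinEquivPoly ℓ ht (C ((ℓ : ℕ) : ratLocalizedAt ℓ)) =
      algebraMap (ratLocalizedAt ℓ) ↥(Algebra.adjoin (ratLocalizedAt ℓ) {t})
        ((ℓ : ℕ) : ratLocalizedAt ℓ) := (adjoinEquivPoly ℓ ht).commutes _
  rw [← e]
  exact (MulEquiv.prime_iff (adjoinEquivPoly ℓ ht).toMulEquiv).mpr h

/-- **(P2)** If the reduction of `b ∈ ℤ_(ℓ)[X]` is non-zero then `ℓ ∤ b(t)` in `ℤ_(ℓ)[t]`. -/
theorem not_dvd_aeval_of_map_ne_zero {t : E} (ht : Transcendental (ratLocalizedAt ℓ) t)
    (b : (ratLocalizedAt ℓ)[X]) (hb : b.map (resMap ℓ) ≠ 0)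
    (h : aeval t b ∈ Algebra.adjoin (ratLocalizedAt ℓ) {t}) :
    ¬ algebraMap (ratLocalizedAt ℓ) ↥(Algebra.adjoin (ratLocalizedAt ℓ) {t})
        ((ℓ : ℕ) : ratLocalizedAt ℓ) ∣
      (⟨aeval t b, h⟩ : ↥(Algebra.adjoin (ratLocalizedAt ℓ) {t})) := by
  have e1 : adjoinEquivPoly ℓ ht (C ((ℓ : ℕ) : ratLocalizedAt ℓ)) =
      algebraMap (ratLocalizedAt ℓ) ↥(Algebra.adjoin (ratLocalizedAt ℓ) {t})
        ((ℓ : ℕ) : ratLocalizedAt ℓ) := (adjoinEquivPoly ℓ ht).commutes _
  have e2 : adjoinEquivPoly ℓ ht b =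
      (⟨aeval t b, h⟩ : ↥(Algebra.adjoin (ratLocalizedAt ℓ) {t})) := Subtype.ext rfl
  rw [← e1, ← e2, map_dvd_iff]
  exact fun hd => hb ((C_natCast_dvd_iff_map_resMap_eq_zero ℓ b).mp hd)

end PolyBase

end Fermat.Agent.S28
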