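import Mathlib
import Fermat.Prelude.Def_ModularCurve_IgusaScheme
import Fermat.Agent.S28.ChartRed
import Fermat.Agent.S28.IntegralCoprime

/-!
# S28, Part R1d: the three chart algebras

* `IsKeyData.transcendental_coord`, `IsKeyData.integral_criterion` (the hypothesis `hB` of `ker_chartRed`);
* `IsKeyData.exists_chartRed`: `ρ : chartAlg {t} →+* 𝔽_ℓ((q))` with `ker ρ ⊆ ℓ·`;
* `IsKeyData.inv`: key data for `t⁻¹` from key data for `t`;
* the middle chart maps to `𝔽_ℓ((q))`.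
-/

set_option autoImplicit false

noncomputable section

namespace Fermat.Agent.S28

open ModularCurve ModularCurve.IgusaScheme Polynomial

variable {N : ℕ} [NeZero N] {ℓ : ℕ} [Fact ℓ.Prime]

namespace IsKeyData

variable {t₀ : LaurentSeries ↥(GaloisRep.ratLocalizedAt ℓ)} {n : ℕ}
  {x : Fin n → LaurentSeries ↥(GaloisRep.ratLocalizedAt ℓ)}

/-- The coordinate `t₀` is transcendental over `ℤ_(ℓ)`. -/
theorem aeval_ne_zero (kd : IsKeyData N ℓ t₀ x) {P : Polynomial ↥(GaloisRep.ratLocalizedAt ℓ)}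
    (hP : P ≠ 0) : aeval t₀ P ≠ 0 := by
  intro h0
  obtain ⟨a', b', -, hrel', hnorm⟩ := exists_normalized ℓ t₀ (fun i : Fin 0 => (0 : _))
    (1 : LaurentSeries ℚ) (fun _ => 0) P hP (by simp [h0])
  apply hnorm
  refine ⟨?_, fun i => i.elim0⟩
  have h1 : aeval t₀ b' = 0 := by
    apply lamIncl_injective ℓ
    simpa using hrel'
  have h2 := congrArg (lamRed ℓ) h1
  rw [lamRed_aeval, map_zero] at h2
  exact transcendental_iff.mp kd.transc _ h2

theorem transcendental_coord (kd : IsKeyData N ℓ t₀ x) :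
    Transcendental ↥(GaloisRep.ratLocalizedAt ℓ) kd.coord := by
  rw [transcendental_iff]
  intro P hP
  by_contra hne
  apply kd.aeval_ne_zero hne
  apply lamIncl_injective ℓ
  rw [map_zero, ← coe_aeval_eq N ℓ t₀ kd.coord rfl P, hP]
  rfl

/-- The integrality criterion needed for the kernel of the reduction. -/
theorem integral_criterion (kd : IsKeyData N ℓ t₀ x)
    (b : Polynomial ↥(GaloisRep.ratLocalizedAt ℓ)) (hb : b.map (resMap ℓ) ≠ 0)
    (y : ↥(modularFunctionFieldFull N))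
    (h1 : (ℓ : ↥(modularFunctionFieldFull N)) * y ∈ chartAlg N ℓ {kd.coord})
    (h2 : aeval kd.coord b * y ∈ chartAlg N ℓ {kd.coord}) :
    y ∈ chartAlg N ℓ {kd.coord} := by
  have ht := kd.transcendental_coord
  haveI := isIntegrallyClosed_adjoin ℓ ht
  have hmem : aeval kd.coord b ∈ Algebra.adjoin ↥(GaloisRep.ratLocalizedAt ℓ) {kd.coord} := by
    rw [Algebra.adjoin_singleton_eq_range_aeval]; exact ⟨b, rfl⟩
  rw [mem_chartAlg_iff] at h1 h2 ⊢
  refine isIntegral_of_isIntegral_mul (D := ↥(Algebra.adjoin ↥(GaloisRep.ratLocalizedAt ℓ) {kd.coord}))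
    (E := ↥(modularFunctionFieldFull N)) Subtype.val_injective
    (prime_algebraMap_adjoin ℓ ht) (not_dvd_aeval_of_map_ne_zero ℓ ht b hb hmem) ?_ ?_
  · have e : algebraMap ↥(Algebra.adjoin ↥(GaloisRep.ratLocalizedAt ℓ) {kd.coord})
        ↥(modularFunctionFieldFull N)
        (algebraMap ↥(GaloisRep.ratLocalizedAt ℓ)
          ↥(Algebra.adjoin ↥(GaloisRep.ratLocalizedAt ℓ) {kd.coord})
          ((ℓ : ℕ) : ↥(GaloisRep.ratLocalizedAt ℓ))) = (ℓ : ↥(modularFunctionFieldFull N)) := by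
      rw [map_natCast, map_natCast]
    rw [e]; exact h1
  · exact h2

/-- **Part R1.** The reduction homomorphism of the chart algebra with coordinate `t`, with
`ker ρ ⊆ ℓ A`. -/
theorem exists_chartRed (kd : IsKeyData N ℓ t₀ x) :
    ∃ ρ : ↥(chartAlg N ℓ {kd.coord}) →+* LaurentSeries (ZMod ℓ),
      ∀ z, ρ z = 0 → ∃ w : ↥(chartAlg N ℓ {kd.coord}),
        z = (ℓ : ↥(chartAlg N ℓ {kd.coord})) * w :=
  ⟨kd.chartRed, kd.ker_chartRed kd.integral_criterion⟩

/-- Variant of `exists_chartRed` for any presentation of the coordinate. -/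
theorem exists_chartRed' (kd : IsKeyData N ℓ t₀ x) (t : ↥(modularFunctionFieldFull N))
    (ht : (t : LaurentSeries ℚ) = lamIncl ℓ t₀) :
    ∃ ρ : ↥(chartAlg N ℓ {t}) →+* LaurentSeries (ZMod ℓ),
      ∀ z, ρ z = 0 → ∃ w : ↥(chartAlg N ℓ {t}), z = (ℓ : ↥(chartAlg N ℓ {t})) * w := by
  obtain rfl : t = kd.coord := Subtype.ext ht
  exact kd.exists_chartRed

theorem lamRed_coord_ne_zero (kd : IsKeyData N ℓ t₀ x) : lamRed ℓ t₀ ≠ 0 := by
  intro h
  have := transcendental_iff.mp kd.transc Polynomial.X (by rw [aeval_X, h])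
  exact Polynomial.X_ne_zero this

theorem coord_ne_zero (kd : IsKeyData N ℓ t₀ x) : kd.coord ≠ 0 := by
  intro h
  have h1 : lamIncl ℓ t₀ = 0 := by
    rw [← kd.coe_coord, h]; rfl
  have h2 : t₀ = 0 := lamIncl_injective ℓ (by rw [h1, map_zero])
  exact kd.lamRed_coord_ne_zero (by rw [h2, map_zero])

/-- The middle chart lies in `locInt ℓ`. -/
theorem mem_locInt_mid (kd : IsKeyData N ℓ t₀ x) {z : ↥(modularFunctionFieldFull N)}
    (hz : z ∈ chartAlg N ℓ {kd.coord, kd.coord⁻¹}) : (z : LaurentSeries ℚ) ∈ locInt ℓ := by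
  have hz' : z ∈ chartAlg N ℓ (insert kd.coord⁻¹ {kd.coord}) := by
    rw [show insert kd.coord⁻¹ ({kd.coord} : Set ↥(modularFunctionFieldFull N)) =
      {kd.coord, kd.coord⁻¹} from Set.pair_comm _ _]
    exact hz
  obtain ⟨m, hm⟩ := exists_pow_mul_mem_chartAlg (Set.mem_singleton _) kd.coord_ne_zero hz'
  obtain ⟨T, b, hb, h⟩ := kd.mem_locInt hm
  refine ⟨T, b * t₀ ^ m, ?_, ?_⟩
  · rw [map_mul, map_pow]
    exact mul_ne_zero hb (pow_ne_zero _ kd.lamRed_coord_ne_zero)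
  · rw [← h, map_mul, map_pow, IntermediateField.coe_mul, IntermediateField.coe_pow, kd.coe_coord]
    ring

/-- The middle chart maps to `𝔽_ℓ((q))`. -/
theorem exists_midRed (kd : IsKeyData N ℓ t₀ x) :
    Nonempty (↥(chartAlg N ℓ {kd.coord, kd.coord⁻¹}) →+* LaurentSeries (ZMod ℓ)) :=
  ⟨(redLoc ℓ).comp (RingHom.codRestrict
    (((modularFunctionFieldFull N).val : ↥(modularFunctionFieldFull N) →+* LaurentSeries ℚ).comp
      ((chartAlg N ℓ {kd.coord, kd.coord⁻¹}).val : ↥(chartAlg N ℓ {kd.coord, kd.coord⁻¹}) →+*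
        ↥(modularFunctionFieldFull N)))
    (locInt ℓ) (fun z => kd.mem_locInt_mid z.2))⟩

theorem exists_midRed' (kd : IsKeyData N ℓ t₀ x) (t : ↥(modularFunctionFieldFull N))
    (ht : (t : LaurentSeries ℚ) = lamIncl ℓ t₀) :
    Nonempty (↥(chartAlg N ℓ {t, t⁻¹}) →+* LaurentSeries (ZMod ℓ)) := by
  obtain rfl : t = kd.coord := Subtype.ext ht
  exact kd.exists_midRed

set_option maxHeartbeats 400000 in
/-- **Key data for the inverse coordinate.** -/
theorem inv (kd : IsKeyData N ℓ t₀ x) (s₀ : LaurentSeries ↥(GaloisRep.ratLocalizedAt ℓ))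
    (hs : t₀ * s₀ = 1) : ∃ m : ℕ, IsKeyData N ℓ s₀ (fun i => x i * s₀ ^ m) := by
  classical
  have hsI : lamIncl ℓ t₀ * lamIncl ℓ s₀ = 1 := by rw [← map_mul, hs, map_one]
  have hsR : lamRed ℓ t₀ * lamRed ℓ s₀ = 1 := by rw [← map_mul, hs, map_one]
  have hsI' : lamIncl ℓ s₀ = (lamIncl ℓ t₀)⁻¹ := eq_inv_of_mul_eq_one_right hsI
  have hsR' : lamRed ℓ s₀ = (lamRed ℓ t₀)⁻¹ := eq_inv_of_mul_eq_one_right hsR
  have htI' : lamIncl ℓ t₀ = (lamIncl ℓ s₀)⁻¹ := by rw [hsI', inv_inv]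
  have htR' : lamRed ℓ t₀ = (lamRed ℓ s₀)⁻¹ := by rw [hsR', inv_inv]
  have hs_mem : lamIncl ℓ s₀ ∈ modularFunctionFieldFull N := by
    rw [hsI']; exact inv_mem kd.t_mem
  set s : ↥(modularFunctionFieldFull N) := ⟨lamIncl ℓ s₀, hs_mem⟩ with hsdef
  have hts : kd.coord = s⁻¹ := by
    apply Subtype.ext
    rw [IntermediateField.coe_inv]
    exact htI'
  have hs0 : s ≠ 0 := by
    intro h
    have := kd.coord_ne_zero
    rw [hts, h, inv_zero] at this
    exact this rfl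
  -- integrality exponents
  have hX : ∀ i, ∃ k : ℕ, s ^ k * (⟨lamIncl ℓ (x i), kd.mem i⟩ : ↥(modularFunctionFieldFull N)) ∈
      chartAlg N ℓ {s} := by
    intro i
    refine exists_pow_mul_mem_chartAlg (Set.mem_singleton _) hs0 ?_
    refine chartAlg_mono N ℓ ?_ (kd.integral i)
    rw [Set.singleton_subset_iff, ← hts]
    exact Set.mem_insert _ _
  choose k hk using hX
  set m := ∑ i, k i with hm
  have hkm : ∀ i, k i ≤ m := fun i =>
    Finset.single_le_sum (f := k) (fun _ _ => Nat.zero_le _) (Finset.mem_univ i)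
  have hmem : ∀ i, lamIncl ℓ (x i * s₀ ^ m) ∈ modularFunctionFieldFull N := by
    intro i
    rw [map_mul, map_pow]
    exact mul_mem (kd.mem i) (pow_mem hs_mem _)
  have hFs : IntermediateField.adjoin ℚ {lamIncl ℓ t₀} ≤ IntermediateField.adjoin ℚ {lamIncl ℓ s₀} := by
    rw [IntermediateField.adjoin_simple_le_iff, htI']
    exact inv_mem (IntermediateField.mem_adjoin_simple_self ℚ _)
  have hFr : IntermediateField.adjoin (ZMod ℓ) {lamRed ℓ s₀} ≤
      IntermediateField.adjoin (ZMod ℓ) {lamRed ℓ t₀} := by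
    rw [IntermediateField.adjoin_simple_le_iff, hsR']
    exact inv_mem (IntermediateField.mem_adjoin_simple_self (ZMod ℓ) _)
  refine ⟨m, ⟨hs_mem, hmem, ?_, ?_, ?_, ?_⟩⟩
  · -- integral
    intro i
    have e0 : lamIncl ℓ (x i * s₀ ^ m) = lamIncl ℓ s₀ ^ m * lamIncl ℓ (x i) := by
      rw [map_mul, map_pow, mul_comm]
    have e : (⟨lamIncl ℓ (x i * s₀ ^ m), hmem i⟩ : ↥(modularFunctionFieldFull N)) =
        s ^ (m - k i) * (s ^ k i * (⟨lamIncl ℓ (x i), kd.mem i⟩ : ↥(modularFunctionFieldFull N))) := by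
      rw [← mul_assoc, ← pow_add, Nat.sub_add_cancel (hkm i)]
      apply Subtype.ext
      rw [IntermediateField.coe_mul, IntermediateField.coe_pow]
      exact e0
    rw [e]
    have hs_in : s ∈ chartAlg N ℓ {s} := subset_chartAlg N ℓ {s} (Set.mem_singleton s)
    exact mul_mem (pow_mem hs_in _) (hk i)
  · -- span
    intro f hf
    obtain ⟨c, hc, rfl⟩ := kd.span f hf
    refine ⟨fun i => c i * lamIncl ℓ t₀ ^ m, fun i => ?_, ?_⟩
    · exact mul_mem (hFs (hc i)) (pow_mem (hFs (IntermediateField.mem_adjoin_simple_self ℚ _)) _)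
    · refine Finset.sum_congr rfl fun i _ => ?_
      rw [map_mul, map_pow]
      have : lamIncl ℓ t₀ ^ m * lamIncl ℓ s₀ ^ m = 1 := by rw [← mul_pow, hsI, one_pow]
      calc c i * lamIncl ℓ (x i) = c i * lamIncl ℓ (x i) * (lamIncl ℓ t₀ ^ m * lamIncl ℓ s₀ ^ m) := by
            rw [this, mul_one]
        _ = _ := by ring
  · -- indep
    intro c hc h i
    have hsbar0 : lamRed ℓ s₀ ≠ 0 := by
      intro h0; rw [h0, mul_zero] at hsR; exact zero_ne_one hsR
    have h' : ∑ i, (c i * lamRed ℓ s₀ ^ m) * lamRed ℓ (x i) = 0 := by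
      rw [← h]
      refine Finset.sum_congr rfl fun i _ => ?_
      rw [map_mul, map_pow]; ring
    have := kd.indep (fun i => c i * lamRed ℓ s₀ ^ m)
      (fun i => mul_mem (hFr (hc i))
        (pow_mem (hFr (IntermediateField.mem_adjoin_simple_self (ZMod ℓ) _)) _)) h' i
    exact (mul_eq_zero.mp this).resolve_right (pow_ne_zero _ hsbar0)
  · -- transc
    intro halg
    apply kd.transc
    rw [htR']
    exact halg.inv

end IsKeyData

end Fermat.Agent.S28

end
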