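import Mathlib
import Fermat.Prelude.Def_ModularCurve_IgusaScheme

/-!
# S28, Part S (schemes): integrality of the special fibre of the Igusa scheme from the chart algebras.

`Fermat.Agent.S28.isIntegral_pullback_igusaTo`: if `A ⊗ K` and `B ⊗ K` are domains and `C ⊗ K` is
nontrivial (`A, B, C` the three chart algebras of the Igusa scheme), then the base change of the
Igusa scheme to `K` is an integral scheme.
-/

set_option autoImplicit false

noncomputable section

namespace Fermat.Agent.S28

open AlgebraicGeometry CategoryTheory CategoryTheory.Limits ModularCurve ModularCurve.IgusaScheme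
open TensorProduct

variable (N : ℕ) [NeZero N] (ℓ : ℕ) [Fact ℓ.Prime]

/-- The two-chart open cover of the Igusa scheme. -/
def igusaOpenCover : (ModularCurve.IgusaScheme N ℓ).OpenCover :=
  Scheme.Cover.mkOfCovers Bool
    (fun b => match b with
      | true => XFin N ℓ
      | false => XInf N ℓ)
    (fun b => match b with
      | true => ιFin N ℓ
      | false => ιInf N ℓ)
    (fun x => by
      rcases mem_range_ιFin_or_mem_range_ιInf N ℓ x with ⟨y, hy⟩ | ⟨y, hy⟩
      · exact ⟨true, y, hy⟩
      · exact ⟨false, y, hy⟩)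
    (fun b => by
      cases b
      · exact isOpenImmersion_ιInf N ℓ
      · exact isOpenImmersion_ιFin N ℓ)

/-- Integrality of the fibre product of two affine schemes over an affine base. -/
theorem isIntegral_pullback_Spec (R S T : Type) [CommRing R] [CommRing S] [CommRing T]
    [Algebra R S] [Algebra R T] [IsDomain (S ⊗[R] T)] :
    IsIntegral (pullback (Spec.map (CommRingCat.ofHom (algebraMap R S)))
      (Spec.map (CommRingCat.ofHom (algebraMap R T)))) := by
  haveI : IsDomain (CommRingCat.of (S ⊗[R] T)) := ‹_›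
  exact IsIntegral.of_isIso (pullbackSpecIso R S T).inv

/-- Integrality is invariant under replacing the left leg by an equal morphism. -/
theorem isIntegral_pullback_of_eq {X Y Z : Scheme.{0}} {f f' : X ⟶ Z} (g : Y ⟶ Z) (h : f = f')
    [IsIntegral (pullback f' g)] : IsIntegral (pullback f g) := by
  subst h
  infer_instance


/-- The base-change morphism `Spec K ⟶ Spec ℤ_(ℓ)`. -/
abbrev specK (K : Type) [Field K] [Algebra ↥(GaloisRep.ratLocalizedAt ℓ) K] :
    Spec (CommRingCat.of K) ⟶ Spec (CommRingCat.of ↥(GaloisRep.ratLocalizedAt ℓ)) :=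
  Spec.map (CommRingCat.ofHom (algebraMap ↥(GaloisRep.ratLocalizedAt ℓ) K))

/-- The structure map of the middle chart. -/
theorem fFin_ιFin_igusaTo :
    (fFin N ℓ ≫ ιFin N ℓ) ≫ igusaTo N ℓ =
      Spec.map (CommRingCat.ofHom (algebraMap ↥(GaloisRep.ratLocalizedAt ℓ) (chartAlgMid N ℓ))) := by
  rw [Category.assoc, ιFin_igusaTo, ← Spec.map_comp, ← CommRingCat.ofHom_comp]
  congr 2

/-- **Part S.** The base change of the Igusa scheme to `K` is integral as soon as the base changes of
the two chart algebras are domains and the base change of the middle chart algebra is nontrivial. -/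
theorem isIntegral_pullback_igusaTo (K : Type) [Field K] [Algebra ↥(GaloisRep.ratLocalizedAt ℓ) K]
    (hFin : IsDomain (chartAlgFin N ℓ ⊗[↥(GaloisRep.ratLocalizedAt ℓ)] K))
    (hInf : IsDomain (chartAlgInf N ℓ ⊗[↥(GaloisRep.ratLocalizedAt ℓ)] K))
    (hMid : Nontrivial (chartAlgMid N ℓ ⊗[↥(GaloisRep.ratLocalizedAt ℓ)] K)) :
    IsIntegral (pullback (igusaTo N ℓ)
      (Spec.map (CommRingCat.ofHom (algebraMap ↥(GaloisRep.ratLocalizedAt ℓ) K)))) := by
  classical
  change IsIntegral (pullback (igusaTo N ℓ) (specK ℓ K))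
  set 𝒱 := Scheme.Pullback.openCoverOfLeft (igusaOpenCover N ℓ) (igusaTo N ℓ) (specK ℓ K) with h𝒱
  -- the charts of the pullback are integral
  have hint : ∀ b : Bool, IsIntegral (𝒱.X b) := by
    intro b
    cases b
    · haveI : IsIntegral (pullback
          (Spec.map (CommRingCat.ofHom (algebraMap ↥(GaloisRep.ratLocalizedAt ℓ) (chartAlgInf N ℓ))))
          (specK ℓ K)) := isIntegral_pullback_Spec ↥(GaloisRep.ratLocalizedAt ℓ) (chartAlgInf N ℓ) K
      exact @isIntegral_pullback_of_eq _ _ _ _ _ (specK ℓ K) (ιInf_igusaTo N ℓ) this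
    · haveI : IsIntegral (pullback
          (Spec.map (CommRingCat.ofHom (algebraMap ↥(GaloisRep.ratLocalizedAt ℓ) (chartAlgFin N ℓ))))
          (specK ℓ K)) := isIntegral_pullback_Spec ↥(GaloisRep.ratLocalizedAt ℓ) (chartAlgFin N ℓ) K
      exact @isIntegral_pullback_of_eq _ _ _ _ _ (specK ℓ K) (ιFin_igusaTo N ℓ) this
  haveI : ∀ b, IsReduced (𝒱.X b) := fun b => by
    haveI := hint b
    infer_instance
  haveI hred : IsReduced (pullback (igusaTo N ℓ) (specK ℓ K)) := IsReduced.of_openCover _ 𝒱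
  -- a point in the intersection of the two charts
  have hne : Nonempty ↑(pullback
      (Spec.map (CommRingCat.ofHom (algebraMap ↥(GaloisRep.ratLocalizedAt ℓ) (chartAlgMid N ℓ))))
      (specK ℓ K)) := by
    haveI : Nonempty ↑(Spec (CommRingCat.of (chartAlgMid N ℓ ⊗[↥(GaloisRep.ratLocalizedAt ℓ)] K))) :=
      inferInstanceAs (Nonempty (PrimeSpectrum (chartAlgMid N ℓ ⊗[↥(GaloisRep.ratLocalizedAt ℓ)] K)))
    exact ⟨(pullbackSpecIso ↥(GaloisRep.ratLocalizedAt ℓ) (chartAlgMid N ℓ) K).inv
      (Classical.arbitrary _)⟩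
  obtain ⟨z⟩ := hne
  set m : pullback
      (Spec.map (CommRingCat.ofHom (algebraMap ↥(GaloisRep.ratLocalizedAt ℓ) (chartAlgMid N ℓ))))
      (specK ℓ K) ⟶ pullback (igusaTo N ℓ) (specK ℓ K) :=
    pullback.map _ _ _ _ (fFin N ℓ ≫ ιFin N ℓ) (𝟙 _) (𝟙 _)
      (by rw [Category.comp_id, fFin_ιFin_igusaTo]) (by simp) with hm
  set y := m z with hy
  have hfst : m ≫ pullback.fst (igusaTo N ℓ) (specK ℓ K) =
      pullback.fst (Spec.map (CommRingCat.ofHom
        (algebraMap ↥(GaloisRep.ratLocalizedAt ℓ) (chartAlgMid N ℓ)))) (specK ℓ K) ≫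
        (fFin N ℓ ≫ ιFin N ℓ) := by
    rw [hm]
    exact pullback.lift_fst _ _ _
  have hyfst : (pullback.fst (igusaTo N ℓ) (specK ℓ K)) y =
      (fFin N ℓ ≫ ιFin N ℓ) ((pullback.fst (Spec.map (CommRingCat.ofHom
        (algebraMap ↥(GaloisRep.ratLocalizedAt ℓ) (chartAlgMid N ℓ)))) (specK ℓ K)) z) := by
    rw [hy, ← Scheme.Hom.comp_apply, hfst, Scheme.Hom.comp_apply]
  have hy1 : (pullback.fst (igusaTo N ℓ) (specK ℓ K)) y ∈ Set.range (ιFin N ℓ) := by
    rw [hyfst, Scheme.Hom.comp_apply]
    exact ⟨_, rfl⟩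
  have hy2 : (pullback.fst (igusaTo N ℓ) (specK ℓ K)) y ∈ Set.range (ιInf N ℓ) := by
    rw [hyfst, glue_condition, Scheme.Hom.comp_apply]
    exact ⟨_, rfl⟩
  have hrange : ∀ b : Bool, y ∈ Set.range (𝒱.f b) := by
    intro b
    have : Set.range (𝒱.f b) = _ := Scheme.Pullback.range_map (igusaTo N ℓ) (specK ℓ K)
      (f := (igusaOpenCover N ℓ).f b ≫ igusaTo N ℓ) (g := specK ℓ K)
      ((igusaOpenCover N ℓ).f b) (𝟙 _) (𝟙 _) (by simp) (by simp)
    rw [this]
    refine ⟨?_, by simp⟩
    cases b
    · exact hy2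
    · exact hy1
  -- irreducibility
  haveI hirr : IrreducibleSpace ↑(pullback (igusaTo N ℓ) (specK ℓ K)) := by
    haveI hpre : PreirreducibleSpace ↑(pullback (igusaTo N ℓ) (specK ℓ K)) := by
      refine PreirreducibleSpace.of_isOpenCover (U := fun b => (𝒱.f b).opensRange) ?_
        𝒱.isOpenCover_opensRange ?_
      · intro b b' _
        rw [Function.onFun]
        intro hd
        have h := disjoint_iff.mp hd
        have hmem : y ∈ ((𝒱.f b).opensRange ⊓ (𝒱.f b').opensRange : TopologicalSpace.Opens _) :=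
          ⟨hrange b, hrange b'⟩
        rw [h] at hmem
        exact hmem
      · intro b
        haveI := hint b
        apply Subtype.preirreducibleSpace
        have h1 : IsPreirreducible (Set.univ : Set ↑(𝒱.X b)) :=
          (IrreducibleSpace.isIrreducible_univ _).isPreirreducible
        have h2 := h1.image (𝒱.f b) (𝒱.f b).continuous.continuousOn
        rwa [Set.image_univ] at h2
    exact { toPreirreducibleSpace := hpre, toNonempty := ⟨y⟩ }
  exact isIntegral_of_irreducibleSpace_of_isReduced _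

end Fermat.Agent.S28

end
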