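import Mathlib
import Fermat.Prelude.Def_ModularCurve_LaurentCoeff
import Fermat.Prelude.Def_GaloisRep_Flat

/-!
# S28, Part R2: base change of a chart algebra to a field of characteristic `ℓ` is a domain

Pure algebra.  If `ρ : A → 𝔽_ℓ((q))` is a ring homomorphism whose kernel is contained in `ℓA`, then
for every field `K` of characteristic `ℓ` the ring `A ⊗[ℤ_(ℓ)] K` embeds into `K((q))`, hence is a
domain (`isDomain_tensor_of_ker`).  Any ring homomorphism `A → 𝔽_ℓ((q))` makes `A ⊗[ℤ_(ℓ)] K`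
nontrivial (`nontrivial_tensor_of_hom`).
-/

set_option autoImplicit false

open TensorProduct

namespace Fermat.Agent.S28

/-- Ring homomorphisms out of `ℤ_(ℓ)` are unique. -/
theorem ratLocalizedAt_ringHom_ext {ℓ : ℕ} {S : Type*} [Ring S]
    (f g : ↥(GaloisRep.ratLocalizedAt ℓ) →+* S) : f = g := by
  ext x
  obtain ⟨x, hx⟩ := x
  have hd : ((x.den : ℕ) : ℚ) ∈ GaloisRep.ratLocalizedAt ℓ := by
    show ((x.den : ℕ) : ℚ).den.Coprime ℓ
    simp
  have hdi : ((x.den : ℚ))⁻¹ ∈ GaloisRep.ratLocalizedAt ℓ := by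
    show ((x.den : ℚ))⁻¹.den.Coprime ℓ
    have : ((x.den : ℚ))⁻¹.den = x.den := by
      rw [Rat.inv_natCast_den]
      simp [x.den_ne_zero]
    rw [this]; exact hx
  set d : ↥(GaloisRep.ratLocalizedAt ℓ) := ⟨_, hd⟩
  set di : ↥(GaloisRep.ratLocalizedAt ℓ) := ⟨_, hdi⟩
  have hddi : d * di = 1 := Subtype.ext (by
    show ((x.den : ℕ) : ℚ) * ((x.den : ℚ))⁻¹ = 1
    exact mul_inv_cancel₀ (by exact_mod_cast x.den_ne_zero))
  have hdx : (⟨x, hx⟩ : ↥(GaloisRep.ratLocalizedAt ℓ)) * d =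
      (x.num : ↥(GaloisRep.ratLocalizedAt ℓ)) :=
    Subtype.ext (by
      show x * ((x.den : ℕ) : ℚ) = _
      rw [Rat.mul_den_eq_num]
      simp)
  have hdn : d = ((x.den : ℕ) : ↥(GaloisRep.ratLocalizedAt ℓ)) := Subtype.ext (by simp [d])
  have key : ∀ h : ↥(GaloisRep.ratLocalizedAt ℓ) →+* S,
      h ⟨x, hx⟩ = (x.num : S) * h di := by
    intro h
    have h1 : h ⟨x, hx⟩ * h d = (x.num : S) := by
      rw [← map_mul, hdx, map_intCast]
    calc h ⟨x, hx⟩ = h ⟨x, hx⟩ * (h d * h di) := by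
          rw [← map_mul h d di, hddi, map_one, mul_one]
      _ = (x.num : S) * h di := by rw [← mul_assoc, h1]
  have hdi' : ∀ h : ↥(GaloisRep.ratLocalizedAt ℓ) →+* S, h di * (x.den : S) = 1 := by
    intro h
    have : h di * h d = 1 := by rw [← map_mul, mul_comm, hddi, map_one]
    rwa [hdn, map_natCast] at this
  have hdi'' : ∀ h : ↥(GaloisRep.ratLocalizedAt ℓ) →+* S, (x.den : S) * h di = 1 := by
    intro h
    have : h d * h di = 1 := by rw [← map_mul, hddi, map_one]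
    rwa [hdn, map_natCast] at this
  have : f di = g di := by
    calc f di = f di * ((x.den : S) * g di) := by rw [hdi'', mul_one]
      _ = g di := by rw [← mul_assoc, hdi', one_mul]
  rw [key f, key g, this]

/-- A ring homomorphism out of a tensor product from a compatible pair of ring homomorphisms. -/
theorem exists_ringHom_tensor {R A B L : Type*} [CommRing R] [CommRing A] [Algebra R A]
    [CommRing B] [Algebra R B] [CommRing L] (φ : A →+* L) (ψ : B →+* L)
    (h : ∀ r : R, φ (algebraMap R A r) = ψ (algebraMap R B r)) :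
    ∃ Ψ : A ⊗[R] B →+* L, ∀ a b, Ψ (a ⊗ₜ[R] b) = φ a * ψ b := by
  let _ : Algebra R L := (ψ.comp (algebraMap R B)).toAlgebra
  let f : A →ₐ[R] L := { φ with commutes' := fun r => h r }
  let g : B →ₐ[R] L := { ψ with commutes' := fun _ => rfl }
  exact ⟨(Algebra.TensorProduct.lift f g (fun _ _ => Commute.all _ _)).toRingHom, fun a b => by
    simp [f, g]⟩

section Tensor

variable {R A K : Type*} [CommRing R] [CommRing A] [Algebra R A] [Field K] [Algebra R K]

/-- Every element of `A ⊗[R] K` is a finite sum `∑ aᵢ ⊗ bᵢ` over a family `b` that spans `K`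
additively with natural-number coefficients. -/
theorem exists_finsupp_tmul {ι : Type*} (b : ι → K)
    (hb : ∀ c : K, ∃ g : ι →₀ ℕ, c = g.sum fun i n => n • b i) (x : A ⊗[R] K) :
    ∃ f : ι →₀ A, x = f.sum fun i a => a ⊗ₜ[R] b i := by
  classical
  induction x using TensorProduct.induction_on with
  | zero => exact ⟨0, by simp⟩
  | tmul a c =>
    obtain ⟨g, rfl⟩ := hb c
    refine ⟨g.mapRange (fun n => n • a) (by simp), ?_⟩
    rw [Finsupp.sum_mapRange_index (by simp)]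
    rw [Finsupp.sum, TensorProduct.tmul_sum, Finsupp.sum]
    refine Finset.sum_congr rfl fun i _ => ?_
    rw [TensorProduct.smul_tmul]
  | add x y hx hy =>
    obtain ⟨f, rfl⟩ := hx
    obtain ⟨g, rfl⟩ := hy
    refine ⟨f + g, ?_⟩
    rw [Finsupp.sum_add_index' (by simp) (by intro i a a'; rw [TensorProduct.add_tmul])]

variable (ℓ : ℕ) [Fact ℓ.Prime] [CharP K ℓ]

/-- In characteristic `ℓ`, a basis of `K` over `𝔽_ℓ` spans `K` with natural coefficients. -/
theorem exists_nat_finsupp_of_basis {ι : Type*}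
    (b : letI := ZMod.algebra K ℓ; Module.Basis ι (ZMod ℓ) K) (c : K) :
    ∃ g : ι →₀ ℕ, c = g.sum fun i n => n • (b i : K) := by
  let _ := ZMod.algebra K ℓ
  refine ⟨(b.repr c).mapRange ZMod.val (by simp), ?_⟩
  rw [Finsupp.sum_mapRange_index (by simp)]
  conv_lhs => rw [← b.linearCombination_repr c, Finsupp.linearCombination_apply]
  refine Finsupp.sum_congr fun i _ => ?_
  rw [Algebra.smul_def, nsmul_eq_mul, ZMod.natCast_val]
  rfl

/-- General form of `isDomain_tensor_of_ker`: the base ring `R` is arbitrary, the compatibility of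
the two structure maps with the reduction map is a hypothesis. -/
theorem tensor_injective_of_ker
    (ρ : A →+* LaurentSeries (ZMod ℓ))
    (hker : ∀ a : A, ρ a = 0 → ∃ b : A, a = (ℓ : A) * b)
    (Ψ : A ⊗[R] K →+* LaurentSeries K)
    (hΨ : ∀ a c, Ψ (a ⊗ₜ[R] c) =
      ModularCurve.coeffMap (ZMod.castHom dvd_rfl K) (ρ a) * HahnSeries.C c) :
    Function.Injective Ψ := by
  classical
  let _ := ZMod.algebra K ℓ
  let b := Module.Basis.ofVectorSpace (ZMod ℓ) K
  rw [injective_iff_map_eq_zero]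
  intro x hx
  obtain ⟨f, rfl⟩ := exists_finsupp_tmul (R := R) (A := A) (fun i => (b i : K))
    (exists_nat_finsupp_of_basis ℓ b) x
  -- every coefficient `f i` is killed by `ρ`
  have hρ : ∀ i ∈ f.support, ρ (f i) = 0 := by
    intro i hi
    ext n
    have hn : (Ψ (f.sum fun i a => a ⊗ₜ[R] (b i : K))).coeff n = 0 := by rw [hx]; rfl
    rw [Finsupp.sum, map_sum] at hn
    have hn' : ∑ j ∈ f.support, ((ρ (f j)).coeff n) • (b j : K) = 0 := by
      rw [← hn, ← HahnSeries.coeff.addMonoidHom_apply, map_sum]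
      refine Finset.sum_congr rfl fun j _ => ?_
      rw [HahnSeries.coeff.addMonoidHom_apply, hΨ, HahnSeries.C_apply,
        HahnSeries.coeff_mul_single_zero, ModularCurve.coeffMap_coeff, Algebra.smul_def]
      rfl
    have := linearIndependent_iff'.mp b.linearIndependent f.support
      (fun j => (ρ (f j)).coeff n) hn' i hi
    simpa using this
  rw [Finsupp.sum]
  refine Finset.sum_eq_zero fun i hi => ?_
  obtain ⟨c, hc⟩ := hker (f i) (hρ i hi)
  have hℓ : (ℓ : K) = 0 := CharP.cast_eq_zero K ℓ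
  calc f i ⊗ₜ[R] (b i : K) = (ℓ • c) ⊗ₜ[R] (b i : K) := by rw [hc, nsmul_eq_mul]
    _ = c ⊗ₜ[R] (ℓ • (b i : K)) := by rw [TensorProduct.smul_tmul]
    _ = 0 := by rw [nsmul_eq_mul, hℓ, zero_mul, TensorProduct.tmul_zero]

end Tensor

section Main

variable (ℓ : ℕ) [Fact ℓ.Prime]

/-- The reduction-and-extend homomorphism `A ⊗[ℤ_(ℓ)] K → K((q))`. -/
theorem exists_tensorToLaurent (A : Type) [CommRing A] [Algebra ↥(GaloisRep.ratLocalizedAt ℓ) A]
    (ρ : A →+* LaurentSeries (ZMod ℓ))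
    (K : Type) [Field K] [CharP K ℓ] [Algebra ↥(GaloisRep.ratLocalizedAt ℓ) K] :
    ∃ Ψ : A ⊗[↥(GaloisRep.ratLocalizedAt ℓ)] K →+* LaurentSeries K, ∀ a c,
      Ψ (a ⊗ₜ[↥(GaloisRep.ratLocalizedAt ℓ)] c) =
        ModularCurve.coeffMap (ZMod.castHom dvd_rfl K) (ρ a) * HahnSeries.C c :=
  exists_ringHom_tensor ((ModularCurve.coeffMap (ZMod.castHom dvd_rfl K)).comp ρ)
    (HahnSeries.C : K →+* LaurentSeries K) fun r =>
      congrArg (fun h : ↥(GaloisRep.ratLocalizedAt ℓ) →+* LaurentSeries K => h r)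
        (ratLocalizedAt_ringHom_ext
          ((((ModularCurve.coeffMap (ZMod.castHom dvd_rfl K)).comp ρ).comp
            (algebraMap ↥(GaloisRep.ratLocalizedAt ℓ) A)))
          ((HahnSeries.C : K →+* LaurentSeries K).comp
            (algebraMap ↥(GaloisRep.ratLocalizedAt ℓ) K)))

/-- **Part R2.** If `ρ : A → 𝔽_ℓ((q))` is a ring homomorphism with `ker ρ ⊆ ℓA`, then
`A ⊗[ℤ_(ℓ)] K` is a domain for every field `K` of characteristic `ℓ`. -/
theorem isDomain_tensor_of_ker (A : Type) [CommRing A] [Algebra ↥(GaloisRep.ratLocalizedAt ℓ) A]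
    (ρ : A →+* LaurentSeries (ZMod ℓ))
    (hker : ∀ a : A, ρ a = 0 → ∃ b : A, a = (ℓ : A) * b)
    (K : Type) [Field K] [CharP K ℓ] [Algebra ↥(GaloisRep.ratLocalizedAt ℓ) K] :
    IsDomain (A ⊗[↥(GaloisRep.ratLocalizedAt ℓ)] K) := by
  obtain ⟨Ψ, hΨ⟩ := exists_tensorToLaurent ℓ A ρ K
  exact (tensor_injective_of_ker ℓ ρ hker Ψ hΨ).isDomain Ψ

/-- Any ring homomorphism `A → 𝔽_ℓ((q))` makes `A ⊗[ℤ_(ℓ)] K` nontrivial. -/
theorem nontrivial_tensor_of_hom (A : Type) [CommRing A] [Algebra ↥(GaloisRep.ratLocalizedAt ℓ) A]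
    (ρ : A →+* LaurentSeries (ZMod ℓ))
    (K : Type) [Field K] [CharP K ℓ] [Algebra ↥(GaloisRep.ratLocalizedAt ℓ) K] :
    Nontrivial (A ⊗[↥(GaloisRep.ratLocalizedAt ℓ)] K) := by
  obtain ⟨Ψ, -⟩ := exists_tensorToLaurent ℓ A ρ K
  exact Ψ.domain_nontrivial

end Main

end Fermat.Agent.S28
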