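import Fermat.Agent.S28.NormPoly
import Fermat.Agent.S28.ScaleForm
import Fermat.Agent.S20.DerivBound

/-!
# S28 (c'), analytic part: `(D J)^6 = A(J) · Δ` for a polynomial `A ∈ ℂ[X]`

`D = (2πi)⁻¹ d/dτ`.  `Δ² · D J = Δ · ∂₁₂(E₄³) − E₄³ · ∂₁₂(Δ)` is a modular form of weight `26`
(`∂ₖ` = Serre derivative), hence `(D J)^6 / Δ = (Δ² D J)^6 / Δ^13` is a modular function of
level one, i.e. a polynomial in `J`.
-/

set_option autoImplicit false

noncomputable section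

namespace Fermat.Agent.S28.CPrime

open UpperHalfPlane ModularForm Derivative Polynomial EisensteinSeries
open Fermat.Agent.S23 Fermat.Agent.S24 Fermat.Agent.S20 Fermat.Agent.S28
open scoped MatrixGroups ModularForm Manifold

local notation "Δ" => ModularForm.discriminant

theorem isMF_E4_cube : IsMF 𝒮ℒ 12 (fun z : ℍ => E₄ z ^ 3) := by
  have h4 : IsMF 𝒮ℒ 4 (E₄ : ℍ → ℂ) := ⟨E₄, rfl⟩
  have h := (h4.pow 3).of_weight_eq (show ((3 : ℕ) : ℤ) * 4 = 12 by norm_num)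
  exact h

theorem isMF_disc : IsMF 𝒮ℒ 12 (Δ : ℍ → ℂ) :=
  ⟨(CuspForm.discriminant : CuspForm 𝒮ℒ 12), by ext z; simp [CuspForm.coe_discriminant]⟩

theorem isMF_serreDerivative {k : ℤ} {g : ℍ → ℂ} (hg : IsMF 𝒮ℒ k g) :
    IsMF 𝒮ℒ (k + 2) (serreDerivative k g) := by
  obtain ⟨F, rfl⟩ := hg
  exact ⟨serreDerivMF F, rfl⟩

/-- `Δ² · D J`. -/
def hTwo : ℍ → ℂ := fun z => Δ z ^ 2 * D Jfun z

theorem hTwo_eq : hTwo = (Δ : ℍ → ℂ) * serreDerivative (12 : ℤ) (fun z : ℍ => E₄ z ^ 3)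
    - (fun z : ℍ => E₄ z ^ 3) * serreDerivative (12 : ℤ) (Δ : ℍ → ℂ) := by
  have hJ : MDiff Jfun := Jfun_mdifferentiable
  have hΔ : MDiff (Δ : ℍ → ℂ) := discriminant_mdifferentiable
  have hE : (fun z : ℍ => E₄ z ^ 3) = Jfun * (Δ : ℍ → ℂ) := by
    ext z
    simp only [Pi.mul_apply]
    rw [Jfun_def, div_mul_cancel₀ _ (discriminant_ne_zero z)]
  have hD : D (fun z : ℍ => E₄ z ^ 3) = D Jfun * (Δ : ℍ → ℂ) + Jfun * D (Δ : ℍ → ℂ) := by
    rw [hE]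
    exact normalizedDerivOfComplex_mul Jfun _ hJ hΔ
  ext z
  have hDz := congrFun hD z
  have hEz := congrFun hE z
  simp only [Pi.mul_apply, Pi.add_apply] at hDz hEz
  simp only [hTwo, Pi.sub_apply, Pi.mul_apply, serreDerivative_apply]
  rw [hDz, hEz]
  ring

theorem isMF_hTwo : IsMF 𝒮ℒ 26 hTwo := by
  rw [hTwo_eq]
  have h1 := (isMF_disc.mul (isMF_serreDerivative isMF_E4_cube)).of_weight_eq
    (show (12 : ℤ) + (12 + 2) = 26 by norm_num)
  have h2 := (isMF_E4_cube.mul (isMF_serreDerivative isMF_disc)).of_weight_eq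
    (show (12 : ℤ) + (12 + 2) = 26 by norm_num)
  exact h1.sub h2

/-- `(D J)^6 / Δ` is a modular function of level one. -/
theorem isModFun_DJ : IsModFun 1 (fun z : ℍ => D Jfun z ^ 6 / Δ z) := by
  have h6 : IsMF (G0 1) (12 * ((13 : ℕ) : ℤ)) (hTwo ^ 6) :=
    IsMF.of_levelOne ((isMF_hTwo.pow 6).of_weight_eq (by norm_num))
  have h := isModFun_div h6
  convert h using 1
  ext z
  have hz : Δ z ≠ 0 := discriminant_ne_zero z
  simp only [Pi.pow_apply, hTwo]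
  field_simp

/-- **(c'), analytic form.** -/
theorem exists_poly_DJ : ∃ A : ℂ[X], ∀ τ : ℍ, D Jfun τ ^ 6 = A.eval (Jfun τ) * Δ τ := by
  obtain ⟨Φ, hΦm, hΦd, hΦ⟩ := IsModFun.exists_normPoly (N := 1) isModFun_DJ
  have hd : Φ.natDegree = 1 := by
    rw [hΦd, cosetCard_eq_dedekindPsi, ModularCurve.dedekindPsi_one]
  have hΦeq : Φ = X + C (Φ.coeff 0) := hΦm.eq_X_add_C hd
  refine ⟨-(Φ.coeff 0), fun τ => ?_⟩
  have h := hΦ τ
  rw [hΦeq, eval₂_add, eval₂_X, eval₂_C] at h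
  have hz : Δ τ ≠ 0 := discriminant_ne_zero τ
  have h2 : D Jfun τ ^ 6 / Δ τ = -((Φ.coeff 0).eval (Jfun τ)) := by
    have : (evalRingHom (Jfun τ)) (Φ.coeff 0) = (Φ.coeff 0).eval (Jfun τ) := rfl
    rw [this] at h
    linear_combination h
  rw [eval_neg, ← h2, div_mul_cancel₀ _ hz]

end Fermat.Agent.S28.CPrime
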