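import Mathlib
import Fermat.Prelude.Def_ModularCurve_X0ModL
import Fermat.Agent.S28.PrimeLevel

/-!
# S28 — `k((q))` over `k((q^p))` in field-theoretic form

`σ = qExpandAlgHomC k p : k((q)) →ₐ[k] k((q))`, `E = σ.fieldRange`.
* `finrank_fieldRange` : `[k((q)) : σ(k((q)))] = p`.
-/

set_option autoImplicit false

namespace Fermat.Agent.S28

open ModularCurve Polynomial

section FieldRange

variable (k : Type*) [Field k] (p : ℕ) [NeZero p]

/-- The family `1, q, …, q^(p-1)`. -/
noncomputable def qPowFamily : Fin p → LaurentSeries k :=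
  fun i => HahnSeries.single ((i : ℕ) : ℤ) (1 : k)

omit [NeZero p] in
theorem qPowFamily_eq_pow (i : Fin p) :
    qPowFamily k p i = (HahnSeries.single (1 : ℤ) (1 : k)) ^ (i : ℕ) := by
  rw [qPowFamily, HahnSeries.single_pow, one_pow]
  simp

theorem order_single_one : (HahnSeries.single (1 : ℤ) (1 : k) : LaurentSeries k).order = 1 :=
  HahnSeries.order_single one_ne_zero

theorem linearIndependent_qPowFamily :
    LinearIndependent (qExpandAlgHomC k p).fieldRange (qPowFamily k p) := by
  rw [Fintype.linearIndependent_iff]
  intro g hg i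
  have hmem : ∀ i : Fin p, ∃ a : LaurentSeries k, qExpand k p a = (g i : LaurentSeries k) := by
    intro i
    obtain ⟨a, ha⟩ := (g i).2
    exact ⟨a, ha⟩
  choose a ha using hmem
  set a' : ℕ → LaurentSeries k := fun n => if h : n < p then a ⟨n, h⟩ else 0 with ha'
  have hy : (HahnSeries.single (1 : ℤ) (1 : k) : LaurentSeries k) ≠ 0 := by
    rw [Ne, HahnSeries.single_eq_zero_iff]
    exact one_ne_zero
  have hcop : IsCoprime (HahnSeries.single (1 : ℤ) (1 : k) : LaurentSeries k).order (p : ℤ) := by
    rw [order_single_one]
    exact isCoprime_one_left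
  have hsum : ∑ n ∈ Finset.range p, qExpand k p (a' n) *
      (HahnSeries.single (1 : ℤ) (1 : k) : LaurentSeries k) ^ n = 0 := by
    rw [← Fin.sum_univ_eq_sum_range (fun n => qExpand k p (a' n) *
      (HahnSeries.single (1 : ℤ) (1 : k) : LaurentSeries k) ^ n) p]
    rw [← hg]
    refine Finset.sum_congr rfl fun i _ => ?_
    have : a' (i : ℕ) = a i := by
      simp only [ha', i.2, dif_pos, Fin.eta]
    rw [this, ha, ← qPowFamily_eq_pow]
    rfl
  have hz := eq_zero_of_sum_qExpand_mul_pow_eq_zero hy hcop a' hsum (i : ℕ) i.2
  have hai : a i = 0 := by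
    have : a' (i : ℕ) = a i := by
      simp only [ha', i.2, dif_pos, Fin.eta]
    rw [← this, hz]
  apply Subtype.ext
  rw [← ha i, hai, map_zero]
  rfl

theorem span_qPowFamily :
    Submodule.span (qExpandAlgHomC k p).fieldRange (Set.range (qPowFamily k p)) = ⊤ := by
  rw [eq_top_iff]
  intro z _
  rw [sum_single_mul_qExpand_comp p z]
  refine Submodule.sum_mem _ fun r hr => ?_
  have hr' : r < p := Finset.mem_range.mp hr
  have hmem : qExpand k p (comp p r z) ∈ (qExpandAlgHomC k p).fieldRange := ⟨comp p r z, rfl⟩
  have : HahnSeries.single (r : ℤ) (1 : k) * qExpand k p (comp p r z) =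
      (⟨qExpand k p (comp p r z), hmem⟩ : (qExpandAlgHomC k p).fieldRange) •
        qPowFamily k p ⟨r, hr'⟩ := by
    rw [mul_comm]
    rfl
  rw [this]
  exact Submodule.smul_mem _ _ (Submodule.subset_span ⟨⟨r, hr'⟩, rfl⟩)

/-- (L1) `[k((q)) : k((q^p))] = p`. -/
theorem finrank_fieldRange :
    Module.finrank (qExpandAlgHomC k p).fieldRange (LaurentSeries k) = p := by
  have hb := Module.Basis.mk (linearIndependent_qPowFamily k p) (span_qPowFamily k p).ge
  rw [Module.finrank_eq_card_basis hb, Fintype.card_fin]

theorem finiteDimensional_fieldRange :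
    FiniteDimensional (qExpandAlgHomC k p).fieldRange (LaurentSeries k) :=
  Module.Finite.of_basis (Module.Basis.mk (linearIndependent_qPowFamily k p)
    (span_qPowFamily k p).ge)

variable {k p}

/-- (L2) An element whose order is prime to `p` has degree `p` over `k((q^p))`. -/
theorem natDegree_minpoly_fieldRange {y : LaurentSeries k} (hy : y ≠ 0)
    (hcop : IsCoprime y.order (p : ℤ)) :
    (minpoly (qExpandAlgHomC k p).fieldRange y).natDegree = p := by
  have := finiteDimensional_fieldRange k p
  set E := (qExpandAlgHomC k p).fieldRange with hE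
  have hint : IsIntegral E y := IsIntegral.of_finite E y
  apply le_antisymm
  · have hfree : Module.Free E (LaurentSeries k) :=
      Module.Free.of_basis (Module.Basis.mk (linearIndependent_qPowFamily k p)
        (span_qPowFamily k p).ge)
    have := minpoly.natDegree_le (A := E) y
    rwa [finrank_fieldRange] at this
  · -- pull the minimal polynomial back along `σ`
    have hcoeff : ∀ n : ℕ, ∃ a : LaurentSeries k,
        qExpand k p a = ((minpoly E y).coeff n : LaurentSeries k) := by
      intro n
      obtain ⟨a, ha⟩ := ((minpoly E y).coeff n).2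
      exact ⟨a, ha⟩
    choose a ha using hcoeff
    set Q : Polynomial (LaurentSeries k) :=
      ∑ n ∈ Finset.range ((minpoly E y).natDegree + 1), Polynomial.monomial n (a n) with hQ
    have hQcoeff : ∀ n, Q.coeff n = if n < (minpoly E y).natDegree + 1 then a n else 0 := by
      intro n
      rw [hQ, Polynomial.finsetSum_coeff]
      simp only [Polynomial.coeff_monomial]
      rw [Finset.sum_ite_eq' (Finset.range ((minpoly E y).natDegree + 1)) n]
      simp only [Finset.mem_range]
    have hQdeg : Q.natDegree ≤ (minpoly E y).natDegree := by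
      rw [Polynomial.natDegree_le_iff_coeff_eq_zero]
      intro n hn
      rw [hQcoeff, if_neg (by omega)]
    have hQ0 : Q ≠ 0 := by
      intro h0
      have h1 := hQcoeff (minpoly E y).natDegree
      rw [h0, Polynomial.coeff_zero, if_pos (Nat.lt_succ_self _)] at h1
      have h2 := ha (minpoly E y).natDegree
      rw [← h1, map_zero] at h2
      have h3 : (minpoly E y).leadingCoeff = 0 := by
        apply Subtype.ext
        rw [Polynomial.leadingCoeff, ← h2]
        rfl
      exact (minpoly.ne_zero hint) (Polynomial.leadingCoeff_eq_zero.mp h3)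
    have hQev : Q.eval₂ (qExpand k p) y = 0 := by
      have h1 : Polynomial.aeval y (minpoly E y) = 0 := minpoly.aeval E y
      rw [Polynomial.aeval_def, Polynomial.eval₂_eq_sum_range] at h1
      rw [hQ, Polynomial.eval₂_finsetSum, ← h1]
      refine Finset.sum_congr rfl fun n _ => ?_
      rw [Polynomial.eval₂_monomial, ha]
      rfl
    exact (le_natDegree_of_eval₂_eq_zero hy hcop hQ0 hQev).trans hQdeg

/-- (L2') Such an element generates `k((q))` over `k((q^p))`. -/
theorem adjoin_fieldRange_eq_top {y : LaurentSeries k} (hy : y ≠ 0)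
    (hcop : IsCoprime y.order (p : ℤ)) :
    IntermediateField.adjoin (qExpandAlgHomC k p).fieldRange {y} = ⊤ := by
  have := finiteDimensional_fieldRange k p
  rw [Field.primitive_element_iff_minpoly_natDegree_eq, natDegree_minpoly_fieldRange hy hcop,
    finrank_fieldRange]

end FieldRange

end Fermat.Agent.S28
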