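import Mathlib

/-!
# S28, Part Q2: the abstract Igusa induction (lower bound for the degree)

Abstract setting: `k ⊆ L` fields, `σ d : L →ₐ[k] L` (`d ≥ 1`) with `σ 1 = id`,
`σ m ∘ σ n = σ (m * n)` (instance: `L = k((q))`, `σ d = (q ↦ q ^ d)`), `y : L` (instance: `j̄`).
-/

set_option autoImplicit false

namespace Fermat.Agent.S28

open Polynomial IntermediateField

section Core

variable {L : Type*} [Field L]

/-- If the monic `G` of degree `p + 1` has the root `r`, and `w` is a "twisted root"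
(`G.eval₂ τ w = 0`) of twisted degree `≥ p`, then `G = (X - r) * h` with `h` irreducible. -/
theorem exists_irreducible_factor (τ : L →+* L) {p : ℕ} (hp : 2 ≤ p)
    {G : L[X]} (hG : G.Monic) (hdeg : G.natDegree = p + 1) {r w : L} (hr : G.eval r = 0)
    (hw : G.eval₂ τ w = 0)
    (hlow : ∀ Q : L[X], Q ≠ 0 → Q.eval₂ τ w = 0 → p ≤ Q.natDegree) :
    ∃ h : L[X], h.Monic ∧ h.natDegree = p ∧ Irreducible h ∧ G = (X - C r) * h ∧
      h.eval₂ τ w = 0 := by
  have hroot : G.IsRoot r := hr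
  have hfac : (X - C r) * (G /ₘ (X - C r)) = G := mul_divByMonic_eq_iff_isRoot.mpr hroot
  set h := G /ₘ (X - C r) with hh
  have hh0 : h ≠ 0 := by
    intro h0
    rw [h0, mul_zero] at hfac
    exact hG.ne_zero hfac.symm
  have hhmonic : h.Monic := by
    have := hG
    rw [← hfac] at this
    exact (monic_X_sub_C r).of_mul_monic_left this
  have hhdeg : h.natDegree = p := by
    have h1 : G.natDegree = (X - C r).natDegree + h.natDegree := by
      rw [← hfac, natDegree_mul (X_sub_C_ne_zero r) hh0]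
    rw [hdeg, natDegree_X_sub_C] at h1
    omega
  have hev : (w - τ r) * h.eval₂ τ w = 0 := by
    have := hw
    rw [← hfac, eval₂_mul, eval₂_sub, eval₂_X, eval₂_C] at this
    exact this
  have hne : w - τ r ≠ 0 := by
    intro h0
    have h1 : (X - C r : L[X]).eval₂ τ w = 0 := by
      rw [eval₂_sub, eval₂_X, eval₂_C]; exact h0
    have := hlow _ (X_sub_C_ne_zero r) h1
    rw [natDegree_X_sub_C] at this
    omega
  have hhw : h.eval₂ τ w = 0 := (mul_eq_zero.mp hev).resolve_left hne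
  refine ⟨h, hhmonic, hhdeg, ?_, hfac.symm, hhw⟩
  rw [irreducible_iff]
  refine ⟨?_, ?_⟩
  · intro hu
    have := natDegree_eq_zero_of_isUnit hu
    omega
  · intro a b hab
    have ha0 : a ≠ 0 := by rintro rfl; rw [zero_mul] at hab; exact hh0 hab
    have hb0 : b ≠ 0 := by rintro rfl; rw [mul_zero] at hab; exact hh0 hab
    have hdab : a.natDegree + b.natDegree = p := by
      rw [← natDegree_mul ha0 hb0, ← hab, hhdeg]
    have hevab : a.eval₂ τ w * b.eval₂ τ w = 0 := by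
      rw [← eval₂_mul, ← hab]; exact hhw
    rcases mul_eq_zero.mp hevab with h1 | h1
    · right
      have := hlow a ha0 h1
      have hb : b.natDegree = 0 := by omega
      rw [natDegree_eq_zero] at hb
      obtain ⟨c, rfl⟩ := hb
      have hc : c ≠ 0 := by rintro rfl; exact hb0 (by simp)
      exact isUnit_C.mpr (isUnit_iff_ne_zero.mpr hc)
    · left
      have := hlow b hb0 h1
      have ha : a.natDegree = 0 := by omega
      rw [natDegree_eq_zero] at ha
      obtain ⟨c, rfl⟩ := ha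
      have hc : c ≠ 0 := by rintro rfl; exact ha0 (by simp)
      exact isUnit_C.mpr (isUnit_iff_ne_zero.mpr hc)

end Core

section Tower

variable {k L : Type*} [Field k] [Field L] [Algebra k L]

/-- If `G ∈ E[X]` is monic, `G = (X - r) * h` over `L` with `h` irreducible over `L`, and
`r ∉ E`, then `G` is the minimal polynomial of `r` over `E`. -/
theorem minpoly_eq_of_factor (E : IntermediateField k L) {G : E[X]} (hG : G.Monic) {r : L}
    {h : L[X]} (hh : Irreducible h) (hfac : G.map (algebraMap E L) = (X - C r) * h)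
    (hr : r ∉ E) : minpoly E r = G := by
  have hroot : aeval r G = 0 := by
    rw [aeval_def, eval₂_eq_eval_map, hfac, eval_mul, eval_sub, eval_X, eval_C, sub_self,
      zero_mul]
  have hint : IsIntegral E r := ⟨G, hG, hroot⟩
  obtain ⟨s, hs⟩ := minpoly.dvd E r hroot
  have hmL : ((minpoly E r).map (algebraMap E L)).IsRoot r := by
    rw [IsRoot, eval_map, ← aeval_def, minpoly.aeval]
  obtain ⟨m', hm'⟩ := dvd_iff_isRoot.mpr hmL
  have h1 : (X - C r) * h = (X - C r) * (m' * s.map (algebraMap E L)) := by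
    rw [← hfac, hs, Polynomial.map_mul, hm', mul_assoc]
  have h2 : h = m' * s.map (algebraMap E L) := mul_left_cancel₀ (X_sub_C_ne_zero r) h1
  have hsne : s ≠ 0 := by
    rintro rfl
    rw [mul_zero] at hs
    exact hG.ne_zero hs
  rcases hh.isUnit_or_isUnit h2 with hu | hu
  · -- then `minpoly` has degree one, so `r ∈ E`
    exfalso
    apply hr
    have hdeg : ((minpoly E r).map (algebraMap E L)).natDegree = 1 := by
      rw [hm']
      obtain ⟨c, hc, rfl⟩ := Polynomial.isUnit_iff.mp hu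
      rw [natDegree_mul_C (isUnit_iff_ne_zero.mp hc), natDegree_X_sub_C]
    rw [natDegree_map] at hdeg
    obtain ⟨e, he⟩ := minpoly.natDegree_eq_one_iff.mp hdeg
    rw [← he]
    exact e.2
  · have hsdeg : s.natDegree = 0 := by
      have := natDegree_eq_zero_of_isUnit hu
      rwa [natDegree_map] at this
    obtain ⟨c, rfl⟩ := natDegree_eq_zero.mp hsdeg
    have hassoc : Associated (minpoly E r) G := by
      have hc : c ≠ 0 := by rintro rfl; exact hsne (by simp)
      rw [hs]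
      exact associated_mul_unit_right _ _ (isUnit_C.mpr (isUnit_iff_ne_zero.mpr hc))
    exact eq_of_monic_of_associated (minpoly.monic hint) hG hassoc

/-- The intermediate field `A(x)`, as an intermediate field of `L / k`. -/
noncomputable def adj (A : IntermediateField k L) (x : L) : IntermediateField k L :=
  (adjoin A {x}).restrictScalars k

theorem le_adj (A : IntermediateField k L) (x : L) : A ≤ adj A x := by
  intro a ha
  change a ∈ adjoin A {x}
  exact (adjoin A {x}).algebraMap_mem ⟨a, ha⟩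

theorem mem_adj_self (A : IntermediateField k L) (x : L) : x ∈ adj A x := by
  change x ∈ adjoin A {x}
  exact mem_adjoin_simple_self A x

theorem adj_le {A B : IntermediateField k L} {x : L} (hAB : A ≤ B) (hx : x ∈ B) :
    adj A x ≤ B := by
  rw [adj, restrictScalars_adjoin_eq_sup]
  refine sup_le hAB ?_
  rw [adjoin_le_iff]
  rintro z rfl
  exact hx

theorem relrank_adj (A : IntermediateField k L) {x : L} (hx : IsIntegral A x) :
    A.relrank (adj A x) = (minpoly A x).natDegree := by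
  rw [relrank_eq_rank_of_le (le_adj A x)]
  have heq : extendScalars (le_adj A x) = adjoin A {x} := by
    ext z
    rfl
  rw [heq]
  have := adjoin.finiteDimensional hx
  rw [← Module.finrank_eq_rank, adjoin.finrank hx]

theorem one_le_relrank (A B : IntermediateField k L) : 1 ≤ A.relrank B := by
  rw [relrank, Subfield.relrank]
  exact Cardinal.one_le_iff_ne_zero.mpr rank_pos.ne'

theorem relrank_le_of_le_right (A : IntermediateField k L) {B C : IntermediateField k L}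
    (hAB : A ≤ B) (hBC : B ≤ C) : A.relrank B ≤ A.relrank C := by
  rw [← relrank_mul_relrank hAB hBC]
  exact le_mul_of_one_le_right' (one_le_relrank B C)

end Tower

section Abstract

variable {k L : Type*} [Field k] [Field L] [Algebra k L]

/-- Compatibility of `Φ(X = x, Y = t)` with a `k`-algebra endomorphism. -/
theorem map_eval₂_aeval (f : L →ₐ[k] L) (Φ : (k[X])[X]) (t x : L) :
    f (Φ.eval₂ (aeval t : k[X] →ₐ[k] L).toRingHom x) =
      Φ.eval₂ (aeval (f t) : k[X] →ₐ[k] L).toRingHom (f x) := by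
  have h := hom_eval₂ Φ (aeval t : k[X] →ₐ[k] L).toRingHom (f : L →+* L) x
  rw [aeval_algHom f t]
  exact h

/-- `Φ(X, t)` as a polynomial over an intermediate field containing `t`. -/
noncomputable def polyAt (E : IntermediateField k L) (Φ : (k[X])[X]) {t : L} (ht : t ∈ E) :
    E[X] :=
  Φ.map (aeval (⟨t, ht⟩ : E) : k[X] →ₐ[k] E).toRingHom

theorem polyAt_map (E : IntermediateField k L) (Φ : (k[X])[X]) {t : L} (ht : t ∈ E) :
    (polyAt E Φ ht).map (algebraMap E L) = Φ.map (aeval t : k[X] →ₐ[k] L).toRingHom := by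
  rw [polyAt, Polynomial.map_map]
  congr 1
  have : (aeval t : k[X] →ₐ[k] L) = (E.val).comp (aeval (⟨t, ht⟩ : E)) := by
    rw [← aeval_algHom]
    rfl
  rw [this]
  rfl

theorem polyAt_monic (E : IntermediateField k L) {Φ : (k[X])[X]} (hΦ : Φ.Monic) {t : L}
    (ht : t ∈ E) : (polyAt E Φ ht).Monic := hΦ.map _

theorem polyAt_natDegree (E : IntermediateField k L) {Φ : (k[X])[X]} (hΦ : Φ.Monic) {t : L}
    (ht : t ∈ E) : (polyAt E Φ ht).natDegree = Φ.natDegree := hΦ.natDegree_map _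

theorem polyAt_aeval (E : IntermediateField k L) (Φ : (k[X])[X]) {t : L} (ht : t ∈ E) (x : L) :
    aeval x (polyAt E Φ ht) = Φ.eval₂ (aeval t : k[X] →ₐ[k] L).toRingHom x := by
  rw [aeval_def, eval₂_eq_eval_map, polyAt_map, eval_map]

variable (σ : ℕ → L →ₐ[k] L) (y : L)

/-- The field generated over `k` by the `σ d y`, `d ∣ N`. -/
noncomputable def Fbar (N : ℕ) : IntermediateField k L :=
  adjoin k {x | ∃ d, d ∣ N ∧ x = σ d y}

variable {σ y}

theorem mem_Fbar {N d : ℕ} (hd : d ∣ N) : σ d y ∈ Fbar σ y N :=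
  subset_adjoin k _ ⟨d, hd, rfl⟩

theorem Fbar_mono {M N : ℕ} (h : M ∣ N) : Fbar σ y M ≤ Fbar σ y N := by
  rw [Fbar, adjoin_le_iff]
  rintro x ⟨d, hd, rfl⟩
  exact mem_Fbar (hd.trans h)

theorem Fbar_one (hσ1 : σ 1 = AlgHom.id k L) : Fbar σ y 1 = adjoin k {y} := by
  rw [Fbar]
  congr 1
  ext x
  simp only [Nat.dvd_one, Set.mem_ofPred_eq, Set.mem_singleton_iff]
  constructor
  · rintro ⟨d, rfl, rfl⟩
    rw [hσ1]; rfl
  · rintro rfl
    exact ⟨1, rfl, by rw [hσ1]; rfl⟩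

theorem self_mem_Fbar (hσ1 : σ 1 = AlgHom.id k L) (N : ℕ) : y ∈ Fbar σ y N := by
  have h := mem_Fbar (σ := σ) (y := y) (one_dvd N)
  rwa [hσ1] at h

theorem adjoin_le_Fbar (hσ1 : σ 1 = AlgHom.id k L) (N : ℕ) : adjoin k {y} ≤ Fbar σ y N := by
  rw [adjoin_le_iff]
  rintro x rfl
  exact self_mem_Fbar hσ1 N

theorem σ_σ (hσmul : ∀ m n, m ≠ 0 → n ≠ 0 → (σ m).comp (σ n) = σ (m * n)) {m n : ℕ}
    (hm : m ≠ 0) (hn : n ≠ 0) (x : L) : σ m (σ n x) = σ (m * n) x := by
  rw [← hσmul m n hm hn]; rfl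

theorem map_Fbar_le (hσmul : ∀ m n, m ≠ 0 → n ≠ 0 → (σ m).comp (σ n) = σ (m * n))
    {p M : ℕ} (hp : p ≠ 0) (hM : M ≠ 0) :
    (Fbar σ y M).map (σ p) ≤ Fbar σ y (p * M) := by
  rw [Fbar, adjoin_map, adjoin_le_iff]
  rintro x ⟨z, ⟨d, hd, rfl⟩, rfl⟩
  have hd0 : d ≠ 0 := fun h => hM (by rw [h] at hd; exact zero_dvd_iff.mp hd)
  rw [SetLike.mem_coe, σ_σ hσmul hp hd0]
  exact mem_Fbar (mul_dvd_mul_left p hd)

theorem map_adjoin_singleton (f : L →ₐ[k] L) (x : L) :
    (adjoin k {x}).map f = adjoin k {f x} := by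
  rw [adjoin_map, Set.image_singleton]

/-- If all the new generators lie in `Fbar M`, then `Fbar (p * M) ≤ Fbar M`. -/
theorem Fbar_mul_le {p M : ℕ} (hp : p.Prime)
    (h : ∀ d, d ∣ M → σ (p * d) y ∈ Fbar σ y M) : Fbar σ y (p * M) ≤ Fbar σ y M := by
  rw [Fbar, adjoin_le_iff]
  rintro x ⟨d, hd, rfl⟩
  by_cases hpd : p ∣ d
  · obtain ⟨e, rfl⟩ := hpd
    exact h e (Nat.dvd_of_mul_dvd_mul_left hp.pos hd)
  · exact mem_Fbar (((Nat.Prime.coprime_iff_not_dvd hp).mpr hpd).symm.dvd_of_dvd_mul_left hd)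

end Abstract

section Step

open Cardinal

variable {k L : Type*} [Field k] [Field L] [Algebra k L]
variable {σ : ℕ → L →ₐ[k] L} {y : L}

/-- The hypothesis coming from `LaurentRank`: `σ d y` has degree `≥ p` over `σ p (L)`. -/
def LowDeg (σ : ℕ → L →ₐ[k] L) (y : L) : Prop :=
  ∀ p d : ℕ, p.Prime → d ≠ 0 → ¬ p ∣ d → ∀ Q : L[X], Q ≠ 0 →
    Q.eval₂ (σ p : L →+* L) (σ d y) = 0 → p ≤ Q.natDegree

/-- The modular equation of level `p` (symmetric form). -/
def ModEq (σ : ℕ → L →ₐ[k] L) (y : L) (p : ℕ) (Φ : (k[X])[X]) : Prop :=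
  Φ.Monic ∧ Φ.natDegree = p + 1 ∧
    Φ.eval₂ (aeval y : k[X] →ₐ[k] L).toRingHom (σ p y) = 0 ∧
    Φ.eval₂ (aeval (σ p y) : k[X] →ₐ[k] L).toRingHom y = 0

/-- Factorisation of `Φ(X, σ_d y)` over `L` for `p ∤ d`. -/
theorem exists_factor (hσmul : ∀ m n, m ≠ 0 → n ≠ 0 → (σ m).comp (σ n) = σ (m * n))
    (hLR : LowDeg σ y) {p d : ℕ} (hp : p.Prime) (hd : d ≠ 0) (hpd : ¬ p ∣ d)
    {Φ : (k[X])[X]} (hΦ : ModEq σ y p Φ) :
    ∃ h : L[X], Irreducible h ∧
      Φ.map (aeval (σ d y) : k[X] →ₐ[k] L).toRingHom = (X - C (σ (p * d) y)) * h := by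
  obtain ⟨hmonic, hdeg, h1, h2⟩ := hΦ
  set G : L[X] := Φ.map (aeval (σ d y) : k[X] →ₐ[k] L).toRingHom with hG
  have hGm : G.Monic := hmonic.map _
  have hGd : G.natDegree = p + 1 := by rw [hG, hmonic.natDegree_map, hdeg]
  have hr : G.eval (σ (p * d) y) = 0 := by
    rw [hG, eval_map, mul_comm p d, ← σ_σ hσmul hd hp.ne_zero, ← map_eval₂_aeval, h1, map_zero]
  have hw : G.eval₂ (σ p : L →+* L) (σ d y) = 0 := by
    rw [hG, eval₂_map]
    have hcomp : ((σ p : L →+* L).comp (aeval (σ d y) : k[X] →ₐ[k] L).toRingHom) =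
        (aeval (σ (d * p) y) : k[X] →ₐ[k] L).toRingHom := by
      have : (aeval (σ p (σ d y)) : k[X] →ₐ[k] L) = (σ p).comp (aeval (σ d y)) :=
        aeval_algHom (σ p) (σ d y)
      rw [σ_σ hσmul hp.ne_zero hd, mul_comm p d] at this
      rw [this]
      rfl
    rw [hcomp, ← σ_σ hσmul hd hp.ne_zero, ← map_eval₂_aeval, h2, map_zero]
  obtain ⟨h, -, -, hirr, hfac, -⟩ :=
    exists_irreducible_factor (σ p : L →+* L) hp.two_le hGm hGd hr hw (hLR p d hp hd hpd)
  exact ⟨h, hirr, hfac⟩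

/-- A new generator `σ (p d) y ∉ E` (with `σ d y ∈ E`, `p ∤ d`) has degree `p + 1` over `E`. -/
theorem relrank_adj_gen (hσmul : ∀ m n, m ≠ 0 → n ≠ 0 → (σ m).comp (σ n) = σ (m * n))
    (hLR : LowDeg σ y) {p d : ℕ} (hp : p.Prime) (hd : d ≠ 0) (hpd : ¬ p ∣ d)
    {Φ : (k[X])[X]} (hΦ : ModEq σ y p Φ) (E : IntermediateField k L) (hdE : σ d y ∈ E)
    (hg : σ (p * d) y ∉ E) : E.relrank (adj E (σ (p * d) y)) = (p + 1 : ℕ) := by
  obtain ⟨h, hirr, hfac⟩ := exists_factor hσmul hLR hp hd hpd hΦ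
  have hmin : minpoly E (σ (p * d) y) = polyAt E Φ hdE :=
    minpoly_eq_of_factor E (polyAt_monic E hΦ.1 hdE) hirr (by rw [polyAt_map]; exact hfac) hg
  have hint : IsIntegral E (σ (p * d) y) := by
    refine ⟨polyAt E Φ hdE, polyAt_monic E hΦ.1 hdE, ?_⟩
    rw [← aeval_def, ← hmin, minpoly.aeval]
  rw [relrank_adj E hint, hmin, polyAt_natDegree E hΦ.1, hΦ.2.1]

/-- `y` has degree `≤ p + 1` over any `E ∋ σ p y`. -/
theorem relrank_adj_self_le {p : ℕ} {Φ : (k[X])[X]} (hΦ : ModEq σ y p Φ)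
    (E : IntermediateField k L) (hE : σ p y ∈ E) : E.relrank (adj E y) ≤ (p + 1 : ℕ) := by
  have hroot : aeval y (polyAt E Φ hE) = 0 := by rw [polyAt_aeval]; exact hΦ.2.2.2
  have hint : IsIntegral E y := ⟨polyAt E Φ hE, polyAt_monic E hΦ.1 hE, hroot⟩
  rw [relrank_adj E hint]
  have h1 : (minpoly E y).natDegree ≤ (polyAt E Φ hE).natDegree :=
    natDegree_le_of_dvd (minpoly.dvd E y hroot) (polyAt_monic E hΦ.1 hE).ne_zero
  rw [polyAt_natDegree E hΦ.1, hΦ.2.1] at h1
  exact_mod_cast h1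

end Step

section Finite

open Cardinal

variable {k L : Type*} [Field k] [Field L] [Algebra k L]
variable {σ : ℕ → L →ₐ[k] L} {y : L}

/-- The new generators `σ (p d) y` are integral over any `E ∋ σ d y`. -/
theorem isIntegral_gen (hσmul : ∀ m n, m ≠ 0 → n ≠ 0 → (σ m).comp (σ n) = σ (m * n))
    {p d : ℕ} (hp : p ≠ 0) (hd : d ≠ 0) {Φ : (k[X])[X]} (hΦ : ModEq σ y p Φ)
    (E : IntermediateField k L) (hdE : σ d y ∈ E) : IsIntegral E (σ (p * d) y) := by
  refine ⟨polyAt E Φ hdE, polyAt_monic E hΦ.1 hdE, ?_⟩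
  rw [← aeval_def, polyAt_aeval, mul_comm p d, ← σ_σ hσmul hd hp, ← map_eval₂_aeval, hΦ.2.2.1,
    map_zero]

theorem relrank_lt_aleph0_of_finite_integral (E F : IntermediateField k L) (S : Set L)
    (hS : S.Finite) (hint : ∀ x ∈ S, IsIntegral E x) (hEF : E ≤ F)
    (hF : F ≤ (adjoin E S).restrictScalars k) : E.relrank F < ℵ₀ := by
  have : Finite S := hS
  have hfd : FiniteDimensional E (adjoin E S) := finiteDimensional_adjoin hint
  have hE' : E ≤ (adjoin E S).restrictScalars k := fun a ha =>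
    (adjoin E S).algebraMap_mem ⟨a, ha⟩
  have h1 : E.relrank ((adjoin E S).restrictScalars k) < ℵ₀ := by
    rw [relrank_eq_rank_of_le hE']
    have heq : extendScalars hE' = adjoin E S := by
      ext z
      rfl
    rw [heq]
    exact Module.rank_lt_aleph0 E (adjoin E S)
  exact (relrank_le_of_le_right E hEF hF).trans_lt h1

/-- `F̄_N` is finite over `k(y)`. -/
theorem relrank_Fbar_lt_aleph0 (hσ1 : σ 1 = AlgHom.id k L)
    (hσmul : ∀ m n, m ≠ 0 → n ≠ 0 → (σ m).comp (σ n) = σ (m * n)) :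
    ∀ N : ℕ, N ≠ 0 → (∀ p, p.Prime → p ∣ N → ∃ Φ : (k[X])[X], ModEq σ y p Φ) →
      (adjoin k {y}).relrank (Fbar σ y N) < ℵ₀ := by
  intro N
  induction N using induction_on_primes with
  | zero => intro h; exact absurd rfl h
  | one =>
    intro _ _
    rw [Fbar_one hσ1, relrank_self]
    exact Cardinal.one_lt_aleph0
  | prime_mul p a hp ih =>
    intro hN hdata
    have ha : a ≠ 0 := fun h => hN (by rw [h, mul_zero])
    have iha := ih ha (fun q hq hqa => hdata q hq (hqa.mul_left p))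
    obtain ⟨Φ, hΦ⟩ := hdata p hp (dvd_mul_right p a)
    set S : Set L := (fun d => σ (p * d) y) '' {d | d ∣ a} with hS
    have hSfin : S.Finite := by
      apply Set.Finite.image
      have : {d | d ∣ a} = ((Nat.divisors a : Finset ℕ) : Set ℕ) := by
        ext d
        simp [ha]
      rw [this]
      exact Finset.finite_toSet _
    have hSint : ∀ x ∈ S, IsIntegral (Fbar σ y a) x := by
      rintro x ⟨d, hd, rfl⟩
      have hd' : d ∣ a := hd
      have hd0 : d ≠ 0 := fun h => ha (by rw [h] at hd'; exact zero_dvd_iff.mp hd')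
      exact isIntegral_gen hσmul hp.ne_zero hd0 hΦ _ (mem_Fbar hd')
    have hle : Fbar σ y (p * a) ≤ (adjoin (Fbar σ y a) S).restrictScalars k := by
      rw [restrictScalars_adjoin_eq_sup]
      rw [Fbar, adjoin_le_iff]
      rintro x ⟨d, hd, rfl⟩
      by_cases hpd : p ∣ d
      · obtain ⟨e, rfl⟩ := hpd
        have he : e ∣ a := Nat.dvd_of_mul_dvd_mul_left hp.pos hd
        exact (le_sup_right : adjoin k S ≤ _) (subset_adjoin k S ⟨e, he, rfl⟩)
      · exact (le_sup_left : Fbar σ y a ≤ _)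
          (mem_Fbar (((Nat.Prime.coprime_iff_not_dvd hp).mpr hpd).symm.dvd_of_dvd_mul_left hd))
    have h1 : (Fbar σ y a).relrank (Fbar σ y (p * a)) < ℵ₀ :=
      relrank_lt_aleph0_of_finite_integral _ _ S hSfin hSint (Fbar_mono (dvd_mul_left a p)) hle
    rw [← relrank_mul_relrank (adjoin_le_Fbar hσ1 a) (Fbar_mono (dvd_mul_left a p))]
    exact Cardinal.mul_lt_aleph0 iha h1

end Finite

section Main

open Cardinal

variable {k L : Type*} [Field k] [Field L] [Algebra k L]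
variable {σ : ℕ → L →ₐ[k] L} {y : L}

/-- `y` has degree `≥ p` over any subfield of `σ p (L)`. -/
theorem le_relrank_of_lowDeg (hσ1 : σ 1 = AlgHom.id k L) (hLR : LowDeg σ y) {p : ℕ}
    (hp : p.Prime) {Φ : (k[X])[X]} (hΦ : ModEq σ y p Φ) (A B : IntermediateField k L)
    (hAB : A ≤ B) (hA : ∀ a ∈ A, a ∈ (σ p : L →+* L).range) (hσA : σ p y ∈ A) (hyB : y ∈ B) :
    (p : Cardinal) ≤ A.relrank B := by
  have hroot : aeval y (polyAt A Φ hσA) = 0 := by rw [polyAt_aeval]; exact hΦ.2.2.2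
  have hint : IsIntegral A y := ⟨polyAt A Φ hσA, polyAt_monic A hΦ.1 hσA, hroot⟩
  have hm0 : minpoly A y ≠ 0 := minpoly.ne_zero hint
  have hlift : (minpoly A y).map (algebraMap A L) ∈ Polynomial.lifts (σ p : L →+* L) := by
    rw [Polynomial.lifts_iff_coeff_lifts]
    intro n
    rw [coeff_map]
    exact hA _ ((minpoly A y).coeff n).2
  obtain ⟨Q, hQ⟩ := (Polynomial.mem_lifts _).mp hlift
  have hinj : Function.Injective (σ p : L →+* L) := (σ p : L →+* L).injective
  have hQ0 : Q ≠ 0 := by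
    rintro rfl
    rw [Polynomial.map_zero] at hQ
    exact hm0 ((Polynomial.map_eq_zero _).mp hQ.symm)
  have hQy : Q.eval₂ (σ p : L →+* L) y = 0 := by
    rw [eval₂_eq_eval_map, hQ, eval_map, ← aeval_def, minpoly.aeval]
  have hy1 : σ 1 y = y := by rw [hσ1]; rfl
  have hQy' : Q.eval₂ (σ p : L →+* L) (σ 1 y) = 0 := by rw [hy1]; exact hQy
  have hpQ : p ≤ Q.natDegree := hLR p 1 hp one_ne_zero hp.not_dvd_one Q hQ0 hQy'
  have hdeg : Q.natDegree = (minpoly A y).natDegree := by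
    rw [← natDegree_map_eq_of_injective hinj Q, hQ, natDegree_map]
  calc (p : Cardinal) ≤ ((minpoly A y).natDegree : Cardinal) := by
        rw [← hdeg]; exact_mod_cast hpQ
    _ = A.relrank (adj A y) := (relrank_adj A hint).symm
    _ ≤ A.relrank B := relrank_le_of_le_right A (le_adj A y) (adj_le hAB hyB)

/-- First half of the induction step: the factor `p`. -/
theorem mul_relrank_le (hσ1 : σ 1 = AlgHom.id k L)
    (hσmul : ∀ m n, m ≠ 0 → n ≠ 0 → (σ m).comp (σ n) = σ (m * n)) (hLR : LowDeg σ y)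
    {p M : ℕ} (hp : p.Prime) (hM : M ≠ 0) {Φ : (k[X])[X]} (hΦ : ModEq σ y p Φ)
    (hH2 : σ p y ∉ adjoin k {y}) :
    (p : Cardinal) * (adjoin k {y}).relrank (Fbar σ y M) ≤
      (adjoin k {y}).relrank (Fbar σ y (p * M)) := by
  set ky : IntermediateField k L := adjoin k {y} with hky
  set kσ : IntermediateField k L := adjoin k {σ p y} with hkσ
  set FN := Fbar σ y (p * M) with hFN
  set FM := Fbar σ y M with hFM
  have hy1 : σ 1 y = y := by rw [hσ1]; rfl
  have hyky : y ∈ ky := mem_adjoin_simple_self k y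
  have hσkσ : σ p y ∈ kσ := mem_adjoin_simple_self k (σ p y)
  -- the field `T = k(y, σ_p y)`
  have hT : adj ky (σ p y) = adj kσ y := by
    rw [adj, adj, hky, hkσ, adjoin_adjoin_left, adjoin_adjoin_left, Set.union_comm]
  have hkyT : ky.relrank (adj ky (σ p y)) = (p + 1 : ℕ) := by
    have h1 : σ 1 y ∈ ky := by rw [hy1]; exact hyky
    have h2 : σ (p * 1) y ∉ ky := by rw [mul_one]; exact hH2
    have := relrank_adj_gen hσmul hLR hp one_ne_zero hp.not_dvd_one hΦ ky h1 h2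
    rwa [mul_one] at this
  have hkσT : kσ.relrank (adj ky (σ p y)) ≤ (p + 1 : ℕ) := by
    rw [hT]; exact relrank_adj_self_le hΦ kσ hσkσ
  have hkyFN : ky ≤ FN := adjoin_le_Fbar hσ1 _
  have hσFN : σ p y ∈ FN := mem_Fbar (dvd_mul_right p M)
  have hTFN : adj ky (σ p y) ≤ FN := adj_le hkyFN hσFN
  have hkσT' : kσ ≤ adj ky (σ p y) := by rw [hT]; exact le_adj kσ y
  have h1 : kσ.relrank FN ≤ ky.relrank FN := by
    rw [← relrank_mul_relrank hkσT' hTFN, ← relrank_mul_relrank (le_adj ky (σ p y)) hTFN, hkyT]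
    exact mul_le_mul' hkσT le_rfl
  -- the field `A = σ_p (F̄_M)`
  set A := FM.map (σ p) with hA
  have hkσA : kσ ≤ A := by
    rw [hkσ, ← map_adjoin_singleton, hA]
    exact IntermediateField.map_mono _ (adjoin_le_Fbar hσ1 M)
  have hAFN : A ≤ FN := map_Fbar_le hσmul hp.ne_zero hM
  have h2 : kσ.relrank A = ky.relrank FM := by
    rw [hkσ, ← map_adjoin_singleton, hA]
    exact relrank_map_map _ _ (σ p)
  have hArange : ∀ a ∈ A, a ∈ (σ p : L →+* L).range := by
    intro a ha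
    obtain ⟨z, -, rfl⟩ := (IntermediateField.mem_map _).mp ha
    exact ⟨z, rfl⟩
  have h3 : (p : Cardinal) ≤ A.relrank FN :=
    le_relrank_of_lowDeg hσ1 hLR hp hΦ A FN hAFN hArange (hkσA hσkσ) (self_mem_Fbar hσ1 _)
  calc (p : Cardinal) * ky.relrank FM ≤ A.relrank FN * kσ.relrank A := by
        rw [h2]; exact mul_le_mul' h3 le_rfl
    _ = kσ.relrank FN := by rw [mul_comm]; exact relrank_mul_relrank hkσA hAFN
    _ ≤ ky.relrank FN := h1

/-- Second half of the induction step: the factor `p + 1` when `p ∤ M`. -/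
theorem succ_mul_relrank_le (hσ1 : σ 1 = AlgHom.id k L)
    (hσmul : ∀ m n, m ≠ 0 → n ≠ 0 → (σ m).comp (σ n) = σ (m * n)) (hLR : LowDeg σ y)
    {p M : ℕ} (hp : p.Prime) (hM : M ≠ 0) (hpM : ¬ p ∣ M) {Φ : (k[X])[X]}
    (hΦ : ModEq σ y p Φ) (hH2 : σ p y ∉ adjoin k {y})
    (hfin : (adjoin k {y}).relrank (Fbar σ y M) < ℵ₀) :
    ((p + 1 : ℕ) : Cardinal) * (adjoin k {y}).relrank (Fbar σ y M) ≤
      (adjoin k {y}).relrank (Fbar σ y (p * M)) := by
  have hb := mul_relrank_le hσ1 hσmul hLR hp hM hΦ hH2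
  have hkyFM : adjoin k {y} ≤ Fbar σ y M := adjoin_le_Fbar hσ1 M
  have hFMFN : Fbar σ y M ≤ Fbar σ y (p * M) := Fbar_mono (dvd_mul_left M p)
  have hex : ∃ d, d ∣ M ∧ σ (p * d) y ∉ Fbar σ y M := by
    by_contra hcon
    push Not at hcon
    have hle : Fbar σ y (p * M) ≤ Fbar σ y M := Fbar_mul_le hp hcon
    have h1 : (adjoin k {y}).relrank (Fbar σ y (p * M)) ≤
        (adjoin k {y}).relrank (Fbar σ y M) :=
      relrank_le_of_le_right _ (adjoin_le_Fbar hσ1 _) hle
    have h2 := hb.trans h1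
    have h3 := one_le_relrank (adjoin k {y}) (Fbar σ y M)
    obtain ⟨n, hn⟩ := Cardinal.lt_aleph0.mp hfin
    rw [hn] at h2 h3
    have h2' : p * n ≤ n := by exact_mod_cast h2
    have h3' : 1 ≤ n := by exact_mod_cast h3
    have h4 : 2 * n ≤ p * n := Nat.mul_le_mul_right n hp.two_le
    omega
  obtain ⟨d, hd, hg⟩ := hex
  have hd0 : d ≠ 0 := fun h => hM (by rw [h] at hd; exact zero_dvd_iff.mp hd)
  have hpd : ¬ p ∣ d := fun h => hpM (h.trans hd)
  have hdeg := relrank_adj_gen hσmul hLR hp hd0 hpd hΦ (Fbar σ y M) (mem_Fbar hd) hg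
  have hadj : adj (Fbar σ y M) (σ (p * d) y) ≤ Fbar σ y (p * M) :=
    adj_le hFMFN (mem_Fbar (mul_dvd_mul_left p hd))
  have h5 : ((p + 1 : ℕ) : Cardinal) ≤ (Fbar σ y M).relrank (Fbar σ y (p * M)) := by
    rw [← hdeg]
    exact relrank_le_of_le_right _ (le_adj _ _) hadj
  calc ((p + 1 : ℕ) : Cardinal) * (adjoin k {y}).relrank (Fbar σ y M)
      ≤ (Fbar σ y M).relrank (Fbar σ y (p * M)) * (adjoin k {y}).relrank (Fbar σ y M) :=
        mul_le_mul' h5 le_rfl
    _ = (adjoin k {y}).relrank (Fbar σ y (p * M)) := by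
        rw [mul_comm]; exact relrank_mul_relrank hkyFM hFMFN

/-- **Abstract Igusa induction** (lower bound, cardinal form). -/
theorem natCast_le_relrank_Fbar (hσ1 : σ 1 = AlgHom.id k L)
    (hσmul : ∀ m n, m ≠ 0 → n ≠ 0 → (σ m).comp (σ n) = σ (m * n)) (hLR : LowDeg σ y)
    (ψ : ℕ → ℕ) (hψ1 : ψ 1 = 1)
    (hψdvd : ∀ p a : ℕ, p.Prime → a ≠ 0 → p ∣ a → ψ (p * a) = p * ψ a)
    (hψndvd : ∀ p a : ℕ, p.Prime → a ≠ 0 → ¬ p ∣ a → ψ (p * a) = (p + 1) * ψ a) :
    ∀ N : ℕ, N ≠ 0 →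
      (∀ p, p.Prime → p ∣ N → (∃ Φ : (k[X])[X], ModEq σ y p Φ) ∧ σ p y ∉ adjoin k {y}) →
      (ψ N : Cardinal) ≤ (adjoin k {y}).relrank (Fbar σ y N) := by
  intro N
  induction N using induction_on_primes with
  | zero => intro h; exact absurd rfl h
  | one =>
    intro _ _
    rw [hψ1, Fbar_one hσ1, relrank_self]
    simp
  | prime_mul p a hp ih =>
    intro hN hdata
    have ha : a ≠ 0 := fun h => hN (by rw [h, mul_zero])
    have iha := ih ha (fun q hq hqa => hdata q hq (hqa.mul_left p))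
    obtain ⟨⟨Φ, hΦ⟩, hH2⟩ := hdata p hp (dvd_mul_right p a)
    by_cases hpa : p ∣ a
    · rw [hψdvd p a hp ha hpa]
      push_cast
      exact (mul_le_mul' le_rfl iha).trans (mul_relrank_le hσ1 hσmul hLR hp ha hΦ hH2)
    · rw [hψndvd p a hp ha hpa]
      have hfin := relrank_Fbar_lt_aleph0 (y := y) hσ1 hσmul a ha
        (fun q hq hqa => (hdata q hq (hqa.mul_left p)).1)
      have h := succ_mul_relrank_le hσ1 hσmul hLR hp ha hpa hΦ hH2 hfin
      rw [Nat.cast_mul]
      exact (mul_le_mul' le_rfl iha).trans h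

/-- **Abstract Igusa induction** (lower bound, `relfinrank` form). -/
theorem le_relfinrank_Fbar (hσ1 : σ 1 = AlgHom.id k L)
    (hσmul : ∀ m n, m ≠ 0 → n ≠ 0 → (σ m).comp (σ n) = σ (m * n)) (hLR : LowDeg σ y)
    (ψ : ℕ → ℕ) (hψ1 : ψ 1 = 1)
    (hψdvd : ∀ p a : ℕ, p.Prime → a ≠ 0 → p ∣ a → ψ (p * a) = p * ψ a)
    (hψndvd : ∀ p a : ℕ, p.Prime → a ≠ 0 → ¬ p ∣ a → ψ (p * a) = (p + 1) * ψ a)
    (N : ℕ) (hN : N ≠ 0)
    (hdata : ∀ p, p.Prime → p ∣ N →
      (∃ Φ : (k[X])[X], ModEq σ y p Φ) ∧ σ p y ∉ adjoin k {y}) :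
    ψ N ≤ (adjoin k {y}).relfinrank (Fbar σ y N) := by
  have h := natCast_le_relrank_Fbar hσ1 hσmul hLR ψ hψ1 hψdvd hψndvd N hN hdata
  have hfin := relrank_Fbar_lt_aleph0 (y := y) hσ1 hσmul N hN (fun q hq hqN => (hdata q hq hqN).1)
  have h' := Cardinal.toNat_le_toNat h hfin
  rwa [Cardinal.toNat_natCast] at h'

end Main

end Fermat.Agent.S28
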