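import Fermat.Agent.S28.InductionLaurent

/-!
# S28: MON — monomials in the `j(q^d)` with independent reductions (for KD)

* `exists_monomials_linearIndependent` (abstract): if `n ≤ [k(S) : E]` and the elements of `S` are
  integral over `E ≤ k(S)`, there are `n` monomials in the elements of `S` which are linearly
  independent over `E`.
-/

set_option autoImplicit false

namespace Fermat.Agent.S28

open ModularCurve Polynomial IntermediateField Cardinal

section Abstract

variable {k L : Type*} [Field k] [Field L] [Algebra k L]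

/-- Monomials span: if `n ≤ [k(S) : E]`, there are `n` monomials in `S`, independent over `E`. -/
theorem exists_monomials_linearIndependent (E : IntermediateField k L) (S : Set L)
    (hS : ∀ x ∈ S, IsIntegral E x) (hES : E ≤ adjoin k S) (n : ℕ)
    (hn : (n : Cardinal) ≤ E.relrank (adjoin k S)) :
    ∃ m : Fin n → L, (∀ i, m i ∈ Submonoid.closure S) ∧ LinearIndependent E m := by
  classical
  -- the `E`-span of the monomials is `k(S)`
  have h1 : E.relrank (adjoin k S) = Module.rank E (extendScalars hES) :=
    relrank_eq_rank_of_le hES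
  have h2 : extendScalars hES = adjoin E S := by
    have h3 : (adjoin E S).restrictScalars k = adjoin k S := by
      rw [restrictScalars_adjoin_eq_sup]
      exact sup_eq_right.mpr hES
    ext z
    rw [mem_extendScalars, ← h3]
    rfl
  have h4 : (adjoin E S).toSubalgebra = Algebra.adjoin E S :=
    adjoin_toSubalgebra_of_isAlgebraic (fun x hx => (hS x hx).isAlgebraic)
  have h5 : Subalgebra.toSubmodule (adjoin E S).toSubalgebra =
      Submodule.span E (Submonoid.closure S : Set L) := by
    rw [h4, Algebra.adjoin_eq_span]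
  obtain ⟨b, hbsub, hbspan, hbli⟩ := exists_linearIndependent E (Submonoid.closure S : Set L)
  have h6 : Module.rank E (Submodule.span E b) = #b := rank_span_set hbli
  have h7 : Module.rank E (adjoin E S) = #b := by
    rw [← h6, hbspan, ← h5]
    rfl
  have h8 : (n : Cardinal) ≤ #b := by
    rw [← h7, ← h2, ← h1]; exact hn
  have h9 : Nonempty (Fin n ↪ b) := by
    rw [← Cardinal.lift_mk_le', Cardinal.mk_fin]
    simpa using h8
  obtain ⟨e⟩ := h9
  refine ⟨fun i => (e i : L), fun i => hbsub (e i).2, ?_⟩
  exact hbli.comp e e.injective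

/-- Elements of a finite extension are integral. -/
theorem isIntegral_of_relrank_lt (E F : IntermediateField k L) (hEF : E ≤ F)
    (hfin : E.relrank F < ℵ₀) {x : L} (hx : x ∈ F) : IsIntegral E x := by
  rw [relrank_eq_rank_of_le hEF] at hfin
  have hfd : Module.Finite E (extendScalars hEF) := Module.rank_lt_aleph0_iff.mp hfin
  have h1 : IsIntegral E (⟨x, hx⟩ : extendScalars hEF) := IsIntegral.of_finite _ _
  exact h1.map (extendScalars hEF).val

end Abstract

section Concrete

variable (k : Type*) [Field k]

/-- The generators `j(q^d)`, `d ∣ N`, with integer coefficients. -/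
def gensZ (N : ℕ) : Set (LaurentSeries ℤ) :=
  {z | ∃ (d : ℕ) (_ : NeZero d), d ∣ N ∧ z = qExpand ℤ d (jqModC ℤ)}

theorem coeffMap_image_gensZ (N : ℕ) :
    (coeffMap (Int.castRingHom k)) '' gensZ N = divisorExpansionsC k N := by
  ext z
  constructor
  · rintro ⟨w, ⟨d, hne, hd, rfl⟩, rfl⟩
    refine ⟨d, hne, hd, ?_⟩
    exact coeffMap_jqNModC (Int.castRingHom k) d
  · rintro ⟨d, hne, hd, rfl⟩
    refine ⟨qExpand ℤ d (jqModC ℤ), ⟨d, hne, hd, rfl⟩, ?_⟩
    exact coeffMap_jqNModC (Int.castRingHom k) d

variable {k}

/-- Every element of `k(j̄(q^d) : d ∣ N)` is integral over `k(j̄)`. -/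
theorem isIntegral_of_mem_full (N : ℕ) [NeZero N]
    (h : ∀ p : ℕ, p.Prime → p ∣ N → ∀ [NeZero p], PrimeHyp k p) {x : LaurentSeries k}
    (hx : x ∈ modularFunctionFieldFullC k N) : IsIntegral (adjoin k {jqModC k}) x := by
  have hle : adjoin k {jqModC k} ≤ modularFunctionFieldFullC k N := by
    rw [adjoin_le_iff]
    rintro z rfl
    exact jqModC_mem_full k N
  exact isIntegral_of_relrank_lt _ _ hle (relrank_full_lt_aleph0 N h) hx

/-- **KD, mod `ℓ` half**: `ψ(N)` monomials in the `j(q^d)` (integer coefficients) whose images over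
`k` are linearly independent over `k(j̄)`. -/
theorem exists_monomials_full (N : ℕ) [NeZero N]
    (h : ∀ p : ℕ, p.Prime → p ∣ N → ∀ [NeZero p], PrimeHyp k p) :
    ∃ x : Fin (dedekindPsi N) → LaurentSeries ℤ,
      (∀ i, x i ∈ Submonoid.closure (gensZ N)) ∧
      LinearIndependent (adjoin k {jqModC k})
        (fun i => coeffMap (Int.castRingHom k) (x i)) := by
  have hle : adjoin k {jqModC k} ≤ adjoin k (divisorExpansionsC k N) := by
    rw [adjoin_le_iff]
    rintro z rfl
    exact jqModC_mem_full k N
  have hint : ∀ z ∈ divisorExpansionsC k N, IsIntegral (adjoin k {jqModC k}) z :=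
    fun z hz => isIntegral_of_mem_full N h (subset_adjoin k _ hz)
  obtain ⟨m, hm, hli⟩ := exists_monomials_linearIndependent (adjoin k {jqModC k})
    (divisorExpansionsC k N) hint hle (dedekindPsi N) (natCast_dedekindPsi_le_relrank N h)
  have hcl : ∀ i, ∃ w ∈ Submonoid.closure (gensZ N), coeffMap (Int.castRingHom k) w = m i := by
    intro i
    have h1 := hm i
    rw [← coeffMap_image_gensZ, ← MonoidHom.map_mclosure] at h1
    exact h1
  choose x hx hxm using hcl
  refine ⟨x, hx, ?_⟩
  have : (fun i => coeffMap (Int.castRingHom k) (x i)) = m := funext hxm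
  rw [this]
  exact hli

end Concrete

end Fermat.Agent.S28
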